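/-
S30 / row B4 (helper15): the `O`-valued `p`-adic cyclotomic character.

`O` is any commutative ring which is `I`-adically complete for an ideal `I` containing `p`
(frozen S30: `O = 𝒪'`, `I = maximalIdeal 𝒪'`).

* `ca15_padic p I hp : ℤ_[p] →+* O`          : the canonical ring homomorphism;
* `ca15_chi p : GQ →* ℤ_[p]ˣ`                : Mathlib's `p`-adic cyclotomic character on `G_ℚ`;
* `ca15_eps p I hp : GQ →* Oˣ`               : its image in `O`;
* `ca15_eps_spec`, `ca15_eps_frob`, `ca15_eps_inertia`, `ca15_eps_conj`, `ca15_eps_cont`,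
  `ca15_eps_pow` : the properties used for the `λ`-adic representation of a Hecke eigensystem.
-/
import Mathlib
import Fermat.Prelude.Def_GaloisRep_ComplexConjugation
import Fermat.Prelude.Def_GaloisRep_Adic
import Fermat.Agent.S42.CycloRoots92

set_option autoImplicit false
set_option linter.style.haveILetI false

namespace Fermat.Agent.S30

open Fermat.Agent.S42

local notation "Qb" => AlgebraicClosure ℚ
local notation "GQ" => AlgebraicClosure ℚ ≃ₐ[ℚ] AlgebraicClosure ℚ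

section PadicMap

variable (p : ℕ) {O : Type*} [CommRing O] (I : Ideal O)

/-- The ring homomorphism `ℤ/pⁿ → O/Iⁿ` for an ideal `I` containing `p`. -/
noncomputable def ca15_zmodHom (hp : (p : O) ∈ I) (n : ℕ) : ZMod (p ^ n) →+* O ⧸ I ^ n :=
  (Ideal.Quotient.lift (Ideal.span {((p ^ n : ℕ) : ℤ)}) (Int.castRingHom (O ⧸ I ^ n)) (by
    intro a ha
    obtain ⟨b, rfl⟩ := Ideal.mem_span_singleton.mp ha
    have h0 : ((p ^ n : ℕ) : O ⧸ I ^ n) = 0 := by
      rw [← map_natCast (Ideal.Quotient.mk (I ^ n)), Ideal.Quotient.eq_zero_iff_mem, Nat.cast_pow]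
      exact Ideal.pow_mem_pow hp n
    rw [map_mul, map_natCast, h0, zero_mul])).comp
  (Int.quotientSpanNatEquivZMod (p ^ n)).symm.toRingHom

variable [Fact p.Prime] [IsAdicComplete I O]

/-- **The canonical ring homomorphism `ℤ_p → O`** for a ring `O` which is complete for an ideal
containing `p`. -/
noncomputable def ca15_padic (hp : (p : O) ∈ I) : ℤ_[p] →+* O :=
  IsAdicComplete.liftRingHom I
    (fun n => (ca15_zmodHom p I hp n).comp (PadicInt.toZModPow n)) (by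
      intro m n hle
      rw [← RingHom.comp_assoc, ← PadicInt.zmod_cast_comp_toZModPow m n hle,
        ← RingHom.comp_assoc]
      congr 1
      exact RingHom.ext_zmod _ _)

theorem ca15_padic_sub_mem (hp : (p : O) ∈ I) {x y : ℤ_[p]} {n : ℕ}
    (h : x - y ∈ Ideal.span {(p : ℤ_[p]) ^ n}) :
    ca15_padic p I hp x - ca15_padic p I hp y ∈ Ideal.span {(p : O) ^ n} := by
  obtain ⟨z, hz⟩ := Ideal.mem_span_singleton'.mp h
  rw [← map_sub, ← hz, map_mul, map_pow, map_natCast]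
  exact Ideal.mul_mem_left _ _ (Ideal.subset_span rfl)

omit [Fact p.Prime] [IsAdicComplete I O] in
theorem ca15_span_le (hp : (p : O) ∈ I) (n : ℕ) : Ideal.span {(p : O) ^ n} ≤ I ^ n := by
  rw [Ideal.span_le, Set.singleton_subset_iff]
  exact Ideal.pow_mem_pow hp n

end PadicMap

section Chi

variable (p : ℕ) [Fact p.Prime]

theorem ca15_enough (i : ℕ) : HasEnoughRootsOfUnity Qb (p ^ i) := by
  haveI : NeZero (p ^ i) := ⟨pow_ne_zero _ (Fact.out : p.Prime).ne_zero⟩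
  haveI : NeZero ((p ^ i : ℕ) : Qb) := ⟨Nat.cast_ne_zero.mpr (NeZero.ne (p ^ i))⟩
  infer_instance

/-- Mathlib's `p`-adic cyclotomic character, on `G_ℚ`. -/
noncomputable def ca15_chi : GQ →* ℤ_[p]ˣ :=
  (cyclotomicCharacter Qb p).comp (MulSemiringAction.toRingAut GQ Qb)

theorem ca15_chi_spec (g : GQ) (n : ℕ) (z : Qb) (hz : z ^ p ^ n = 1) :
    g z = z ^ ((ca15_chi p g : ℤ_[p]).toZModPow n).val := by
  haveI := ca15_enough p
  exact cyclotomicCharacter.spec p (MulSemiringAction.toRingAut GQ Qb g) z hz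

theorem ca15_exists_primitive (n : ℕ) : ∃ ζ : Qb, IsPrimitiveRoot ζ (p ^ n) := by
  haveI := ca15_enough p n
  exact HasEnoughRootsOfUnity.exists_primitiveRoot Qb (p ^ n)

/-- Uniqueness at level `n`. -/
theorem ca15_chi_toZModPow (g : GQ) (n a : ℕ) (h : ∀ z : Qb, z ^ p ^ n = 1 → g z = z ^ a) :
    (ca15_chi p g : ℤ_[p]).toZModPow n = (a : ZMod (p ^ n)) := by
  haveI : NeZero (p ^ n) := ⟨pow_ne_zero _ (Fact.out : p.Prime).ne_zero⟩
  obtain ⟨ζ, hζ⟩ := ca15_exists_primitive p n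
  have h1 := ca15_chi_spec p g n ζ hζ.pow_eq_one
  rw [h ζ hζ.pow_eq_one] at h1
  have h2 : a ≡ ((ca15_chi p g : ℤ_[p]).toZModPow n).val [MOD p ^ n] := by
    have hζ0 : ζ ≠ 0 := hζ.ne_zero (NeZero.ne _)
    rw [Nat.modEq_iff_dvd, ← hζ.zpow_eq_one_iff_dvd, zpow_sub₀ hζ0, zpow_natCast, zpow_natCast,
      ← h1]
    exact div_self (pow_ne_zero _ hζ0)
  have h3 := (ZMod.natCast_eq_natCast_iff _ _ _).mpr h2
  rw [ZMod.natCast_zmod_val] at h3
  exact h3.symm

theorem ca15_chi_sub_mem (g : GQ) (n a : ℕ) (h : ∀ z : Qb, z ^ p ^ n = 1 → g z = z ^ a) :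
    (ca15_chi p g : ℤ_[p]) - (a : ℤ_[p]) ∈ Ideal.span {(p : ℤ_[p]) ^ n} := by
  rw [← PadicInt.ker_toZModPow, RingHom.mem_ker, map_sub, map_natCast,
    ca15_chi_toZModPow p g n a h, sub_self]

/-- Characterisation of the value of the cyclotomic character. -/
theorem ca15_chi_eq (g : GQ) (x : ℤ_[p])
    (h : ∀ n : ℕ, ∃ a : ℕ, (∀ z : Qb, z ^ p ^ n = 1 → g z = z ^ a) ∧
      x.toZModPow n = (a : ZMod (p ^ n))) : (ca15_chi p g : ℤ_[p]) = x := by
  refine PadicInt.ext_of_toZModPow.mp fun n => ?_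
  obtain ⟨a, ha, hx⟩ := h n
  rw [ca15_chi_toZModPow p g n a ha, hx]

theorem ca15_chi_eq_natCast (g : GQ) (a : ℕ)
    (h : ∀ (n : ℕ) (z : Qb), z ^ p ^ n = 1 → g z = z ^ a) : (ca15_chi p g : ℤ_[p]) = a :=
  ca15_chi_eq p g a fun n => ⟨a, h n, map_natCast _ a⟩

/-- **Frobenius value**: `χ(τ) = ℓ` for every Frobenius element at a prime `ℓ ≠ p`. -/
theorem ca15_chi_frob {ℓ : ℕ} (hℓ : ℓ.Prime) (hℓp : ℓ ≠ p) (A : ValuationSubring Qb)
    (hA : A.LiesOverPrime ℓ) (τ : GQ) (hτ : A.IsFrobeniusAt τ ℓ) :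
    (ca15_chi p τ : ℤ_[p]) = ℓ := by
  have hp : p.Prime := Fact.out
  refine ca15_chi_eq_natCast p τ ℓ fun n z hz => ?_
  refine cy92_frob_root A hℓ hA hτ (p ^ n) (fun hd => hℓp ?_) z hz
  exact (Nat.prime_dvd_prime_iff_eq hℓ hp).mp (hℓ.dvd_of_dvd_pow hd)

/-- **Inertia**: `χ` is trivial on the inertia groups at the primes `q ≠ p`. -/
theorem ca15_chi_inertia {q : ℕ} (hq : q.Prime) (hqp : q ≠ p) (P : ValuationSubring Qb)
    (hP : P.LiesOverPrime q) (σ : GQ) (hσ : σ ∈ P.inertiaSubgroupIn ℚ) : ca15_chi p σ = 1 := by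
  have hp : p.Prime := Fact.out
  apply Units.ext
  rw [Units.val_one, ← Nat.cast_one]
  refine ca15_chi_eq_natCast p σ 1 fun n z hz => ?_
  rw [pow_one]
  refine cy92_inertia_root P hq hP hσ (p ^ n) (fun hd => hqp ?_) z hz
  exact (Nat.prime_dvd_prime_iff_eq hq hp).mp (hq.dvd_of_dvd_pow hd)

/-- Complex conjugation inverts roots of unity. -/
theorem ca15_conj_root (z : Qb) (m : ℕ) (hm : m ≠ 0) (hz : z ^ m = 1) :
    complexConjugation z = z⁻¹ := by
  have hinj : Function.Injective (complexEmbedding : Qb → ℂ) :=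
    complexEmbedding.toRingHom.injective
  apply hinj
  rw [complexEmbedding_complexConjugation, map_inv₀]
  have h1 : (complexEmbedding z) ^ m = 1 := by rw [← map_pow, hz, map_one]
  exact (Complex.inv_eq_conj (Complex.norm_eq_one_of_pow_eq_one h1 hm)).symm

/-- **Oddness**: `χ(c) = -1` for the complex conjugation `c`. -/
theorem ca15_chi_conj : (ca15_chi p complexConjugation : ℤ_[p]) = -1 := by
  have hp : p.Prime := Fact.out
  refine ca15_chi_eq p complexConjugation (-1) fun n => ⟨p ^ n - 1, fun z hz => ?_, ?_⟩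
  · rw [ca15_conj_root z (p ^ n) (pow_ne_zero _ hp.ne_zero) hz]
    apply inv_eq_of_mul_eq_one_right
    rw [← pow_succ', Nat.sub_add_cancel (Nat.one_le_pow _ _ hp.pos), hz]
  · rw [map_neg, map_one, Nat.cast_sub (Nat.one_le_pow _ _ hp.pos), Nat.cast_one,
      ZMod.natCast_self, zero_sub]

/-- Elements fixing the `pⁿ`-th roots of unity have `χ ≡ 1 mod pⁿ`. -/
theorem ca15_chi_cont (n : ℕ) : ∃ L : IntermediateField ℚ Qb, FiniteDimensional ℚ L ∧
    ∀ σ : GQ, (∀ x ∈ L, σ x = x) →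
      (ca15_chi p σ : ℤ_[p]) - 1 ∈ Ideal.span {(p : ℤ_[p]) ^ n} := by
  haveI : NeZero (p ^ n) := ⟨pow_ne_zero _ (Fact.out : p.Prime).ne_zero⟩
  obtain ⟨ζ, hζ⟩ := ca15_exists_primitive p n
  haveI : Algebra.IsAlgebraic ℚ Qb := AlgebraicClosure.isAlgebraic ℚ
  haveI : FiniteDimensional ℚ (IntermediateField.adjoin ℚ ({ζ} : Set Qb)) :=
    IntermediateField.finiteDimensional_adjoin (fun x _ => Algebra.IsIntegral.isIntegral x)
  refine ⟨IntermediateField.adjoin ℚ ({ζ} : Set Qb), inferInstance, fun σ hσ => ?_⟩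
  have h := ca15_chi_sub_mem p σ n 1 (fun z hz => by
    obtain ⟨i, -, rfl⟩ := hζ.eq_pow_of_pow_eq_one hz
    rw [pow_one, map_pow, hσ ζ (IntermediateField.subset_adjoin ℚ _ (Set.mem_singleton ζ))])
  rwa [Nat.cast_one] at h

/-- If `g = τ ^ j` on the `pⁿ`-th roots of unity then `χ(g) ≡ χ(τ) ^ j mod pⁿ`. -/
theorem ca15_chi_pow (g τ : GQ) (j n : ℕ) (h : ∀ z : Qb, z ^ p ^ n = 1 → g z = (τ ^ j) z) :
    (ca15_chi p g : ℤ_[p]) - (ca15_chi p τ : ℤ_[p]) ^ j ∈ Ideal.span {(p : ℤ_[p]) ^ n} := by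
  have h1 : ∀ z : Qb, z ^ p ^ n = 1 → (g⁻¹ * τ ^ j) z = z ^ 1 := by
    intro z hz
    rw [AlgEquiv.mul_apply, ← h z hz, pow_one]
    exact g.symm_apply_apply z
  have h2 := ca15_chi_sub_mem p (g⁻¹ * τ ^ j) n 1 h1
  rw [Nat.cast_one, map_mul, map_inv, map_pow, Units.val_mul, Units.val_pow_eq_pow_val] at h2
  have h3 : (ca15_chi p g : ℤ_[p]) - (ca15_chi p τ : ℤ_[p]) ^ j =
      -((ca15_chi p g : ℤ_[p]) *
        ((((ca15_chi p g)⁻¹ : ℤ_[p]ˣ) : ℤ_[p]) * (ca15_chi p τ : ℤ_[p]) ^ j - 1)) := by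
    rw [mul_sub, ← mul_assoc, Units.mul_inv, one_mul, mul_one, neg_sub]
  rw [h3]
  exact neg_mem (Ideal.mul_mem_left _ _ h2)

end Chi

section Eps

variable (p : ℕ) [Fact p.Prime] {O : Type*} [CommRing O] (I : Ideal O) [IsAdicComplete I O]
  (hp : (p : O) ∈ I)

/-- **The `O`-valued `p`-adic cyclotomic character** `ε : G_ℚ →* Oˣ`. -/
noncomputable def ca15_eps : GQ →* Oˣ :=
  (Units.map (ca15_padic p I hp : ℤ_[p] →* O)).comp (ca15_chi p)

theorem ca15_eps_coe (g : GQ) :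
    ((ca15_eps p I hp g : Oˣ) : O) = ca15_padic p I hp (ca15_chi p g : ℤ_[p]) := rfl

/-- `ε(g)` is congruent modulo `pⁿ` to the exponent by which `g` acts on `μ_{pⁿ}`. -/
theorem ca15_eps_spec (g : GQ) (n : ℕ) : ∃ a : ℕ, (∀ z : Qb, z ^ p ^ n = 1 → g z = z ^ a) ∧
    ((ca15_eps p I hp g : Oˣ) : O) - (a : O) ∈ Ideal.span {(p : O) ^ n} := by
  refine ⟨((ca15_chi p g : ℤ_[p]).toZModPow n).val, fun z hz => ca15_chi_spec p g n z hz, ?_⟩
  have h := ca15_padic_sub_mem p I hp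
    (ca15_chi_sub_mem p g n _ (fun z hz => ca15_chi_spec p g n z hz))
  rwa [map_natCast] at h

/-- Uniqueness form: if `g` raises the `pⁿ`-th roots of unity to the power `a` then
`ε(g) ≡ a mod pⁿ`. -/
theorem ca15_eps_sub_mem (g : GQ) (n a : ℕ) (h : ∀ z : Qb, z ^ p ^ n = 1 → g z = z ^ a) :
    ((ca15_eps p I hp g : Oˣ) : O) - (a : O) ∈ Ideal.span {(p : O) ^ n} := by
  have h1 := ca15_padic_sub_mem p I hp (ca15_chi_sub_mem p g n a h)
  rwa [map_natCast] at h1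

/-- **Frobenius value**: `ε(τ) = ℓ` for every Frobenius element at a prime `ℓ ≠ p`. -/
theorem ca15_eps_frob {ℓ : ℕ} (hℓ : ℓ.Prime) (hℓp : ℓ ≠ p) (A : ValuationSubring Qb)
    (hA : A.LiesOverPrime ℓ) (τ : GQ) (hτ : A.IsFrobeniusAt τ ℓ) :
    ((ca15_eps p I hp τ : Oˣ) : O) = (ℓ : O) := by
  rw [ca15_eps_coe, ca15_chi_frob p hℓ hℓp A hA τ hτ, map_natCast]

/-- **Inertia**: `ε` is trivial on the inertia groups at the primes `q ≠ p`. -/
theorem ca15_eps_inertia {q : ℕ} (hq : q.Prime) (hqp : q ≠ p) (P : ValuationSubring Qb)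
    (hP : P.LiesOverPrime q) (σ : GQ) (hσ : σ ∈ P.inertiaSubgroupIn ℚ) :
    ca15_eps p I hp σ = 1 := by
  rw [ca15_eps, MonoidHom.comp_apply, ca15_chi_inertia p hq hqp P hP σ hσ, map_one]

/-- **Oddness**: `ε(c) = -1` for the complex conjugation `c`. -/
theorem ca15_eps_conj : ((ca15_eps p I hp complexConjugation : Oˣ) : O) = -1 := by
  rw [ca15_eps_coe, ca15_chi_conj, map_neg, map_one]

theorem ca15_eps_conj' : ca15_eps p I hp complexConjugation = -1 :=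
  Units.ext (by rw [ca15_eps_conj, Units.val_neg, Units.val_one])

/-- **Adic continuity** of `ε`. -/
theorem ca15_eps_cont (n : ℕ) : ∃ L : IntermediateField ℚ Qb, FiniteDimensional ℚ L ∧
    ∀ σ : GQ, (∀ x ∈ L, σ x = x) → ((ca15_eps p I hp σ : Oˣ) : O) - 1 ∈ I ^ n := by
  obtain ⟨L, hL, h⟩ := ca15_chi_cont p n
  refine ⟨L, hL, fun σ hσ => ca15_span_le p I hp n ?_⟩
  have h1 := ca15_padic_sub_mem p I hp (h σ hσ)
  rwa [map_one] at h1

/-- If `g = τ ^ j` on the `pⁿ`-th roots of unity then `ε(g) ≡ ε(τ) ^ j mod pⁿ`. -/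
theorem ca15_eps_pow (g τ : GQ) (j n : ℕ) (h : ∀ z : Qb, z ^ p ^ n = 1 → g z = (τ ^ j) z) :
    ((ca15_eps p I hp g : Oˣ) : O) - ((ca15_eps p I hp τ : Oˣ) : O) ^ j ∈
      Ideal.span {(p : O) ^ n} := by
  have h1 := ca15_padic_sub_mem p I hp (ca15_chi_pow p g τ j n h)
  rwa [map_pow] at h1

end Eps

end Fermat.Agent.S30
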