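import Mathlib
import Fermat.Prelude.Def_CuspForm_HeckeGaloisRepDatum

/-!
# S30, row W (helper13): the statement-facing wrapper

`w13_S30_of_matrix`: the frozen statement S30 (for fixed `p N S 𝒪' χ`) from a matrix-valued
representation `ρ' : G_ℚ →* Matrix (Fin 2) (Fin 2) 𝒪'` with

* trace and determinant `χ(T_ℓ)`, `ℓ` at every Frobenius lift at `ℓ ∉ S`, `ℓ ∤ N`,
* entrywise adic continuity,
* triviality on inertia at `q ∤ N`, `q ≠ p`.

The coefficient ring of the conclusion is `𝒪'' := 𝒪'` itself (identity algebra).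
All names are prefixed `w13_`.
-/

set_option autoImplicit false

open Polynomial

namespace Fermat.Agent.S30

/-- The Galois group of `ℚ̄ / ℚ`. -/
abbrev w13_GQ : Type := AlgebraicClosure ℚ ≃ₐ[ℚ] AlgebraicClosure ℚ

section w13_rep

variable {A : Type} [CommRing A]

/-- A vector all of whose coordinates lie in an ideal `I` lies in `I • ⊤`. -/
theorem w13_mem_smul_top {n : ℕ} (I : Ideal A) (w : Fin n → A) (hw : ∀ i, w i ∈ I) :
    w ∈ I • (⊤ : Submodule A (Fin n → A)) := by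
  classical
  have h : w = ∑ i, w i • (Pi.single i (1 : A) : Fin n → A) := by
    funext j
    simp [Finset.sum_apply, Pi.single_apply]
  rw [h]
  exact Submodule.sum_mem _ fun i _ => Submodule.smul_mem_smul (hw i) Submodule.mem_top

variable [IsLocalRing A]

/-- The `GaloisRepAdic` attached to a matrix-valued representation with entrywise adic
continuity. -/
noncomputable def w13_rep (ρ' : w13_GQ →* Matrix (Fin 2) (Fin 2) A)
    (hcont : ∀ n : ℕ, ∃ L : IntermediateField ℚ (AlgebraicClosure ℚ), FiniteDimensional ℚ L ∧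
      ∀ σ : w13_GQ, (∀ x ∈ L, σ x = x) →
        ∀ i j, ρ' σ i j - (1 : Matrix (Fin 2) (Fin 2) A) i j ∈ IsLocalRing.maximalIdeal A ^ n) :
    GaloisRepAdic A where
  V := Fin 2 → A
  finrank_eq := by simp
  ρ := (Matrix.toLinAlgEquiv' : Matrix (Fin 2) (Fin 2) A ≃ₐ[A] Module.End A (Fin 2 → A)).toAlgHom.toMonoidHom.comp ρ'
  isAdicContinuous := by
    intro n
    obtain ⟨L, hL, h⟩ := hcont n
    refine ⟨L, hL, fun σ hσ v => ?_⟩
    apply w13_mem_smul_top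
    intro i
    have h1 : ((Matrix.toLinAlgEquiv' : Matrix (Fin 2) (Fin 2) A ≃ₐ[A]
        Module.End A (Fin 2 → A)).toAlgHom.toMonoidHom.comp ρ') σ v - v
        = (ρ' σ - 1).mulVec v := by
      rw [Matrix.sub_mulVec, Matrix.one_mulVec]
      rfl
    rw [h1]
    show ∑ j, (ρ' σ - 1) i j * v j ∈ _
    exact Ideal.sum_mem _ fun j _ => Ideal.mul_mem_right _ _ (h σ hσ i j)

theorem w13_rep_apply (ρ' : w13_GQ →* Matrix (Fin 2) (Fin 2) A) (hcont) (σ : w13_GQ) :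
    (w13_rep ρ' hcont).ρ σ = Matrix.toLin' (ρ' σ) := rfl

theorem w13_charpoly_toLin' (M : Matrix (Fin 2) (Fin 2) A) :
    LinearMap.charpoly (Matrix.toLin' M) = X ^ 2 - C M.trace * X + C M.det := by
  have h : LinearMap.charpoly (Matrix.toLin' M) = M.charpoly := by
    rw [← LinearMap.charpoly_toMatrix (Matrix.toLin' M) (Pi.basisFun A (Fin 2))]
    congr 1
    exact LinearMap.toMatrix'_toLin' M
  rw [h, Matrix.charpoly_fin_two]

theorem w13_rep_charpoly (ρ' : w13_GQ →* Matrix (Fin 2) (Fin 2) A) (hcont) (σ : w13_GQ) :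
    LinearMap.charpoly ((w13_rep ρ' hcont).ρ σ)
      = X ^ 2 - C (ρ' σ).trace * X + C (ρ' σ).det :=
  w13_charpoly_toLin' (ρ' σ)

end w13_rep

/-- **Frozen S30 from a matrix-valued representation** (coefficients `𝒪'' := 𝒪'`). -/
theorem w13_S30_of_matrix (p : ℕ) [Fact p.Prime] (N : ℕ) [NeZero N] (S : Finset ℕ)
    (𝒪' : Type) [CommRing 𝒪'] [IsDomain 𝒪'] [IsDiscreteValuationRing 𝒪']
    [IsAdicComplete (IsLocalRing.maximalIdeal 𝒪') 𝒪'] [Finite (IsLocalRing.ResidueField 𝒪')]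
    [CharZero 𝒪']
    (χ : CuspForm.heckeAlgebra N 2 (↑S : Set ℕ) →+* 𝒪')
    (ρ' : w13_GQ →* Matrix (Fin 2) (Fin 2) 𝒪')
    (htr : ∀ (ℓ : ℕ) (hℓ : ℓ.Prime) (hℓN : ¬ ℓ ∣ N) (hℓS : ℓ ∉ (↑S : Set ℕ)),
      ∀ A : ValuationSubring (AlgebraicClosure ℚ), A.LiesOverPrime ℓ →
        ∀ σ : w13_GQ, A.IsFrobeniusAt σ ℓ →
          (ρ' σ).trace = χ (CuspForm.heckeAlgebra.T hℓ hℓN hℓS) ∧ (ρ' σ).det = (ℓ : 𝒪'))
    (hcont : ∀ n : ℕ, ∃ L : IntermediateField ℚ (AlgebraicClosure ℚ), FiniteDimensional ℚ L ∧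
      ∀ σ : w13_GQ, (∀ x ∈ L, σ x = x) →
        ∀ i j, ρ' σ i j - (1 : Matrix (Fin 2) (Fin 2) 𝒪') i j ∈ IsLocalRing.maximalIdeal 𝒪' ^ n)
    (hin : ∀ q : ℕ, q.Prime → ¬ q ∣ N → q ≠ p →
      ∀ P : ValuationSubring (AlgebraicClosure ℚ), P.LiesOverPrime q →
        ∀ σ ∈ P.inertiaSubgroupIn ℚ, ρ' σ = 1) :
    ∃ (𝒪'' : Type) (_ : CommRing 𝒪'') (_ : IsDomain 𝒪'') (_ : IsDiscreteValuationRing 𝒪'')
      (_ : IsAdicComplete (IsLocalRing.maximalIdeal 𝒪'') 𝒪'')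
      (_ : Finite (IsLocalRing.ResidueField 𝒪'')) (_ : CharZero 𝒪'')
      (_ : Algebra 𝒪' 𝒪'') (_ : Module.Finite 𝒪' 𝒪'') (_ : IsLocalHom (algebraMap 𝒪' 𝒪'')),
    Function.Injective (algebraMap 𝒪' 𝒪'') ∧
    ∃ ρ : GaloisRepAdic 𝒪'',
      (∀ (ℓ : ℕ) (hℓ : ℓ.Prime) (hℓN : ¬ ℓ ∣ N) (hℓS : ℓ ∉ (↑S : Set ℕ)),
        ∀ A : ValuationSubring (AlgebraicClosure ℚ), A.LiesOverPrime ℓ →
          ∀ σ : AlgebraicClosure ℚ ≃ₐ[ℚ] AlgebraicClosure ℚ, A.IsFrobeniusAt σ ℓ →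
            LinearMap.charpoly (ρ.ρ σ) =
              X ^ 2 - C (algebraMap 𝒪' 𝒪'' (χ (CuspForm.heckeAlgebra.T hℓ hℓN hℓS))) * X
                + C ((ℓ : 𝒪''))) ∧
      (∀ q : ℕ, q.Prime → ¬ q ∣ N → q ≠ p → ρ.IsUnramifiedAt q) := by
  refine ⟨𝒪', inferInstance, inferInstance, inferInstance, inferInstance, inferInstance,
    inferInstance, Algebra.id 𝒪', inferInstance, ⟨fun a ha => ha⟩, fun a b h => h,
    w13_rep ρ' hcont, ?_, ?_⟩
  · intro ℓ hℓ hℓN hℓS A hA σ hσ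
    obtain ⟨h1, h2⟩ := htr ℓ hℓ hℓN hℓS A hA σ hσ
    rw [w13_rep_charpoly, h1, h2]
    rfl
  · intro q hq hqN hqp P hP σ hσ
    rw [w13_rep_apply, hin q hq hqN hqp P hP σ hσ]
    exact Matrix.toLin'_one

end Fermat.Agent.S30
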