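import Mathlib
import Fermat.Agent.S30.Wrap13
import Fermat.Agent.S30.CycloAdic15
import Fermat.Agent.S16.HeckeGamma0
import Fermat.Prelude.Def_ModularCurve_HeckeModule
import Fermat.Prelude.Def_ModularCurve_PeriodMap

/-!
# S30 (rider on Project 4), registrar file (helper37): binding interfaces and the endgame

This file fixes, as Lean propositions, the shapes of the rows of the S30 registry and proves
that they are SUFFICIENT for the frozen statement S30: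

* `s30i37_ThetaFamily N p Θ` : the interface THETA-Z (compatible family of Kummer maps at the
  moduli `p ^ n` on the lattice of integral parabolic homomorphisms); it is literally the
  conclusion of `thz31_I_Theta_family` (helper31, `S42/ThetaInstZ31`).
* `s30i37_Core R` : row (CORE), pure algebra: from a torsion-free separated nonzero `R`-module
  with a group action that is "quadratic in the Cauchy sense" and an odd involution, a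
  representation in `2 × 2` matrices over `R` with prescribed trace and determinant.
* `s30i37_ET p N S O hp a` : the conclusion of row (ET), the concrete eigen-Tate module;
  `s30i37_ETClaim p N S O hp` : row (ET) with its hypotheses.
* `s30e37_endgame` : (CORE) + (ET) + THETA-Z + the Hecke lattice (E4) + the eigenvector (EIG)
  imply the frozen statement S30 (through `w13_S30_of_matrix`, helper13).

All names are prefixed `s30i37_` / `s30e37_`.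
-/

set_option autoImplicit false
set_option linter.unusedSectionVars false
set_option linter.unusedVariables false
set_option linter.style.longLine false
set_option linter.style.haveILetI false

open CongruenceSubgroup ModularCurve ModularCurve.Period Polynomial
open scoped TensorProduct

namespace Fermat.Agent.S30

open Fermat.Agent.S16

local notation "Qb" => AlgebraicClosure ℚ
local notation "GQ" => AlgebraicClosure ℚ ≃ₐ[ℚ] AlgebraicClosure ℚ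

/-- **THETA-Z (family form).**  The compatible family of Kummer maps `Θ n` at the moduli `p ^ n`
on `L = parabolicHoms ℤ (Gamma0 N) ℤ`. -/
def s30i37_ThetaFamily (N : ℕ) [NeZero N] (p : ℕ)
    (Θ : ℕ → (↥(parabolicHoms ℤ (Gamma0 N) ℤ) →+ JZero N)) : Prop :=
  (∀ n χ, ((p ^ n : ℕ) : ℤ) • Θ n χ = 0) ∧
  (∀ n χ, Θ n χ = 0 → ∃ χ' : ↥(parabolicHoms ℤ (Gamma0 N) ℤ), χ = (p ^ n) • χ') ∧
  (∀ (n : ℕ) (ℓ : Nat.Primes), ¬ (ℓ : ℕ) ∣ N * p ^ n →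
    ∀ χ : ↥(parabolicHoms ℤ (Gamma0 N) ℤ),
      ∃ hχ : heckeHom N ℓ ℤ χ ∈ parabolicHoms ℤ (Gamma0 N) ℤ,
        heckeOperatorBar N ℓ (Θ n χ) = Θ n ⟨heckeHom N ℓ ℤ χ, hχ⟩) ∧
  ∀ n χ, (p : ℤ) • Θ (n + 1) χ = Θ n χ

/-- **Row (CORE).**  `R` a discrete valuation ring.  For every group `G` acting linearly (`ρ`) on
an `R`-module `M` which is torsion-free (M1), separated (M2), nonzero (M3), such that every
`ρ g + ε g • ρ g⁻¹` is a scalar in the Cauchy sense (M4), and every involution `c` with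
`ε c = -1`: there are `t : G → R` and `ρ' : G →* Matrix (Fin 2) (Fin 2) R` with
(C1) `ρ g + ε g • ρ g⁻¹ = t g`, (C2) `trace = t`, `det = ε`, (C3) `ρ' g = 1` whenever `ρ g = 1` and
`ε g = 1`, (C4) adic continuity of `ρ'` from the adic continuity of `ρ` on finitely many vectors
(along conjugates) and of `ε`. -/
def s30i37_Core (R : Type) [CommRing R] [IsDomain R] [IsDiscreteValuationRing R] : Prop :=
  ∀ (G : Type) [Group G] (M : Type) [AddCommGroup M] [Module R M]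
    (ρ : G →* Module.End R M) (ε : G →* Rˣ) (c : G),
    (∀ (a : R) (w : M), a • w = 0 → a = 0 ∨ w = 0) →
    (∀ w : M, (∀ n : ℕ, w ∈ (IsLocalRing.maximalIdeal R ^ n) • (⊤ : Submodule R M)) → w = 0) →
    (∃ w : M, w ≠ 0) →
    (∀ (g : G) (w : M) (n : ℕ), ∃ a : R, ρ g w + ((ε g : Rˣ) : R) • ρ g⁻¹ w - a • w ∈
      (IsLocalRing.maximalIdeal R ^ n) • (⊤ : Submodule R M)) →
    c * c = 1 → ε c = -1 →
    ∃ (t : G → R) (ρ' : G →* Matrix (Fin 2) (Fin 2) R),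
      (∀ g, ρ g + ((ε g : Rˣ) : R) • ρ g⁻¹ = t g • (1 : Module.End R M)) ∧
      (∀ g, (ρ' g).trace = t g ∧ (ρ' g).det = ((ε g : Rˣ) : R)) ∧
      (∀ g, ρ g = 1 → ε g = 1 → ρ' g = 1) ∧
      (∀ n : ℕ, ∃ (s : Finset M) (k : ℕ), ∀ g : G,
        (∀ h : G, ∀ w ∈ s, ρ (h * g * h⁻¹) w - w ∈
          (IsLocalRing.maximalIdeal R ^ k) • (⊤ : Submodule R M)) →
        ((ε g : Rˣ) : R) - 1 ∈ IsLocalRing.maximalIdeal R ^ k →
        ∀ i j, ρ' g i j - (1 : Matrix (Fin 2) (Fin 2) R) i j ∈ IsLocalRing.maximalIdeal R ^ n)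

/-- **Conclusion of row (ET)**: the eigen-Tate module.  `a ℓ` plays the role of `χ(T_ℓ)`;
`ε := ca15_eps p (maximalIdeal O) hp` (helper15). -/
def s30i37_ET (p : ℕ) [Fact p.Prime] (N : ℕ) [NeZero N] (S : Finset ℕ)
    (O : Type) [CommRing O] [IsDomain O] [IsDiscreteValuationRing O]
    [IsAdicComplete (IsLocalRing.maximalIdeal O) O]
    (hp : (p : O) ∈ IsLocalRing.maximalIdeal O) (a : ℕ → O) : Prop :=
  ∃ (M : Type) (_ : AddCommGroup M) (_ : Module O M) (ρ : GQ →* Module.End O M),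
    -- (M1) torsion-free
    (∀ (b : O) (w : M), b • w = 0 → b = 0 ∨ w = 0) ∧
    -- (M2) separated
    (∀ w : M, (∀ n : ℕ, w ∈ (IsLocalRing.maximalIdeal O ^ n) • (⊤ : Submodule O M)) → w = 0) ∧
    -- (M3) nonzero
    (∃ w : M, w ≠ 0) ∧
    -- (M4) quadratic relation, Cauchy form
    (∀ (g : GQ) (w : M) (n : ℕ), ∃ b : O,
      ρ g w + ((ca15_eps p (IsLocalRing.maximalIdeal O) hp g : Oˣ) : O) • ρ g⁻¹ w - b • w ∈
        (IsLocalRing.maximalIdeal O ^ n) • (⊤ : Submodule O M)) ∧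
    -- (M5) inertia at `q ∤ N`, `q ≠ p` acts trivially
    (∀ q : ℕ, q.Prime → ¬ q ∣ N → q ≠ p →
      ∀ P : ValuationSubring Qb, P.LiesOverPrime q →
        ∀ σ ∈ P.inertiaSubgroupIn ℚ, ρ σ = 1) ∧
    -- (M6) open stabilisers modulo `m ^ n`, vectorwise
    (∀ (w : M) (n : ℕ), ∃ E : IntermediateField ℚ Qb, FiniteDimensional ℚ E ∧
      ∀ σ : GQ, (∀ x ∈ E, σ x = x) →
        ρ σ w - w ∈ (IsLocalRing.maximalIdeal O ^ n) • (⊤ : Submodule O M)) ∧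
    -- (M7) Eichler-Shimura at Frobenius elements
    (∀ ℓ : ℕ, ℓ.Prime → ¬ ℓ ∣ N → ℓ ∉ S →
      ∀ A : ValuationSubring Qb, A.LiesOverPrime ℓ →
        ∀ τ : GQ, A.IsFrobeniusAt τ ℓ →
          ∀ w : M, ρ τ (ρ τ w) - a ℓ • ρ τ w + (ℓ : O) • w = 0)

/-- **Row (ET)** with its hypotheses: the Hecke operators `TL ℓ` on the lattice, a primitive
eigenvector `x0` with eigenvalues `a ℓ` (`ℓ ∉ S`), and the THETA-Z family. -/
def s30i37_ETClaim (p : ℕ) [Fact p.Prime] (N : ℕ) [NeZero N] (S : Finset ℕ)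
    (O : Type) [CommRing O] [IsDomain O] [IsDiscreteValuationRing O]
    [IsAdicComplete (IsLocalRing.maximalIdeal O) O]
    (hp : (p : O) ∈ IsLocalRing.maximalIdeal O) : Prop :=
  p ∈ S → (∀ q : ℕ, q.Prime → q ∣ N → q ∈ S) →
  ∀ (a : ℕ → O) (TL : ℕ → Module.End ℤ ↥(parabolicHoms ℤ (Gamma0 N) ℤ))
    (x0 : O ⊗[ℤ] ↥(parabolicHoms ℤ (Gamma0 N) ℤ))
    (Θ : ℕ → (↥(parabolicHoms ℤ (Gamma0 N) ℤ) →+ JZero N)),
    (∀ ℓ : ℕ, ℓ.Prime → ℓ ∉ S → ∀ x : ↥(parabolicHoms ℤ (Gamma0 N) ℤ),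
      ((TL ℓ x : ↥(parabolicHoms ℤ (Gamma0 N) ℤ)) : Additive ↥(Gamma0 N) →+ ℤ) =
        heckeHom N ℓ ℤ (x : Additive ↥(Gamma0 N) →+ ℤ)) →
    x0 ∉ IsLocalRing.maximalIdeal O •
      (⊤ : Submodule O (O ⊗[ℤ] ↥(parabolicHoms ℤ (Gamma0 N) ℤ))) →
    (∀ ℓ : ℕ, ℓ.Prime → ℓ ∉ S → (TL ℓ).baseChange O x0 = a ℓ • x0) →
    s30i37_ThetaFamily N p Θ →
    s30i37_ET p N S O hp a

/-! ### Field bookkeeping -/

/-- Finitely many number-field conditions are implied by one. -/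
theorem s30e37_fields_finset {ι : Type*} (s : Finset ι) (P : ι → GQ → Prop)
    (h : ∀ i ∈ s, ∃ E : IntermediateField ℚ Qb, FiniteDimensional ℚ E ∧
      ∀ σ : GQ, (∀ x ∈ E, σ x = x) → P i σ) :
    ∃ E : IntermediateField ℚ Qb, FiniteDimensional ℚ E ∧
      ∀ σ : GQ, (∀ x ∈ E, σ x = x) → ∀ i ∈ s, P i σ := by
  classical
  induction s using Finset.induction_on with
  | empty =>
    exact ⟨⊥, inferInstance, fun σ _ i hi => absurd hi (Finset.notMem_empty i)⟩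
  | insert i s hi ih =>
    obtain ⟨E₁, hE₁, h₁⟩ := h i (Finset.mem_insert_self i s)
    obtain ⟨E₂, hE₂, h₂⟩ := ih fun j hj => h j (Finset.mem_insert_of_mem hj)
    haveI := hE₁
    haveI := hE₂
    refine ⟨E₁ ⊔ E₂, IntermediateField.finiteDimensional_sup E₁ E₂, fun σ hσ j hj => ?_⟩
    rcases Finset.mem_insert.mp hj with rfl | hj
    · exact h₁ σ fun x hx => hσ x ((le_sup_left : E₁ ≤ E₁ ⊔ E₂) hx)
    · exact h₂ σ (fun x hx => hσ x ((le_sup_right : E₂ ≤ E₁ ⊔ E₂) hx)) j hj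

/-- A number-field condition holds for all conjugates of the elements fixing a suitable (normal)
number field. -/
theorem s30e37_conj {P : GQ → Prop}
    (h : ∃ E : IntermediateField ℚ Qb, FiniteDimensional ℚ E ∧
      ∀ σ : GQ, (∀ x ∈ E, σ x = x) → P σ) :
    ∃ E : IntermediateField ℚ Qb, FiniteDimensional ℚ E ∧
      ∀ σ : GQ, (∀ x ∈ E, σ x = x) → ∀ g : GQ, P (g * σ * g⁻¹) := by
  obtain ⟨E, hE, hP⟩ := h
  haveI := hE
  have halg : Algebra.IsAlgebraic ℚ Qb := AlgebraicClosure.isAlgebraic ℚ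
  haveI : IsAlgClosure ℚ Qb := ⟨inferInstance, halg⟩
  haveI : Normal ℚ Qb := IsAlgClosure.normal ℚ Qb
  have hfd : FiniteDimensional ℚ ↥(IntermediateField.normalClosure ℚ E Qb) :=
    normalClosure.is_finiteDimensional ℚ E Qb
  have hnorm : Normal ℚ ↥(IntermediateField.normalClosure ℚ E Qb) :=
    normalClosure.normal ℚ E Qb
  refine ⟨IntermediateField.normalClosure ℚ E Qb, hfd, fun σ hσ g => hP _ fun x hx => ?_⟩
  have hx' : x ∈ IntermediateField.normalClosure ℚ E Qb := E.le_normalClosure hx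
  have hmap := IntermediateField.normal_iff_forall_map_le'.mp hnorm g⁻¹
  have hgx : g⁻¹ x ∈ IntermediateField.normalClosure ℚ E Qb :=
    hmap ⟨x, hx', rfl⟩
  show g (σ (g⁻¹ x)) = x
  rw [hσ _ hgx]
  show (g * g⁻¹) x = x
  rw [mul_inv_cancel]
  rfl

/-! ### The endgame -/

/-- **S30 from its rows.**  (CORE) + (ET) + THETA-Z + the Hecke lattice (E4: a faithful action
of the Prelude Hecke algebra on the integral parabolic homomorphisms) + the eigenvector (EIG)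
imply the frozen statement S30 for `(p, N, S, 𝒪', χ)`. -/
theorem s30e37_endgame (p : ℕ) [Fact p.Prime] (N : ℕ) [NeZero N] (S : Finset ℕ)
    (hpS : p ∈ S) (hNS : ∀ q : ℕ, q.Prime → q ∣ N → q ∈ S)
    (𝒪' : Type) [CommRing 𝒪'] [IsDomain 𝒪'] [IsDiscreteValuationRing 𝒪']
    [IsAdicComplete (IsLocalRing.maximalIdeal 𝒪') 𝒪'] [Finite (IsLocalRing.ResidueField 𝒪')]
    [CharZero 𝒪'] (hp𝒪' : (p : 𝒪') ∈ IsLocalRing.maximalIdeal 𝒪')
    (χ : CuspForm.heckeAlgebra N 2 (↑S : Set ℕ) →+* 𝒪')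
    (hcore : s30i37_Core 𝒪')
    (het : s30i37_ETClaim p N S 𝒪' hp𝒪')
    (hΘ : ∃ Θ : ℕ → (↥(parabolicHoms ℤ (Gamma0 N) ℤ) →+ JZero N), s30i37_ThetaFamily N p Θ)
    (hE4 : ∃ Φ : CuspForm.heckeAlgebra N 2 (↑S : Set ℕ) →+*
        Module.End ℤ ↥(parabolicHoms ℤ (Gamma0 N) ℤ),
      (∀ (ℓ : ℕ) (hℓ : ℓ.Prime) (hℓN : ¬ ℓ ∣ N) (hℓS : ℓ ∉ (↑S : Set ℕ))
          (x : ↥(parabolicHoms ℤ (Gamma0 N) ℤ)),
        ((Φ (CuspForm.heckeAlgebra.T hℓ hℓN hℓS) x : ↥(parabolicHoms ℤ (Gamma0 N) ℤ)) :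
          Additive ↥(Gamma0 N) →+ ℤ) = heckeHom N ℓ ℤ (x : Additive ↥(Gamma0 N) →+ ℤ)) ∧
      ∃ x0 : 𝒪' ⊗[ℤ] ↥(parabolicHoms ℤ (Gamma0 N) ℤ),
        x0 ∉ IsLocalRing.maximalIdeal 𝒪' •
          (⊤ : Submodule 𝒪' (𝒪' ⊗[ℤ] ↥(parabolicHoms ℤ (Gamma0 N) ℤ))) ∧
        ∀ t : CuspForm.heckeAlgebra N 2 (↑S : Set ℕ), (Φ t).baseChange 𝒪' x0 = χ t • x0) :
    ∃ (𝒪'' : Type) (_ : CommRing 𝒪'') (_ : IsDomain 𝒪'') (_ : IsDiscreteValuationRing 𝒪'')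
      (_ : IsAdicComplete (IsLocalRing.maximalIdeal 𝒪'') 𝒪'')
      (_ : Finite (IsLocalRing.ResidueField 𝒪'')) (_ : CharZero 𝒪'')
      (_ : Algebra 𝒪' 𝒪'') (_ : Module.Finite 𝒪' 𝒪'') (_ : IsLocalHom (algebraMap 𝒪' 𝒪'')),
    Function.Injective (algebraMap 𝒪' 𝒪'') ∧
    ∃ ρ : GaloisRepAdic 𝒪'',
      (∀ (ℓ : ℕ) (hℓ : ℓ.Prime) (hℓN : ¬ ℓ ∣ N) (hℓS : ℓ ∉ (↑S : Set ℕ)),
        ∀ A : ValuationSubring (AlgebraicClosure ℚ), A.LiesOverPrime ℓ →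
          ∀ σ : AlgebraicClosure ℚ ≃ₐ[ℚ] AlgebraicClosure ℚ, A.IsFrobeniusAt σ ℓ →
            LinearMap.charpoly (ρ.ρ σ) =
              X ^ 2 - C (algebraMap 𝒪' 𝒪'' (χ (CuspForm.heckeAlgebra.T hℓ hℓN hℓS))) * X
                + C ((ℓ : 𝒪''))) ∧
      (∀ q : ℕ, q.Prime → ¬ q ∣ N → q ≠ p → ρ.IsUnramifiedAt q) := by
  classical
  obtain ⟨Θ, hΘ⟩ := hΘ
  obtain ⟨Φ, hΦ, x0, hx0, hx0e⟩ := hE4
  -- the eigenvalues and the Hecke operators on the lattice, indexed by all natural numbers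
  let a : ℕ → 𝒪' := fun ℓ =>
    if h : ℓ.Prime ∧ ¬ ℓ ∣ N ∧ ℓ ∉ (↑S : Set ℕ) then
      χ (CuspForm.heckeAlgebra.T h.1 h.2.1 h.2.2) else 0
  let TL : ℕ → Module.End ℤ ↥(parabolicHoms ℤ (Gamma0 N) ℤ) := fun ℓ =>
    if h : ℓ.Prime ∧ ¬ ℓ ∣ N ∧ ℓ ∉ (↑S : Set ℕ) then
      Φ (CuspForm.heckeAlgebra.T h.1 h.2.1 h.2.2) else 0
  have hcond : ∀ ℓ : ℕ, ℓ.Prime → ℓ ∉ S → ℓ.Prime ∧ ¬ ℓ ∣ N ∧ ℓ ∉ (↑S : Set ℕ) :=
    fun ℓ hℓ hℓS => ⟨hℓ, fun hd => hℓS (hNS ℓ hℓ hd), fun hm => hℓS (Finset.mem_coe.mp hm)⟩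
  have hTL : ∀ ℓ : ℕ, ℓ.Prime → ℓ ∉ S → ∀ x : ↥(parabolicHoms ℤ (Gamma0 N) ℤ),
      ((TL ℓ x : ↥(parabolicHoms ℤ (Gamma0 N) ℤ)) : Additive ↥(Gamma0 N) →+ ℤ) =
        heckeHom N ℓ ℤ (x : Additive ↥(Gamma0 N) →+ ℤ) := by
    intro ℓ hℓ hℓS x
    have hc := hcond ℓ hℓ hℓS
    show (((if h : ℓ.Prime ∧ ¬ ℓ ∣ N ∧ ℓ ∉ (↑S : Set ℕ) then
      Φ (CuspForm.heckeAlgebra.T h.1 h.2.1 h.2.2) else 0) x :
        ↥(parabolicHoms ℤ (Gamma0 N) ℤ)) : Additive ↥(Gamma0 N) →+ ℤ) = _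
    rw [dif_pos hc]
    exact hΦ ℓ hc.1 hc.2.1 hc.2.2 x
  have hx0a : ∀ ℓ : ℕ, ℓ.Prime → ℓ ∉ S → (TL ℓ).baseChange 𝒪' x0 = a ℓ • x0 := by
    intro ℓ hℓ hℓS
    have hc := hcond ℓ hℓ hℓS
    show (if h : ℓ.Prime ∧ ¬ ℓ ∣ N ∧ ℓ ∉ (↑S : Set ℕ) then
      Φ (CuspForm.heckeAlgebra.T h.1 h.2.1 h.2.2) else 0).baseChange 𝒪' x0 =
      (if h : ℓ.Prime ∧ ¬ ℓ ∣ N ∧ ℓ ∉ (↑S : Set ℕ) then
      χ (CuspForm.heckeAlgebra.T h.1 h.2.1 h.2.2) else 0) • x0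
    rw [dif_pos hc, dif_pos hc]
    exact hx0e _
  -- the eigen-Tate module
  obtain ⟨M, instM1, instM2, ρ, hM1, hM2, hM3, hM4, hM5, hM6, hM7⟩ :=
    het hpS hNS a TL x0 Θ hTL hx0 hx0a hΘ
  -- the core
  obtain ⟨t, ρ', hC1, hC2, hC3, hC4⟩ :=
    hcore GQ M ρ (ca15_eps p (IsLocalRing.maximalIdeal 𝒪') hp𝒪') complexConjugation
      hM1 hM2 hM3 hM4 complexConjugation_mul_self
      (ca15_eps_conj' p (IsLocalRing.maximalIdeal 𝒪') hp𝒪')
  refine w13_S30_of_matrix p N S 𝒪' χ ρ' ?_ ?_ ?_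
  · -- Frobenius: trace and determinant
    intro ℓ hℓ hℓN hℓS A hA σ hσ
    have hℓS' : ℓ ∉ S := fun hm => hℓS (Finset.mem_coe.mpr hm)
    have hℓp : ℓ ≠ p := fun h => hℓS' (h ▸ hpS)
    have hε : ((ca15_eps p (IsLocalRing.maximalIdeal 𝒪') hp𝒪' σ : 𝒪'ˣ) : 𝒪') = (ℓ : 𝒪') :=
      ca15_eps_frob p (IsLocalRing.maximalIdeal 𝒪') hp𝒪' hℓ hℓp A hA σ hσ
    obtain ⟨htr, hdet⟩ := hC2 σ
    refine ⟨?_, by rw [hdet, hε]⟩
    rw [htr]
    have ha : a ℓ = χ (CuspForm.heckeAlgebra.T hℓ hℓN hℓS) := by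
      show (if h : ℓ.Prime ∧ ¬ ℓ ∣ N ∧ ℓ ∉ (↑S : Set ℕ) then
        χ (CuspForm.heckeAlgebra.T h.1 h.2.1 h.2.2) else 0) = _
      rw [dif_pos ⟨hℓ, hℓN, hℓS⟩]
    rw [← ha]
    obtain ⟨w, hw⟩ := hM3
    have hinv : ρ σ⁻¹ (ρ σ w) = w := by
      have : ρ σ⁻¹ * ρ σ = 1 := by rw [← map_mul, inv_mul_cancel, map_one]
      exact congrArg (fun f : Module.End 𝒪' M => f w) this
    have h1 := congrArg (fun f : Module.End 𝒪' M => f (ρ σ w)) (hC1 σ)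
    simp only [LinearMap.add_apply, LinearMap.smul_apply, Module.End.one_apply] at h1
    rw [hinv, hε] at h1
    have h2 := hM7 ℓ hℓ hℓN hℓS' A hA σ hσ w
    have h3 : (t σ - a ℓ) • ρ σ w = 0 := by
      rw [sub_smul, ← h1]
      rw [← h2]
      abel
    rcases hM1 _ _ h3 with h4 | h4
    · exact sub_eq_zero.mp h4
    · exact absurd (by rw [← hinv, h4, map_zero]) hw
  · -- adic continuity
    intro n
    obtain ⟨s, k, hsk⟩ := hC4 n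
    have hfield : ∃ E : IntermediateField ℚ Qb, FiniteDimensional ℚ E ∧
        ∀ σ : GQ, (∀ x ∈ E, σ x = x) →
          (∀ w ∈ s, ρ σ w - w ∈
            (IsLocalRing.maximalIdeal 𝒪' ^ k) • (⊤ : Submodule 𝒪' M)) := by
      exact s30e37_fields_finset s
        (fun w σ => ρ σ w - w ∈ (IsLocalRing.maximalIdeal 𝒪' ^ k) • (⊤ : Submodule 𝒪' M))
        (fun w _ => hM6 w k)
    obtain ⟨E₁, hE₁, h₁⟩ := s30e37_conj hfield
    obtain ⟨E₂, hE₂, h₂⟩ := ca15_eps_cont p (IsLocalRing.maximalIdeal 𝒪') hp𝒪' k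
    haveI := hE₁
    haveI := hE₂
    refine ⟨E₁ ⊔ E₂, IntermediateField.finiteDimensional_sup E₁ E₂, fun σ hσ i j => ?_⟩
    refine hsk σ (fun h w hw => ?_) ?_ i j
    · exact h₁ σ (fun x hx => hσ x ((le_sup_left : E₁ ≤ E₁ ⊔ E₂) hx)) h w hw
    · exact h₂ σ fun x hx => hσ x ((le_sup_right : E₂ ≤ E₁ ⊔ E₂) hx)
  · -- inertia
    intro q hq hqN hqp P hP σ hσ
    exact hC3 σ (hM5 q hq hqN hqp P hP σ hσ)
      (ca15_eps_inertia p (IsLocalRing.maximalIdeal 𝒪') hp𝒪' hq hqp P hP σ hσ)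

end Fermat.Agent.S30
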