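import Fermat.Agent.S30.ExtractCore73
import Fermat.Agent.S30.Iface37

/-!
# S30, row CORE (helper73): the registry proposition `s30i37_Core` is a theorem

`ex73_s30i37_core`: for a complete discrete valuation ring `R` with `2 ≠ 0`, the proposition
`s30i37_Core R` of the registrar file `Iface37` holds.  `ex73_s30i37_core_charZero` is the form
for the frozen binders of S30 (`CharZero`).
-/

set_option autoImplicit false

namespace Fermat.Agent.S30

/-- **Row (CORE) of the S30 registry**, for a complete discrete valuation ring with `2 ≠ 0`. -/
theorem ex73_s30i37_core (R : Type) [CommRing R] [IsDomain R] [IsDiscreteValuationRing R]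
    [IsAdicComplete (IsLocalRing.maximalIdeal R) R] (h2 : (2 : R) ≠ 0) : s30i37_Core R := by
  intro G _ M _ _ ρ ε c hM1 hM2 hM3 hM4 hc hεc
  exact ex73_core h2 hM1 hM2 hM3 ρ ε hM4 c hc hεc

/-- **Row (CORE)** with the binders of the frozen statement S30. -/
theorem ex73_s30i37_core_charZero (R : Type) [CommRing R] [IsDomain R]
    [IsDiscreteValuationRing R] [IsAdicComplete (IsLocalRing.maximalIdeal R) R] [CharZero R] :
    s30i37_Core R :=
  ex73_s30i37_core R two_ne_zero

end Fermat.Agent.S30
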