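import Mathlib

/-!
# S30 rider, row B1 (a) (helper83): an eigenvector for every character of a faithful action

Pure algebra, Mathlib only.

* `ec83_exists_eigenvector` : `K` a field, `V` a finite-dimensional `K`-vector space, `B` a
  commutative `K`-algebra acting FAITHFULLY on `V` (`ρ : B →ₐ[K] End_K V` injective) and
  `ψ : B →ₐ[K] K` a character.  Then there is `v ≠ 0` with `ρ b v = ψ b • v` for all `b`.
* `ec83_exists_int` : `L` a finite free `ℤ`-module, `A` a commutative ring acting faithfully on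
  `L` (`act : A →+* End_ℤ L` injective), `R` a domain of characteristic zero, `χ : A →+* R`.
  Then there is `x ≠ 0` in `R ⊗[ℤ] L` with `(1 ⊗ act a) x = χ a • x` for all `a`.
* `ec83_exists_primitive` : if moreover `R` is a discrete valuation ring, `x` can be chosen
  PRIMITIVE: `x ∉ 𝔪 • (R ⊗[ℤ] L)`.
-/

set_option autoImplicit false

open scoped TensorProduct
open Polynomial

namespace Fermat.Agent.S30

section Field

variable {K : Type*} [Field K] {V : Type*} [AddCommGroup V] [Module K V]
  {B : Type*} [CommRing B] [Algebra K B]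

/-- the operators `ρ b` commute. -/
theorem ec83_comm (ρ : B →ₐ[K] Module.End K V) (a b : B) (w : V) :
    ρ a (ρ b w) = ρ b (ρ a w) := by
  rw [← Module.End.mul_apply, ← Module.End.mul_apply, ← map_mul, ← map_mul, mul_comm]

/-- If `a` kills `W ∩ ker b` (`W` a `B`-stable set of vectors), then `a ^ j` kills
`W ∩ ker b ^ j`. -/
theorem ec83_pow_kills (ρ : B →ₐ[K] Module.End K V) (W : V → Prop)
    (hW : ∀ (x : B) (w : V), W w → W (ρ x w)) (a b : B)
    (ha : ∀ w : V, W w → ρ b w = 0 → ρ a w = 0) :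
    ∀ (j : ℕ) (w : V), W w → ρ (b ^ j) w = 0 → ρ (a ^ j) w = 0 := by
  intro j
  induction j with
  | zero =>
    intro w _ hw
    simpa using hw
  | succ j ih =>
    intro w hWw hw
    have h1 : ρ (b ^ j) (ρ b w) = 0 := by
      rw [← Module.End.mul_apply, ← map_mul, ← pow_succ]
      exact hw
    have h2 : ρ (a ^ j) (ρ b w) = 0 := ih (ρ b w) (hW b w hWw) h1
    have h3 : ρ b (ρ (a ^ j) w) = 0 := by rw [ec83_comm ρ b (a ^ j) w]; exact h2
    have h4 : ρ a (ρ (a ^ j) w) = 0 := ha _ (hW (a ^ j) w hWw) h3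
    rw [pow_succ', map_mul, Module.End.mul_apply]
    exact h4

variable [FiniteDimensional K V]

/-- Key induction: for a finite set `t` of elements of `ker ψ`, every `a : B` killing the common
kernel of the `ρ b`, `b ∈ t`, satisfies `ψ a = 0`. -/
theorem ec83_key (ρ : B →ₐ[K] Module.End K V) (hρ : Function.Injective ρ) (ψ : B →ₐ[K] K)
    (t : Finset B) (ht : ∀ b ∈ t, ψ b = 0) (a : B)
    (ha : ∀ w : V, (∀ b ∈ t, ρ b w = 0) → ρ a w = 0) : ψ a = 0 := by
  classical
  induction t using Finset.induction_on generalizing a with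
  | empty =>
    have h0 : ρ a = 0 := LinearMap.ext fun w => ha w (fun b hb => absurd hb (Finset.notMem_empty b))
    have : a = 0 := hρ (by rw [h0, map_zero])
    rw [this, map_zero]
  | insert b t hbt ih =>
    have ht' : ∀ b' ∈ t, ψ b' = 0 := fun b' hb' => ht b' (Finset.mem_insert_of_mem hb')
    have hψb : ψ b = 0 := ht b (Finset.mem_insert_self b t)
    -- the stable set `W`
    set W : V → Prop := fun w => ∀ b' ∈ t, ρ b' w = 0 with hWdef
    have hW : ∀ (x : B) (w : V), W w → W (ρ x w) := by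
      intro x w hw b' hb'
      rw [ec83_comm ρ b' x w, hw b' hb', map_zero]
    have ha' : ∀ w : V, W w → ρ b w = 0 → ρ a w = 0 := by
      intro w hw hbw
      refine ha w fun b' hb' => ?_
      rcases Finset.mem_insert.mp hb' with rfl | hb''
      · exact hbw
      · exact hw b' hb''
    -- the minimal polynomial of `ρ b`
    have hint : IsIntegral K (ρ b) := Algebra.IsIntegral.isIntegral (ρ b)
    obtain ⟨g, hPg, hg⟩ := exists_eq_pow_rootMultiplicity_mul_and_not_dvd (minpoly K (ρ b))
      (minpoly.ne_zero hint) 0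
    set n := rootMultiplicity 0 (minpoly K (ρ b)) with hn
    rw [map_zero, sub_zero] at hPg hg
    have hg0 : g.eval 0 ≠ 0 := by
      intro h0
      apply hg
      rw [X_dvd_iff, coeff_zero_eq_eval_zero]
      exact h0
    -- `b ^ n * g(b)` acts as zero
    have hbn : ∀ w : V, ρ (b ^ n) (ρ (aeval b g) w) = 0 := by
      intro w
      have h1 : ρ (b ^ n * aeval b g) = 0 := by
        have h2 : b ^ n * aeval b g = aeval b (minpoly K (ρ b)) := by
          rw [hPg, map_mul, map_pow, aeval_X]
        rw [h2, ← aeval_algHom_apply, minpoly.aeval]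
      rw [← Module.End.mul_apply, ← map_mul, h1]
      rfl
    -- so `a ^ n * g(b)` kills `W`
    have hkill : ∀ w : V, W w → ρ (a ^ n * aeval b g) w = 0 := by
      intro w hw
      rw [map_mul, Module.End.mul_apply]
      exact ec83_pow_kills ρ W hW a b ha' n _ (hW _ w hw) (hbn w)
    have h3 := ih ht' (a ^ n * aeval b g) hkill
    rw [map_mul, map_pow, ← aeval_algHom_apply, hψb, coe_aeval_eq_eval] at h3
    rcases mul_eq_zero.mp h3 with h4 | h4
    · exact eq_zero_of_pow_eq_zero h4
    · exact absurd h4 hg0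

/-- **Eigenvector for a character of a faithful commutative algebra of operators.** -/
theorem ec83_exists_eigenvector (ρ : B →ₐ[K] Module.End K V) (hρ : Function.Injective ρ)
    (ψ : B →ₐ[K] K) : ∃ v : V, v ≠ 0 ∧ ∀ b, ρ b v = ψ b • v := by
  classical
  have : Module.Finite K B := Module.Finite.of_injective ρ.toLinearMap hρ
  obtain ⟨s, hs⟩ := IsNoetherian.noetherian (LinearMap.ker ψ.toLinearMap)
  have hsψ : ∀ b ∈ s, ψ b = 0 := by
    intro b hb
    have h1 : b ∈ LinearMap.ker ψ.toLinearMap := by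
      rw [← hs]
      exact Submodule.subset_span hb
    exact h1
  -- every vector killed by `s` is an eigenvector
  have heig : ∀ w : V, (∀ b ∈ s, ρ b w = 0) → ∀ b, ρ b w = ψ b • w := by
    intro w hw b
    have h1 : b - algebraMap K B (ψ b) ∈ LinearMap.ker ψ.toLinearMap := by
      rw [LinearMap.mem_ker]
      show ψ (b - algebraMap K B (ψ b)) = 0
      rw [map_sub, AlgHom.commutes, Algebra.algebraMap_self_apply, sub_self]
    rw [← hs] at h1
    have h2 : ρ (b - algebraMap K B (ψ b)) w = 0 := by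
      refine Submodule.span_induction (p := fun x _ => ρ x w = 0) ?_ ?_ ?_ ?_ h1
      · intro x hx
        exact hw x hx
      · rw [map_zero]; rfl
      · intro x y _ _ hx hy
        rw [map_add, LinearMap.add_apply, hx, hy, add_zero]
      · intro c x _ hx
        rw [map_smul, LinearMap.smul_apply, hx, smul_zero]
    rw [map_sub, AlgHom.commutes, LinearMap.sub_apply, sub_eq_zero] at h2
    rw [h2]
    rfl
  by_contra hno
  have h0 : ∀ w : V, (∀ b ∈ s, ρ b w = 0) → w = 0 := by
    intro w hw
    by_contra hw0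
    exact hno ⟨w, hw0, heig w hw⟩
  have h1 := ec83_key ρ hρ ψ s hsψ 1 (fun w hw => by rw [h0 w hw, map_zero])
  rw [map_one] at h1
  exact one_ne_zero h1

end Field

section Int

variable {A : Type*} [CommRing A] {L : Type*} [AddCommGroup L] [Module.Free ℤ L]
  [Module.Finite ℤ L]

section OverField

variable (K : Type*) [Field K]

omit [Module.Free ℤ L] [Module.Finite ℤ L] in
theorem ec83_commute (act : A →+* Module.End ℤ L) (c : K) (a : A) :
    Commute (Algebra.ofId K (Module.End K (K ⊗[ℤ] L)) c)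
      (((Module.End.baseChangeHom ℤ K L).comp act.toIntAlgHom) a) :=
  Algebra.commute_algebraMap_left c _

/-- The action of `K ⊗[ℤ] A` on `K ⊗[ℤ] L`: `c ⊗ a ↦ c • (1 ⊗ act a)`. -/
noncomputable def ec83_rho (act : A →+* Module.End ℤ L) :
    K ⊗[ℤ] A →ₐ[K] Module.End K (K ⊗[ℤ] L) :=
  Algebra.TensorProduct.lift (Algebra.ofId K (Module.End K (K ⊗[ℤ] L)))
    ((Module.End.baseChangeHom ℤ K L).comp act.toIntAlgHom) (ec83_commute K act)

omit [Module.Free ℤ L] [Module.Finite ℤ L] in
theorem ec83_rho_tmul (act : A →+* Module.End ℤ L) (c : K) (a : A) :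
    ec83_rho K act (c ⊗ₜ[ℤ] a) = c • (act a).baseChange K := by
  rw [ec83_rho, Algebra.TensorProduct.lift_tmul, Algebra.ofId_apply, ← Algebra.smul_def]
  rfl

omit [Module.Free ℤ L] [Module.Finite ℤ L] in
theorem ec83_rho_one_tmul (act : A →+* Module.End ℤ L) (a : A) :
    ec83_rho K act (1 ⊗ₜ[ℤ] a) = (act a).baseChange K := by
  rw [ec83_rho_tmul, one_smul]

/-- The character `c ⊗ a ↦ c * χ a` of `K ⊗[ℤ] A`. -/
noncomputable def ec83_chi (χ : A →+* K) : K ⊗[ℤ] A →ₐ[K] K :=
  Algebra.TensorProduct.lift (AlgHom.id K K) χ.toIntAlgHom (fun _ _ => Commute.all _ _)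

theorem ec83_chi_one_tmul (χ : A →+* K) (a : A) : ec83_chi K χ (1 ⊗ₜ[ℤ] a) = χ a := by
  rw [ec83_chi, Algebra.TensorProduct.lift_tmul, map_one, one_mul]
  rfl

variable [CharZero K]

/-- Faithfulness survives the base change to a field of characteristic zero. -/
theorem ec83_rho_injective (act : A →+* Module.End ℤ L) (hact : Function.Injective act) :
    Function.Injective (ec83_rho K act) := by
  classical
  let ι := Module.Free.ChooseBasisIndex ℤ L
  let b : Module.Basis ι ℤ L := Module.Free.chooseBasis ℤ L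
  let bK : Module.Basis ι K (K ⊗[ℤ] L) := Algebra.TensorProduct.basis K b
  -- the matrix of `act a`
  let μ : A →ₗ[ℤ] Matrix ι ι ℤ :=
    (LinearMap.toMatrix b b).toLinearMap ∘ₗ act.toIntAlgHom.toLinearMap
  have hμ : Function.Injective μ := by
    intro x y hxy
    exact hact ((LinearMap.toMatrix b b).injective hxy)
  have hflat : Function.Injective (μ.lTensor K) :=
    Module.Flat.lTensor_preserves_injective_linearMap μ hμ
  -- factorisation of `ρ`
  have hfac : ∀ x : K ⊗[ℤ] A, ec83_rho K act x =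
      Matrix.toLin bK bK ((matrixEquivTensor ι ℤ K).symm (μ.lTensor K x)) := by
    intro x
    induction x using TensorProduct.induction_on with
    | zero => simp only [map_zero]
    | tmul c a =>
      rw [ec83_rho_tmul, LinearMap.lTensor_tmul, matrixEquivTensor_apply_symm, map_smul]
      congr 1
      have h1 : (μ a).map (algebraMap ℤ K) = LinearMap.toMatrix bK bK ((act a).baseChange K) :=
        (LinearMap.toMatrix_baseChange K (act a) b b).symm
      rw [h1, Matrix.toLin_toMatrix]
    | add x y hx hy => simp only [map_add, hx, hy]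
  intro x y hxy
  rw [hfac x, hfac y] at hxy
  exact hflat ((matrixEquivTensor ι ℤ K).symm.injective ((Matrix.toLin bK bK).injective hxy))

/-- Field form: a nonzero `χ`-eigenvector in `K ⊗[ℤ] L`. -/
theorem ec83_exists_field (act : A →+* Module.End ℤ L) (hact : Function.Injective act)
    (χ : A →+* K) :
    ∃ v : K ⊗[ℤ] L, v ≠ 0 ∧ ∀ a, (act a).baseChange K v = χ a • v := by
  obtain ⟨v, hv0, hv⟩ := ec83_exists_eigenvector (ec83_rho K act)
    (ec83_rho_injective K act hact) (ec83_chi K χ)
  refine ⟨v, hv0, fun a => ?_⟩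
  have h := hv (1 ⊗ₜ[ℤ] a)
  rw [ec83_rho_one_tmul, ec83_chi_one_tmul] at h
  exact h

end OverField

section OverDomain

variable (R : Type*) [CommRing R] [IsDomain R] (K : Type*) [Field K] [Algebra R K]
  [IsFractionRing R K]

/-- The comparison map `R ⊗[ℤ] L → K ⊗[ℤ] L` (`K` the fraction field of `R`), `R`-linear. -/
noncomputable def ec83_incl (L : Type*) [AddCommGroup L] : R ⊗[ℤ] L →ₗ[R] K ⊗[ℤ] L :=
  TensorProduct.AlgebraTensorModule.map (Algebra.linearMap R K) (LinearMap.id : L →ₗ[ℤ] L)

omit [IsDomain R] [IsFractionRing R K] [Module.Free ℤ L] [Module.Finite ℤ L] in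
theorem ec83_incl_tmul (r : R) (l : L) :
    ec83_incl R K L (r ⊗ₜ[ℤ] l) = algebraMap R K r ⊗ₜ[ℤ] l := by
  rw [ec83_incl, TensorProduct.AlgebraTensorModule.map_tmul]
  rfl

omit [IsDomain R] [Module.Finite ℤ L] in
theorem ec83_incl_injective : Function.Injective (ec83_incl R K L) := by
  have h1 : Function.Injective
      (LinearMap.rTensor L ((Algebra.linearMap R K).restrictScalars ℤ)) :=
    Module.Flat.rTensor_preserves_injective_linearMap _ (IsFractionRing.injective R K)
  have h2 : ∀ x : R ⊗[ℤ] L, ec83_incl R K L x =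
      LinearMap.rTensor L ((Algebra.linearMap R K).restrictScalars ℤ) x := by
    intro x
    induction x using TensorProduct.induction_on with
    | zero => simp only [map_zero]
    | tmul r l => rw [ec83_incl_tmul, LinearMap.rTensor_tmul]; rfl
    | add x y hx hy => simp only [map_add, hx, hy]
  intro x y hxy
  rw [h2 x, h2 y] at hxy
  exact h1 hxy

omit [IsDomain R] [IsFractionRing R K] [Module.Free ℤ L] [Module.Finite ℤ L] in
/-- `ec83_incl` intertwines the base changes of an endomorphism of `L`. -/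
theorem ec83_incl_baseChange (f : Module.End ℤ L) (x : R ⊗[ℤ] L) :
    ec83_incl R K L (f.baseChange R x) = f.baseChange K (ec83_incl R K L x) := by
  induction x using TensorProduct.induction_on with
  | zero => simp only [map_zero]
  | tmul r l =>
    rw [LinearMap.baseChange_tmul, ec83_incl_tmul, ec83_incl_tmul, LinearMap.baseChange_tmul]
  | add x y hx hy => simp only [map_add, hx, hy]

omit [Module.Free ℤ L] [Module.Finite ℤ L] in
/-- Clearing denominators. -/
theorem ec83_clear (v : K ⊗[ℤ] L) :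
    ∃ d : R, d ≠ 0 ∧ ∃ x : R ⊗[ℤ] L, ec83_incl R K L x = d • v := by
  induction v using TensorProduct.induction_on with
  | zero => exact ⟨1, one_ne_zero, 0, by rw [map_zero, smul_zero]⟩
  | tmul k l =>
    obtain ⟨r, s, hs, rfl⟩ := IsFractionRing.div_surjective R k
    have hs0 : s ≠ 0 := nonZeroDivisors.ne_zero hs
    have hs0' : algebraMap R K s ≠ 0 := by
      intro h
      exact hs0 ((IsFractionRing.injective R K) (by rw [h, map_zero]))
    refine ⟨s, hs0, r ⊗ₜ[ℤ] l, ?_⟩
    rw [ec83_incl_tmul, TensorProduct.smul_tmul', Algebra.smul_def, mul_div_cancel₀ _ hs0']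
  | add v w hv hw =>
    obtain ⟨d1, hd1, x1, hx1⟩ := hv
    obtain ⟨d2, hd2, x2, hx2⟩ := hw
    refine ⟨d1 * d2, mul_ne_zero hd1 hd2, d2 • x1 + d1 • x2, ?_⟩
    rw [map_add, map_smul, map_smul, hx1, hx2, smul_add, smul_smul, smul_smul, mul_comm d2 d1]

/-- Integral form, relative to a fraction field `K` of `R`. -/
theorem ec83_exists_int_aux [CharZero K] (act : A →+* Module.End ℤ L)
    (hact : Function.Injective act) (χ : A →+* R) :
    ∃ x : R ⊗[ℤ] L, x ≠ 0 ∧ ∀ a, (act a).baseChange R x = χ a • x := by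
  obtain ⟨v, hv0, hv⟩ := ec83_exists_field K act hact ((algebraMap R K).comp χ)
  obtain ⟨d, hd, x, hx⟩ := ec83_clear R K v
  have hd' : algebraMap R K d ≠ 0 := by
    intro h'
    exact hd ((IsFractionRing.injective R K) (by rw [h', map_zero]))
  have hdv : d • v ≠ 0 := by
    intro h
    rw [← algebraMap_smul K d v] at h
    exact hv0 ((smul_eq_zero_iff_right hd').mp h)
  refine ⟨x, fun h => hdv (by rw [← hx, h, map_zero]), fun a => ?_⟩
  apply ec83_incl_injective R K
  have hx' : ec83_incl R K L x = algebraMap R K d • v := by rw [hx, algebraMap_smul]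
  rw [ec83_incl_baseChange, map_smul, hx', map_smul, hv a, RingHom.comp_apply,
    ← algebraMap_smul K (χ a) (algebraMap R K d • v), smul_comm]

end OverDomain

section Main

variable {R : Type*} [CommRing R] [IsDomain R] [CharZero R]

/-- **Integral form**: a nonzero `χ`-eigenvector in `R ⊗[ℤ] L`. -/
theorem ec83_exists_int (act : A →+* Module.End ℤ L) (hact : Function.Injective act)
    (χ : A →+* R) :
    ∃ x : R ⊗[ℤ] L, x ≠ 0 ∧ ∀ a, (act a).baseChange R x = χ a • x :=
  ec83_exists_int_aux R (FractionRing R) act hact χ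

/-- **Primitive form** over a discrete valuation ring: a `χ`-eigenvector in `R ⊗[ℤ] L` which is
not in `𝔪 • (R ⊗[ℤ] L)`. -/
theorem ec83_exists_primitive [IsDiscreteValuationRing R] (act : A →+* Module.End ℤ L)
    (hact : Function.Injective act) (χ : A →+* R) :
    ∃ x : R ⊗[ℤ] L, x ∉ IsLocalRing.maximalIdeal R • (⊤ : Submodule R (R ⊗[ℤ] L)) ∧
      ∀ a, (act a).baseChange R x = χ a • x := by
  classical
  obtain ⟨x, hx0, hx⟩ := ec83_exists_int act hact χ
  obtain ⟨ϖ, hϖ⟩ := IsDiscreteValuationRing.exists_irreducible R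
  have hm : IsLocalRing.maximalIdeal R = Ideal.span {ϖ} := hϖ.maximalIdeal_eq
  have hmem : ∀ (k : ℕ) (y : R ⊗[ℤ] L),
      y ∈ IsLocalRing.maximalIdeal R ^ k • (⊤ : Submodule R (R ⊗[ℤ] L)) ↔
        ∃ z : R ⊗[ℤ] L, ϖ ^ k • z = y := by
    intro k y
    rw [hm, Ideal.span_singleton_pow, Submodule.ideal_span_singleton_smul,
      Submodule.mem_smul_pointwise_iff_exists]
    constructor
    · rintro ⟨z, -, hz⟩
      exact ⟨z, hz⟩
    · rintro ⟨z, hz⟩
      exact ⟨z, Submodule.mem_top, hz⟩
  -- Krull: `x` is not infinitely divisible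
  have hkrull : ∃ k : ℕ, x ∉ IsLocalRing.maximalIdeal R ^ k • (⊤ : Submodule R (R ⊗[ℤ] L)) := by
    by_contra hall
    push Not at hall
    have h1 : x ∈ ⨅ i : ℕ, IsLocalRing.maximalIdeal R ^ i • (⊤ : Submodule R (R ⊗[ℤ] L)) :=
      (Submodule.mem_iInf _).mpr hall
    rw [Ideal.iInf_pow_smul_eq_bot_of_isLocalRing (IsLocalRing.maximalIdeal R)
      (Ideal.IsMaximal.ne_top inferInstance)] at h1
    exact hx0 h1
  have hk0 : Nat.find hkrull ≠ 0 := by
    intro h0
    have h1 := Nat.find_spec hkrull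
    rw [h0, pow_zero, Ideal.one_eq_top, Submodule.top_smul] at h1
    exact h1 Submodule.mem_top
  obtain ⟨k, hk⟩ := Nat.exists_eq_succ_of_ne_zero hk0
  have hin : x ∈ IsLocalRing.maximalIdeal R ^ k • (⊤ : Submodule R (R ⊗[ℤ] L)) := by
    by_contra h
    exact Nat.find_min hkrull (m := k) (by omega) h
  have hout : x ∉ IsLocalRing.maximalIdeal R ^ (k + 1) • (⊤ : Submodule R (R ⊗[ℤ] L)) := by
    have h1 := Nat.find_spec hkrull
    rwa [hk] at h1
  obtain ⟨y, hy⟩ := (hmem k x).mp hin
  have hϖk : ϖ ^ k ≠ 0 := pow_ne_zero k hϖ.ne_zero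
  refine ⟨y, fun hymem => hout ?_, fun a => ?_⟩
  · rw [← pow_one (IsLocalRing.maximalIdeal R)] at hymem
    obtain ⟨z, hz⟩ := (hmem 1 y).mp hymem
    rw [pow_one] at hz
    refine (hmem (k + 1) x).mpr ⟨z, ?_⟩
    rw [pow_succ, mul_smul, hz, hy]
  · have h1 : ϖ ^ k • ((act a).baseChange R y - χ a • y) = 0 := by
      rw [smul_sub, ← map_smul, smul_comm, hy, hx a, sub_self]
    exact sub_eq_zero.mp ((smul_eq_zero_iff_right hϖk).mp h1)

end Main

end Int

end Fermat.Agent.S30
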