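import Mathlib
import Fermat.Agent.S31.HeckeSat42
import Fermat.Agent.S30.EigenChar83

/-!
# S30 rider: the fourth term of the endgame (E4 + EIG as ONE existential) (helper42)

`s30e37_endgame` (helper37, `S30/Iface37`) consumes the Hecke lattice (E4) and the primitive
eigenvector (EIG) as one existential statement.  This file proves it, verbatim, for every
`N ≥ 1`, every set `S` of natural numbers (in particular `↑S` for a `Finset`), every discrete
valuation ring `𝒪'` of characteristic zero and every character `χ` of the Prelude Hecke algebra: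

* `ee42_finite` / `ee42_torsionFree` / `ee42_free` : the lattice
  `L = parabolicHoms ℤ (Gamma0 N) ℤ` is a finite free `ℤ`-module;
* `ee42_hE4_set` : for `S : Set ℕ`;
* `ee42_hE4` : for `S : Finset ℕ` — literally the hypothesis `hE4` of `s30e37_endgame`.

Inputs: `hl42_act` (S31/HeckeLattice42: the faithful action of `heckeAlgebra N 2 S` on `L`
with `T_ℓ ↦ heckeHom N ℓ ℤ`), `m9e54_fg` (S42/EigenClass54) and `ec83_exists_primitive`
(S30/EigenChar83).  All names are prefixed `ee42_`.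
-/

set_option autoImplicit false
set_option linter.unusedSectionVars false
set_option linter.style.longLine false
set_option linter.style.haveILetI false

open CongruenceSubgroup ModularCurve ModularCurve.Period
open scoped TensorProduct

namespace Fermat.Agent.S30

open Fermat.Agent.S16 Fermat.Agent.S31 Fermat.Agent.S42

variable (N : ℕ) [NeZero N]

/-- The lattice of integral parabolic homomorphisms is a finitely generated `ℤ`-module. -/
theorem ee42_finite : Module.Finite ℤ ↥(parabolicHoms ℤ (Gamma0 N) ℤ) :=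
  Module.Finite.iff_fg.mpr (m9e54_fg N)

omit [NeZero N] in
/-- The lattice of integral parabolic homomorphisms is torsion-free. -/
theorem ee42_torsionFree : Module.IsTorsionFree ℤ ↥(parabolicHoms ℤ (Gamma0 N) ℤ) where
  isSMulRegular r hr := by
    intro a b h
    have hr0 : r ≠ 0 := by
      rintro rfl
      exact (isRegular_iff_ne_zero.mp hr) rfl
    exact hs42_cancel N r hr0 a b h

/-- The lattice of integral parabolic homomorphisms is a free `ℤ`-module. -/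
theorem ee42_free : Module.Free ℤ ↥(parabolicHoms ℤ (Gamma0 N) ℤ) := by
  haveI := ee42_finite N
  haveI := ee42_torsionFree N
  exact Module.free_of_finite_type_torsion_free'

/-- **E4 + EIG, one existential** (for a set `S` of natural numbers). -/
theorem ee42_hE4_set (S : Set ℕ)
    (𝒪' : Type) [CommRing 𝒪'] [IsDomain 𝒪'] [IsDiscreteValuationRing 𝒪'] [CharZero 𝒪']
    (χ : CuspForm.heckeAlgebra N 2 S →+* 𝒪') :
    ∃ Φ : CuspForm.heckeAlgebra N 2 S →+*
        Module.End ℤ ↥(parabolicHoms ℤ (Gamma0 N) ℤ),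
      (∀ (ℓ : ℕ) (hℓ : ℓ.Prime) (hℓN : ¬ ℓ ∣ N) (hℓS : ℓ ∉ S)
          (x : ↥(parabolicHoms ℤ (Gamma0 N) ℤ)),
        ((Φ (CuspForm.heckeAlgebra.T hℓ hℓN hℓS) x : ↥(parabolicHoms ℤ (Gamma0 N) ℤ)) :
          Additive ↥(Gamma0 N) →+ ℤ) = heckeHom N ℓ ℤ (x : Additive ↥(Gamma0 N) →+ ℤ)) ∧
      ∃ x0 : 𝒪' ⊗[ℤ] ↥(parabolicHoms ℤ (Gamma0 N) ℤ),
        x0 ∉ IsLocalRing.maximalIdeal 𝒪' •
          (⊤ : Submodule 𝒪' (𝒪' ⊗[ℤ] ↥(parabolicHoms ℤ (Gamma0 N) ℤ))) ∧
        ∀ t : CuspForm.heckeAlgebra N 2 S, (Φ t).baseChange 𝒪' x0 = χ t • x0 := by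
  haveI := ee42_finite N
  haveI := ee42_free N
  obtain ⟨x0, hx0, hx0e⟩ :=
    ec83_exists_primitive (hl42_act N S) (hl42_act_injective N S) χ
  exact ⟨hl42_act N S, fun ℓ hℓ hℓN hℓS x => hl42_act_apply_coe N S hℓ hℓN hℓS x,
    x0, hx0, hx0e⟩

/-- **E4 + EIG, one existential**: literally the hypothesis `hE4` of `s30e37_endgame`. -/
theorem ee42_hE4 (S : Finset ℕ)
    (𝒪' : Type) [CommRing 𝒪'] [IsDomain 𝒪'] [IsDiscreteValuationRing 𝒪'] [CharZero 𝒪']
    (χ : CuspForm.heckeAlgebra N 2 (↑S : Set ℕ) →+* 𝒪') :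
    ∃ Φ : CuspForm.heckeAlgebra N 2 (↑S : Set ℕ) →+*
        Module.End ℤ ↥(parabolicHoms ℤ (Gamma0 N) ℤ),
      (∀ (ℓ : ℕ) (hℓ : ℓ.Prime) (hℓN : ¬ ℓ ∣ N) (hℓS : ℓ ∉ (↑S : Set ℕ))
          (x : ↥(parabolicHoms ℤ (Gamma0 N) ℤ)),
        ((Φ (CuspForm.heckeAlgebra.T hℓ hℓN hℓS) x : ↥(parabolicHoms ℤ (Gamma0 N) ℤ)) :
          Additive ↥(Gamma0 N) →+ ℤ) = heckeHom N ℓ ℤ (x : Additive ↥(Gamma0 N) →+ ℤ)) ∧
      ∃ x0 : 𝒪' ⊗[ℤ] ↥(parabolicHoms ℤ (Gamma0 N) ℤ),
        x0 ∉ IsLocalRing.maximalIdeal 𝒪' •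
          (⊤ : Submodule 𝒪' (𝒪' ⊗[ℤ] ↥(parabolicHoms ℤ (Gamma0 N) ℤ))) ∧
        ∀ t : CuspForm.heckeAlgebra N 2 (↑S : Set ℕ), (Φ t).baseChange 𝒪' x0 = χ t • x0 :=
  ee42_hE4_set N (↑S : Set ℕ) 𝒪' χ

end Fermat.Agent.S30
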