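/-
S30 project (P5), row B2: the abstract Tate lattice of a tower.

A *tower* over a commutative ring `R` with respect to `p : R` is a family of `R`-modules `V n`
with linear maps `i n : V n → V (n + 1)` and `π n : V (n + 1) → V n` such that

* `p ^ n` kills `V n`,
* `i n` is injective,
* `i n (π n z) = p • z`,
* every `z : V (n + 1)` killed by `p ^ n` lies in the range of `i n`.

(Example: `V n = R ⊗[ℤ] A[p ^ n]` for an abelian group `A` and `R` flat over `ℤ`.)
Its limit `T = {x | π n (x (n + 1)) = x n}` has no `p`-torsion, `x ∈ p ^ m • T ↔ x m = 0`,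
and it is finitely generated as soon as `p`-adic series converge in `R` and the image of
`T` in `V 1` is finitely generated.  Compatible families of endomorphisms act on `T`.

All names are prefixed `tl35_`.
-/
import Mathlib

set_option autoImplicit false

namespace Fermat.Agent.S30

section tower

variable {R : Type*} [CommRing R]
variable {V : ℕ → Type*} [∀ n, AddCommGroup (V n)] [∀ n, Module R (V n)]

/-- The tower axioms. -/
structure tl35_IsTower (p : R) (i : ∀ n, V n →ₗ[R] V (n + 1)) (π : ∀ n, V (n + 1) →ₗ[R] V n) :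
    Prop where
  pow_smul : ∀ n (z : V n), p ^ n • z = 0
  inj : ∀ n, Function.Injective (i n)
  i_π : ∀ n (z : V (n + 1)), i n (π n z) = p • z
  exists_of_pow_smul : ∀ n (z : V (n + 1)), p ^ n • z = 0 → ∃ y : V n, i n y = z

/-- The limit of a tower: compatible sequences. -/
def tl35_T (π : ∀ n, V (n + 1) →ₗ[R] V n) : Submodule R (∀ n, V n) where
  carrier := {x | ∀ n, π n (x (n + 1)) = x n}
  add_mem' := by
    intro x y hx hy n
    rw [Pi.add_apply, Pi.add_apply, map_add, hx n, hy n]
  zero_mem' := by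
    intro n
    simp
  smul_mem' := by
    intro c x hx n
    rw [Pi.smul_apply, Pi.smul_apply, map_smul, hx n]

theorem tl35_mem_T {π : ∀ n, V (n + 1) →ₗ[R] V n} {x : ∀ n, V n} :
    x ∈ tl35_T π ↔ ∀ n, π n (x (n + 1)) = x n := Iff.rfl

variable {p : R} {i : ∀ n, V n →ₗ[R] V (n + 1)} {π : ∀ n, V (n + 1) →ₗ[R] V n}

/-- The bottom module of a tower is trivial. -/
theorem tl35_IsTower.eq_zero_of_zero (h : tl35_IsTower p i π) (z : V 0) : z = 0 := by
  have := h.pow_smul 0 z
  rwa [pow_zero, one_smul] at this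

theorem tl35_IsTower.π_i (h : tl35_IsTower p i π) (n : ℕ) (y : V n) : π n (i n y) = p • y := by
  apply h.inj n
  rw [h.i_π, map_smul]

/-- In a compatible sequence, `i n (x n) = p • x (n + 1)`. -/
theorem tl35_IsTower.i_apply (h : tl35_IsTower p i π) {x : ∀ n, V n} (hx : x ∈ tl35_T π) (n : ℕ) :
    i n (x n) = p • x (n + 1) := by
  rw [← hx n, h.i_π]

/-- The limit of a tower has no `p`-torsion. -/
theorem tl35_smul_eq_zero (h : tl35_IsTower p i π) {x : ∀ n, V n} (hx : x ∈ tl35_T π)
    (h0 : p • x = 0) : x = 0 := by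
  funext n
  apply h.inj n
  rw [h.i_apply hx n, Pi.zero_apply, map_zero]
  have := congrFun h0 (n + 1)
  simpa using this

/-- In a compatible sequence, a vanishing component forces the lower components to vanish. -/
theorem tl35_apply_eq_zero_of_le {x : ∀ n, V n} (hx : x ∈ tl35_T π) {m n : ℕ} (hmn : m ≤ n)
    (h0 : x n = 0) : x m = 0 := by
  induction n, hmn using Nat.le_induction with
  | base => exact h0
  | succ n _ ih =>
    apply ih
    rw [← hx n, h0, map_zero]

/-- A compatible sequence with vanishing first component is divisible by `p`. -/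
theorem tl35_exists_smul_eq_of_one (h : tl35_IsTower p i π) {x : ∀ n, V n} (hx : x ∈ tl35_T π)
    (h1 : x 1 = 0) : ∃ y ∈ tl35_T π, p • y = x := by
  have ha : ∀ n, p ^ n • x (n + 1) = 0 := by
    intro n
    induction n with
    | zero => rw [pow_zero, one_smul]; exact h1
    | succ n ih =>
      rw [pow_succ, mul_smul, ← h.i_apply hx (n + 1), ← map_smul, ih, map_zero]
  choose y hy using fun n => h.exists_of_pow_smul n (x (n + 1)) (ha n)
  have hpy : ∀ n, p • y n = x n := by
    intro n
    cases n with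
    | zero => rw [h.eq_zero_of_zero (x 0), h.eq_zero_of_zero (y 0), smul_zero]
    | succ n =>
      apply h.inj (n + 1)
      rw [map_smul, hy (n + 1), h.i_apply hx (n + 1)]
  refine ⟨y, fun n => ?_, funext hpy⟩
  apply h.inj n
  rw [h.i_π, hpy (n + 1), hy n]

/-- **Key structure lemma**: `x ∈ p ^ m • T` iff the `m`-th component of `x` vanishes. -/
theorem tl35_exists_pow_smul_eq_iff (h : tl35_IsTower p i π) {x : ∀ n, V n} (hx : x ∈ tl35_T π)
    (m : ℕ) : (∃ y ∈ tl35_T π, p ^ m • y = x) ↔ x m = 0 := by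
  constructor
  · rintro ⟨y, -, rfl⟩
    rw [Pi.smul_apply, h.pow_smul]
  · intro h0
    induction m generalizing x with
    | zero => exact ⟨x, hx, by rw [pow_zero, one_smul]⟩
    | succ m ih =>
      have h1 : x 1 = 0 := tl35_apply_eq_zero_of_le hx (Nat.succ_le_succ (Nat.zero_le m)) h0
      obtain ⟨y, hy, rfl⟩ := tl35_exists_smul_eq_of_one h hx h1
      have hym : y m = 0 := by
        apply h.inj m
        rw [h.i_apply hy m, map_zero]
        simpa using h0
      obtain ⟨y', hy', rfl⟩ := ih hy hym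
      exact ⟨y', hy', by rw [pow_succ, mul_smul, smul_comm]⟩

/-- The limit of a tower is `p`-adically separated. -/
theorem tl35_eq_zero_of_forall_pow (h : tl35_IsTower p i π) {x : ∀ n, V n}
    (hx : x ∈ tl35_T π) (hdiv : ∀ m, ∃ y ∈ tl35_T π, p ^ m • y = x) : x = 0 := by
  funext m
  exact (tl35_exists_pow_smul_eq_iff h hx m).mp (hdiv m)

/-- One approximation step: modulo `p • T`, every element of `T` is a combination of lifts of
generators of the image of `T` in `V 1`. -/
theorem tl35_step (h : tl35_IsTower p i π) {r : ℕ} (g : Fin r → ∀ n, V n)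
    (hg : ∀ j, g j ∈ tl35_T π)
    (hspan : Submodule.map (LinearMap.proj (R := R) (φ := V) 1) (tl35_T π) ≤
      Submodule.span R (Set.range fun j => g j 1))
    {x : ∀ n, V n} (hx : x ∈ tl35_T π) :
    ∃ (a : Fin r → R) (y : ∀ n, V n), y ∈ tl35_T π ∧ x = ∑ j, a j • g j + p • y := by
  have hx1 : x 1 ∈ Submodule.span R (Set.range fun j => g j 1) :=
    hspan (Submodule.mem_map_of_mem (f := LinearMap.proj (R := R) (φ := V) 1) hx)
  obtain ⟨a, ha⟩ := (Submodule.mem_span_range_iff_exists_fun R).mp hx1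
  have hsum : ∑ j, a j • g j ∈ tl35_T π :=
    Submodule.sum_mem _ fun j _ => Submodule.smul_mem _ _ (hg j)
  have hd : x - ∑ j, a j • g j ∈ tl35_T π := Submodule.sub_mem _ hx hsum
  have hd1 : (x - ∑ j, a j • g j) 1 = 0 := by
    rw [Pi.sub_apply, Finset.sum_apply, ← ha, sub_eq_zero]
    exact Finset.sum_congr rfl fun j _ => by rw [Pi.smul_apply]
  obtain ⟨y, hy, hpy⟩ := tl35_exists_smul_eq_of_one h hd hd1
  exact ⟨a, y, hy, by rw [hpy]; abel⟩

/-- **Finite generation.**  If `p`-adic series converge in `R` and the image of `T` in `V 1` is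
finitely generated, then `T` is finitely generated. -/
theorem tl35_fg (h : tl35_IsTower p i π)
    (hcomp : ∀ a : ℕ → R, ∃ b : R, ∀ m, ∃ c : R,
      b - ∑ k ∈ Finset.range m, p ^ k * a k = p ^ m * c)
    (hfg : (Submodule.map (LinearMap.proj (R := R) (φ := V) 1) (tl35_T π)).FG) :
    (tl35_T π).FG := by
  classical
  obtain ⟨r, s, hs⟩ := Submodule.fg_iff_exists_fin_generating_family.mp hfg
  have hsmem : ∀ j, s j ∈ Submodule.map (LinearMap.proj (R := R) (φ := V) 1) (tl35_T π) := by
    intro j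
    rw [← hs]
    exact Submodule.subset_span (Set.mem_range_self j)
  choose g hg hg1 using hsmem
  have hg1' : (fun j => g j 1) = s := funext hg1
  have hspan : Submodule.map (LinearMap.proj (R := R) (φ := V) 1) (tl35_T π) ≤
      Submodule.span R (Set.range fun j => g j 1) := by
    rw [hg1', hs]
  -- the approximation step as a function on `T`
  have hstep : ∀ x : tl35_T π, ∃ (a : Fin r → R) (y : tl35_T π),
      (x : ∀ n, V n) = ∑ j, a j • g j + p • (y : ∀ n, V n) := by
    intro x
    obtain ⟨a, y, hy, hxy⟩ := tl35_step h g hg hspan x.2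
    exact ⟨a, ⟨y, hy⟩, hxy⟩
  choose A Y hAY using hstep
  refine Submodule.fg_iff_exists_fin_generating_family.mpr ⟨r, g, le_antisymm ?_ ?_⟩
  · exact Submodule.span_le.mpr (by rintro _ ⟨j, rfl⟩; exact hg j)
  · intro x hx
    -- iterate the step
    let ys : ℕ → tl35_T π := fun k =>
      Nat.rec (motive := fun _ => tl35_T π) ⟨x, hx⟩ (fun _ y => Y y) k
    have hys0 : ((ys 0 : tl35_T π) : ∀ n, V n) = x := rfl
    have hysS : ∀ k, ys (k + 1) = Y (ys k) := fun _ => rfl
    have hiter : ∀ m, x = ∑ j, (∑ k ∈ Finset.range m, p ^ k * A (ys k) j) • g j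
        + p ^ m • ((ys m : tl35_T π) : ∀ n, V n) := by
      intro m
      induction m with
      | zero => simp [hys0]
      | succ m ih =>
        have e1 := hAY (ys m)
        rw [← hysS m] at e1
        have e2 : p ^ m • ((ys m : tl35_T π) : ∀ n, V n)
            = ∑ j, (p ^ m * A (ys m) j) • g j
              + p ^ (m + 1) • ((ys (m + 1) : tl35_T π) : ∀ n, V n) := by
          rw [e1, smul_add, Finset.smul_sum, pow_succ, mul_smul]
          congr 1
          exact Finset.sum_congr rfl fun j _ => by rw [mul_smul]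
        rw [ih, e2, ← add_assoc, ← Finset.sum_add_distrib]
        congr 1
        exact Finset.sum_congr rfl fun j _ => by rw [Finset.sum_range_succ, add_smul]
    -- the limits of the coefficient series
    choose b hb using fun j => hcomp fun k => A (ys k) j
    choose c hc using hb
    have hsum : ∑ j, b j • g j ∈ tl35_T π :=
      Submodule.sum_mem _ fun j _ => Submodule.smul_mem _ _ (hg j)
    have hzero : x - ∑ j, b j • g j = 0 := by
      apply tl35_eq_zero_of_forall_pow h (Submodule.sub_mem _ hx hsum)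
      intro m
      refine ⟨((ys m : tl35_T π) : ∀ n, V n) - ∑ j, c j m • g j,
        Submodule.sub_mem _ (ys m).2
          (Submodule.sum_mem _ fun j _ => Submodule.smul_mem _ _ (hg j)), ?_⟩
      have e3 : ∑ j, b j • g j = ∑ j, (∑ k ∈ Finset.range m, p ^ k * A (ys k) j) • g j
          + p ^ m • ∑ j, c j m • g j := by
        rw [Finset.smul_sum, ← Finset.sum_add_distrib]
        refine Finset.sum_congr rfl fun j _ => ?_
        rw [← mul_smul, ← add_smul, ← hc j m]
        congr 1
        ring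
      rw [smul_sub, e3]
      conv_rhs => rw [hiter m]
      abel
    rw [sub_eq_zero.mp hzero]
    exact Submodule.sum_mem _ fun j _ =>
      Submodule.smul_mem _ _ (Submodule.subset_span (Set.mem_range_self j))

/-- Elements of `T` killed by a power of `p` vanish. -/
theorem tl35_pow_smul_eq_zero (h : tl35_IsTower p i π) {x : ∀ n, V n} (hx : x ∈ tl35_T π)
    (m : ℕ) (h0 : p ^ m • x = 0) : x = 0 := by
  induction m with
  | zero => rwa [pow_zero, one_smul] at h0
  | succ m ih =>
    apply ih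
    apply tl35_smul_eq_zero h (Submodule.smul_mem _ _ hx)
    rw [← mul_smul, ← pow_succ']
    exact h0

/-- If every nonzero element of `R` divides a power of `p`, the limit of a tower is
torsion-free. -/
theorem tl35_eq_zero_of_smul (h : tl35_IsTower p i π)
    (hdiv : ∀ r : R, r ≠ 0 → ∃ (m : ℕ) (s : R), s * r = p ^ m)
    {x : ∀ n, V n} (hx : x ∈ tl35_T π) {r : R} (hr : r ≠ 0) (h0 : r • x = 0) : x = 0 := by
  obtain ⟨m, s, hs⟩ := hdiv r hr
  apply tl35_pow_smul_eq_zero h hx m
  rw [← hs, mul_smul, h0, smul_zero]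

/-! ### Compatible families of endomorphisms -/

/-- A compatible family of endomorphisms of the `V n` acts on the limit. -/
def tl35_map (π : ∀ n, V (n + 1) →ₗ[R] V n) (f : ∀ n, V n →ₗ[R] V n)
    (hf : ∀ n (z : V (n + 1)), π n (f (n + 1) z) = f n (π n z)) :
    tl35_T π →ₗ[R] tl35_T π where
  toFun x := ⟨fun n => f n ((x : ∀ n, V n) n), fun n => by rw [hf, x.2 n]⟩
  map_add' x y := Subtype.ext (funext fun n => by simp)
  map_smul' c x := Subtype.ext (funext fun n => by simp)

theorem tl35_map_apply (f : ∀ n, V n →ₗ[R] V n)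
    (hf : ∀ n (z : V (n + 1)), π n (f (n + 1) z) = f n (π n z)) (x : tl35_T π) (n : ℕ) :
    ((tl35_map π f hf x : tl35_T π) : ∀ n, V n) n = f n ((x : ∀ n, V n) n) := rfl

theorem tl35_map_id :
    tl35_map π (fun _ => LinearMap.id) (fun _ _ => rfl) = LinearMap.id :=
  LinearMap.ext fun _ => Subtype.ext rfl

theorem tl35_map_one :
    tl35_map π (fun _ => (1 : Module.End R _)) (fun _ _ => rfl) = 1 :=
  LinearMap.ext fun _ => Subtype.ext rfl

theorem tl35_map_comp (f g : ∀ n, V n →ₗ[R] V n)
    (hf : ∀ n (z : V (n + 1)), π n (f (n + 1) z) = f n (π n z))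
    (hg : ∀ n (z : V (n + 1)), π n (g (n + 1) z) = g n (π n z)) :
    tl35_map π (fun n => f n ∘ₗ g n)
        (fun n z => by rw [LinearMap.comp_apply, hf, hg, LinearMap.comp_apply]) =
      tl35_map π f hf ∘ₗ tl35_map π g hg :=
  LinearMap.ext fun _ => Subtype.ext rfl

theorem tl35_map_mul (f g : ∀ n, Module.End R (V n))
    (hf : ∀ n (z : V (n + 1)), π n (f (n + 1) z) = f n (π n z))
    (hg : ∀ n (z : V (n + 1)), π n (g (n + 1) z) = g n (π n z)) :
    tl35_map π (fun n => f n * g n)
        (fun n z => by rw [Module.End.mul_apply, hf, hg, Module.End.mul_apply]) =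
      tl35_map π f hf * tl35_map π g hg :=
  LinearMap.ext fun _ => Subtype.ext rfl

theorem tl35_map_add (f g : ∀ n, V n →ₗ[R] V n)
    (hf : ∀ n (z : V (n + 1)), π n (f (n + 1) z) = f n (π n z))
    (hg : ∀ n (z : V (n + 1)), π n (g (n + 1) z) = g n (π n z)) :
    tl35_map π (fun n => f n + g n)
        (fun n z => by rw [LinearMap.add_apply, map_add, hf, hg, LinearMap.add_apply]) =
      tl35_map π f hf + tl35_map π g hg :=
  LinearMap.ext fun _ => Subtype.ext rfl

theorem tl35_map_sub (f g : ∀ n, V n →ₗ[R] V n)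
    (hf : ∀ n (z : V (n + 1)), π n (f (n + 1) z) = f n (π n z))
    (hg : ∀ n (z : V (n + 1)), π n (g (n + 1) z) = g n (π n z)) :
    tl35_map π (fun n => f n - g n)
        (fun n z => by rw [LinearMap.sub_apply, map_sub, hf, hg, LinearMap.sub_apply]) =
      tl35_map π f hf - tl35_map π g hg :=
  LinearMap.ext fun _ => Subtype.ext rfl

theorem tl35_map_smul (c : R) (f : ∀ n, V n →ₗ[R] V n)
    (hf : ∀ n (z : V (n + 1)), π n (f (n + 1) z) = f n (π n z)) :
    tl35_map π (fun n => c • f n)
        (fun n z => by rw [LinearMap.smul_apply, map_smul, hf, LinearMap.smul_apply]) =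
      c • tl35_map π f hf :=
  LinearMap.ext fun _ => Subtype.ext rfl

theorem tl35_map_zero :
    tl35_map π (fun _ => (0 : _ →ₗ[R] _)) (fun _ _ => by simp) = 0 :=
  LinearMap.ext fun _ => Subtype.ext rfl

/-- Two compatible families that agree give the same endomorphism. -/
theorem tl35_map_congr {f g : ∀ n, V n →ₗ[R] V n}
    (hf : ∀ n (z : V (n + 1)), π n (f (n + 1) z) = f n (π n z))
    (hg : ∀ n (z : V (n + 1)), π n (g (n + 1) z) = g n (π n z)) (hfg : ∀ n, f n = g n) :
    tl35_map π f hf = tl35_map π g hg := by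
  have : f = g := funext hfg
  subst this
  rfl

/-- A compatible family of representations of a monoid on the `V n` gives a representation on
the limit. -/
def tl35_rep {G : Type*} [Monoid G] (π : ∀ n, V (n + 1) →ₗ[R] V n)
    (ρ : ∀ n, G →* Module.End R (V n))
    (hρ : ∀ (g : G) n (z : V (n + 1)), π n (ρ (n + 1) g z) = ρ n g (π n z)) :
    G →* Module.End R (tl35_T π) where
  toFun g := tl35_map π (fun n => ρ n g) (hρ g)
  map_one' := LinearMap.ext fun _ => Subtype.ext (funext fun n => by
    rw [tl35_map_apply, map_one]; rfl)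
  map_mul' g g' := LinearMap.ext fun _ => Subtype.ext (funext fun n => by
    rw [tl35_map_apply, map_mul]; rfl)

theorem tl35_rep_apply {G : Type*} [Monoid G] (ρ : ∀ n, G →* Module.End R (V n))
    (hρ : ∀ (g : G) n (z : V (n + 1)), π n (ρ (n + 1) g z) = ρ n g (π n z)) (g : G)
    (x : tl35_T π) (n : ℕ) :
    ((tl35_rep π ρ hρ g x : tl35_T π) : ∀ n, V n) n = ρ n g ((x : ∀ n, V n) n) := rfl

/-- **Congruence criterion.**  If an endomorphism `F` of the limit acts on the `n`-th component
of `x` as the scalar `c`, then `F x - c • x ∈ p ^ n • T`. -/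
theorem tl35_exists_pow_smul_eq_sub (h : tl35_IsTower p i π) (F : tl35_T π →ₗ[R] tl35_T π)
    (c : R) (n : ℕ) (x : tl35_T π)
    (hn : ((F x : tl35_T π) : ∀ n, V n) n = c • (x : ∀ n, V n) n) :
    ∃ y : tl35_T π, p ^ n • y = F x - c • x := by
  have hmem : ((F x - c • x : tl35_T π) : ∀ n, V n) ∈ tl35_T π := (F x - c • x).2
  have h0 : ((F x - c • x : tl35_T π) : ∀ n, V n) n = 0 := by
    simp [hn]
  obtain ⟨y, hy, hpy⟩ := (tl35_exists_pow_smul_eq_iff h hmem n).mpr h0
  exact ⟨⟨y, hy⟩, Subtype.ext hpy⟩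

/-- **Continuity criterion.**  If a compatible family is the identity on `V n`, the induced
endomorphism of the limit is congruent to the identity modulo `p ^ n`. -/
theorem tl35_map_sub_self_mem (h : tl35_IsTower p i π) (f : ∀ n, V n →ₗ[R] V n)
    (hf : ∀ n (z : V (n + 1)), π n (f (n + 1) z) = f n (π n z)) (n : ℕ)
    (hn : ∀ z : V n, f n z = z) (x : tl35_T π) :
    ∃ y : tl35_T π, p ^ n • y = tl35_map π f hf x - x := by
  have := tl35_exists_pow_smul_eq_sub h (tl35_map π f hf) 1 n x
    (by rw [tl35_map_apply, hn, one_smul])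
  simpa using this

/-- The first-component map `T → V 1`. -/
def tl35_ev (π : ∀ n, V (n + 1) →ₗ[R] V n) (n : ℕ) : tl35_T π →ₗ[R] V n :=
  (LinearMap.proj n).comp (tl35_T π).subtype

theorem tl35_ev_apply (n : ℕ) (x : tl35_T π) : tl35_ev π n x = (x : ∀ n, V n) n := rfl

/-- The kernel of the `n`-th component map is `p ^ n • T`. -/
theorem tl35_ev_eq_zero_iff (h : tl35_IsTower p i π) (n : ℕ) (x : tl35_T π) :
    tl35_ev π n x = 0 ↔ ∃ y : tl35_T π, p ^ n • y = x := by
  rw [tl35_ev_apply, ← tl35_exists_pow_smul_eq_iff h x.2 n]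
  constructor
  · rintro ⟨y, hy, hpy⟩
    exact ⟨⟨y, hy⟩, Subtype.ext hpy⟩
  · rintro ⟨y, rfl⟩
    exact ⟨y, y.2, rfl⟩

end tower

/-! ### Discrete valuation rings -/

section dvr

variable {R : Type*} [CommRing R]

/-- Partial sums of a `p`-adic series differ by multiples of `p ^ m`. -/
theorem tl35_partial_sub (p : R) (a : ℕ → R) {m n : ℕ} (hmn : m ≤ n) :
    ∃ c : R, ∑ k ∈ Finset.range n, p ^ k * a k - ∑ k ∈ Finset.range m, p ^ k * a k = p ^ m * c := by
  induction n, hmn using Nat.le_induction with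
  | base => exact ⟨0, by simp⟩
  | succ n hn ih =>
    obtain ⟨c, hc⟩ := ih
    refine ⟨c + p ^ (n - m) * a n, ?_⟩
    have hpow : p ^ n = p ^ m * p ^ (n - m) := by rw [← pow_add, Nat.add_sub_cancel' hn]
    rw [Finset.sum_range_succ, add_sub_right_comm, hc, mul_add, hpow, mul_assoc]

variable [IsDomain R] [IsDiscreteValuationRing R]

/-- In a discrete valuation ring, every nonzero element divides a power of any element of the
maximal ideal. -/
theorem tl35_dvd_pow_of_dvr {p : R} (hp : p ∈ IsLocalRing.maximalIdeal R) (r : R) (hr : r ≠ 0) :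
    ∃ (m : ℕ) (s : R), s * r = p ^ m := by
  obtain ⟨ϖ, hϖ⟩ := IsDiscreteValuationRing.exists_irreducible R
  obtain ⟨n, u, rfl⟩ := IsDiscreteValuationRing.eq_unit_mul_pow_irreducible hr hϖ
  have hdvd : ϖ ∣ p := by
    rw [hϖ.maximalIdeal_eq, Ideal.mem_span_singleton] at hp
    exact hp
  obtain ⟨t, rfl⟩ := hdvd
  refine ⟨n, t ^ n * ↑u⁻¹, ?_⟩
  calc t ^ n * ↑u⁻¹ * (↑u * ϖ ^ n) = (↑u⁻¹ * ↑u) * (ϖ ^ n * t ^ n) := by ring
    _ = (ϖ * t) ^ n := by rw [Units.inv_mul, one_mul, mul_pow]

/-- In a discrete valuation ring, a power of the maximal ideal is contained in the ideal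
generated by any nonzero element. -/
theorem tl35_exists_pow_le_span {p : R} (hp0 : p ≠ 0) :
    ∃ e : ℕ, IsLocalRing.maximalIdeal R ^ e ≤ Ideal.span {p} := by
  obtain ⟨ϖ, hϖ⟩ := IsDiscreteValuationRing.exists_irreducible R
  have hne : Ideal.span ({p} : Set R) ≠ ⊥ := by
    rw [Ne, Ideal.span_singleton_eq_bot]
    exact hp0
  obtain ⟨e, he⟩ := IsDiscreteValuationRing.ideal_eq_span_pow_irreducible hne hϖ
  refine ⟨e, ?_⟩
  rw [he, hϖ.maximalIdeal_eq, Ideal.span_singleton_pow]

/-- `p`-adic series converge in a complete discrete valuation ring (`0 ≠ p ∈ 𝔪`). -/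
theorem tl35_series_of_dvr [IsAdicComplete (IsLocalRing.maximalIdeal R) R] {p : R}
    (hp : p ∈ IsLocalRing.maximalIdeal R) (hp0 : p ≠ 0) (a : ℕ → R) :
    ∃ b : R, ∀ m, ∃ c : R, b - ∑ k ∈ Finset.range m, p ^ k * a k = p ^ m * c := by
  obtain ⟨e, he⟩ := tl35_exists_pow_le_span (R := R) hp0
  have hprec : IsPrecomplete (IsLocalRing.maximalIdeal R) R := inferInstance
  have hcauchy : ∀ {m n : ℕ}, m ≤ n →
      (∑ k ∈ Finset.range m, p ^ k * a k) ≡ (∑ k ∈ Finset.range n, p ^ k * a k)
        [SMOD (IsLocalRing.maximalIdeal R ^ m • ⊤ : Submodule R R)] := by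
    intro m n hmn
    obtain ⟨c, hc⟩ := tl35_partial_sub p a hmn
    rw [SModEq.comm, SModEq.sub_mem, hc, smul_eq_mul, Ideal.mul_top]
    exact Ideal.mul_mem_right _ _ (Ideal.pow_mem_pow hp m)
  obtain ⟨b, hb⟩ := hprec.prec hcauchy
  refine ⟨b, fun m => ?_⟩
  -- compare at the index `M = max m (e * m)`
  obtain ⟨c, hc⟩ := tl35_partial_sub p a (le_max_left m (e * m))
  have h1 := hb (max m (e * m))
  rw [SModEq.comm, SModEq.sub_mem, smul_eq_mul, Ideal.mul_top] at h1
  have h2 : b - ∑ k ∈ Finset.range (max m (e * m)), p ^ k * a k ∈ Ideal.span {p ^ m} := by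
    have h3 : IsLocalRing.maximalIdeal R ^ max m (e * m) ≤ Ideal.span {p ^ m} := by
      calc IsLocalRing.maximalIdeal R ^ max m (e * m)
          ≤ IsLocalRing.maximalIdeal R ^ (e * m) := Ideal.pow_le_pow_right (le_max_right _ _)
        _ = (IsLocalRing.maximalIdeal R ^ e) ^ m := pow_mul _ _ _
        _ ≤ Ideal.span {p} ^ m := Ideal.pow_right_mono he m
        _ = Ideal.span {p ^ m} := Ideal.span_singleton_pow p m
    exact h3 h1
  obtain ⟨d, hd⟩ := Ideal.mem_span_singleton'.mp h2
  refine ⟨d + c, ?_⟩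
  have : b - ∑ k ∈ Finset.range m, p ^ k * a k =
      (b - ∑ k ∈ Finset.range (max m (e * m)), p ^ k * a k) +
        (∑ k ∈ Finset.range (max m (e * m)), p ^ k * a k - ∑ k ∈ Finset.range m, p ^ k * a k) := by
    ring
  rw [this, hc, ← hd]
  ring

variable {V : ℕ → Type*} [∀ n, AddCommGroup (V n)] [∀ n, Module R (V n)]
variable {p : R} {i : ∀ n, V n →ₗ[R] V (n + 1)} {π : ∀ n, V (n + 1) →ₗ[R] V n}

/-- The limit of a tower over a discrete valuation ring (`p` in the maximal ideal) is
torsion-free. -/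
theorem tl35_isTorsionFree (h : tl35_IsTower p i π) (hp : p ∈ IsLocalRing.maximalIdeal R) :
    Module.IsTorsionFree R (tl35_T π) where
  isSMulRegular r hr x y hxy := by
    have hr0 : r ≠ 0 := hr.ne_zero
    have h0 : r • ((x - y : tl35_T π) : ∀ n, V n) = 0 := by
      have : r • (x - y) = 0 := by rw [smul_sub]; exact sub_eq_zero.mpr hxy
      exact congrArg Subtype.val this
    have := tl35_eq_zero_of_smul h (tl35_dvd_pow_of_dvr hp) (x - y).2 hr0 h0
    exact sub_eq_zero.mp (Subtype.ext this)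

/-- **Finite generation over a complete discrete valuation ring**: if `V 1` is a finitely
generated module, the limit of the tower is a finitely generated module. -/
theorem tl35_finite_of_dvr [IsAdicComplete (IsLocalRing.maximalIdeal R) R]
    (h : tl35_IsTower p i π) (hp : p ∈ IsLocalRing.maximalIdeal R) (hp0 : p ≠ 0)
    [Module.Finite R (V 1)] : Module.Finite R (tl35_T π) := by
  have hN : IsNoetherian R (V 1) := inferInstance
  exact Module.Finite.iff_fg.mpr
    (tl35_fg h (tl35_series_of_dvr hp hp0) (IsNoetherian.noetherian _))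

/-- **Freeness over a complete discrete valuation ring.** -/
theorem tl35_free_of_dvr [IsAdicComplete (IsLocalRing.maximalIdeal R) R]
    (h : tl35_IsTower p i π) (hp : p ∈ IsLocalRing.maximalIdeal R) (hp0 : p ≠ 0)
    [Module.Finite R (V 1)] : Module.Free R (tl35_T π) := by
  have := tl35_isTorsionFree h hp
  have := tl35_finite_of_dvr h hp hp0
  infer_instance

/-- The limit of a tower over a discrete valuation ring (`p ≠ 0`) is separated for the
topology of the maximal ideal. -/
theorem tl35_isHausdorff (h : tl35_IsTower p i π) (hp0 : p ≠ 0) :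
    IsHausdorff (IsLocalRing.maximalIdeal R) (tl35_T π) where
  haus' x hx := by
    obtain ⟨e, he⟩ := tl35_exists_pow_le_span (R := R) hp0
    apply Subtype.ext
    apply tl35_eq_zero_of_forall_pow h x.2
    intro m
    have h1 := hx (e * m)
    rw [SModEq.zero] at h1
    have h2 : IsLocalRing.maximalIdeal R ^ (e * m) ≤ Ideal.span {p ^ m} := by
      calc IsLocalRing.maximalIdeal R ^ (e * m)
          = (IsLocalRing.maximalIdeal R ^ e) ^ m := pow_mul _ _ _
        _ ≤ Ideal.span {p} ^ m := Ideal.pow_right_mono he m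
        _ = Ideal.span {p ^ m} := Ideal.span_singleton_pow p m
    have h3 : x ∈ (Ideal.span {p ^ m} • ⊤ : Submodule R (tl35_T π)) :=
      Submodule.smul_mono_left h2 h1
    rw [Submodule.ideal_span_singleton_smul] at h3
    obtain ⟨y, -, hy⟩ := (Submodule.mem_smul_pointwise_iff_exists _ _ _).mp h3
    exact ⟨y, y.2, congrArg Subtype.val hy⟩

end dvr

/-! ### The tower `R ⊗[ℤ] A[p ^ n]` of an abelian group -/

section tate

open TensorProduct

variable (R : Type*) [CommRing R] {A : Type*} [AddCommGroup A] (p : ℕ)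
variable (W : ℕ → AddSubgroup A) (hW : ∀ n x, x ∈ W n ↔ ((p ^ n : ℕ) : ℤ) • x = 0)

include hW in
theorem tl35_W_le (n : ℕ) : W n ≤ W (n + 1) := by
  intro x hx
  rw [hW] at hx ⊢
  rw [pow_succ, Nat.cast_mul, mul_comm, mul_smul, hx, smul_zero]

include hW in
theorem tl35_smul_mem (n : ℕ) {x : A} (hx : x ∈ W (n + 1)) : (p : ℤ) • x ∈ W n := by
  rw [hW] at hx ⊢
  rw [← mul_smul, ← Nat.cast_mul, ← pow_succ]
  exact hx

/-- The inclusion `A[p ^ n] → A[p ^ (n + 1)]`. -/
def tl35_incl (n : ℕ) : W n →ₗ[ℤ] W (n + 1) :=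
  (AddSubgroup.inclusion (tl35_W_le p W hW n)).toIntLinearMap

/-- Multiplication by `p` as a map `A[p ^ (n + 1)] → A[p ^ n]`. -/
def tl35_mulp (n : ℕ) : W (n + 1) →ₗ[ℤ] W n :=
  (AddMonoidHom.mk' (fun x : W (n + 1) => (⟨(p : ℤ) • (x : A), tl35_smul_mem p W hW n x.2⟩ : W n))
    (fun x y => Subtype.ext (by simp [smul_add]))).toIntLinearMap

theorem tl35_incl_coe (n : ℕ) (x : W n) : ((tl35_incl p W hW n x : W (n + 1)) : A) = x := rfl

theorem tl35_mulp_coe (n : ℕ) (x : W (n + 1)) :
    ((tl35_mulp p W hW n x : W n) : A) = (p : ℤ) • (x : A) := rfl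

/-- The modules of the tower. -/
abbrev tl35_V (n : ℕ) : Type _ := R ⊗[ℤ] W n

/-- The transition maps of the tower. -/
def tl35_i (n : ℕ) : tl35_V R W n →ₗ[R] tl35_V R W (n + 1) :=
  (tl35_incl p W hW n).baseChange R

def tl35_π (n : ℕ) : tl35_V R W (n + 1) →ₗ[R] tl35_V R W n :=
  (tl35_mulp p W hW n).baseChange R

theorem tl35_i_tmul (n : ℕ) (r : R) (x : W n) :
    tl35_i R p W hW n (r ⊗ₜ[ℤ] x) = r ⊗ₜ[ℤ] tl35_incl p W hW n x := rfl

theorem tl35_π_tmul (n : ℕ) (r : R) (x : W (n + 1)) :
    tl35_π R p W hW n (r ⊗ₜ[ℤ] x) = r ⊗ₜ[ℤ] tl35_mulp p W hW n x := rfl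

/-- Integer scalars on `R ⊗[ℤ] M` through `R`. -/
theorem tl35_intCast_smul {M : Type*} [AddCommGroup M] (c : ℤ) (z : R ⊗[ℤ] M) :
    (c : R) • z = c • z := by
  induction z using TensorProduct.induction_on with
  | zero => simp
  | tmul r m =>
    rw [TensorProduct.smul_tmul', TensorProduct.smul_tmul', smul_eq_mul, zsmul_eq_mul]
  | add x y hx hy => rw [smul_add, smul_add, hx, hy]

include hW in
theorem tl35_tate_isTower [Module.Flat ℤ R] :
    tl35_IsTower (p : R) (tl35_i R p W hW) (tl35_π R p W hW) where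
  pow_smul n z := by
    have e : ((p : R) ^ n) = (((p ^ n : ℕ) : ℤ) : R) := by push_cast; rfl
    rw [e, tl35_intCast_smul]
    induction z using TensorProduct.induction_on with
    | zero => simp
    | tmul r x =>
      rw [← TensorProduct.tmul_smul]
      have : ((p ^ n : ℕ) : ℤ) • x = 0 := Subtype.ext ((hW n x).mp x.2)
      rw [this, TensorProduct.tmul_zero]
    | add x y hx hy => rw [smul_add, hx, hy, add_zero]
  inj n := by
    have hinj : Function.Injective (tl35_incl p W hW n) := by
      intro x y hxy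
      exact Subtype.ext (congrArg (fun z : W (n + 1) => (z : A)) hxy)
    unfold tl35_i
    rw [LinearMap.baseChange_eq_ltensor]
    exact Module.Flat.lTensor_preserves_injective_linearMap _ hinj
  i_π n z := by
    have e : (p : R) = (((p : ℤ)) : R) := by push_cast; rfl
    rw [e, tl35_intCast_smul]
    induction z using TensorProduct.induction_on with
    | zero => simp
    | tmul r x =>
      rw [tl35_π_tmul, tl35_i_tmul, ← TensorProduct.tmul_smul]
      congr 1
    | add x y hx hy => rw [map_add, map_add, hx, hy, smul_add]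
  exists_of_pow_smul n z hz := by
    -- exactness of `A[p^n] → A[p^(n+1)] → A[p^(n+1)]` and flatness
    let g : W (n + 1) →ₗ[ℤ] W (n + 1) := ((p ^ n : ℕ) : ℤ) • LinearMap.id
    have hex : Function.Exact (tl35_incl p W hW n) g := by
      intro y
      constructor
      · intro hy
        have hy' : ((p ^ n : ℕ) : ℤ) • (y : A) = 0 := congrArg (fun z : W (n + 1) => (z : A)) hy
        exact ⟨⟨y, (hW n _).mpr hy'⟩, Subtype.ext rfl⟩
      · rintro ⟨x, rfl⟩
        exact Subtype.ext ((hW n _).mp x.2)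
    have hex' := Module.Flat.lTensor_exact R hex
    have hgz : (LinearMap.lTensor R g) z = 0 := by
      have e : ((p : R) ^ n) = (((p ^ n : ℕ) : ℤ) : R) := by push_cast; rfl
      rw [e, tl35_intCast_smul] at hz
      have hg : LinearMap.lTensor R g = ((p ^ n : ℕ) : ℤ) • LinearMap.id := by
        rw [LinearMap.lTensor_smul, LinearMap.lTensor_id]
      rw [hg, LinearMap.smul_apply, LinearMap.id_apply]
      exact hz
    obtain ⟨y, hy⟩ := (hex' z).mp hgz
    exact ⟨y, hy⟩

/-! ### Endomorphisms of `A` act on the limit -/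

/-- The restriction of an additive endomorphism of `A` to `A[p ^ n]`. -/
def tl35_restr (φ : AddMonoid.End A) (n : ℕ) : W n →ₗ[ℤ] W n :=
  (AddMonoidHom.mk' (fun x : W n => (⟨φ (x : A), by
      rw [hW, ← map_zsmul, (hW n _).mp x.2, map_zero]⟩ : W n))
    (fun x y => Subtype.ext (by simp))).toIntLinearMap

theorem tl35_restr_coe (φ : AddMonoid.End A) (n : ℕ) (x : W n) :
    ((tl35_restr p W hW φ n x : W n) : A) = φ (x : A) := rfl

theorem tl35_restr_one (n : ℕ) : tl35_restr p W hW 1 n = LinearMap.id :=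
  LinearMap.ext fun _ => Subtype.ext rfl

theorem tl35_restr_mul (φ ψ : AddMonoid.End A) (n : ℕ) :
    tl35_restr p W hW (φ * ψ) n = tl35_restr p W hW φ n ∘ₗ tl35_restr p W hW ψ n :=
  LinearMap.ext fun _ => Subtype.ext rfl

theorem tl35_restr_add (φ ψ : AddMonoid.End A) (n : ℕ) :
    tl35_restr p W hW (φ + ψ) n = tl35_restr p W hW φ n + tl35_restr p W hW ψ n :=
  LinearMap.ext fun _ => Subtype.ext rfl

theorem tl35_restr_zero (n : ℕ) : tl35_restr p W hW 0 n = 0 :=
  LinearMap.ext fun _ => Subtype.ext rfl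

theorem tl35_mulp_restr (φ : AddMonoid.End A) (n : ℕ) :
    tl35_mulp p W hW n ∘ₗ tl35_restr p W hW φ (n + 1) =
      tl35_restr p W hW φ n ∘ₗ tl35_mulp p W hW n :=
  LinearMap.ext fun x => Subtype.ext (by
    show (p : ℤ) • φ (x : A) = φ ((p : ℤ) • (x : A))
    rw [map_zsmul])

/-- The family of endomorphisms of the tower induced by an endomorphism of `A`. -/
def tl35_fam (φ : AddMonoid.End A) (n : ℕ) : tl35_V R W n →ₗ[R] tl35_V R W n :=
  (tl35_restr p W hW φ n).baseChange R

theorem tl35_fam_tmul (φ : AddMonoid.End A) (n : ℕ) (r : R) (x : W n) :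
    tl35_fam R p W hW φ n (r ⊗ₜ[ℤ] x) = r ⊗ₜ[ℤ] tl35_restr p W hW φ n x := rfl

theorem tl35_fam_compat (φ : AddMonoid.End A) (n : ℕ) (z : tl35_V R W (n + 1)) :
    tl35_π R p W hW n (tl35_fam R p W hW φ (n + 1) z) =
      tl35_fam R p W hW φ n (tl35_π R p W hW n z) := by
  have h1 := congrArg (fun f => LinearMap.baseChange R f z) (tl35_mulp_restr p W hW φ n)
  simp only [LinearMap.baseChange_comp, LinearMap.comp_apply] at h1
  exact h1

/-- The limit module of the tower `R ⊗[ℤ] A[p ^ n]`. -/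
abbrev tl35_Tate : Submodule R (∀ n, tl35_V R W n) := tl35_T (tl35_π R p W hW)

/-- **The action of `End A` on the limit**, as a ring homomorphism. -/
def tl35_endHom : AddMonoid.End A →+* Module.End R (tl35_Tate R p W hW) where
  toFun φ := tl35_map (tl35_π R p W hW) (tl35_fam R p W hW φ) (tl35_fam_compat R p W hW φ)
  map_one' := LinearMap.ext fun x => Subtype.ext (funext fun n => by
    rw [tl35_map_apply]
    unfold tl35_fam
    rw [tl35_restr_one, LinearMap.baseChange_id]
    rfl)
  map_mul' φ ψ := LinearMap.ext fun x => Subtype.ext (funext fun n => by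
    rw [tl35_map_apply]
    unfold tl35_fam
    rw [tl35_restr_mul, LinearMap.baseChange_comp]
    rfl)
  map_zero' := LinearMap.ext fun x => Subtype.ext (funext fun n => by
    rw [tl35_map_apply]
    unfold tl35_fam
    rw [tl35_restr_zero, LinearMap.baseChange_zero]
    rfl)
  map_add' φ ψ := LinearMap.ext fun x => Subtype.ext (funext fun n => by
    rw [tl35_map_apply]
    unfold tl35_fam
    rw [tl35_restr_add, LinearMap.baseChange_add]
    rfl)

theorem tl35_endHom_apply (φ : AddMonoid.End A) (x : tl35_Tate R p W hW) (n : ℕ) :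
    ((tl35_endHom R p W hW φ x : tl35_Tate R p W hW) : ∀ n, tl35_V R W n) n =
      (tl35_restr p W hW φ n).baseChange R ((x : ∀ n, tl35_V R W n) n) := rfl

/-- **Continuity**: an endomorphism of `A` which is the identity on `A[p ^ n]` acts on the limit
as the identity modulo `p ^ n`. -/
theorem tl35_endHom_sub_self [Module.Flat ℤ R] (φ : AddMonoid.End A) (n : ℕ)
    (hφ : ∀ x ∈ W n, φ x = x) (x : tl35_Tate R p W hW) :
    ∃ y : tl35_Tate R p W hW, (p : R) ^ n • y = tl35_endHom R p W hW φ x - x := by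
  refine tl35_map_sub_self_mem (tl35_tate_isTower R p W hW) (tl35_fam R p W hW φ)
    (tl35_fam_compat R p W hW φ) n (fun z => ?_) x
  have hid : tl35_restr p W hW φ n = LinearMap.id :=
    LinearMap.ext fun y => Subtype.ext (hφ y y.2)
  unfold tl35_fam
  rw [hid, LinearMap.baseChange_id]
  rfl

/-- **Congruences**: if the endomorphism `F` of the limit acts on the `n`-th component of `x` as
the scalar `c`, then `F x - c • x ∈ p ^ n • T`. -/
theorem tl35_tate_sub_smul [Module.Flat ℤ R] (F : Module.End R (tl35_Tate R p W hW)) (c : R)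
    (n : ℕ) (x : tl35_Tate R p W hW)
    (hn : ((F x : tl35_Tate R p W hW) : ∀ n, tl35_V R W n) n =
      c • (x : ∀ n, tl35_V R W n) n) :
    ∃ y : tl35_Tate R p W hW, (p : R) ^ n • y = F x - c • x :=
  tl35_exists_pow_smul_eq_sub (tl35_tate_isTower R p W hW) F c n x hn

/-- `x ∈ p ^ n • T` iff the `n`-th component of `x` vanishes. -/
theorem tl35_tate_apply_eq_zero_iff [Module.Flat ℤ R] (n : ℕ) (x : tl35_Tate R p W hW) :
    (x : ∀ n, tl35_V R W n) n = 0 ↔ ∃ y : tl35_Tate R p W hW, (p : R) ^ n • y = x :=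
  tl35_ev_eq_zero_iff (tl35_tate_isTower R p W hW) n x

/-- Over a complete discrete valuation ring with `0 ≠ p ∈ 𝔪`, flat over `ℤ`, the limit is a
finitely generated module as soon as `A[p]` is finite. -/
theorem tl35_tate_finite [IsDomain R] [IsDiscreteValuationRing R]
    [IsAdicComplete (IsLocalRing.maximalIdeal R) R] [Module.Flat ℤ R]
    (hp : (p : R) ∈ IsLocalRing.maximalIdeal R) (hp0 : (p : R) ≠ 0) [Finite (W 1)] :
    Module.Finite R (tl35_Tate R p W hW) := by
  have : Module.Finite ℤ (W 1) := Module.Finite.of_finite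
  have : Module.Finite R (tl35_V R W 1) := inferInstance
  exact tl35_finite_of_dvr (tl35_tate_isTower R p W hW) hp hp0

theorem tl35_tate_isTorsionFree [IsDomain R] [IsDiscreteValuationRing R] [Module.Flat ℤ R]
    (hp : (p : R) ∈ IsLocalRing.maximalIdeal R) :
    Module.IsTorsionFree R (tl35_Tate R p W hW) :=
  tl35_isTorsionFree (tl35_tate_isTower R p W hW) hp

theorem tl35_tate_free [IsDomain R] [IsDiscreteValuationRing R]
    [IsAdicComplete (IsLocalRing.maximalIdeal R) R] [Module.Flat ℤ R]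
    (hp : (p : R) ∈ IsLocalRing.maximalIdeal R) (hp0 : (p : R) ≠ 0) [Finite (W 1)] :
    Module.Free R (tl35_Tate R p W hW) := by
  have : Module.Finite ℤ (W 1) := Module.Finite.of_finite
  have : Module.Finite R (tl35_V R W 1) := inferInstance
  exact tl35_free_of_dvr (tl35_tate_isTower R p W hW) hp hp0

/-- An endomorphism of `A` vanishing on all the `A[p ^ n]` acts as zero on the limit. -/
theorem tl35_endHom_eq_zero (φ : AddMonoid.End A) (hφ : ∀ n, ∀ x ∈ W n, φ x = 0) :
    tl35_endHom R p W hW φ = 0 :=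
  LinearMap.ext fun x => Subtype.ext (funext fun n => by
    rw [tl35_endHom_apply]
    have h0 : tl35_restr p W hW φ n = 0 := LinearMap.ext fun y => Subtype.ext (hφ n y y.2)
    rw [h0, LinearMap.baseChange_zero]
    rfl)

/-- Two endomorphisms of `A` agreeing on all the `A[p ^ n]` act in the same way on the limit. -/
theorem tl35_endHom_eq_of_eqOn (φ ψ : AddMonoid.End A) (h : ∀ n, ∀ x ∈ W n, φ x = ψ x) :
    tl35_endHom R p W hW φ = tl35_endHom R p W hW ψ :=
  LinearMap.ext fun x => Subtype.ext (funext fun n => by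
    rw [tl35_endHom_apply, tl35_endHom_apply]
    have h0 : tl35_restr p W hW φ n = tl35_restr p W hW ψ n :=
      LinearMap.ext fun y => Subtype.ext (h n y y.2)
    rw [h0])

/-- Separatedness over a discrete valuation ring. -/
theorem tl35_tate_isHausdorff [IsDomain R] [IsDiscreteValuationRing R] [Module.Flat ℤ R]
    (hp0 : (p : R) ≠ 0) :
    IsHausdorff (IsLocalRing.maximalIdeal R) (tl35_Tate R p W hW) :=
  tl35_isHausdorff (tl35_tate_isTower R p W hW) hp0

/-! ### Compatible families of maps from a lattice -/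

section theta

variable {L : Type*} [AddCommGroup L] (θ : ∀ _ : ℕ, L →+ A) (hθ : ∀ n x, θ n x ∈ W n)
  (hθc : ∀ n x, (p : ℤ) • θ (n + 1) x = θ n x)

/-- The `n`-th map `L → A[p ^ n]`. -/
def tl35_thetaN (n : ℕ) : L →ₗ[ℤ] W n :=
  ((θ n).codRestrict (W n) (hθ n)).toIntLinearMap

theorem tl35_thetaN_coe (n : ℕ) (x : L) : ((tl35_thetaN W θ hθ n x : W n) : A) = θ n x := rfl

include hθc in
theorem tl35_mulp_thetaN (n : ℕ) :
    tl35_mulp p W hW n ∘ₗ tl35_thetaN W θ hθ (n + 1) = tl35_thetaN W θ hθ n :=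
  LinearMap.ext fun x => Subtype.ext (hθc n x)

/-- **The limit map** `R ⊗[ℤ] L → T` of a compatible family `θ n : L → A[p ^ n]`. -/
def tl35_theta : R ⊗[ℤ] L →ₗ[R] tl35_Tate R p W hW where
  toFun v := ⟨fun n => (tl35_thetaN W θ hθ n).baseChange R v, fun n => by
    have h1 := congrArg (fun f => LinearMap.baseChange R f v) (tl35_mulp_thetaN p W hW θ hθ hθc n)
    simp only [LinearMap.baseChange_comp, LinearMap.comp_apply] at h1
    exact h1⟩
  map_add' v w := Subtype.ext (funext fun n => by simp)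
  map_smul' c v := Subtype.ext (funext fun n => by simp)

theorem tl35_theta_apply (v : R ⊗[ℤ] L) (n : ℕ) :
    ((tl35_theta R p W hW θ hθ hθc v : tl35_Tate R p W hW) : ∀ n, tl35_V R W n) n =
      (tl35_thetaN W θ hθ n).baseChange R v := rfl

/-- **Equivariance** of the limit map. -/
theorem tl35_theta_equivariant (φ : AddMonoid.End A) (t : L →+ L)
    (h : ∀ n x, φ (θ n x) = θ n (t x)) (v : R ⊗[ℤ] L) :
    tl35_endHom R p W hW φ (tl35_theta R p W hW θ hθ hθc v) =
      tl35_theta R p W hW θ hθ hθc (t.toIntLinearMap.baseChange R v) := by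
  apply Subtype.ext
  funext n
  rw [tl35_endHom_apply, tl35_theta_apply, tl35_theta_apply]
  have h1 : tl35_restr p W hW φ n ∘ₗ tl35_thetaN W θ hθ n =
      tl35_thetaN W θ hθ n ∘ₗ t.toIntLinearMap :=
    LinearMap.ext fun x => Subtype.ext (h n x)
  have h2 := congrArg (fun f => LinearMap.baseChange R f v) h1
  simp only [LinearMap.baseChange_comp, LinearMap.comp_apply] at h2
  exact h2

include hW in
/-- If `ker (θ n) = p ^ n • L`, then the kernel of `R ⊗ θ n` is `p ^ n • (R ⊗ L)`
(`R` flat over `ℤ`). -/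
theorem tl35_thetaN_baseChange_eq_zero [Module.Flat ℤ R] (n : ℕ)
    (hker : ∀ x, θ n x = 0 → ∃ y : L, x = ((p ^ n : ℕ) : ℤ) • y) (v : R ⊗[ℤ] L)
    (hv : (tl35_thetaN W θ hθ n).baseChange R v = 0) :
    ∃ w : R ⊗[ℤ] L, v = (p : R) ^ n • w := by
  let g : L →ₗ[ℤ] L := ((p ^ n : ℕ) : ℤ) • LinearMap.id
  have hex : Function.Exact g (tl35_thetaN W θ hθ n) := by
    intro x
    constructor
    · intro hx
      have hx' : θ n x = 0 := congrArg (fun z : W n => (z : A)) hx
      obtain ⟨y, rfl⟩ := hker x hx'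
      exact ⟨y, rfl⟩
    · rintro ⟨y, rfl⟩
      apply Subtype.ext
      show θ n (((p ^ n : ℕ) : ℤ) • y) = 0
      rw [map_zsmul]
      exact (hW n _).mp (hθ n y)
  have hex' := Module.Flat.lTensor_exact R hex
  have hv' : (LinearMap.lTensor R (tl35_thetaN W θ hθ n)) v = 0 := by
    rw [← LinearMap.baseChange_eq_ltensor]
    exact hv
  obtain ⟨w, hw⟩ := (hex' v).mp hv'
  refine ⟨w, ?_⟩
  have hg : LinearMap.lTensor R g = ((p ^ n : ℕ) : ℤ) • LinearMap.id := by
    rw [LinearMap.lTensor_smul, LinearMap.lTensor_id]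
  rw [hg, LinearMap.smul_apply, LinearMap.id_apply] at hw
  have e : ((p : R) ^ n) = (((p ^ n : ℕ) : ℤ) : R) := by push_cast; rfl
  rw [e, tl35_intCast_smul, hw]

/-- **Non-vanishing**: if `ker (θ 1) = p • L` and `v ∉ p • (R ⊗ L)`, the limit map does not
kill `v`. -/
theorem tl35_theta_ne_zero [Module.Flat ℤ R]
    (hker : ∀ x, θ 1 x = 0 → ∃ y : L, x = (p : ℤ) • y) (v : R ⊗[ℤ] L)
    (hv : ¬ ∃ w : R ⊗[ℤ] L, v = (p : R) • w) :
    tl35_theta R p W hW θ hθ hθc v ≠ 0 := by
  intro h0
  apply hv
  have h1 : (tl35_thetaN W θ hθ 1).baseChange R v = 0 := by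
    rw [← tl35_theta_apply R p W hW θ hθ hθc v 1, h0]
    rfl
  obtain ⟨w, hw⟩ := tl35_thetaN_baseChange_eq_zero R p W hW θ hθ 1
    (fun x hx => by
      obtain ⟨y, hy⟩ := hker x hx
      exact ⟨y, by rw [pow_one]; exact hy⟩) v h1
  exact ⟨w, by rw [hw, pow_one]⟩

end theta

end tate

end Fermat.Agent.S30
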