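/-
S30 project (P5), row B2, sequence form (the shape of Directive 12, item 3 (i)).

For a commutative ring `R`, `p : R` and an `R`-module `B`:

  `ts35_T p B = {x : ℕ → B | x 0 = 0 ∧ ∀ n, p • x (n + 1) = x n}`

(so `p ^ n • x n = 0`).  No finiteness, no flatness, no completeness:

* `p • x = 0 → x = 0`; `x m = 0 ↔ x ∈ p ^ m • T` (shift); hence `⋂ p ^ m • T = 0`;
* `ts35_map : Module.End R B →+* Module.End R T` (componentwise), so every identity among
  endomorphisms of `B` (even one valid only on `p`-power torsion: `ts35_map_eq_zero`) holds on `T`;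
* congruences / continuity vector by vector: `F x` and `c • x` agree at level `n` iff
  `F x - c • x ∈ p ^ n • T`;
* over a discrete valuation ring with `p ∈ 𝔪`: torsion-free, separated, and the quantitative
  lemma `a • x (k + n) = 0 → a ∈ 𝔪 ^ n` when `x k ≠ 0`;
* eigen-sequences `ts35_eigen` (a saturated submodule), limits of compatible families.

All names are prefixed `ts35_`.
-/
import Mathlib
import Fermat.Agent.S30.TateLattice35

set_option autoImplicit false

namespace Fermat.Agent.S30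

section seq

variable {R : Type*} [CommRing R] (p : R) (B : Type*) [AddCommGroup B] [Module R B]

/-- Tate sequences in `B`: `x 0 = 0` and `p • x (n + 1) = x n`. -/
def ts35_T : Submodule R (ℕ → B) where
  carrier := {x | x 0 = 0 ∧ ∀ n, p • x (n + 1) = x n}
  add_mem' := by
    rintro x y ⟨hx0, hx⟩ ⟨hy0, hy⟩
    refine ⟨by rw [Pi.add_apply, hx0, hy0, add_zero], fun n => ?_⟩
    rw [Pi.add_apply, Pi.add_apply, smul_add, hx n, hy n]
  zero_mem' := ⟨rfl, fun n => by simp⟩
  smul_mem' := by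
    rintro c x ⟨hx0, hx⟩
    refine ⟨by rw [Pi.smul_apply, hx0, smul_zero], fun n => ?_⟩
    rw [Pi.smul_apply, Pi.smul_apply, smul_comm, hx n]

variable {p B}

theorem ts35_mem_T {x : ℕ → B} :
    x ∈ ts35_T p B ↔ x 0 = 0 ∧ ∀ n, p • x (n + 1) = x n := Iff.rfl

theorem ts35_pow_smul_apply_add {x : ℕ → B} (hx : x ∈ ts35_T p B) (m n : ℕ) :
    p ^ m • x (n + m) = x n := by
  induction m with
  | zero => rw [pow_zero, one_smul, Nat.add_zero]
  | succ m ih => rw [pow_succ, mul_smul, ← Nat.add_assoc, hx.2 (n + m), ih]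

/-- The `n`-th term of a Tate sequence is killed by `p ^ n`. -/
theorem ts35_pow_smul_apply {x : ℕ → B} (hx : x ∈ ts35_T p B) (n : ℕ) : p ^ n • x n = 0 := by
  have := ts35_pow_smul_apply_add hx n 0
  rwa [Nat.zero_add, hx.1] at this

/-- No `p`-torsion. -/
theorem ts35_smul_eq_zero {x : ℕ → B} (hx : x ∈ ts35_T p B) (h0 : p • x = 0) : x = 0 := by
  funext n
  rw [← hx.2 n]
  exact congrFun h0 (n + 1)

theorem ts35_pow_smul_eq_zero {x : ℕ → B} (hx : x ∈ ts35_T p B) (m : ℕ) (h0 : p ^ m • x = 0) :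
    x = 0 := by
  induction m with
  | zero => rwa [pow_zero, one_smul] at h0
  | succ m ih =>
    apply ih
    apply ts35_smul_eq_zero (Submodule.smul_mem _ _ hx)
    rw [← mul_smul, ← pow_succ']
    exact h0

/-- A vanishing term forces the lower terms to vanish. -/
theorem ts35_apply_eq_zero_of_le {x : ℕ → B} (hx : x ∈ ts35_T p B) {m n : ℕ} (hmn : m ≤ n)
    (h0 : x n = 0) : x m = 0 := by
  obtain ⟨k, rfl⟩ := Nat.exists_eq_add_of_le hmn
  rw [← ts35_pow_smul_apply_add hx k m, h0, smul_zero]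

/-- The shift of a Tate sequence whose `m`-th term vanishes. -/
theorem ts35_shift_mem {x : ℕ → B} (hx : x ∈ ts35_T p B) (m : ℕ) (hm : x m = 0) :
    (fun n => x (n + m)) ∈ ts35_T p B := by
  refine ⟨by simpa using hm, fun n => ?_⟩
  have := hx.2 (n + m)
  rwa [Nat.add_right_comm] at this

theorem ts35_pow_smul_shift {x : ℕ → B} (hx : x ∈ ts35_T p B) (m : ℕ) :
    (p ^ m • fun n => x (n + m)) = x :=
  funext fun n => ts35_pow_smul_apply_add hx m n

/-- **Key structure lemma**: `x ∈ p ^ m • T` iff the `m`-th term of `x` vanishes. -/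
theorem ts35_apply_eq_zero_iff {x : ℕ → B} (hx : x ∈ ts35_T p B) (m : ℕ) :
    x m = 0 ↔ ∃ y ∈ ts35_T p B, p ^ m • y = x := by
  constructor
  · intro hm
    exact ⟨_, ts35_shift_mem hx m hm, ts35_pow_smul_shift hx m⟩
  · rintro ⟨y, hy, rfl⟩
    rw [Pi.smul_apply, ts35_pow_smul_apply hy]

/-- `p`-adic separatedness. -/
theorem ts35_eq_zero_of_forall_pow {x : ℕ → B} (hx : x ∈ ts35_T p B)
    (hdiv : ∀ m, ∃ y ∈ ts35_T p B, p ^ m • y = x) : x = 0 :=
  funext fun m => (ts35_apply_eq_zero_iff hx m).mpr (hdiv m)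

/-- Subtype form of the key structure lemma. -/
theorem ts35_coe_apply_eq_zero_iff (x : ts35_T p B) (m : ℕ) :
    (x : ℕ → B) m = 0 ↔ ∃ y : ts35_T p B, p ^ m • y = x := by
  rw [ts35_apply_eq_zero_iff x.2 m]
  constructor
  · rintro ⟨y, hy, hpy⟩
    exact ⟨⟨y, hy⟩, Subtype.ext hpy⟩
  · rintro ⟨y, rfl⟩
    exact ⟨y, y.2, rfl⟩

/-! ### Endomorphisms -/

variable (p B) in
/-- **Endomorphisms of `B` act componentwise on Tate sequences** (a ring homomorphism). -/
def ts35_map : Module.End R B →+* Module.End R (ts35_T p B) where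
  toFun f :=
    { toFun := fun x => ⟨fun n => f ((x : ℕ → B) n),
        by show f ((x : ℕ → B) 0) = 0; rw [x.2.1, map_zero],
        fun n => by show p • f ((x : ℕ → B) (n + 1)) = f ((x : ℕ → B) n); rw [← map_smul, x.2.2 n]⟩
      map_add' := fun x y => Subtype.ext (funext fun n => by simp)
      map_smul' := fun c x => Subtype.ext (funext fun n => by simp) }
  map_one' := LinearMap.ext fun _ => Subtype.ext rfl
  map_mul' _ _ := LinearMap.ext fun _ => Subtype.ext rfl
  map_zero' := LinearMap.ext fun _ => Subtype.ext rfl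
  map_add' _ _ := LinearMap.ext fun _ => Subtype.ext rfl

theorem ts35_map_apply (f : Module.End R B) (x : ts35_T p B) (n : ℕ) :
    ((ts35_map p B f x : ts35_T p B) : ℕ → B) n = f ((x : ℕ → B) n) := rfl

theorem ts35_map_smul (c : R) (f : Module.End R B) :
    ts35_map p B (c • f) = c • ts35_map p B f :=
  LinearMap.ext fun _ => Subtype.ext rfl

theorem ts35_map_sub (f g : Module.End R B) :
    ts35_map p B (f - g) = ts35_map p B f - ts35_map p B g :=
  LinearMap.ext fun _ => Subtype.ext rfl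

/-- An endomorphism of `B` vanishing on the `p`-power torsion acts as zero on Tate sequences. -/
theorem ts35_map_eq_zero (f : Module.End R B) (hf : ∀ (n : ℕ) (b : B), p ^ n • b = 0 → f b = 0) :
    ts35_map p B f = 0 :=
  LinearMap.ext fun x => Subtype.ext (funext fun n => hf n _ (ts35_pow_smul_apply x.2 n))

/-- Two endomorphisms of `B` agreeing on the `p`-power torsion act in the same way. -/
theorem ts35_map_eq_of_eqOn (f g : Module.End R B)
    (h : ∀ (n : ℕ) (b : B), p ^ n • b = 0 → f b = g b) : ts35_map p B f = ts35_map p B g :=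
  LinearMap.ext fun x => Subtype.ext (funext fun n => h n _ (ts35_pow_smul_apply x.2 n))

/-- A representation of a monoid on `B` gives a representation on Tate sequences. -/
def ts35_rep {G : Type*} [Monoid G] (ρ : G →* Module.End R B) :
    G →* Module.End R (ts35_T p B) :=
  (ts35_map p B).toMonoidHom.comp ρ

theorem ts35_rep_apply {G : Type*} [Monoid G] (ρ : G →* Module.End R B) (g : G)
    (x : ts35_T p B) (n : ℕ) :
    ((ts35_rep (p := p) ρ g x : ts35_T p B) : ℕ → B) n = ρ g ((x : ℕ → B) n) := rfl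

/-- **Congruence criterion** (vector by vector): if `F x` and `c • x` have the same `n`-th
term, then `F x - c • x ∈ p ^ n • T`. -/
theorem ts35_exists_pow_smul_eq_sub (F : Module.End R (ts35_T p B)) (c : R) (n : ℕ)
    (x : ts35_T p B) (hn : ((F x : ts35_T p B) : ℕ → B) n = c • (x : ℕ → B) n) :
    ∃ y : ts35_T p B, p ^ n • y = F x - c • x := by
  apply (ts35_coe_apply_eq_zero_iff (F x - c • x) n).mp
  simp [hn]

/-- Two elements with the same `n`-th term are congruent modulo `p ^ n`. -/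
theorem ts35_exists_pow_smul_eq_sub' (n : ℕ) (x x' : ts35_T p B)
    (hn : (x : ℕ → B) n = (x' : ℕ → B) n) : ∃ y : ts35_T p B, p ^ n • y = x - x' := by
  apply (ts35_coe_apply_eq_zero_iff (x - x') n).mp
  simp [hn]

/-- **Continuity criterion** (vector by vector): if `f` fixes the `n`-th term of `x`, then
`f x - x ∈ p ^ n • T`. -/
theorem ts35_map_sub_self (f : Module.End R B) (n : ℕ) (x : ts35_T p B)
    (hf : f ((x : ℕ → B) n) = (x : ℕ → B) n) :
    ∃ y : ts35_T p B, p ^ n • y = ts35_map p B f x - x :=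
  ts35_exists_pow_smul_eq_sub' n _ _ (by rw [ts35_map_apply, hf])

/-! ### Eigen-sequences -/

variable (p) in
/-- The sequences on which each `f i` acts as the scalar `c i`. -/
def ts35_eigen {ι : Type*} (f : ι → Module.End R B) (c : ι → R) : Submodule R (ts35_T p B) :=
  ⨅ i, LinearMap.ker (ts35_map p B (f i) - c i • (1 : Module.End R (ts35_T p B)))

theorem ts35_mem_eigen {ι : Type*} {f : ι → Module.End R B} {c : ι → R} {x : ts35_T p B} :
    x ∈ ts35_eigen p f c ↔ ∀ i, ts35_map p B (f i) x = c i • x := by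
  simp only [ts35_eigen, Submodule.mem_iInf, LinearMap.mem_ker, LinearMap.sub_apply,
    LinearMap.smul_apply, Module.End.one_apply, sub_eq_zero]

/-- Componentwise form of the eigen-condition. -/
theorem ts35_mem_eigen_iff {ι : Type*} {f : ι → Module.End R B} {c : ι → R} {x : ts35_T p B} :
    x ∈ ts35_eigen p f c ↔ ∀ i n, f i ((x : ℕ → B) n) = c i • (x : ℕ → B) n := by
  rw [ts35_mem_eigen]
  constructor
  · intro h i n
    have := congrArg (fun z : ts35_T p B => (z : ℕ → B) n) (h i)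
    exact this
  · intro h i
    exact Subtype.ext (funext fun n => h i n)

/-- An endomorphism commuting with all the `f i` preserves the eigen-sequences. -/
theorem ts35_map_mem_eigen {ι : Type*} {f : ι → Module.End R B} {c : ι → R} (g : Module.End R B)
    (hg : ∀ i, g * f i = f i * g) {x : ts35_T p B} (hx : x ∈ ts35_eigen p f c) :
    ts35_map p B g x ∈ ts35_eigen p f c := by
  rw [ts35_mem_eigen_iff] at hx ⊢
  intro i n
  rw [ts35_map_apply, ← map_smul, ← hx i n]
  exact (congrArg (fun F : Module.End R B => F ((x : ℕ → B) n)) (hg i)).symm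

/-- The eigen-sequences form a saturated submodule: `p ^ m • y ∈ T[χ] → y ∈ T[χ]`. -/
theorem ts35_eigen_saturated {ι : Type*} {f : ι → Module.End R B} {c : ι → R} (m : ℕ)
    {y : ts35_T p B} (hy : p ^ m • y ∈ ts35_eigen p f c) : y ∈ ts35_eigen p f c := by
  rw [ts35_mem_eigen] at hy ⊢
  intro i
  have h1 : p ^ m • (ts35_map p B (f i) y - c i • y) = 0 := by
    rw [smul_sub, ← map_smul, hy i, smul_comm]
    exact sub_self _
  have h2 := ts35_pow_smul_eq_zero (ts35_map p B (f i) y - c i • y).2 m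
    (congrArg Subtype.val h1)
  exact sub_eq_zero.mp (Subtype.ext h2)

/-- In the eigen-sequences, too, `x ∈ p ^ m • T[χ]` iff the `m`-th term of `x` vanishes. -/
theorem ts35_eigen_apply_eq_zero_iff {ι : Type*} {f : ι → Module.End R B} {c : ι → R}
    (x : ts35_eigen p f c) (m : ℕ) :
    ((x : ts35_T p B) : ℕ → B) m = 0 ↔ ∃ y : ts35_eigen p f c, p ^ m • y = x := by
  rw [ts35_coe_apply_eq_zero_iff]
  constructor
  · rintro ⟨y, hy⟩
    have hmem : y ∈ ts35_eigen p f c := ts35_eigen_saturated m (by rw [hy]; exact x.2)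
    exact ⟨⟨y, hmem⟩, Subtype.ext hy⟩
  · rintro ⟨y, rfl⟩
    exact ⟨y, rfl⟩

/-! ### Limits of compatible families -/

/-- A compatible family of linear maps `Θ n : M → B` (`Θ 0 = 0`, `p • Θ (n + 1) = Θ n`) gives a
linear map into the Tate sequences. -/
def ts35_lim {M : Type*} [AddCommGroup M] [Module R M] (Θ : ℕ → M →ₗ[R] B) (h0 : Θ 0 = 0)
    (hc : ∀ n v, p • Θ (n + 1) v = Θ n v) : M →ₗ[R] ts35_T p B where
  toFun v := ⟨fun n => Θ n v, by show Θ 0 v = 0; rw [h0]; rfl, fun n => hc n v⟩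
  map_add' v w := Subtype.ext (funext fun n => by simp)
  map_smul' c v := Subtype.ext (funext fun n => by simp)

theorem ts35_lim_apply {M : Type*} [AddCommGroup M] [Module R M] (Θ : ℕ → M →ₗ[R] B)
    (h0 : Θ 0 = 0) (hc : ∀ n v, p • Θ (n + 1) v = Θ n v) (v : M) (n : ℕ) :
    ((ts35_lim Θ h0 hc v : ts35_T p B) : ℕ → B) n = Θ n v := rfl

/-- Equivariance of the limit map. -/
theorem ts35_lim_equivariant {M : Type*} [AddCommGroup M] [Module R M] (Θ : ℕ → M →ₗ[R] B)
    (h0 : Θ 0 = 0) (hc : ∀ n v, p • Θ (n + 1) v = Θ n v) (f : Module.End R B)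
    (t : Module.End R M) (h : ∀ n v, f (Θ n v) = Θ n (t v)) (v : M) :
    ts35_map p B f (ts35_lim Θ h0 hc v) = ts35_lim Θ h0 hc (t v) :=
  Subtype.ext (funext fun n => h n v)

end seq

/-! ### Discrete valuation rings -/

section dvr

variable {R : Type*} [CommRing R] [IsDomain R] [IsDiscreteValuationRing R] {p : R}
  {B : Type*} [AddCommGroup B] [Module R B]

/-- Over a discrete valuation ring with `p ∈ 𝔪`, Tate sequences form a torsion-free module. -/
theorem ts35_isTorsionFree (hp : p ∈ IsLocalRing.maximalIdeal R) :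
    Module.IsTorsionFree R (ts35_T p B) where
  isSMulRegular r hr x y hxy := by
    obtain ⟨m, s, hs⟩ := tl35_dvd_pow_of_dvr hp r hr.ne_zero
    have h0 : r • (x - y) = 0 := by rw [smul_sub]; exact sub_eq_zero.mpr hxy
    have h1 : p ^ m • ((x - y : ts35_T p B) : ℕ → B) = 0 := by
      have h2 : p ^ m • (x - y) = 0 := by rw [← hs, mul_smul, h0, smul_zero]
      exact congrArg Subtype.val h2
    exact sub_eq_zero.mp (Subtype.ext (ts35_pow_smul_eq_zero (x - y).2 m h1))

/-- Over a discrete valuation ring (`p ≠ 0`), Tate sequences are separated for the topology of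
the maximal ideal. -/
theorem ts35_isHausdorff (hp0 : p ≠ 0) :
    IsHausdorff (IsLocalRing.maximalIdeal R) (ts35_T p B) where
  haus' x hx := by
    obtain ⟨e, he⟩ := tl35_exists_pow_le_span (R := R) hp0
    apply Subtype.ext
    apply ts35_eq_zero_of_forall_pow x.2
    intro m
    have h1 := hx (e * m)
    rw [SModEq.zero] at h1
    have h2 : IsLocalRing.maximalIdeal R ^ (e * m) ≤ Ideal.span {p ^ m} := by
      calc IsLocalRing.maximalIdeal R ^ (e * m)
          = (IsLocalRing.maximalIdeal R ^ e) ^ m := pow_mul _ _ _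
        _ ≤ Ideal.span {p} ^ m := Ideal.pow_right_mono he m
        _ = Ideal.span {p ^ m} := Ideal.span_singleton_pow p m
    have h3 : x ∈ (Ideal.span {p ^ m} • ⊤ : Submodule R (ts35_T p B)) :=
      Submodule.smul_mono_left h2 h1
    rw [Submodule.ideal_span_singleton_smul] at h3
    obtain ⟨y, -, hy⟩ := (Submodule.mem_smul_pointwise_iff_exists _ _ _).mp h3
    exact ⟨y, y.2, congrArg Subtype.val hy⟩

/-- **Quantitative annihilator lemma**: if the `k`-th term of a Tate sequence is nonzero, a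
scalar killing a term of index `≥ k + n` lies in `𝔪 ^ n`. -/
theorem ts35_mem_pow_of_smul_apply_eq_zero (hp : p ∈ IsLocalRing.maximalIdeal R) {x : ℕ → B}
    (hx : x ∈ ts35_T p B) {k : ℕ} (hk : x k ≠ 0) (n N : ℕ) (hN : k + n ≤ N) (a : R)
    (ha : a • x N = 0) : a ∈ IsLocalRing.maximalIdeal R ^ n := by
  -- reduce to `N = k + n`
  have ha' : a • x (k + n) = 0 := by
    obtain ⟨d, rfl⟩ := Nat.exists_eq_add_of_le hN
    rw [← ts35_pow_smul_apply_add hx d (k + n), smul_comm, ha, smul_zero]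
  by_cases ha0 : a = 0
  · rw [ha0]; exact Ideal.zero_mem _
  obtain ⟨ϖ, hϖ⟩ := IsDiscreteValuationRing.exists_irreducible R
  obtain ⟨j, u, rfl⟩ := IsDiscreteValuationRing.eq_unit_mul_pow_irreducible ha0 hϖ
  have hϖm : ϖ ∈ IsLocalRing.maximalIdeal R := by
    rw [hϖ.maximalIdeal_eq]; exact Ideal.mem_span_singleton_self ϖ
  by_cases hjn : n ≤ j
  · exact Ideal.mul_mem_left _ _ (Ideal.pow_le_pow_right hjn (Ideal.pow_mem_pow hϖm j))
  exfalso
  replace hjn : j < n := Nat.lt_of_not_ge hjn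
  -- `ϖ ^ j` kills `x (k + n)`
  have h1 : ϖ ^ j • x (k + n) = 0 := by
    have h2 : (↑u⁻¹ : R) • ((↑u * ϖ ^ j) • x (k + n)) = 0 := by rw [ha', smul_zero]
    rwa [← mul_smul, ← mul_assoc, Units.inv_mul, one_mul] at h2
  -- hence so does `p ^ j`
  have hdvd : ϖ ∣ p := by
    rw [hϖ.maximalIdeal_eq, Ideal.mem_span_singleton] at hp
    exact hp
  obtain ⟨t, rfl⟩ := hdvd
  have h3 : (ϖ * t) ^ j • x (k + n) = 0 := by
    rw [mul_pow, mul_comm, mul_smul, h1, smul_zero]
  -- so the term of index `k + (n - j)` vanishes, and then the `k`-th term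
  have h4 : x (k + (n - j)) = 0 := by
    have h5 := ts35_pow_smul_apply_add hx j (k + (n - j))
    have h6 : k + (n - j) + j = k + n := by omega
    rw [h6, h3] at h5
    exact h5.symm
  exact hk (ts35_apply_eq_zero_of_le hx (Nat.le_add_right k (n - j)) h4)

/-- **Directive 12, 3 (iv), LEMMA**: for `e ≠ 0` and every `n` there is `N` such that
`a • e ∈ p ^ N • T` forces `a ∈ 𝔪 ^ n`. -/
theorem ts35_exists_level (hp : p ∈ IsLocalRing.maximalIdeal R) (e : ts35_T p B) (he : e ≠ 0)
    (n : ℕ) : ∃ N : ℕ, ∀ a : R, (∃ y : ts35_T p B, p ^ N • y = a • e) →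
      a ∈ IsLocalRing.maximalIdeal R ^ n := by
  have hex : ∃ k, (e : ℕ → B) k ≠ 0 := by
    by_contra hcon
    simp only [not_exists, not_not] at hcon
    exact he (Subtype.ext (funext hcon))
  obtain ⟨k, hk⟩ := hex
  refine ⟨k + n, fun a hy => ?_⟩
  have h0 : ((a • e : ts35_T p B) : ℕ → B) (k + n) = 0 :=
    (ts35_coe_apply_eq_zero_iff (a • e) (k + n)).mpr hy
  exact ts35_mem_pow_of_smul_apply_eq_zero hp e.2 hk n (k + n) le_rfl a h0

end dvr

/-! ### The coefficient module `R ⊗[ℤ] J` and limits of `θ n : L → J` -/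

section theta

open TensorProduct

variable (R : Type*) [CommRing R] {L J : Type*} [AddCommGroup L] [AddCommGroup J]

/-- Flatness: if `ker θ = m • L` (and `m • θ = 0`), then the kernel of `R ⊗ θ` is
`m • (R ⊗ L)`. -/
theorem ts35_baseChange_eq_zero [Module.Flat ℤ R] (θ : L →+ J) (m : ℤ)
    (hm : ∀ x, m • θ x = 0) (hker : ∀ x, θ x = 0 → ∃ y : L, x = m • y) (v : R ⊗[ℤ] L)
    (hv : θ.toIntLinearMap.baseChange R v = 0) : ∃ w : R ⊗[ℤ] L, v = (m : R) • w := by
  let g : L →ₗ[ℤ] L := m • LinearMap.id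
  have hex : Function.Exact g θ.toIntLinearMap := by
    intro x
    constructor
    · intro hx
      obtain ⟨y, rfl⟩ := hker x hx
      exact ⟨y, rfl⟩
    · rintro ⟨y, rfl⟩
      show θ (m • y) = 0
      rw [map_zsmul, hm]
  have hex' := Module.Flat.lTensor_exact R hex
  have hv' : (LinearMap.lTensor R θ.toIntLinearMap) v = 0 := by
    rw [← LinearMap.baseChange_eq_ltensor]
    exact hv
  obtain ⟨w, hw⟩ := (hex' v).mp hv'
  refine ⟨w, ?_⟩
  have hg : LinearMap.lTensor R g = m • LinearMap.id := by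
    rw [LinearMap.lTensor_smul, LinearMap.lTensor_id]
  rw [hg, LinearMap.smul_apply, LinearMap.id_apply] at hw
  rw [tl35_intCast_smul, hw]

variable (p : ℕ) (θ : ℕ → L →+ J) (h1 : ∀ x, (p : ℤ) • θ 1 x = 0)
  (hc : ∀ n, 1 ≤ n → ∀ x, (p : ℤ) • θ (n + 1) x = θ n x)

/-- The family `R ⊗ θ n` (with the `0`-th member replaced by `0`). -/
def ts35_thetaFam (n : ℕ) : R ⊗[ℤ] L →ₗ[R] R ⊗[ℤ] J :=
  if n = 0 then 0 else (θ n).toIntLinearMap.baseChange R

theorem ts35_thetaFam_zero : ts35_thetaFam R θ 0 = 0 := if_pos rfl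

theorem ts35_thetaFam_succ (n : ℕ) :
    ts35_thetaFam R θ (n + 1) = (θ (n + 1)).toIntLinearMap.baseChange R :=
  if_neg (Nat.succ_ne_zero n)

include h1 hc in
theorem ts35_thetaFam_compat (n : ℕ) (v : R ⊗[ℤ] L) :
    (p : R) • ts35_thetaFam R θ (n + 1) v = ts35_thetaFam R θ n v := by
  have e : (p : R) = (((p : ℤ)) : R) := by push_cast; rfl
  rw [e, tl35_intCast_smul, ts35_thetaFam_succ]
  cases n with
  | zero =>
    rw [ts35_thetaFam_zero, LinearMap.zero_apply]
    induction v using TensorProduct.induction_on with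
    | zero => simp
    | tmul r x =>
      rw [LinearMap.baseChange_tmul, ← TensorProduct.tmul_smul]
      show r ⊗ₜ[ℤ] ((p : ℤ) • θ 1 x) = 0
      rw [h1, TensorProduct.tmul_zero]
    | add x y hx hy => rw [map_add, smul_add, hx, hy, add_zero]
  | succ n =>
    rw [ts35_thetaFam_succ]
    induction v using TensorProduct.induction_on with
    | zero => simp
    | tmul r x =>
      rw [LinearMap.baseChange_tmul, LinearMap.baseChange_tmul, ← TensorProduct.tmul_smul]
      show r ⊗ₜ[ℤ] ((p : ℤ) • θ (n + 1 + 1) x) = r ⊗ₜ[ℤ] θ (n + 1) x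
      rw [hc (n + 1) (Nat.succ_le_succ (Nat.zero_le n))]
    | add x y hx hy => rw [map_add, map_add, smul_add, hx, hy]

/-- **The limit map** `R ⊗[ℤ] L → T(R ⊗[ℤ] J)` of a compatible family `θ n : L → J`
(`p • θ 1 = 0`, `p • θ (n + 1) = θ n` for `n ≥ 1`). -/
def ts35_theta : R ⊗[ℤ] L →ₗ[R] ts35_T (p : R) (R ⊗[ℤ] J) :=
  ts35_lim (ts35_thetaFam R θ) (ts35_thetaFam_zero R θ) (ts35_thetaFam_compat R p θ h1 hc)

theorem ts35_theta_apply_succ (v : R ⊗[ℤ] L) (n : ℕ) :
    ((ts35_theta R p θ h1 hc v : ts35_T (p : R) (R ⊗[ℤ] J)) : ℕ → R ⊗[ℤ] J) (n + 1) =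
      (θ (n + 1)).toIntLinearMap.baseChange R v := by
  show ts35_thetaFam R θ (n + 1) v = _
  rw [ts35_thetaFam_succ]

/-- **Equivariance** of the limit map for operators of the form `R ⊗ φ`. -/
theorem ts35_theta_equivariant (φ : J →+ J) (t : L →+ L)
    (h : ∀ n, 1 ≤ n → ∀ x, φ (θ n x) = θ n (t x)) (v : R ⊗[ℤ] L) :
    ts35_map (p : R) (R ⊗[ℤ] J) (φ.toIntLinearMap.baseChange R) (ts35_theta R p θ h1 hc v) =
      ts35_theta R p θ h1 hc (t.toIntLinearMap.baseChange R v) := by
  apply Subtype.ext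
  funext n
  cases n with
  | zero =>
    rw [ts35_map_apply, (ts35_theta R p θ h1 hc v).2.1,
      (ts35_theta R p θ h1 hc (t.toIntLinearMap.baseChange R v)).2.1, map_zero]
  | succ n =>
    rw [ts35_map_apply, ts35_theta_apply_succ, ts35_theta_apply_succ]
    have h2 : φ.toIntLinearMap ∘ₗ (θ (n + 1)).toIntLinearMap =
        (θ (n + 1)).toIntLinearMap ∘ₗ t.toIntLinearMap :=
      LinearMap.ext fun x => h (n + 1) (Nat.succ_le_succ (Nat.zero_le n)) x
    have h3 := congrArg (fun f => LinearMap.baseChange R f v) h2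
    simp only [LinearMap.baseChange_comp, LinearMap.comp_apply] at h3
    exact h3

/-- **Non-vanishing**: if `ker (θ 1) ⊆ p • L` and `v ∉ p • (R ⊗ L)`, then the limit map does not
kill `v` (`R` flat over `ℤ`). -/
theorem ts35_theta_ne_zero [Module.Flat ℤ R]
    (hker : ∀ x, θ 1 x = 0 → ∃ y : L, x = (p : ℤ) • y) (v : R ⊗[ℤ] L)
    (hv : ¬ ∃ w : R ⊗[ℤ] L, v = (p : R) • w) : ts35_theta R p θ h1 hc v ≠ 0 := by
  intro h0
  apply hv
  have h2 : (θ 1).toIntLinearMap.baseChange R v = 0 := by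
    rw [← ts35_theta_apply_succ R p θ h1 hc v 0, h0]
    rfl
  obtain ⟨w, hw⟩ := ts35_baseChange_eq_zero R (θ 1) (p : ℤ) h1 hker v h2
  exact ⟨w, by rw [hw]; push_cast; rfl⟩

end theta

end Fermat.Agent.S30
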