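import Fermat.Agent.S30.TateQuad21
import Fermat.Agent.S30.TateSeq35
import Fermat.Agent.S30.Iface37

/-!
# S30 (rider on Project 4), row (ET), sequence-form chain (helper21)

The concrete eigen-Tate module in the sequence form of `TateSeq35` (helper35) over the
coefficient module `tt21_B O N = O ⊗[ℤ] JZero N` (`TateConc21`), and the proof of the registry
proposition `s30i37_ETClaim` (`Iface37`, helper37):

* `ea21_M p N S O a` : the `p`-compatible sequences in `O ⊗ J₀(N)` on which every `T_ℓ`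
  (`ℓ ∉ S` prime) acts by `a ℓ`;
* `ea21_rho p N S O a : GQ →* Module.End O (ea21_M p N S O a)` : the Galois action;
* `ea21_ETClaim` : `s30i37_ETClaim p N S O hp`, i.e. (M1)-(M7) for this module.

All names are prefixed `ea21_`.
-/

set_option autoImplicit false
set_option linter.unusedSectionVars false
set_option linter.unusedVariables false
set_option linter.style.longLine false
set_option linter.style.haveILetI false

open CongruenceSubgroup ModularCurve ModularCurve.Period AlgebraicCurve TensorProduct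

namespace Fermat.Agent.S30

open Fermat.Agent.S42 Fermat.Agent.S16

local notation "Qb" => AlgebraicClosure ℚ
local notation "GQ" => AlgebraicClosure ℚ ≃ₐ[ℚ] AlgebraicClosure ℚ

section ea21_defs

variable (p : ℕ) (N : ℕ) [NeZero N] (S : Finset ℕ) (O : Type) [CommRing O] (a : ℕ → O)

/-- The eigen-Tate module: the `p`-compatible sequences in `O ⊗ J₀(N)` on which every `T_ℓ`,
`ℓ ∉ S` prime, acts by the scalar `a ℓ`. -/
noncomputable def ea21_M : Submodule O (ts35_T (p : O) (tt21_B O N)) :=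
  ts35_eigen (p : O) (fun i : {ℓ : ℕ // ℓ.Prime ∧ ℓ ∉ S} => tt21_hecke O N ⟨i.1, i.2.1⟩)
    (fun i => a i.1)

theorem ea21_stable (g : GQ) (x : ts35_T (p : O) (tt21_B O N)) (hx : x ∈ ea21_M p N S O a) :
    ts35_map (p : O) (tt21_B O N) (tt21_gal O N g) x ∈ ea21_M p N S O a :=
  ts35_map_mem_eigen (tt21_gal O N g) (fun i => tt21_gal_hecke_comm O N g _) hx

/-- The Galois action on the eigen-Tate module. -/
noncomputable def ea21_rho : GQ →* Module.End O (ea21_M p N S O a) where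
  toFun g := (ts35_map (p : O) (tt21_B O N) (tt21_gal O N g)).restrict
    (fun x hx => ea21_stable p N S O a g x hx)
  map_one' := by
    refine LinearMap.ext fun w => Subtype.ext ?_
    show ts35_map (p : O) (tt21_B O N) (tt21_gal O N 1) (w : ts35_T (p : O) (tt21_B O N)) = w
    rw [map_one, map_one]
    rfl
  map_mul' g h := by
    refine LinearMap.ext fun w => Subtype.ext ?_
    show ts35_map (p : O) (tt21_B O N) (tt21_gal O N (g * h)) (w : ts35_T (p : O) (tt21_B O N)) =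
      ts35_map (p : O) (tt21_B O N) (tt21_gal O N g)
        (ts35_map (p : O) (tt21_B O N) (tt21_gal O N h) (w : ts35_T (p : O) (tt21_B O N)))
    rw [map_mul, map_mul]
    rfl

/-- The `n`-th component of an element of the eigen-Tate module. -/
def ea21_comp (w : ea21_M p N S O a) (n : ℕ) : tt21_B O N :=
  ((w : ts35_T (p : O) (tt21_B O N)) : ℕ → tt21_B O N) n

theorem ea21_comp_rho (g : GQ) (w : ea21_M p N S O a) (n : ℕ) :
    ea21_comp p N S O a (ea21_rho p N S O a g w) n = tt21_gal O N g (ea21_comp p N S O a w n) :=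
  rfl

theorem ea21_comp_add (w w' : ea21_M p N S O a) (n : ℕ) :
    ea21_comp p N S O a (w + w') n = ea21_comp p N S O a w n + ea21_comp p N S O a w' n := rfl

theorem ea21_comp_sub (w w' : ea21_M p N S O a) (n : ℕ) :
    ea21_comp p N S O a (w - w') n = ea21_comp p N S O a w n - ea21_comp p N S O a w' n := rfl

theorem ea21_comp_smul (c : O) (w : ea21_M p N S O a) (n : ℕ) :
    ea21_comp p N S O a (c • w) n = c • ea21_comp p N S O a w n := rfl

theorem ea21_comp_zero (w : ea21_M p N S O a) : ea21_comp p N S O a w 0 = 0 := w.1.2.1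

theorem ea21_comp_succ (w : ea21_M p N S O a) (n : ℕ) :
    (p : O) • ea21_comp p N S O a w (n + 1) = ea21_comp p N S O a w n := w.1.2.2 n

theorem ea21_comp_eigen (w : ea21_M p N S O a) (ℓ : ℕ) (hℓ : ℓ.Prime) (hℓS : ℓ ∉ S) (n : ℕ) :
    tt21_hecke O N ⟨ℓ, hℓ⟩ (ea21_comp p N S O a w n) = a ℓ • ea21_comp p N S O a w n :=
  (ts35_mem_eigen_iff.mp w.2) ⟨ℓ, hℓ, hℓS⟩ n

theorem ea21_ext (w w' : ea21_M p N S O a)
    (h : ∀ n, ea21_comp p N S O a w n = ea21_comp p N S O a w' n) : w = w' :=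
  Subtype.ext (Subtype.ext (funext h))

/-- An element whose `n`-th component vanishes lies in `𝔪ⁿ M`. -/
theorem ea21_mem_pow [IsLocalRing O] (hp : (p : O) ∈ IsLocalRing.maximalIdeal O)
    (z : ea21_M p N S O a) (n : ℕ) (hz : ea21_comp p N S O a z n = 0) :
    z ∈ (IsLocalRing.maximalIdeal O ^ n) • (⊤ : Submodule O (ea21_M p N S O a)) := by
  obtain ⟨y, hy⟩ := (ts35_eigen_apply_eq_zero_iff z n).mp hz
  rw [← hy]
  exact Submodule.smul_mem_smul (Ideal.pow_mem_pow hp n) Submodule.mem_top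

end ea21_defs

section ea21_main

variable (p : ℕ) [Fact p.Prime] (N : ℕ) [NeZero N] (S : Finset ℕ)
  (O : Type) [CommRing O] [IsDomain O] [IsDiscreteValuationRing O]
  [IsAdicComplete (IsLocalRing.maximalIdeal O) O] [CharZero O] (a : ℕ → O)

/-- (M1): the eigen-Tate module is torsion-free. -/
theorem ea21_M1 (hp : (p : O) ∈ IsLocalRing.maximalIdeal O) (b : O) (w : ea21_M p N S O a)
    (hbw : b • w = 0) : b = 0 ∨ w = 0 := by
  by_cases hb : b = 0
  · exact Or.inl hb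
  · right
    haveI htf : Module.IsTorsionFree O (ts35_T (p : O) (tt21_B O N)) := ts35_isTorsionFree hp
    have h1 : b • (w : ts35_T (p : O) (tt21_B O N)) = b • (0 : ts35_T (p : O) (tt21_B O N)) := by
      rw [smul_zero, ← Submodule.coe_smul, hbw]
      rfl
    exact Subtype.ext (htf.isSMulRegular (IsRegular.of_ne_zero hb) h1)

/-- (M2): the eigen-Tate module is separated. -/
theorem ea21_M2 (w : ea21_M p N S O a)
    (hw : ∀ n : ℕ, w ∈ (IsLocalRing.maximalIdeal O ^ n) • (⊤ : Submodule O (ea21_M p N S O a))) :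
    w = 0 := by
  have hpp : p.Prime := Fact.out
  have hp0 : (p : O) ≠ 0 := Nat.cast_ne_zero.mpr hpp.ne_zero
  haveI hh : IsHausdorff (IsLocalRing.maximalIdeal O) (ts35_T (p : O) (tt21_B O N)) :=
    ts35_isHausdorff hp0
  have h1 : ∀ n : ℕ, (w : ts35_T (p : O) (tt21_B O N)) ∈
      (IsLocalRing.maximalIdeal O ^ n) • (⊤ : Submodule O (ts35_T (p : O) (tt21_B O N))) := by
    intro n
    have h2 := Submodule.mem_map_of_mem (f := (ea21_M p N S O a).subtype) (hw n)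
    rw [Submodule.map_smul''] at h2
    exact Submodule.smul_mono le_rfl le_top h2
  have h3 := hh.haus (w : ts35_T (p : O) (tt21_B O N)) (fun n => by
    rw [SModEq.zero]
    exact h1 n)
  exact Subtype.ext h3

/-- (M3): the eigen-Tate module is nonzero, as soon as there are a primitive eigenvector in the
lattice and a compatible family of Kummer maps. -/
theorem ea21_M3 (hp : (p : O) ∈ IsLocalRing.maximalIdeal O)
    (hpS : p ∈ S) (hNS : ∀ q : ℕ, q.Prime → q ∣ N → q ∈ S)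
    (TL : ℕ → Module.End ℤ ↥(parabolicHoms ℤ (Gamma0 N) ℤ))
    (x0 : O ⊗[ℤ] ↥(parabolicHoms ℤ (Gamma0 N) ℤ))
    (Θ : ℕ → (↥(parabolicHoms ℤ (Gamma0 N) ℤ) →+ JZero N))
    (hTL : ∀ ℓ : ℕ, ℓ.Prime → ℓ ∉ S → ∀ x : ↥(parabolicHoms ℤ (Gamma0 N) ℤ),
      ((TL ℓ x : ↥(parabolicHoms ℤ (Gamma0 N) ℤ)) : Additive ↥(Gamma0 N) →+ ℤ) =
        heckeHom N ℓ ℤ (x : Additive ↥(Gamma0 N) →+ ℤ))
    (hx0 : x0 ∉ IsLocalRing.maximalIdeal O •
      (⊤ : Submodule O (O ⊗[ℤ] ↥(parabolicHoms ℤ (Gamma0 N) ℤ))))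
    (hx0a : ∀ ℓ : ℕ, ℓ.Prime → ℓ ∉ S → (TL ℓ).baseChange O x0 = a ℓ • x0)
    (hΘ : s30i37_ThetaFamily N p Θ) :
    ∃ w : ea21_M p N S O a, w ≠ 0 := by
  classical
  obtain ⟨hΘ1, hΘ2, hΘ3, hΘ4⟩ := hΘ
  have hpp : p.Prime := Fact.out
  have h1 : ∀ x, (p : ℤ) • Θ 1 x = 0 := by
    intro x
    have := hΘ1 1 x
    rwa [pow_one] at this
  have hc : ∀ n, 1 ≤ n → ∀ x, (p : ℤ) • Θ (n + 1) x = Θ n x := fun n _ x => hΘ4 n x
  have hker : ∀ x, Θ 1 x = 0 → ∃ y : ↥(parabolicHoms ℤ (Gamma0 N) ℤ), x = (p : ℤ) • y := by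
    intro x hx
    obtain ⟨y, hy⟩ := hΘ2 1 x hx
    refine ⟨y, ?_⟩
    rw [hy, pow_one, natCast_zsmul]
  have hv : ¬ ∃ w : O ⊗[ℤ] ↥(parabolicHoms ℤ (Gamma0 N) ℤ), x0 = (p : O) • w := by
    rintro ⟨w, rfl⟩
    exact hx0 (Submodule.smul_mem_smul hp Submodule.mem_top)
  have hne := ts35_theta_ne_zero O p Θ h1 hc hker x0 hv
  have hmem : ts35_theta O p Θ h1 hc x0 ∈ ea21_M p N S O a := by
    refine ts35_mem_eigen.mpr ?_
    rintro ⟨ℓ, hℓ, hℓS⟩
    have hℓN : ¬ ℓ ∣ N := fun h => hℓS (hNS ℓ hℓ h)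
    have hℓp : ℓ ≠ p := fun h => hℓS (h ▸ hpS)
    have hℓp' : ¬ ℓ ∣ p := fun h => hℓp ((Nat.prime_dvd_prime_iff_eq hℓ hpp).mp h)
    have key := ts35_theta_equivariant O p Θ h1 hc
      ((heckeOperatorBar N ⟨ℓ, hℓ⟩ : JZero N →ₗ[ℤ] JZero N).toAddMonoidHom)
      ((TL ℓ : ↥(parabolicHoms ℤ (Gamma0 N) ℤ) →ₗ[ℤ]
        ↥(parabolicHoms ℤ (Gamma0 N) ℤ)).toAddMonoidHom)
      (by
        intro n _ x
        have hnd : ¬ ((⟨ℓ, hℓ⟩ : Nat.Primes) : ℕ) ∣ N * p ^ n := by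
          intro hd
          rcases (Nat.Prime.dvd_mul hℓ).mp hd with h | h
          · exact hℓN h
          · exact hℓp' (hℓ.dvd_of_dvd_pow h)
        obtain ⟨hχ, hh⟩ := hΘ3 n ⟨ℓ, hℓ⟩ hnd x
        show heckeOperatorBar N ⟨ℓ, hℓ⟩ (Θ n x) = Θ n (TL ℓ x)
        rw [hh]
        congr 1
        exact Subtype.ext (hTL ℓ hℓ hℓS x).symm) x0
    have e1 : ((heckeOperatorBar N ⟨ℓ, hℓ⟩ : JZero N →ₗ[ℤ] JZero N).toAddMonoidHom).toIntLinearMap
        = heckeOperatorBar N ⟨ℓ, hℓ⟩ := LinearMap.ext fun _ => rfl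
    have e2 : ((TL ℓ : ↥(parabolicHoms ℤ (Gamma0 N) ℤ) →ₗ[ℤ]
        ↥(parabolicHoms ℤ (Gamma0 N) ℤ)).toAddMonoidHom).toIntLinearMap = TL ℓ :=
      LinearMap.ext fun _ => rfl
    rw [e1, e2, hx0a ℓ hℓ hℓS, map_smul] at key
    exact key
  refine ⟨⟨_, hmem⟩, fun h0 => hne ?_⟩
  exact congrArg Subtype.val h0

/-- (M4): the quadratic relation in the Cauchy sense. -/
theorem ea21_M4 (hp : (p : O) ∈ IsLocalRing.maximalIdeal O)
    (hpS : p ∈ S) (hNS : ∀ q : ℕ, q.Prime → q ∣ N → q ∈ S)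
    (g : GQ) (w : ea21_M p N S O a) (n : ℕ) :
    ∃ b : O, ea21_rho p N S O a g w +
      ((ca15_eps p (IsLocalRing.maximalIdeal O) hp g : Oˣ) : O) • ea21_rho p N S O a g⁻¹ w - b • w ∈
        (IsLocalRing.maximalIdeal O ^ n) • (⊤ : Submodule O (ea21_M p N S O a)) := by
  obtain ⟨c, hc⟩ := tt21_quad_seq O N (IsLocalRing.maximalIdeal O) p hp S hpS hNS a
    (fun k => ea21_comp p N S O a w k) (ea21_comp_zero p N S O a w)
    (ea21_comp_succ p N S O a w)
    (fun ℓ hℓ hℓS k => ea21_comp_eigen p N S O a w ℓ hℓ hℓS k) g n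
  refine ⟨c, ea21_mem_pow p N S O a hp _ n ?_⟩
  show tt21_gal O N g (ea21_comp p N S O a w n) +
    ((ca15_eps p (IsLocalRing.maximalIdeal O) hp g : Oˣ) : O) •
      tt21_gal O N g⁻¹ (ea21_comp p N S O a w n) - c • ea21_comp p N S O a w n = 0
  rw [hc, sub_self]

/-- (M5): trivial inertia at `q ∤ N`, `q ≠ p`. -/
theorem ea21_M5 (q : ℕ) (hq : q.Prime) (hqN : ¬ q ∣ N) (hqp : q ≠ p)
    (P : ValuationSubring Qb) (hP : P.LiesOverPrime q) (σ : GQ)
    (hσ : σ ∈ P.inertiaSubgroupIn ℚ) : ea21_rho p N S O a σ = 1 := by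
  have hpp : p.Prime := Fact.out
  refine LinearMap.ext fun w => ea21_ext p N S O a _ _ fun n => ?_
  rw [ea21_comp_rho]
  have hqp' : ¬ q ∣ p := fun h => hqp ((Nat.prime_dvd_prime_iff_eq hq hpp).mp h)
  exact tt21_seq_inertia O N p q hq hqN hqp' P hP σ hσ
    (fun k => ea21_comp p N S O a w k) (ea21_comp_zero p N S O a w)
    (ea21_comp_succ p N S O a w) n

/-- (M6): open stabilisers modulo `𝔪ⁿ`, vectorwise. -/
theorem ea21_M6 (hp : (p : O) ∈ IsLocalRing.maximalIdeal O) (w : ea21_M p N S O a) (n : ℕ) :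
    ∃ E : IntermediateField ℚ Qb, FiniteDimensional ℚ E ∧
      ∀ σ : GQ, (∀ x ∈ E, σ x = x) → ea21_rho p N S O a σ w - w ∈
        (IsLocalRing.maximalIdeal O ^ n) • (⊤ : Submodule O (ea21_M p N S O a)) := by
  have hpp : p.Prime := Fact.out
  obtain ⟨E, hE, hfix⟩ := tt21_seq_open O N p hpp.ne_zero
    (fun k => ea21_comp p N S O a w k) (ea21_comp_zero p N S O a w)
    (ea21_comp_succ p N S O a w) n
  refine ⟨E, hE, fun σ hσ => ea21_mem_pow p N S O a hp _ n ?_⟩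
  show tt21_gal O N σ (ea21_comp p N S O a w n) - ea21_comp p N S O a w n = 0
  rw [hfix σ hσ, sub_self]

/-- (M7): Eichler-Shimura at the Frobenius elements. -/
theorem ea21_M7 (hpS : p ∈ S) (ℓ : ℕ) (hℓ : ℓ.Prime) (hℓN : ¬ ℓ ∣ N) (hℓS : ℓ ∉ S)
    (A : ValuationSubring Qb) (hA : A.LiesOverPrime ℓ) (τ : GQ) (hτ : A.IsFrobeniusAt τ ℓ)
    (w : ea21_M p N S O a) :
    ea21_rho p N S O a τ (ea21_rho p N S O a τ w) - a ℓ • ea21_rho p N S O a τ w
      + (ℓ : O) • w = 0 := by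
  have hpp : p.Prime := Fact.out
  have hℓp : ℓ ≠ p := fun h => hℓS (h ▸ hpS)
  have hℓp' : ¬ ℓ ∣ p := fun h => hℓp ((Nat.prime_dvd_prime_iff_eq hℓ hpp).mp h)
  refine ea21_ext p N S O a _ _ fun n => ?_
  have hfr := tt21_seq_frob O N p ℓ hℓ hℓN hℓp' A hA τ hτ
    (fun k => ea21_comp p N S O a w k) (ea21_comp_zero p N S O a w)
    (ea21_comp_succ p N S O a w) n
  have hcomm : tt21_hecke O N ⟨ℓ, hℓ⟩ (tt21_gal O N τ (ea21_comp p N S O a w n)) =
      a ℓ • tt21_gal O N τ (ea21_comp p N S O a w n) := by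
    rw [← tt21_gal_hecke_comm_apply, ea21_comp_eigen p N S O a w ℓ hℓ hℓS n, map_smul]
  rw [hcomm] at hfr
  show tt21_gal O N τ (tt21_gal O N τ (ea21_comp p N S O a w n)) -
    a ℓ • tt21_gal O N τ (ea21_comp p N S O a w n) + (ℓ : O) • ea21_comp p N S O a w n = 0
  exact hfr

/-- **Row (ET)**: the registry proposition `s30i37_ETClaim` holds (sequence-form chain). -/
theorem ea21_ETClaim (hp : (p : O) ∈ IsLocalRing.maximalIdeal O) : s30i37_ETClaim p N S O hp := by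
  intro hpS hNS a TL x0 Θ hTL hx0 hx0a hΘ
  exact ⟨↥(ea21_M p N S O a), inferInstance, inferInstance, ea21_rho p N S O a,
    ea21_M1 p N S O a hp, ea21_M2 p N S O a,
    ea21_M3 p N S O a hp hpS hNS TL x0 Θ hTL hx0 hx0a hΘ,
    ea21_M4 p N S O a hp hpS hNS,
    ea21_M5 p N S O a,
    ea21_M6 p N S O a hp,
    fun ℓ hℓ hℓN hℓS A hA τ hτ w => ea21_M7 p N S O a hpS ℓ hℓ hℓN hℓS A hA τ hτ w⟩

end ea21_main

end Fermat.Agent.S30
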