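/-
Fermat/Agent/S30/ConjSplit32.lean  (helper32)

Conjugation splitting over a complete discrete valuation ring (Mathlib only).

Setting: `𝒪` a complete DVR with `2 ≠ 0`, uniformiser `ϖ`; `M` a torsion-free, `ϖ`-adically
separated `𝒪`-module (NOT assumed finitely generated) with an action `ρ` of a group `G` such that
every `g` satisfies `ρ(g)² - t(g) ρ(g) + ε(g) = 0` for a character `ε : G → 𝒪ˣ`, and an
involution `c ∈ G` with `ε(c) = -1`.

Results.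
* `cs32_main`: a homomorphism `A : G → M₂(𝒪)` and a finite set `s ⊆ M` with
  `trace (A g) = t(g)`, `det (A g) = ε(g)`, such that `A g ≡ 1 mod ϖⁿ` whenever
  `ρ g w ≡ w mod ϖⁿ M` for `w ∈ s` and `ε g ≡ 1 mod ϖⁿ`, and `A g = 1` whenever `ρ g` fixes `s`
  and `ε g = 1`.
* `cs32_exists_t`: the exact relation `ρ g + ε(g) ρ g⁻¹ = t(g)` from the levelwise relation
  (with scalars depending on the vector and on the level).
* `cs32_core`: both together, in the ideal form `(maximalIdeal ^ n) • ⊤`.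

Idea: with `σ = ρ c`, the relation at `g` and `g c` gives
`ρ(g) σ + σ ρ(g) = t(g) σ + t(g c)`; for an eigenvector `x` of `σ` (eigenvalue `θ = ±1`) the
vector `Y θ g x = 2 ρ(g) x - (t g + θ t(g c)) x` lies in the other eigenspace, and comparing
eigen-components of `4 ρ(g h) x` shows that the `G`-span of `x` has rank at most two.  The
saturation of that span in `M` is free (completeness of `𝒪` and separatedness of `M`).
-/
import Mathlib

set_option autoImplicit false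

namespace Fermat.Agent.S30

section cs32_identities

variable {R : Type*} [CommRing R] {G : Type*} [Group G] {M : Type*} [AddCommGroup M] [Module R M]

/-- inverse form of the quadratic relation -/
theorem cs32_inv (ρ : G →* Module.End R M) (ε : G →* Rˣ) (t : G → R)
    (hq : ∀ g m, ρ g (ρ g m) - t g • ρ g m + (ε g : R) • m = 0) (g : G) (m : M) :
    ρ g m + (ε g : R) • ρ g⁻¹ m = t g • m := by
  have h := hq g (ρ g⁻¹ m)
  have h1 : ρ g (ρ g⁻¹ m) = m := by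
    rw [← Module.End.mul_apply, ← map_mul, mul_inv_cancel, map_one, Module.End.one_apply]
  rw [h1] at h
  linear_combination (norm := module) h

/-- the key commutation identity with the involution `σ = ρ c` -/
theorem cs32_star (ρ : G →* Module.End R M) (ε : G →* Rˣ) (t : G → R)
    (hq : ∀ g m, ρ g (ρ g m) - t g • ρ g m + (ε g : R) • m = 0)
    (c : G) (hc : c * c = 1) (hεc : (ε c : R) = -1) (g : G) (m : M) :
    ρ g (ρ c m) + ρ c (ρ g m) = t g • ρ c m + t (g * c) • m := by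
  have hcinv : c⁻¹ = c := inv_eq_of_mul_eq_one_left hc
  have h1 := cs32_inv ρ ε t hq (g * c) m
  have h2 := cs32_inv ρ ε t hq g m
  have h3 : ρ (g * c) m = ρ g (ρ c m) := by rw [map_mul, Module.End.mul_apply]
  have h4 : ρ (g * c)⁻¹ m = ρ c (ρ g⁻¹ m) := by
    rw [mul_inv_rev, hcinv, map_mul, Module.End.mul_apply]
  have h5 : ((ε (g * c) : Rˣ) : R) = - (ε g : R) := by
    rw [map_mul, Units.val_mul, hεc, mul_neg_one]
  rw [h3, h4, h5] at h1
  have h6 := congrArg (ρ c) h2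
  rw [map_add, map_smul, map_smul] at h6
  linear_combination (norm := module) h1 + h6

/-- `Y θ g w = 2 ρ(g) w - (t g + θ t(g c)) w`: the component of `2 ρ(g) w` in the other
eigenspace of the involution. -/
def cs32_Y (ρ : G →* Module.End R M) (t : G → R) (c : G) (θ : R) (g : G) (w : M) : M :=
  (2 : R) • ρ g w - (t g + θ * t (g * c)) • w

theorem cs32_Y_smul (ρ : G →* Module.End R M) (t : G → R) (c : G) (θ : R) (g : G) (r : R)
    (w : M) : cs32_Y ρ t c θ g (r • w) = r • cs32_Y ρ t c θ g w := by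
  unfold cs32_Y
  rw [map_smul]
  module

theorem cs32_Y_eigen (ρ : G →* Module.End R M) (ε : G →* Rˣ) (t : G → R)
    (hq : ∀ g m, ρ g (ρ g m) - t g • ρ g m + (ε g : R) • m = 0)
    (c : G) (hc : c * c = 1) (hεc : (ε c : R) = -1) (θ : R) (hθ : θ * θ = 1)
    (w : M) (hw : ρ c w = θ • w) (g : G) :
    ρ c (cs32_Y ρ t c θ g w) = (-θ) • cs32_Y ρ t c θ g w := by
  have h := cs32_star ρ ε t hq c hc hεc g w
  rw [hw, map_smul] at h
  have hθw : (θ * θ) • w = w := by rw [hθ, one_smul]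
  unfold cs32_Y
  rw [map_sub, map_smul, map_smul, hw]
  linear_combination (norm := module) (2 : R) • h - (2 * t (g * c)) • hθw

theorem cs32_eigen_split (σ : Module.End R M) (h2 : ∀ m : M, (2 : R) • m = 0 → m = 0)
    (θ : R) (hθ : θ * θ = 1) {u v : M} (hu : σ u = θ • u) (hv : σ v = (-θ) • v)
    (h : u + v = 0) : u = 0 ∧ v = 0 := by
  have h1 := congrArg σ h
  rw [map_add, hu, hv, map_zero] at h1
  have h3 : (2 : R) • u = 0 := by
    have h4 := congrArg (fun m => θ • m) h1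
    simp only [smul_add, smul_zero, smul_smul] at h4
    have e1 : (θ * θ) • u = u := by rw [hθ, one_smul]
    have e2 : (θ * -θ) • v = - v := by rw [mul_neg, hθ, neg_one_smul]
    rw [e1, e2] at h4
    linear_combination (norm := module) h + h4
  have hu0 := h2 u h3
  refine ⟨hu0, ?_⟩
  rw [hu0, zero_add] at h
  exact h

/-- Comparing the eigen-components of `4 ρ(g h) x`. -/
theorem cs32_comp (ρ : G →* Module.End R M) (ε : G →* Rˣ) (t : G → R)
    (hq : ∀ g m, ρ g (ρ g m) - t g • ρ g m + (ε g : R) • m = 0)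
    (c : G) (hc : c * c = 1) (hεc : (ε c : R) = -1)
    (h2 : ∀ m : M, (2 : R) • m = 0 → m = 0) (θ : R) (hθ : θ * θ = 1)
    (x : M) (hx : ρ c x = θ • x) (g h : G) :
    cs32_Y ρ t c (-θ) g (cs32_Y ρ t c θ h x) =
        (2 * (t (g * h) + θ * t (g * h * c)) -
          (t g + θ * t (g * c)) * (t h + θ * t (h * c))) • x ∧
      (2 : R) • cs32_Y ρ t c θ (g * h) x =
        (t h + θ * t (h * c)) • cs32_Y ρ t c θ g x +
          (t g + (-θ) * t (g * c)) • cs32_Y ρ t c θ h x := by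
  have hθ' : (-θ) * (-θ) = 1 := by rw [neg_mul_neg, hθ]
  have hyh := cs32_Y_eigen ρ ε t hq c hc hεc θ hθ x hx h
  have hyg := cs32_Y_eigen ρ ε t hq c hc hεc θ hθ x hx g
  have hygh := cs32_Y_eigen ρ ε t hq c hc hεc θ hθ x hx (g * h)
  have hz := cs32_Y_eigen ρ ε t hq c hc hεc (-θ) hθ' _ hyh g
  rw [neg_neg] at hz
  set z := cs32_Y ρ t c (-θ) g (cs32_Y ρ t c θ h x) with hzdef
  set u : M := (2 * (t (g * h) + θ * t (g * h * c)) -
          (t g + θ * t (g * c)) * (t h + θ * t (h * c))) • x - z with hu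
  set v : M := (2 : R) • cs32_Y ρ t c θ (g * h) x -
        ((t h + θ * t (h * c)) • cs32_Y ρ t c θ g x +
          (t g + (-θ) * t (g * c)) • cs32_Y ρ t c θ h x) with hv
  have hσu : ρ c u = θ • u := by
    rw [hu, map_sub, map_smul, hx, hz]
    module
  have hσv : ρ c v = (-θ) • v := by
    rw [hv, map_sub, map_add, map_smul, map_smul, map_smul, hygh, hyg, hyh]
    module
  have huv : u + v = 0 := by
    have e : ρ (g * h) x = ρ g (ρ h x) := by rw [map_mul, Module.End.mul_apply]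
    rw [hu, hv, hzdef]
    unfold cs32_Y
    rw [e, map_sub, map_smul, map_smul]
    module
  obtain ⟨hu0, hv0⟩ := cs32_eigen_split (ρ c) h2 θ hθ hσu hσv huv
  exact ⟨(sub_eq_zero.mp hu0).symm, sub_eq_zero.mp hv0⟩

end cs32_identities

section cs32_rank2data

variable {R : Type*} [CommRing R] {G : Type*} [Group G] {M : Type*} [AddCommGroup M] [Module R M]

/-- Structure constants in the nondegenerate case: with `y = Y θ h0 x` and
`μ g = 2 a(g h0) - a(g) a(h0)`, `ν g = 2 b(g g0) - b(g) b(g0)`, the span of `x, y` is stable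
up to the denominator `2 μ(g0)`. -/
theorem cs32_rank2_data (ρ : G →* Module.End R M) (ε : G →* Rˣ) (t : G → R)
    (hq : ∀ g m, ρ g (ρ g m) - t g • ρ g m + (ε g : R) • m = 0)
    (c : G) (hc : c * c = 1) (hεc : (ε c : R) = -1)
    (h2 : ∀ m : M, (2 : R) • m = 0 → m = 0) (θ : R) (hθ : θ * θ = 1)
    (x : M) (hx : ρ c x = θ • x) (h0 g0 g : G) :
    (2 * (2 * (t (g0 * h0) + θ * t (g0 * h0 * c)) -
          (t g0 + θ * t (g0 * c)) * (t h0 + θ * t (h0 * c)))) • ρ g x =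
      ((2 * (t (g0 * h0) + θ * t (g0 * h0 * c)) -
          (t g0 + θ * t (g0 * c)) * (t h0 + θ * t (h0 * c))) * (t g + θ * t (g * c))) • x +
      (2 * (t (g * g0) + (-θ) * t (g * g0 * c)) -
          (t g + (-θ) * t (g * c)) * (t g0 + (-θ) * t (g0 * c))) • cs32_Y ρ t c θ h0 x ∧
    (2 * (2 * (t (g0 * h0) + θ * t (g0 * h0 * c)) -
          (t g0 + θ * t (g0 * c)) * (t h0 + θ * t (h0 * c)))) • ρ g (cs32_Y ρ t c θ h0 x) =
      ((2 * (t (g0 * h0) + θ * t (g0 * h0 * c)) -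
          (t g0 + θ * t (g0 * c)) * (t h0 + θ * t (h0 * c))) *
        (2 * (t (g * h0) + θ * t (g * h0 * c)) -
          (t g + θ * t (g * c)) * (t h0 + θ * t (h0 * c)))) • x +
      ((2 * (t (g0 * h0) + θ * t (g0 * h0 * c)) -
          (t g0 + θ * t (g0 * c)) * (t h0 + θ * t (h0 * c))) *
        (t g + (-θ) * t (g * c))) • cs32_Y ρ t c θ h0 x := by
  have hθ' : (-θ) * (-θ) = 1 := by rw [neg_mul_neg, hθ]
  have hy := cs32_Y_eigen ρ ε t hq c hc hεc θ hθ x hx h0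
  set y := cs32_Y ρ t c θ h0 x with hydef
  have e1 := (cs32_comp ρ ε t hq c hc hεc h2 θ hθ x hx g h0).1
  have e2 := (cs32_comp ρ ε t hq c hc hεc h2 θ hθ x hx g0 h0).1
  have e3 := (cs32_comp ρ ε t hq c hc hεc h2 (-θ) hθ' y hy g g0).1
  rw [← hydef] at e1 e2
  rw [neg_neg, e2, cs32_Y_smul] at e3
  unfold cs32_Y at e1 e3
  constructor
  · linear_combination (norm := module) e3
  · linear_combination (norm := module)
      (2 * (t (g0 * h0) + θ * t (g0 * h0 * c)) -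
          (t g0 + θ * t (g0 * c)) * (t h0 + θ * t (h0 * c))) • e1

end cs32_rank2data

section cs32_lattice

variable {𝒪 : Type*} [CommRing 𝒪] [IsDomain 𝒪] [IsDiscreteValuationRing 𝒪]
  {M : Type*} [AddCommGroup M] [Module 𝒪 M]

/-- `v` is not divisible by `ϖ`. -/
def cs32_Prim (ϖ : 𝒪) (v : M) : Prop := ¬ ∃ m : M, v = ϖ • m

omit [IsDomain 𝒪] [IsDiscreteValuationRing 𝒪] in
theorem cs32_prim_ne_zero {ϖ : 𝒪} {v : M} (hv : cs32_Prim ϖ v) : v ≠ 0 := by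
  rintro rfl
  exact hv ⟨0, by rw [smul_zero]⟩

omit [IsDomain 𝒪] [IsDiscreteValuationRing 𝒪] in
theorem cs32_exists_prim {ϖ : 𝒪}
    (hsep : ∀ m : M, (∀ n : ℕ, ∃ m' : M, m = ϖ ^ n • m') → m = 0) {m : M} (hm : m ≠ 0) :
    ∃ (k : ℕ) (v : M), m = ϖ ^ k • v ∧ cs32_Prim ϖ v := by
  classical
  have hex : ∃ n : ℕ, ¬ ∃ m' : M, m = ϖ ^ n • m' := by
    by_contra hcon
    exact hm (hsep m fun n => by_contra fun h => hcon ⟨n, h⟩)
  have h0 : Nat.find hex ≠ 0 := by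
    intro h0
    have := Nat.find_spec hex
    rw [h0] at this
    exact this ⟨m, by rw [pow_zero, one_smul]⟩
  obtain ⟨k, hk⟩ := Nat.exists_eq_succ_of_ne_zero h0
  have hk1 : ∃ m' : M, m = ϖ ^ k • m' := by
    by_contra hcon
    exact Nat.find_min hex (by rw [hk]; exact Nat.lt_succ_self k) hcon
  obtain ⟨v, hv⟩ := hk1
  refine ⟨k, v, hv, ?_⟩
  rintro ⟨m'', hm''⟩
  apply Nat.find_spec hex
  rw [hk]
  exact ⟨m'', by rw [hv, hm'', pow_succ, mul_smul]⟩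

theorem cs32_dvd_of_prim {ϖ : 𝒪} (hϖ : Irreducible ϖ)
    (htf : ∀ (r : 𝒪) (m : M), r • m = 0 → r = 0 ∨ m = 0)
    {v : M} (hv : cs32_Prim ϖ v) {r : 𝒪} {n : ℕ} {m : M} (h : r • v = ϖ ^ n • m) :
    ϖ ^ n ∣ r := by
  by_cases hr : r = 0
  · rw [hr]; exact dvd_zero _
  obtain ⟨k, u, rfl⟩ := IsDiscreteValuationRing.eq_unit_mul_pow_irreducible hr hϖ
  by_cases hk : n ≤ k
  · exact Dvd.dvd.mul_left (pow_dvd_pow ϖ hk) _
  · exfalso
    obtain ⟨d, rfl⟩ := Nat.exists_eq_add_of_lt (not_le.mp hk)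
    apply hv
    have h1 : ϖ ^ k • ((u : 𝒪) • v - ϖ ^ (d + 1) • m) = 0 := by
      rw [smul_sub, smul_smul, smul_smul, mul_comm (ϖ ^ k) (u : 𝒪), h, ← pow_add, add_assoc,
        sub_self]
    rcases htf _ _ h1 with h2 | h2
    · exact absurd h2 (pow_ne_zero _ hϖ.ne_zero)
    · refine ⟨((↑u⁻¹ : 𝒪) * ϖ ^ d) • m, ?_⟩
      have h3 : (u : 𝒪) • v = ϖ ^ (d + 1) • m := sub_eq_zero.mp h2
      calc v = (↑u⁻¹ : 𝒪) • ((u : 𝒪) • v) := by rw [smul_smul, Units.inv_mul, one_smul]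
        _ = ϖ • ((↑u⁻¹ : 𝒪) * ϖ ^ d) • m := by
          rw [h3, smul_smul, smul_smul]
          congr 1
          ring

theorem cs32_sat1 {ϖ : 𝒪} (hϖ : Irreducible ϖ)
    (htf : ∀ (r : 𝒪) (m : M), r • m = 0 → r = 0 ∨ m = 0)
    {v : M} (hv : cs32_Prim ϖ v) {r : 𝒪} (hr : r ≠ 0) {m : M} {b : 𝒪} (h : r • m = b • v) :
    ∃ a : 𝒪, m = a • v := by
  obtain ⟨k, u, rfl⟩ := IsDiscreteValuationRing.eq_unit_mul_pow_irreducible hr hϖ
  have h1 : b • v = ϖ ^ k • ((u : 𝒪) • m) := by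
    rw [← h, smul_smul, mul_comm]
  obtain ⟨b', rfl⟩ := cs32_dvd_of_prim hϖ htf hv h1
  have h2 : ϖ ^ k • ((u : 𝒪) • m - b' • v) = 0 := by
    rw [smul_sub, ← h1, smul_smul, sub_self]
  rcases htf _ _ h2 with h3 | h3
  · exact absurd h3 (pow_ne_zero _ hϖ.ne_zero)
  · refine ⟨(↑u⁻¹ : 𝒪) * b', ?_⟩
    have h4 : (u : 𝒪) • m = b' • v := sub_eq_zero.mp h3
    calc m = (↑u⁻¹ : 𝒪) • ((u : 𝒪) • m) := by rw [smul_smul, Units.inv_mul, one_smul]
      _ = _ := by rw [h4, smul_smul]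

theorem cs32_cauchy [IsAdicComplete (IsLocalRing.maximalIdeal 𝒪) 𝒪] {ϖ : 𝒪}
    (hϖ : Irreducible ϖ) (f : ℕ → 𝒪) (hf : ∀ n, ϖ ^ n ∣ f (n + 1) - f n) :
    ∃ L : 𝒪, ∀ n, ϖ ^ n ∣ f n - L := by
  have hmax : IsLocalRing.maximalIdeal 𝒪 = Ideal.span {ϖ} := hϖ.maximalIdeal_eq
  have hmem : ∀ (n : ℕ) (a : 𝒪),
      a ∈ (IsLocalRing.maximalIdeal 𝒪 ^ n • ⊤ : Submodule 𝒪 𝒪) ↔ ϖ ^ n ∣ a := by
    intro n a
    rw [smul_eq_mul, Ideal.mul_top, hmax, Ideal.span_singleton_pow, Ideal.mem_span_singleton]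
  have hmono : ∀ m n : ℕ, m ≤ n → ϖ ^ m ∣ f n - f m := by
    intro m n hmn
    induction n, hmn using Nat.le_induction with
    | base => rw [sub_self]; exact dvd_zero _
    | succ n hmn ih =>
      have h1 : f (n + 1) - f m = (f (n + 1) - f n) + (f n - f m) := by ring
      rw [h1]
      exact dvd_add (dvd_trans (pow_dvd_pow ϖ hmn) (hf n)) ih
  obtain ⟨L, hL⟩ := IsPrecomplete.prec (I := IsLocalRing.maximalIdeal 𝒪) (M := 𝒪)
    inferInstance (f := f) (by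
      intro m n hmn
      rw [SModEq.sub_mem, hmem]
      have := hmono m n hmn
      rwa [← neg_sub, dvd_neg])
  refine ⟨L, fun n => ?_⟩
  have := hL n
  rwa [SModEq.sub_mem, hmem] at this

theorem cs32_exists_prim2 [IsAdicComplete (IsLocalRing.maximalIdeal 𝒪) 𝒪] {ϖ : 𝒪}
    (hϖ : Irreducible ϖ) (htf : ∀ (r : 𝒪) (m : M), r • m = 0 → r = 0 ∨ m = 0)
    (hsep : ∀ m : M, (∀ n : ℕ, ∃ m' : M, m = ϖ ^ n • m') → m = 0)
    {v1 : M} (hv1 : cs32_Prim ϖ v1) {y : M} (hy : ∀ c : 𝒪, y ≠ c • v1) :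
    ∃ (k : ℕ) (v2 : M) (c0 : 𝒪), y = ϖ ^ k • v2 + c0 • v1 ∧
      ¬ ∃ (m : M) (c : 𝒪), v2 = ϖ • m + c • v1 := by
  classical
  have hex : ∃ n : ℕ, ¬ ∃ (m : M) (c : 𝒪), y = ϖ ^ n • m + c • v1 := by
    by_contra hcon
    have hcon' : ∀ n : ℕ, ∃ (m : M) (c : 𝒪), y = ϖ ^ n • m + c • v1 :=
      fun n => by_contra fun h => hcon ⟨n, h⟩
    choose mm cc hmc using hcon'
    have hstep : ∀ n, ϖ ^ n ∣ cc (n + 1) - cc n := by
      intro n
      have h1 : (cc (n + 1) - cc n) • v1 = ϖ ^ n • (mm n - ϖ • mm (n + 1)) := by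
        have e1 := hmc n
        have e2 := hmc (n + 1)
        rw [pow_succ] at e2
        rw [e1] at e2
        linear_combination (norm := module) (-1 : 𝒪) • e2
      exact cs32_dvd_of_prim hϖ htf hv1 h1
    obtain ⟨L, hL⟩ := cs32_cauchy hϖ cc hstep
    choose q hq using hL
    apply hy L
    have h0 : y - L • v1 = 0 := by
      apply hsep
      intro n
      refine ⟨mm n + q n • v1, ?_⟩
      have e1 := hmc n
      have e2 := hq n
      have e3 : (cc n - L) • v1 = (ϖ ^ n * q n) • v1 := by rw [e2]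
      rw [e1]
      linear_combination (norm := module) e3
    exact sub_eq_zero.mp h0
  have h0 : Nat.find hex ≠ 0 := by
    intro h0
    have := Nat.find_spec hex
    rw [h0] at this
    exact this ⟨y, 0, by rw [pow_zero, one_smul, zero_smul, add_zero]⟩
  obtain ⟨k, hk⟩ := Nat.exists_eq_succ_of_ne_zero h0
  have hk1 : ∃ (m : M) (c : 𝒪), y = ϖ ^ k • m + c • v1 := by
    by_contra hcon
    exact Nat.find_min hex (by rw [hk]; exact Nat.lt_succ_self k) hcon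
  obtain ⟨v2, c0, hv2⟩ := hk1
  refine ⟨k, v2, c0, hv2, ?_⟩
  rintro ⟨m, c, hm⟩
  apply Nat.find_spec hex
  rw [hk]
  refine ⟨m, ϖ ^ k * c + c0, ?_⟩
  rw [hv2, hm, pow_succ]
  module

theorem cs32_isUnit_of_not_dvd {ϖ : 𝒪} (hϖ : Irreducible ϖ) {β : 𝒪} (h : ¬ ϖ ∣ β) :
    IsUnit β := by
  have hβ : β ≠ 0 := by
    rintro rfl
    exact h (dvd_zero _)
  obtain ⟨n, u, rfl⟩ := IsDiscreteValuationRing.eq_unit_mul_pow_irreducible hβ hϖ
  rcases Nat.eq_zero_or_pos n with hn | hn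
  · rw [hn, pow_zero, mul_one]
    exact u.isUnit
  · exact absurd (Dvd.dvd.mul_left (dvd_pow_self ϖ hn.ne') _) h

theorem cs32_sat2_pow {ϖ : 𝒪} (hϖ : Irreducible ϖ)
    (htf : ∀ (r : 𝒪) (m : M), r • m = 0 → r = 0 ∨ m = 0)
    {v1 v2 : M} (hv1 : cs32_Prim ϖ v1) (hv2 : ¬ ∃ (m : M) (c : 𝒪), v2 = ϖ • m + c • v1) :
    ∀ (i : ℕ) (m : M) (α β : 𝒪), ϖ ^ i • m = α • v1 + β • v2 →
      ∃ a b : 𝒪, m = a • v1 + b • v2 := by
  intro i
  induction i with
  | zero =>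
    intro m α β h
    rw [pow_zero, one_smul] at h
    exact ⟨α, β, h⟩
  | succ i ih =>
    intro m α β h
    have hβ : ϖ ∣ β := by
      by_contra hβ
      obtain ⟨u, rfl⟩ := cs32_isUnit_of_not_dvd hϖ hβ
      apply hv2
      refine ⟨((↑u⁻¹ : 𝒪) * ϖ ^ i) • m, -(↑u⁻¹ : 𝒪) * α, ?_⟩
      have e : v2 = (↑u⁻¹ : 𝒪) • ((u : 𝒪) • v2) := by rw [smul_smul, Units.inv_mul, one_smul]
      have h' : (u : 𝒪) • v2 = ϖ ^ (i + 1) • m - α • v1 := by rw [h]; abel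
      rw [e, h', pow_succ]
      module
    obtain ⟨β', rfl⟩ := hβ
    have h1 : α • v1 = ϖ ^ 1 • (ϖ ^ i • m - β' • v2) := by
      rw [pow_succ] at h
      have h' : α • v1 = (ϖ ^ i * ϖ) • m - (ϖ * β') • v2 := by rw [h]; abel
      rw [h']
      module
    obtain ⟨α', hα'⟩ := cs32_dvd_of_prim hϖ htf hv1 h1
    rw [pow_one] at hα'
    subst hα'
    have h2 : ϖ • (ϖ ^ i • m - (α' • v1 + β' • v2)) = 0 := by
      rw [pow_succ] at h
      have h' : (ϖ ^ i * ϖ) • m - ((ϖ * α') • v1 + (ϖ * β') • v2) = 0 := by rw [h]; abel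
      rw [← h']
      module
    rcases htf _ _ h2 with h3 | h3
    · exact absurd h3 hϖ.ne_zero
    · exact ih m α' β' (sub_eq_zero.mp h3)

theorem cs32_sat2 {ϖ : 𝒪} (hϖ : Irreducible ϖ)
    (htf : ∀ (r : 𝒪) (m : M), r • m = 0 → r = 0 ∨ m = 0)
    {v1 v2 : M} (hv1 : cs32_Prim ϖ v1) (hv2 : ¬ ∃ (m : M) (c : 𝒪), v2 = ϖ • m + c • v1)
    {r : 𝒪} (hr : r ≠ 0) {m : M} {α β : 𝒪} (h : r • m = α • v1 + β • v2) :
    ∃ a b : 𝒪, m = a • v1 + b • v2 := by
  obtain ⟨k, u, rfl⟩ := IsDiscreteValuationRing.eq_unit_mul_pow_irreducible hr hϖ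
  have h1 : ϖ ^ k • ((u : 𝒪) • m) = α • v1 + β • v2 := by
    rw [← h, smul_smul, mul_comm]
  obtain ⟨a, b, hab⟩ := cs32_sat2_pow hϖ htf hv1 hv2 k _ α β h1
  refine ⟨(↑u⁻¹ : 𝒪) * a, (↑u⁻¹ : 𝒪) * b, ?_⟩
  have e : m = (↑u⁻¹ : 𝒪) • ((u : 𝒪) • m) := by rw [smul_smul, Units.inv_mul, one_smul]
  rw [e, hab]
  module

theorem cs32_indep2 {ϖ : 𝒪} (hϖ : Irreducible ϖ)
    (htf : ∀ (r : 𝒪) (m : M), r • m = 0 → r = 0 ∨ m = 0)
    {v1 v2 : M} (hv1 : cs32_Prim ϖ v1) (hv2 : ¬ ∃ (m : M) (c : 𝒪), v2 = ϖ • m + c • v1)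
    (a b : 𝒪) (h : a • v1 + b • v2 = 0) : a = 0 ∧ b = 0 := by
  have hb : b = 0 := by
    by_contra hb
    obtain ⟨j, u, rfl⟩ := IsDiscreteValuationRing.eq_unit_mul_pow_irreducible hb hϖ
    have h1 : a • v1 = ϖ ^ j • (-(u : 𝒪) • v2) := by
      have h' : a • v1 = -(((u : 𝒪) * ϖ ^ j) • v2) := eq_neg_of_add_eq_zero_left h
      rw [h']
      module
    obtain ⟨a', rfl⟩ := cs32_dvd_of_prim hϖ htf hv1 h1
    have h2 : ϖ ^ j • (a' • v1 + (u : 𝒪) • v2) = 0 := by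
      rw [← h]
      module
    rcases htf _ _ h2 with h3 | h3
    · exact absurd h3 (pow_ne_zero _ hϖ.ne_zero)
    · apply hv2
      refine ⟨0, -(↑u⁻¹ : 𝒪) * a', ?_⟩
      have e : v2 = (↑u⁻¹ : 𝒪) • ((u : 𝒪) • v2) := by rw [smul_smul, Units.inv_mul, one_smul]
      have h4 : (u : 𝒪) • v2 = -(a' • v1) := eq_neg_of_add_eq_zero_right h3
      rw [e, h4]
      module
  refine ⟨?_, hb⟩
  rw [hb, zero_smul, add_zero] at h
  rcases htf _ _ h with h1 | h1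
  · exact h1
  · exact absurd h1 (cs32_prim_ne_zero hv1)

theorem cs32_dvd2 {ϖ : 𝒪} (hϖ : Irreducible ϖ)
    (htf : ∀ (r : 𝒪) (m : M), r • m = 0 → r = 0 ∨ m = 0)
    {v1 v2 : M} (hv1 : cs32_Prim ϖ v1) (hv2 : ¬ ∃ (m : M) (c : 𝒪), v2 = ϖ • m + c • v1)
    {a b : 𝒪} {n : ℕ} {m : M} (h : a • v1 + b • v2 = ϖ ^ n • m) : ϖ ^ n ∣ a ∧ ϖ ^ n ∣ b := by
  obtain ⟨a', b', hab⟩ := cs32_sat2_pow hϖ htf hv1 hv2 n m a b h.symm
  have h1 : (a - ϖ ^ n * a') • v1 + (b - ϖ ^ n * b') • v2 = 0 := by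
    have h' : a • v1 + b • v2 - ϖ ^ n • (a' • v1 + b' • v2) = 0 := by rw [h, hab, sub_self]
    rw [← h']
    module
  obtain ⟨e1, e2⟩ := cs32_indep2 hϖ htf hv1 hv2 _ _ h1
  exact ⟨⟨a', sub_eq_zero.mp e1⟩, ⟨b', sub_eq_zero.mp e2⟩⟩

end cs32_lattice

section cs32_rep

open Polynomial

variable {𝒪 : Type*} [CommRing 𝒪] [IsDomain 𝒪] [IsDiscreteValuationRing 𝒪]
  {G : Type*} [Group G] {M : Type*} [AddCommGroup M] [Module 𝒪 M]

omit [IsDomain 𝒪] [IsDiscreteValuationRing 𝒪] in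
/-- The matrices of a representation on an independent stable pair. -/
theorem cs32_rep_of_pair (ρ : G →* Module.End 𝒪 M) (v1 v2 : M)
    (hind : ∀ a b : 𝒪, a • v1 + b • v2 = 0 → a = 0 ∧ b = 0)
    (hstab1 : ∀ g, ∃ a b : 𝒪, ρ g v1 = a • v1 + b • v2)
    (hstab2 : ∀ g, ∃ a b : 𝒪, ρ g v2 = a • v1 + b • v2) :
    ∃ A : G →* Matrix (Fin 2) (Fin 2) 𝒪, ∀ g,
      ρ g v1 = A g 0 0 • v1 + A g 1 0 • v2 ∧ ρ g v2 = A g 0 1 • v1 + A g 1 1 • v2 := by
  have huniq : ∀ a b a' b' : 𝒪, a • v1 + b • v2 = a' • v1 + b' • v2 → a = a' ∧ b = b' := by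
    intro a b a' b' h
    have h1 : (a - a') • v1 + (b - b') • v2 = 0 := by
      have h' : a • v1 + b • v2 - (a' • v1 + b' • v2) = 0 := sub_eq_zero.mpr h
      rw [← h']
      module
    obtain ⟨e1, e2⟩ := hind _ _ h1
    exact ⟨sub_eq_zero.mp e1, sub_eq_zero.mp e2⟩
  choose a1 b1 h1 using hstab1
  choose a2 b2 h2 using hstab2
  have hone : a1 1 = 1 ∧ b1 1 = 0 ∧ a2 1 = 0 ∧ b2 1 = 1 := by
    have e1 := h1 1
    have e2 := h2 1
    rw [map_one, Module.End.one_apply] at e1 e2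
    have f1 := huniq (a1 1) (b1 1) 1 0 (by rw [← e1, one_smul, zero_smul, add_zero])
    have f2 := huniq (a2 1) (b2 1) 0 1 (by rw [← e2, one_smul, zero_smul, zero_add])
    exact ⟨f1.1, f1.2, f2.1, f2.2⟩
  have hmul : ∀ g h : G,
      a1 (g * h) = a1 g * a1 h + a2 g * b1 h ∧ b1 (g * h) = b1 g * a1 h + b2 g * b1 h ∧
      a2 (g * h) = a1 g * a2 h + a2 g * b2 h ∧ b2 (g * h) = b1 g * a2 h + b2 g * b2 h := by
    intro g h
    have e1 : ρ (g * h) v1 =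
        (a1 g * a1 h + a2 g * b1 h) • v1 + (b1 g * a1 h + b2 g * b1 h) • v2 := by
      rw [map_mul, Module.End.mul_apply, h1 h, map_add, map_smul, map_smul, h1 g, h2 g]
      module
    have e2 : ρ (g * h) v2 =
        (a1 g * a2 h + a2 g * b2 h) • v1 + (b1 g * a2 h + b2 g * b2 h) • v2 := by
      rw [map_mul, Module.End.mul_apply, h2 h, map_add, map_smul, map_smul, h1 g, h2 g]
      module
    have f1 := huniq _ _ _ _ ((h1 (g * h)).symm.trans e1)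
    have f2 := huniq _ _ _ _ ((h2 (g * h)).symm.trans e2)
    exact ⟨f1.1, f1.2, f2.1, f2.2⟩
  refine ⟨{ toFun := fun g => !![a1 g, a2 g; b1 g, b2 g]
            map_one' := ?_
            map_mul' := ?_ }, fun g => ?_⟩
  · obtain ⟨e1, e2, e3, e4⟩ := hone
    rw [e1, e2, e3, e4, Matrix.one_fin_two]
  · intro g h
    obtain ⟨e1, e2, e3, e4⟩ := hmul g h
    rw [Matrix.mul_fin_two, e1, e2, e3, e4]
  · exact ⟨h1 g, h2 g⟩

/-- The rank two case. -/
theorem cs32_rank2 [IsAdicComplete (IsLocalRing.maximalIdeal 𝒪) 𝒪] {ϖ : 𝒪}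
    (hϖ : Irreducible ϖ) (htf : ∀ (r : 𝒪) (m : M), r • m = 0 → r = 0 ∨ m = 0)
    (hsep : ∀ m : M, (∀ n : ℕ, ∃ m' : M, m = ϖ ^ n • m') → m = 0)
    (ρ : G →* Module.End 𝒪 M) (ε : G →* 𝒪ˣ) (t : G → 𝒪)
    (hq : ∀ g m, ρ g (ρ g m) - t g • ρ g m + (ε g : 𝒪) • m = 0)
    (x y : M) (hxy : ∀ a b : 𝒪, a • x + b • y = 0 → a = 0 ∧ b = 0)
    (d : 𝒪) (hd : d ≠ 0) (α β γ δ : G → 𝒪)
    (hx : ∀ g, d • ρ g x = α g • x + γ g • y)
    (hy : ∀ g, d • ρ g y = β g • x + δ g • y)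
    (htr : ∀ g, α g + δ g = d * t g) :
    ∃ (A : G →* Matrix (Fin 2) (Fin 2) 𝒪) (s : Finset M),
      (∀ g, (A g).trace = t g ∧ (A g).det = (ε g : 𝒪)) ∧
      (∀ g n, (∀ w ∈ s, ∃ m', ρ g w - w = ϖ ^ n • m') → ∀ i j, ϖ ^ n ∣ (A g - 1) i j) ∧
      (∀ g, (∀ w ∈ s, ρ g w = w) → A g = 1) := by
  classical
  have hx0 : x ≠ 0 := by
    rintro rfl
    have := (hxy 1 0 (by rw [smul_zero, zero_smul, add_zero])).1
    exact one_ne_zero this
  obtain ⟨k, v1, hxv, hv1⟩ := cs32_exists_prim hsep hx0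
  have hϖk : ϖ ^ k ≠ 0 := pow_ne_zero _ hϖ.ne_zero
  have hyv1 : ∀ c : 𝒪, y ≠ c • v1 := by
    intro c hc
    have h1 : (-c) • x + ϖ ^ k • y = 0 := by
      rw [hc, hxv]
      module
    exact hϖk (hxy _ _ h1).2
  obtain ⟨k', v2, c0, hyv, hv2⟩ := cs32_exists_prim2 hϖ htf hsep hv1 hyv1
  have hϖk' : ϖ ^ k' ≠ 0 := pow_ne_zero _ hϖ.ne_zero
  have hind := cs32_indep2 hϖ htf hv1 hv2
  -- saturation
  have hsat : ∀ (m : M) (r a b : 𝒪), r ≠ 0 → r • m = a • x + b • y →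
      ∃ a' b' : 𝒪, m = a' • v1 + b' • v2 := by
    intro m r a b hr h
    refine cs32_sat2 hϖ htf hv1 hv2 hr (α := a * ϖ ^ k + b * c0) (β := b * ϖ ^ k') ?_
    rw [h, hxv, hyv]
    module
  have hstab1 : ∀ g, ∃ a b : 𝒪, ρ g v1 = a • v1 + b • v2 := by
    intro g
    refine hsat _ (d * ϖ ^ k) (α g) (γ g) (mul_ne_zero hd hϖk) ?_
    rw [← hx g, hxv, map_smul]
    module
  have hstab2 : ∀ g, ∃ a b : 𝒪, ρ g v2 = a • v1 + b • v2 := by
    intro g
    refine hsat _ (d * ϖ ^ k * ϖ ^ k') (ϖ ^ k * β g - c0 * α g) (ϖ ^ k * δ g - c0 * γ g)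
      (mul_ne_zero (mul_ne_zero hd hϖk) hϖk') ?_
    have e1 := hx g
    have e2 := hy g
    rw [hxv, hyv, map_smul] at e1
    rw [hxv, hyv, map_add, map_smul, map_smul] at e2
    rw [hxv, hyv]
    linear_combination (norm := module) (ϖ ^ k) • e2 - c0 • e1
  obtain ⟨A, hA⟩ := cs32_rep_of_pair ρ v1 v2 hind hstab1 hstab2
  have huniq : ∀ a b a' b' : 𝒪, a • v1 + b • v2 = a' • v1 + b' • v2 → a = a' ∧ b = b' := by
    intro a b a' b' h
    have h1 : (a - a') • v1 + (b - b') • v2 = 0 := by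
      have h' : a • v1 + b • v2 - (a' • v1 + b' • v2) = 0 := sub_eq_zero.mpr h
      rw [← h']
      module
    obtain ⟨e1, e2⟩ := hind _ _ h1
    exact ⟨sub_eq_zero.mp e1, sub_eq_zero.mp e2⟩
  -- trace
  have htrace : ∀ g, A g 0 0 + A g 1 1 = t g := by
    intro g
    obtain ⟨hA1, hA2⟩ := hA g
    -- column of x
    have c1 : (d * ϖ ^ k * A g 0 0) • v1 + (d * ϖ ^ k * A g 1 0) • v2 =
        (α g * ϖ ^ k + γ g * c0) • v1 + (γ g * ϖ ^ k') • v2 := by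
      have e1 := hx g
      rw [hxv, map_smul, hA1, hyv] at e1
      linear_combination (norm := module) e1
    obtain ⟨E1, E2⟩ := huniq _ _ _ _ c1
    -- column of y
    have c2 : (d * (ϖ ^ k' * A g 0 1 + c0 * A g 0 0)) • v1 +
        (d * (ϖ ^ k' * A g 1 1 + c0 * A g 1 0)) • v2 =
        (β g * ϖ ^ k + δ g * c0) • v1 + (δ g * ϖ ^ k') • v2 := by
      have e2 := hy g
      rw [hyv, map_add, map_smul, map_smul, hA1, hA2, hxv] at e2
      linear_combination (norm := module) e2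
    obtain ⟨-, E4⟩ := huniq _ _ _ _ c2
    have h0 : d * ϖ ^ k * ϖ ^ k' * (A g 0 0 + A g 1 1 - t g) = 0 := by
      linear_combination ϖ ^ k' * E1 + ϖ ^ k * E4 - c0 * E2 + ϖ ^ k * ϖ ^ k' * htr g
    rcases mul_eq_zero.mp h0 with h1 | h1
    · exact absurd h1 (mul_ne_zero (mul_ne_zero hd hϖk) hϖk')
    · exact sub_eq_zero.mp h1
  -- determinant
  have hdet : ∀ g, A g 0 0 * A g 1 1 - A g 0 1 * A g 1 0 = (ε g : 𝒪) := by
    intro g
    obtain ⟨hA1, hA2⟩ := hA g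
    have e := hq g v1
    rw [hA1, map_add, map_smul, map_smul, hA1, hA2] at e
    have e' : (A g 0 0 * A g 0 0 + A g 1 0 * A g 0 1 - t g * A g 0 0 + (ε g : 𝒪)) • v1 +
        (A g 0 0 * A g 1 0 + A g 1 0 * A g 1 1 - t g * A g 1 0) • v2 = 0 := by
      rw [← e]
      module
    obtain ⟨f1, -⟩ := hind _ _ e'
    have ht := htrace g
    linear_combination -f1 + A g 0 0 * ht
  have hs1 : v1 ∈ ({v1, v2} : Finset M) := Finset.mem_insert_self _ _
  have hs2 : v2 ∈ ({v1, v2} : Finset M) :=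
    Finset.mem_insert_of_mem (Finset.mem_singleton_self _)
  refine ⟨A, {v1, v2}, fun g => ?_, fun g n hg => ?_, fun g hg => ?_⟩
  · rw [Matrix.trace_fin_two, Matrix.det_fin_two]
    exact ⟨htrace g, hdet g⟩
  · obtain ⟨hA1, hA2⟩ := hA g
    obtain ⟨m1, hm1⟩ := hg v1 hs1
    obtain ⟨m2, hm2⟩ := hg v2 hs2
    have e1 : (A g 0 0 - 1) • v1 + A g 1 0 • v2 = ϖ ^ n • m1 := by
      rw [← hm1, hA1]
      module
    have e2 : A g 0 1 • v1 + (A g 1 1 - 1) • v2 = ϖ ^ n • m2 := by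
      rw [← hm2, hA2]
      module
    obtain ⟨d1, d2⟩ := cs32_dvd2 hϖ htf hv1 hv2 e1
    obtain ⟨d3, d4⟩ := cs32_dvd2 hϖ htf hv1 hv2 e2
    intro i j
    fin_cases i <;> fin_cases j
    · simpa [Matrix.sub_apply] using d1
    · simpa [Matrix.sub_apply] using d3
    · simpa [Matrix.sub_apply] using d2
    · simpa [Matrix.sub_apply] using d4
  · obtain ⟨hA1, hA2⟩ := hA g
    rw [hg v1 hs1] at hA1
    rw [hg v2 hs2] at hA2
    have f1 := huniq 1 0 (A g 0 0) (A g 1 0) (by rw [← hA1, one_smul, zero_smul, add_zero])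
    have f2 := huniq 0 1 (A g 0 1) (A g 1 1) (by rw [← hA2, one_smul, zero_smul, zero_add])
    ext i j
    fin_cases i <;> fin_cases j
    · simpa using f1.1.symm
    · simpa using f2.1.symm
    · simpa using f1.2.symm
    · simpa using f2.2.symm

end cs32_rep

section cs32_main

open Polynomial

variable {𝒪 : Type*} [CommRing 𝒪] [IsDomain 𝒪] [IsDiscreteValuationRing 𝒪]
  {G : Type*} [Group G] {M : Type*} [AddCommGroup M] [Module 𝒪 M]

/-- The rank one case: an eigenvector gives the diagonal representation `ψ ⊕ ε ψ⁻¹`. -/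
theorem cs32_rank1 {ϖ : 𝒪}
    (hϖ : Irreducible ϖ) (htf : ∀ (r : 𝒪) (m : M), r • m = 0 → r = 0 ∨ m = 0)
    (hsep : ∀ m : M, (∀ n : ℕ, ∃ m' : M, m = ϖ ^ n • m') → m = 0)
    (ρ : G →* Module.End 𝒪 M) (ε : G →* 𝒪ˣ) (t : G → 𝒪)
    (hq : ∀ g m, ρ g (ρ g m) - t g • ρ g m + (ε g : 𝒪) • m = 0)
    (w : M) (hw : w ≠ 0) (hstab : ∀ g, ∃ r b : 𝒪, r ≠ 0 ∧ r • ρ g w = b • w) :
    ∃ (A : G →* Matrix (Fin 2) (Fin 2) 𝒪) (s : Finset M),
      (∀ g, (A g).trace = t g ∧ (A g).det = (ε g : 𝒪)) ∧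
      (∀ g n, (∀ w ∈ s, ∃ m', ρ g w - w = ϖ ^ n • m') → ϖ ^ n ∣ (ε g : 𝒪) - 1 →
        ∀ i j, ϖ ^ n ∣ (A g - 1) i j) ∧
      (∀ g, (∀ w ∈ s, ρ g w = w) → ε g = 1 → A g = 1) := by
  classical
  obtain ⟨k, v, hwv, hv⟩ := cs32_exists_prim hsep hw
  have hv0 : v ≠ 0 := cs32_prim_ne_zero hv
  have hϖk : ϖ ^ k ≠ 0 := pow_ne_zero _ hϖ.ne_zero
  have hstabv : ∀ g, ∃ a : 𝒪, ρ g v = a • v := by
    intro g
    obtain ⟨r, b, hr, h⟩ := hstab g
    refine cs32_sat1 hϖ htf hv (r := r * ϖ ^ k) (mul_ne_zero hr hϖk) (b := b * ϖ ^ k) ?_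
    rw [hwv, map_smul] at h
    linear_combination (norm := module) h
  choose ψ hψ using hstabv
  have hcancel : ∀ a b : 𝒪, a • v = b • v → a = b := by
    intro a b h
    have h1 : (a - b) • v = 0 := by rw [sub_smul, h, sub_self]
    rcases htf _ _ h1 with h2 | h2
    · exact sub_eq_zero.mp h2
    · exact absurd h2 hv0
  have hψ1 : ψ 1 = 1 := by
    apply hcancel
    rw [← hψ 1, map_one, Module.End.one_apply, one_smul]
  have hψmul : ∀ g h, ψ (g * h) = ψ g * ψ h := by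
    intro g h
    apply hcancel
    rw [← hψ (g * h), map_mul, Module.End.mul_apply, hψ h, map_smul, hψ g, smul_smul, mul_comm]
  let ψm : G →* 𝒪 := { toFun := ψ, map_one' := hψ1, map_mul' := hψmul }
  let ψu : G →* 𝒪ˣ := ψm.toHomUnits
  have hψu : ∀ g, ((ψu g : 𝒪ˣ) : 𝒪) = ψ g := fun g => rfl
  have hrel : ∀ g, ψ g * ψ g - t g * ψ g + (ε g : 𝒪) = 0 := by
    intro g
    have e := hq g v
    rw [hψ g, map_smul, hψ g] at e
    have e' : (ψ g * ψ g - t g * ψ g + (ε g : 𝒪)) • v = 0 := by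
      rw [← e]
      module
    rcases htf _ _ e' with h | h
    · exact h
    · exact absurd h hv0
  have hinv : ∀ g, ψ g * ((ψu g)⁻¹ : 𝒪ˣ) = 1 := by
    intro g
    rw [← hψu g, Units.mul_inv]
  refine ⟨{ toFun := fun g => !![ψ g, 0; 0, (ε g : 𝒪) * ((ψu g)⁻¹ : 𝒪ˣ)]
            map_one' := ?_
            map_mul' := ?_ }, {v}, fun g => ?_, fun g n hg hε => ?_, fun g hg hε => ?_⟩
  · rw [hψ1, map_one, map_one, inv_one, Units.val_one, mul_one, Matrix.one_fin_two]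
  · intro g h
    rw [Matrix.mul_fin_two, hψmul, map_mul, map_mul, mul_inv, Units.val_mul, Units.val_mul]
    congr 1
    ext i j
    fin_cases i <;> fin_cases j
    · simp
    · simp
    · simp
    · simp
      ring
  · show (!![ψ g, 0; 0, (ε g : 𝒪) * ((ψu g)⁻¹ : 𝒪ˣ)] : Matrix (Fin 2) (Fin 2) 𝒪).trace = _ ∧
      (!![ψ g, 0; 0, (ε g : 𝒪) * ((ψu g)⁻¹ : 𝒪ˣ)] : Matrix (Fin 2) (Fin 2) 𝒪).det = _
    rw [Matrix.trace_fin_two, Matrix.det_fin_two]
    have e1 : ψ g + (ε g : 𝒪) * ((ψu g)⁻¹ : 𝒪ˣ) = t g := by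
      linear_combination (((ψu g)⁻¹ : 𝒪ˣ) : 𝒪) * hrel g - (ψ g - t g) * hinv g
    have e2 : ψ g * ((ε g : 𝒪) * ((ψu g)⁻¹ : 𝒪ˣ)) - 0 * 0 = (ε g : 𝒪) := by
      linear_combination (ε g : 𝒪) * hinv g
    simp only [Matrix.of_apply, Matrix.cons_val_zero, Matrix.cons_val_one, Matrix.cons_val',
      Matrix.cons_val_fin_one]
    exact ⟨e1, e2⟩
  · obtain ⟨m', hm'⟩ := hg v (Finset.mem_singleton_self _)
    have h1 : (ψ g - 1) • v = ϖ ^ n • m' := by
      rw [← hm', hψ g]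
      module
    have d1 : ϖ ^ n ∣ ψ g - 1 := cs32_dvd_of_prim hϖ htf hv h1
    have d2 : ϖ ^ n ∣ (ε g : 𝒪) * ((ψu g)⁻¹ : 𝒪ˣ) - 1 := by
      have e : (ε g : 𝒪) * ((ψu g)⁻¹ : 𝒪ˣ) - 1 =
          (((ψu g)⁻¹ : 𝒪ˣ) : 𝒪) * (((ε g : 𝒪) - 1) - (ψ g - 1)) := by
        linear_combination hinv g
      rw [e]
      exact Dvd.dvd.mul_left (dvd_sub hε d1) _
    intro i j
    show ϖ ^ n ∣ ((!![ψ g, 0; 0, (ε g : 𝒪) * ((ψu g)⁻¹ : 𝒪ˣ)] : Matrix (Fin 2) (Fin 2) 𝒪) - 1) i j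
    fin_cases i <;> fin_cases j
    · simpa [Matrix.sub_apply] using d1
    · simp [Matrix.sub_apply]
    · simp [Matrix.sub_apply]
    · simpa [Matrix.sub_apply] using d2
  · have h1 : ψ g = 1 := by
      apply hcancel
      rw [← hψ g, hg v (Finset.mem_singleton_self _), one_smul]
    have h2 : ψu g = 1 := Units.ext (by rw [hψu, h1, Units.val_one])
    show (!![ψ g, 0; 0, (ε g : 𝒪) * ((ψu g)⁻¹ : 𝒪ˣ)] : Matrix (Fin 2) (Fin 2) 𝒪) = 1
    rw [h1, h2, hε, inv_one, Units.val_one, mul_one, Matrix.one_fin_two]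

/-- **Conjugation splitting over a complete discrete valuation ring.**
A torsion-free, separated (not necessarily finitely generated) nonzero `𝒪`-module with an action
of a group `G` in which every `g` satisfies `g² - t(g) g + ε(g) = 0`, `ε` a character, and an
involution `c ∈ G` with `ε(c) = -1` (`2 ≠ 0` in `𝒪`), yields a homomorphism
`A : G → M₂(𝒪)` with characteristic polynomials `X² - t(g) X + ε(g)`, which is trivial modulo
`ϖⁿ` wherever the action and `ε` are. -/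
theorem cs32_main [IsAdicComplete (IsLocalRing.maximalIdeal 𝒪) 𝒪] {ϖ : 𝒪}
    (hϖ : Irreducible ϖ) (h2 : (2 : 𝒪) ≠ 0)
    (htf : ∀ (r : 𝒪) (m : M), r • m = 0 → r = 0 ∨ m = 0)
    (hsep : ∀ m : M, (∀ n : ℕ, ∃ m' : M, m = ϖ ^ n • m') → m = 0)
    (hM : ∃ m : M, m ≠ 0)
    (ρ : G →* Module.End 𝒪 M) (ε : G →* 𝒪ˣ) (t : G → 𝒪)
    (hq : ∀ g m, ρ g (ρ g m) - t g • ρ g m + (ε g : 𝒪) • m = 0)
    (c : G) (hc : c * c = 1) (hεc : (ε c : 𝒪) = -1) :
    ∃ (A : G →* Matrix (Fin 2) (Fin 2) 𝒪) (s : Finset M),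
      (∀ g, (A g).trace = t g ∧ (A g).det = (ε g : 𝒪)) ∧
      (∀ g n, (∀ w ∈ s, ∃ m', ρ g w - w = ϖ ^ n • m') → ϖ ^ n ∣ (ε g : 𝒪) - 1 →
        ∀ i j, ϖ ^ n ∣ (A g - 1) i j) ∧
      (∀ g, (∀ w ∈ s, ρ g w = w) → ε g = 1 → A g = 1) := by
  have h2' : ∀ m : M, (2 : 𝒪) • m = 0 → m = 0 := fun m hm =>
    (htf _ _ hm).resolve_left h2
  have hσσ : ∀ m, ρ c (ρ c m) = m := by
    intro m
    rw [← Module.End.mul_apply, ← map_mul, hc, map_one, Module.End.one_apply]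
  -- an eigenvector of the involution
  obtain ⟨θ, x, hθ, hx0, hx⟩ : ∃ (θ : 𝒪) (x : M), θ * θ = 1 ∧ x ≠ 0 ∧ ρ c x = θ • x := by
    obtain ⟨m0, hm0⟩ := hM
    by_cases hplus : m0 + ρ c m0 = 0
    · refine ⟨-1, m0, by ring, hm0, ?_⟩
      rw [neg_one_smul]
      exact (eq_neg_of_add_eq_zero_right hplus)
    · refine ⟨1, m0 + ρ c m0, by ring, hplus, ?_⟩
      rw [map_add, hσσ, one_smul, add_comm]
  have hθ' : (-θ) * (-θ) = 1 := by rw [neg_mul_neg, hθ]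
  by_cases hI : ∀ g, cs32_Y ρ t c θ g x = 0
  · -- `x` is an eigenvector
    refine cs32_rank1 hϖ htf hsep ρ ε t hq x hx0 (fun g => ⟨2, t g + θ * t (g * c), h2, ?_⟩)
    have := hI g
    unfold cs32_Y at this
    exact sub_eq_zero.mp this
  · obtain ⟨h0, hy0⟩ : ∃ h0, cs32_Y ρ t c θ h0 x ≠ 0 := by
      by_contra hcon
      exact hI fun g => by_contra fun h => hcon ⟨g, h⟩
    have hy := cs32_Y_eigen ρ ε t hq c hc hεc θ hθ x hx h0
    by_cases hII : ∀ g, cs32_Y ρ t c (-θ) g (cs32_Y ρ t c θ h0 x) = 0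
    · -- `y` is an eigenvector
      refine cs32_rank1 hϖ htf hsep ρ ε t hq _ hy0
        (fun g => ⟨2, t g + (-θ) * t (g * c), h2, ?_⟩)
      have := hII g
      unfold cs32_Y at this ⊢
      exact sub_eq_zero.mp this
    · obtain ⟨g0, hz0⟩ : ∃ g0, cs32_Y ρ t c (-θ) g0 (cs32_Y ρ t c θ h0 x) ≠ 0 := by
        by_contra hcon
        exact hII fun g => by_contra fun h => hcon ⟨g, h⟩
      have hμ := (cs32_comp ρ ε t hq c hc hεc h2' θ hθ x hx g0 h0).1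
      have hμ0 : 2 * (t (g0 * h0) + θ * t (g0 * h0 * c)) -
          (t g0 + θ * t (g0 * c)) * (t h0 + θ * t (h0 * c)) ≠ 0 := by
        intro h
        rw [h, zero_smul] at hμ
        exact hz0 hμ
      have hxy : ∀ a b : 𝒪, a • x + b • cs32_Y ρ t c θ h0 x = 0 → a = 0 ∧ b = 0 := by
        intro a b h
        have hu : ρ c (a • x) = θ • (a • x) := by rw [map_smul, hx, smul_comm]
        have hv : ρ c (b • cs32_Y ρ t c θ h0 x) = (-θ) • (b • cs32_Y ρ t c θ h0 x) := by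
          rw [map_smul, hy, smul_comm]
        obtain ⟨e1, e2⟩ := cs32_eigen_split (ρ c) h2' θ hθ hu hv h
        exact ⟨(htf _ _ e1).resolve_right hx0, (htf _ _ e2).resolve_right hy0⟩
      obtain ⟨A, s, hA1, hA2, hA3⟩ := cs32_rank2 hϖ htf hsep ρ ε t hq x (cs32_Y ρ t c θ h0 x) hxy
        (2 * (2 * (t (g0 * h0) + θ * t (g0 * h0 * c)) -
          (t g0 + θ * t (g0 * c)) * (t h0 + θ * t (h0 * c)))) (mul_ne_zero h2 hμ0)
        (fun g => (2 * (t (g0 * h0) + θ * t (g0 * h0 * c)) -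
          (t g0 + θ * t (g0 * c)) * (t h0 + θ * t (h0 * c))) * (t g + θ * t (g * c)))
        (fun g => (2 * (t (g0 * h0) + θ * t (g0 * h0 * c)) -
          (t g0 + θ * t (g0 * c)) * (t h0 + θ * t (h0 * c))) *
        (2 * (t (g * h0) + θ * t (g * h0 * c)) -
          (t g + θ * t (g * c)) * (t h0 + θ * t (h0 * c))))
        (fun g => 2 * (t (g * g0) + (-θ) * t (g * g0 * c)) -
          (t g + (-θ) * t (g * c)) * (t g0 + (-θ) * t (g0 * c)))
        (fun g => (2 * (t (g0 * h0) + θ * t (g0 * h0 * c)) -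
          (t g0 + θ * t (g0 * c)) * (t h0 + θ * t (h0 * c))) *
        (t g + (-θ) * t (g * c)))
        (fun g => (cs32_rank2_data ρ ε t hq c hc hεc h2' θ hθ x hx h0 g0 g).1)
        (fun g => (cs32_rank2_data ρ ε t hq c hc hεc h2' θ hθ x hx h0 g0 g).2)
        (fun g => by ring)
      exact ⟨A, s, hA1, fun g n hg _ => hA2 g n hg, fun g hg _ => hA3 g hg⟩

end cs32_main

section cs32_core

variable {𝒪 : Type*} [CommRing 𝒪] [IsDomain 𝒪] [IsDiscreteValuationRing 𝒪]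
  {G : Type*} [Group G] {M : Type*} [AddCommGroup M] [Module 𝒪 M]

theorem cs32_mem_pow {ϖ : 𝒪} (hϖ : Irreducible ϖ) (n : ℕ) (a : 𝒪) :
    a ∈ IsLocalRing.maximalIdeal 𝒪 ^ n ↔ ϖ ^ n ∣ a := by
  rw [hϖ.maximalIdeal_eq, Ideal.span_singleton_pow, Ideal.mem_span_singleton]

theorem cs32_mem_pow_smul_top {ϖ : 𝒪} (hϖ : Irreducible ϖ) (n : ℕ) (w : M) :
    w ∈ (IsLocalRing.maximalIdeal 𝒪 ^ n) • (⊤ : Submodule 𝒪 M) ↔ ∃ m' : M, w = ϖ ^ n • m' := by
  rw [hϖ.maximalIdeal_eq, Ideal.span_singleton_pow, Submodule.ideal_span_singleton_smul]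
  constructor
  · intro h
    obtain ⟨m', -, rfl⟩ := (Submodule.mem_smul_pointwise_iff_exists _ _ _).mp h
    exact ⟨m', rfl⟩
  · rintro ⟨m', rfl⟩
    exact (Submodule.mem_smul_pointwise_iff_exists _ _ _).mpr ⟨m', Submodule.mem_top, rfl⟩

omit [IsDiscreteValuationRing 𝒪] in
/-- An endomorphism all of whose vectors are eigenvectors is a scalar. -/
theorem cs32_scalar_of_eigen (htf : ∀ (r : 𝒪) (m : M), r • m = 0 → r = 0 ∨ m = 0)
    (S : Module.End 𝒪 M) (h : ∀ w, ∃ a : 𝒪, S w = a • w) (w0 : M) (hw0 : w0 ≠ 0) :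
    ∃ a : 𝒪, ∀ w, S w = a • w := by
  choose τ hτ using h
  have key : ∀ w, w ≠ 0 → τ w = τ w0 := by
    intro w hw
    by_cases hdep : ∃ a b : 𝒪, (a ≠ 0 ∨ b ≠ 0) ∧ a • w + b • w0 = 0
    · obtain ⟨a, b, hab, h0⟩ := hdep
      have ha : a ≠ 0 := by
        rintro rfl
        rw [zero_smul, zero_add] at h0
        rcases htf _ _ h0 with hb | hb
        · rcases hab with h1 | h1
          · exact h1 rfl
          · exact h1 hb
        · exact hw0 hb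
      have h1 := congrArg S h0
      rw [map_add, map_smul, map_smul, hτ w, hτ w0, map_zero] at h1
      have h2 : (a * (τ w - τ w0)) • w = 0 := by
        linear_combination (norm := module) h1 - τ w0 • h0
      rcases htf _ _ h2 with h3 | h3
      · rcases mul_eq_zero.mp h3 with h4 | h4
        · exact absurd h4 ha
        · exact sub_eq_zero.mp h4
      · exact absurd h3 hw
    · have hind : ∀ a b : 𝒪, a • w + b • w0 = 0 → a = 0 ∧ b = 0 := by
        intro a b h0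
        by_contra hcon
        apply hdep
        refine ⟨a, b, ?_, h0⟩
        by_contra hcon2
        apply hcon
        exact ⟨not_not.mp fun h => hcon2 (Or.inl h), not_not.mp fun h => hcon2 (Or.inr h)⟩
      have h1 := hτ (w + w0)
      rw [map_add, hτ w, hτ w0] at h1
      have h2 : (τ (w + w0) - τ w) • w + (τ (w + w0) - τ w0) • w0 = 0 := by
        linear_combination (norm := module) (-1 : 𝒪) • h1
      obtain ⟨e1, e2⟩ := hind _ _ h2
      rw [← sub_eq_zero.mp e1, ← sub_eq_zero.mp e2]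
  refine ⟨τ w0, fun w => ?_⟩
  by_cases hw : w = 0
  · rw [hw, map_zero, smul_zero]
  · rw [hτ w, key w hw]

/-- Levelwise eigenvectors are eigenvectors (completeness of `𝒪`, separatedness of `M`). -/
theorem cs32_exists_eigen [IsAdicComplete (IsLocalRing.maximalIdeal 𝒪) 𝒪] {ϖ : 𝒪}
    (hϖ : Irreducible ϖ) (htf : ∀ (r : 𝒪) (m : M), r • m = 0 → r = 0 ∨ m = 0)
    (hsep : ∀ m : M, (∀ n : ℕ, ∃ m' : M, m = ϖ ^ n • m') → m = 0)
    (S : Module.End 𝒪 M)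
    (h : ∀ (w : M) (n : ℕ), ∃ (a : 𝒪) (m' : M), S w - a • w = ϖ ^ n • m') (w : M) :
    ∃ a : 𝒪, S w = a • w := by
  by_cases hw : w = 0
  · exact ⟨0, by rw [hw, map_zero, smul_zero]⟩
  obtain ⟨k, v, hwv, hv⟩ := cs32_exists_prim hsep hw
  have hϖk : ϖ ^ k ≠ 0 := pow_ne_zero _ hϖ.ne_zero
  choose a m' ham using h w
  have hstep : ∀ n, ϖ ^ n ∣ a (n + 1 + k) - a (n + k) := by
    intro n
    have e1 := ham (n + k)
    have e2 := ham (n + 1 + k)
    have h1 : ((a (n + 1 + k) - a (n + k)) * ϖ ^ k) • v =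
        ϖ ^ (n + k) • (m' (n + k) - ϖ • m' (n + 1 + k)) := by
      have e3 : (a (n + 1 + k) - a (n + k)) • w =
          ϖ ^ (n + k) • m' (n + k) - ϖ ^ (n + 1 + k) • m' (n + 1 + k) := by
        rw [← e1, ← e2]
        module
      have e4 : ϖ ^ (n + 1 + k) = ϖ ^ (n + k) * ϖ := by
        rw [← pow_succ]
        congr 1
        omega
      rw [mul_smul, ← hwv, e3, e4]
      module
    have h2 := cs32_dvd_of_prim hϖ htf hv h1
    rw [pow_add] at h2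
    exact (mul_dvd_mul_iff_right hϖk).mp h2
  obtain ⟨L, hL⟩ := cs32_cauchy hϖ (fun n => a (n + k)) hstep
  choose q hq using hL
  refine ⟨L, ?_⟩
  have h0 : S w - L • w = 0 := by
    apply hsep
    intro n
    refine ⟨ϖ ^ k • m' (n + k) + q n • w, ?_⟩
    have e1 := ham (n + k)
    have e2 : (a (n + k) - L) • w = (ϖ ^ n * q n) • w := by rw [← hq n]
    have e3 : ϖ ^ (n + k) = ϖ ^ n * ϖ ^ k := pow_add _ _ _
    rw [e3] at e1
    linear_combination (norm := module) e1 + e2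
  exact sub_eq_zero.mp h0

/-- The exact trace function from the levelwise quadratic relation. -/
theorem cs32_exists_t [IsAdicComplete (IsLocalRing.maximalIdeal 𝒪) 𝒪] {ϖ : 𝒪}
    (hϖ : Irreducible ϖ) (htf : ∀ (r : 𝒪) (m : M), r • m = 0 → r = 0 ∨ m = 0)
    (hsep : ∀ m : M, (∀ n : ℕ, ∃ m' : M, m = ϖ ^ n • m') → m = 0)
    (hM : ∃ m : M, m ≠ 0) (ρ : G →* Module.End 𝒪 M) (ε : G →* 𝒪ˣ)
    (h4 : ∀ (g : G) (w : M) (n : ℕ), ∃ (a : 𝒪) (m' : M),
      ρ g w + (ε g : 𝒪) • ρ g⁻¹ w - a • w = ϖ ^ n • m') :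
    ∃ t : G → 𝒪, ∀ g w, ρ g w + (ε g : 𝒪) • ρ g⁻¹ w = t g • w := by
  obtain ⟨w0, hw0⟩ := hM
  have key : ∀ g, ∃ a : 𝒪, ∀ w, (ρ g + (ε g : 𝒪) • ρ g⁻¹) w = a • w := by
    intro g
    refine cs32_scalar_of_eigen htf _ (fun w => ?_) w0 hw0
    exact cs32_exists_eigen hϖ htf hsep _ (fun w n => h4 g w n) w
  choose t ht using key
  exact ⟨t, fun g w => ht g w⟩

/-- **S30-CORE, ideal form.**  `R` a complete DVR with `2 ≠ 0`; `M` a torsion-free, separated,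
nonzero `R`-module with a `G`-action satisfying the quadratic relation levelwise (with a scalar
depending on the vector and on the level); `c` an involution with `ε c = -1`. -/
theorem cs32_core {R : Type*} [CommRing R] [IsDomain R] [IsDiscreteValuationRing R]
    [IsAdicComplete (IsLocalRing.maximalIdeal R) R] (h2 : (2 : R) ≠ 0)
    {G : Type*} [Group G] {M : Type*} [AddCommGroup M] [Module R M]
    (hM1 : ∀ (a : R) (w : M), a • w = 0 → a = 0 ∨ w = 0)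
    (hM2 : ∀ w : M,
      (∀ n : ℕ, w ∈ (IsLocalRing.maximalIdeal R ^ n) • (⊤ : Submodule R M)) → w = 0)
    (hM3 : ∃ w : M, w ≠ 0)
    (ρ : G →* Module.End R M) (ε : G →* Rˣ)
    (hM4 : ∀ (g : G) (w : M) (n : ℕ), ∃ a : R,
      ρ g w + (ε g : R) • ρ g⁻¹ w - a • w ∈
        (IsLocalRing.maximalIdeal R ^ n) • (⊤ : Submodule R M))
    (c : G) (hc : c * c = 1) (hεc : ε c = -1) :
    ∃ (t : G → R) (ρ' : G →* Matrix (Fin 2) (Fin 2) R),
      (∀ g, ρ g + (ε g : R) • ρ g⁻¹ = t g • (1 : Module.End R M)) ∧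
      (∀ g, (ρ' g).trace = t g ∧ (ρ' g).det = (ε g : R)) ∧
      (∀ g, ρ g = 1 → ε g = 1 → ρ' g = 1) ∧
      (∀ n : ℕ, ∃ (s : Finset M) (k : ℕ), ∀ g : G,
        (∀ h : G, ∀ w ∈ s, ρ (h * g * h⁻¹) w - w ∈
          (IsLocalRing.maximalIdeal R ^ k) • (⊤ : Submodule R M)) →
        (ε g : R) - 1 ∈ IsLocalRing.maximalIdeal R ^ k →
        ∀ i j, ρ' g i j - (1 : Matrix (Fin 2) (Fin 2) R) i j ∈
          IsLocalRing.maximalIdeal R ^ n) := by
  obtain ⟨ϖ, hϖ⟩ := IsDiscreteValuationRing.exists_irreducible R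
  have hsep : ∀ m : M, (∀ n : ℕ, ∃ m' : M, m = ϖ ^ n • m') → m = 0 := fun m hm =>
    hM2 m fun n => (cs32_mem_pow_smul_top hϖ n m).mpr (hm n)
  have h4 : ∀ (g : G) (w : M) (n : ℕ), ∃ (a : R) (m' : M),
      ρ g w + (ε g : R) • ρ g⁻¹ w - a • w = ϖ ^ n • m' := by
    intro g w n
    obtain ⟨a, ha⟩ := hM4 g w n
    exact ⟨a, (cs32_mem_pow_smul_top hϖ n _).mp ha⟩
  obtain ⟨t, ht⟩ := cs32_exists_t hϖ hM1 hsep hM3 ρ ε h4
  have hq : ∀ g m, ρ g (ρ g m) - t g • ρ g m + (ε g : R) • m = 0 := by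
    intro g m
    have h := ht g (ρ g m)
    have h1 : ρ g⁻¹ (ρ g m) = m := by
      rw [← Module.End.mul_apply, ← map_mul, inv_mul_cancel, map_one, Module.End.one_apply]
    rw [h1] at h
    linear_combination (norm := module) h
  have hεc' : ((ε c : Rˣ) : R) = -1 := by rw [hεc, Units.val_neg, Units.val_one]
  obtain ⟨A, s, hA1, hA2, hA3⟩ := cs32_main hϖ h2 hM1 hsep hM3 ρ ε t hq c hc hεc'
  refine ⟨t, A, fun g => ?_, hA1, fun g hg hε => ?_, fun n => ⟨s, n, fun g hg hε i j => ?_⟩⟩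
  · refine LinearMap.ext fun w => ?_
    rw [LinearMap.add_apply, LinearMap.smul_apply, LinearMap.smul_apply, Module.End.one_apply]
    exact ht g w
  · exact hA3 g (fun w _ => by rw [hg, Module.End.one_apply]) hε
  · have h1 : ∀ w ∈ s, ∃ m', ρ g w - w = ϖ ^ n • m' := by
      intro w hw
      have := hg 1 w hw
      rw [one_mul, inv_one, mul_one] at this
      exact (cs32_mem_pow_smul_top hϖ n _).mp this
    have h3 := hA2 g n h1 ((cs32_mem_pow hϖ n _).mp hε) i j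
    rw [Matrix.sub_apply] at h3
    exact (cs32_mem_pow hϖ n _).mpr h3

end cs32_core

end Fermat.Agent.S30
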