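/-
Fermat/Agent/S30/CoreIface32.lean  (helper32)

Row (CORE) of the S30 registry in the literal shape `s30i37_Core` of `Iface37.lean`:
for a COMPLETE discrete valuation ring `R` with `2 ≠ 0`, `s30i37_Core R` holds.
(Completeness is needed for the step from the levelwise relation (M4) to the exact trace
function `t`; the rest is `cs32_main`.)
-/
import Fermat.Agent.S30.Iface37
import Fermat.Agent.S30.ConjSplit32

set_option autoImplicit false

namespace Fermat.Agent.S30

/-- **Row (CORE)** for a complete DVR in which `2 ≠ 0`. -/
theorem cs32_core_iface (R : Type) [CommRing R] [IsDomain R] [IsDiscreteValuationRing R]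
    [IsAdicComplete (IsLocalRing.maximalIdeal R) R] (h2 : (2 : R) ≠ 0) : s30i37_Core R := by
  intro G _ M _ _ ρ ε c hM1 hM2 hM3 hM4 hc hεc
  exact cs32_core h2 hM1 hM2 hM3 ρ ε hM4 c hc hεc

/-- Row (CORE) in characteristic zero. -/
theorem cs32_core_iface_charZero (R : Type) [CommRing R] [IsDomain R]
    [IsDiscreteValuationRing R] [IsAdicComplete (IsLocalRing.maximalIdeal R) R] [CharZero R] :
    s30i37_Core R :=
  cs32_core_iface R two_ne_zero

end Fermat.Agent.S30
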