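/-
S30 rider / row B4 (helper11): the `p`-adic cyclotomic character of `Gal(ℚ̄/ℚ)` with values in a
complete discrete valuation ring `O` in which `p` is a nonzero non-unit.

* `ca11_eps`          : `GQ →* Oˣ`;
* `ca11_eps_spec`     : if `g z = z ^ a` on the `p ^ n`-th roots of unity then
                        `ε g - a ∈ (p ^ n)`;
* `ca11_eps_frob`     : `ε τ = ℓ` for a Frobenius element at `ℓ` prime to `p`;
* `ca11_eps_inertia`  : `ε σ = 1` on inertia at `q` prime to `p`;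
* `ca11_eps_conj`     : `ε complexConjugation = -1`;
* `ca11_eps_level`    : `ε ≡ 1 mod p ^ n` on an open subgroup;
* `ca11_eps_of_pow`   : if `g = τ ^ j` on the `p ^ n`-th roots of unity then
                        `ε g ≡ (ε τ) ^ j mod p ^ n`.
-/
import Mathlib
import Fermat.Prelude.Def_GaloisRep_ComplexConjugation
import Fermat.Agent.S31.RootsUnity58

set_option autoImplicit false

namespace Fermat.Agent.S30

open Fermat.Agent.S31 IsLocalRing

local notation "Qb" => AlgebraicClosure ℚ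
local notation "GQ" => AlgebraicClosure ℚ ≃ₐ[ℚ] AlgebraicClosure ℚ

/-! ### Limits of `p`-adically Cauchy integer sequences in `O` -/

section Limit

variable {O : Type*} [CommRing O] [IsDomain O] [IsDiscreteValuationRing O]
  [IsAdicComplete (maximalIdeal O) O] {p : ℕ}

omit [IsAdicComplete (maximalIdeal O) O] in
theorem ca11_span_pow_le (hp : (p : O) ∈ maximalIdeal O) (n : ℕ) :
    Ideal.span {(p : O) ^ n} ≤ maximalIdeal O ^ n := by
  rw [Ideal.span_le, Set.singleton_subset_iff]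
  exact Ideal.pow_mem_pow hp n

omit [IsAdicComplete (maximalIdeal O) O] in
theorem ca11_exists_e (hp0 : (p : O) ≠ 0) (hp : (p : O) ∈ maximalIdeal O) :
    ∃ e : ℕ, 0 < e ∧ ∀ n : ℕ, Ideal.span {(p : O) ^ n} = maximalIdeal O ^ (e * n) := by
  obtain ⟨ϖ, hϖ⟩ := IsDiscreteValuationRing.exists_irreducible O
  have hne : Ideal.span {(p : O)} ≠ ⊥ := by
    rw [Ne, Ideal.span_singleton_eq_bot]
    exact hp0
  obtain ⟨e, he⟩ := IsDiscreteValuationRing.ideal_eq_span_pow_irreducible hne hϖ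
  have hm : maximalIdeal O = Ideal.span {ϖ} := hϖ.maximalIdeal_eq
  have he' : Ideal.span {(p : O)} = maximalIdeal O ^ e := by
    rw [he, hm, Ideal.span_singleton_pow]
  refine ⟨e, ?_, fun n => ?_⟩
  · rcases Nat.eq_zero_or_pos e with h0 | h0
    · exfalso
      rw [h0, pow_zero, Ideal.one_eq_top] at he'
      have h1 : (1 : O) ∈ Ideal.span {(p : O)} := by rw [he']; trivial
      have h2 : (1 : O) ∈ maximalIdeal O :=
        (Ideal.span_le.2 (Set.singleton_subset_iff.2 hp)) h1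
      exact (Ideal.ne_top_iff_one _).1 (maximalIdeal.isMaximal O).ne_top h2
    · exact h0
  · rw [← Ideal.span_singleton_pow, he', ← pow_mul]

omit [IsAdicComplete (maximalIdeal O) O] in
theorem ca11_lim_unique (hp : (p : O) ∈ maximalIdeal O) (x y : O)
    (h : ∀ n : ℕ, x - y ∈ Ideal.span {(p : O) ^ n}) : x = y := by
  have hH : IsHausdorff (maximalIdeal O) O := inferInstance
  have h0 : x - y = 0 := by
    refine hH.haus (x - y) fun n => ?_
    rw [SModEq.zero, smul_eq_mul, Ideal.mul_top]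
    exact ca11_span_pow_le hp n (h n)
  exact sub_eq_zero.1 h0

theorem ca11_exists_lim (hp0 : (p : O) ≠ 0) (hp : (p : O) ∈ maximalIdeal O) (a : ℕ → ℤ)
    (ha : ∀ i j : ℕ, i ≤ j → ((p : ℤ) ^ i) ∣ a j - a i) :
    ∃ L : O, ∀ n : ℕ, ((a n : ℤ) : O) - L ∈ Ideal.span {(p : O) ^ n} := by
  obtain ⟨e, he0, he⟩ := ca11_exists_e hp0 hp
  have hdiff : ∀ i j : ℕ, i ≤ j → ((a j : ℤ) : O) - ((a i : ℤ) : O) ∈ Ideal.span {(p : O) ^ i} := by
    intro i j hij
    obtain ⟨c, hc⟩ := ha i j hij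
    rw [Ideal.mem_span_singleton]
    refine ⟨(c : O), ?_⟩
    have : ((a j - a i : ℤ) : O) = (((p : ℤ) ^ i * c : ℤ) : O) := by rw [hc]
    push_cast at this
    exact this
  have hP : IsPrecomplete (maximalIdeal O) O := inferInstance
  obtain ⟨L, hL⟩ := hP.prec (f := fun n => ((a n : ℤ) : O)) (by
    intro m n hmn
    rw [SModEq.sub_mem, smul_eq_mul, Ideal.mul_top]
    have h1 := ca11_span_pow_le hp m (hdiff m n hmn)
    have h2 : ((a m : ℤ) : O) - ((a n : ℤ) : O) = -(((a n : ℤ) : O) - ((a m : ℤ) : O)) := by ring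
    rw [h2]
    exact neg_mem h1)
  refine ⟨L, fun n => ?_⟩
  have h1 : ((a (e * n) : ℤ) : O) - L ∈ Ideal.span {(p : O) ^ n} := by
    have := hL (e * n)
    rw [SModEq.sub_mem, smul_eq_mul, Ideal.mul_top] at this
    rw [he n]
    exact this
  have h2 : ((a (e * n) : ℤ) : O) - ((a n : ℤ) : O) ∈ Ideal.span {(p : O) ^ n} :=
    hdiff n (e * n) (Nat.le_mul_of_pos_left n he0)
  have h3 : ((a n : ℤ) : O) - L =
      (((a (e * n) : ℤ) : O) - L) - (((a (e * n) : ℤ) : O) - ((a n : ℤ) : O)) := by ring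
  rw [h3]
  exact sub_mem h1 h2

end Limit

/-! ### Exponents of the action on `p`-power roots of unity -/

section Exponent

variable (p : ℕ) [hpp : Fact p.Prime]

/-- `a` is an exponent of `g` at level `n`: `g z = z ^ a` on the `p ^ n`-th roots of unity. -/
def ca11_IsExp (g : GQ) (n : ℕ) (a : ℕ) : Prop := ∀ z : Qb, z ^ p ^ n = 1 → g z = z ^ a

theorem ca11_pow_pos (n : ℕ) : 0 < p ^ n := pow_pos hpp.out.pos n

theorem ca11_exists_exp (g : GQ) (n : ℕ) : ∃ a : ℕ, ca11_IsExp p g n a := by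
  obtain ⟨ζ, hζ⟩ := ru58_exists_primitiveRoot (p ^ n) (ca11_pow_pos p n)
  obtain ⟨a, ha⟩ := ru58_exists_exp g (ca11_pow_pos p n) hζ
  refine ⟨a, fun z hz => ?_⟩
  have : NeZero (p ^ n) := ⟨(ca11_pow_pos p n).ne'⟩
  obtain ⟨i, -, rfl⟩ := hζ.eq_pow_of_pow_eq_one hz
  rw [map_pow, ha, ← pow_mul, ← pow_mul, mul_comm]

/-- Two exponents at level `n` are congruent modulo `p ^ i` for `i ≤ n`. -/
theorem ca11_exp_modEq {g : GQ} {i n : ℕ} (hin : i ≤ n) {a b : ℕ} (ha : ca11_IsExp p g n a)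
    (hb : ca11_IsExp p g i b) : a ≡ b [MOD p ^ i] := by
  obtain ⟨ζ, hζ⟩ := ru58_exists_primitiveRoot (p ^ i) (ca11_pow_pos p i)
  have h1 : ζ ^ p ^ n = 1 := by
    obtain ⟨k, rfl⟩ := Nat.exists_eq_add_of_le hin
    rw [pow_add, pow_mul, hζ.pow_eq_one, one_pow]
  have h2 : ζ ^ a = ζ ^ b := by rw [← ha ζ h1, ← hb ζ hζ.pow_eq_one]
  exact (ru58_pow_eq_pow_iff (ca11_pow_pos p i) hζ a b).mp h2

omit hpp in
theorem ca11_isExp_one (n : ℕ) : ca11_IsExp p (1 : GQ) n 1 := fun z _ => by simp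

omit hpp in
theorem ca11_isExp_mul {g h : GQ} {n a b : ℕ} (ha : ca11_IsExp p g n a)
    (hb : ca11_IsExp p h n b) : ca11_IsExp p (g * h) n (a * b) := by
  intro z hz
  rw [AlgEquiv.mul_apply, hb z hz, map_pow, ha z hz, ← pow_mul]

omit hpp in
theorem ca11_isExp_pow {g : GQ} {n a : ℕ} (ha : ca11_IsExp p g n a) (j : ℕ) :
    ca11_IsExp p (g ^ j) n (a ^ j) := by
  induction j with
  | zero => simpa using ca11_isExp_one p n
  | succ j ih =>
    rw [pow_succ, pow_succ]
    exact ca11_isExp_mul p ih ha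

/-- a chosen exponent at each level -/
noncomputable def ca11_exp (g : GQ) (n : ℕ) : ℕ := Classical.choose (ca11_exists_exp p g n)

theorem ca11_exp_spec (g : GQ) (n : ℕ) : ca11_IsExp p g n (ca11_exp p g n) :=
  Classical.choose_spec (ca11_exists_exp p g n)

theorem ca11_exp_dvd (g : GQ) (i j : ℕ) (hij : i ≤ j) :
    ((p : ℤ) ^ i) ∣ ((ca11_exp p g j : ℕ) : ℤ) - ((ca11_exp p g i : ℕ) : ℤ) := by
  have h := ca11_exp_modEq p hij (ca11_exp_spec p g j) (ca11_exp_spec p g i)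
  have h2 := (Nat.modEq_iff_dvd.1 h.symm)
  exact_mod_cast h2

end Exponent

/-! ### The character -/

section Character

variable {O : Type*} [CommRing O] [IsDomain O] [IsDiscreteValuationRing O]
  [IsAdicComplete (maximalIdeal O) O] (p : ℕ) [hpp : Fact p.Prime]
  (hp0 : (p : O) ≠ 0) (hp : (p : O) ∈ maximalIdeal O)

/-- the underlying function of the `p`-adic cyclotomic character -/
noncomputable def ca11_epsFun (g : GQ) : O :=
  Classical.choose (ca11_exists_lim hp0 hp (fun n => ((ca11_exp p g n : ℕ) : ℤ))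
    (ca11_exp_dvd p g))

theorem ca11_epsFun_exp (g : GQ) (n : ℕ) :
    ca11_epsFun p hp0 hp g - (ca11_exp p g n : O) ∈ Ideal.span {(p : O) ^ n} := by
  have h := Classical.choose_spec (ca11_exists_lim hp0 hp (fun n => ((ca11_exp p g n : ℕ) : ℤ))
    (ca11_exp_dvd p g)) n
  have h2 : ca11_epsFun p hp0 hp g - (ca11_exp p g n : O) =
      -((((ca11_exp p g n : ℕ) : ℤ) : O) - ca11_epsFun p hp0 hp g) := by
    push_cast
    ring
  rw [h2]
  exact neg_mem h

/-- **Characterisation**: any exponent of `g` at level `n` computes `ε g` modulo `p ^ n`. -/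
theorem ca11_epsFun_spec (g : GQ) (n : ℕ) (a : ℕ) (ha : ca11_IsExp p g n a) :
    ca11_epsFun p hp0 hp g - (a : O) ∈ Ideal.span {(p : O) ^ n} := by
  have h1 := ca11_epsFun_exp p hp0 hp g n
  have h2 : (ca11_exp p g n : O) - (a : O) ∈ Ideal.span {(p : O) ^ n} := by
    have h := ca11_exp_modEq p le_rfl (ca11_exp_spec p g n) ha
    have h3 : ((p ^ n : ℕ) : ℤ) ∣ ((ca11_exp p g n : ℕ) : ℤ) - ((a : ℕ) : ℤ) :=
      Nat.modEq_iff_dvd.1 h.symm
    obtain ⟨c, hc⟩ := h3
    rw [Ideal.mem_span_singleton]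
    refine ⟨(c : O), ?_⟩
    have : ((((ca11_exp p g n : ℕ) : ℤ) - ((a : ℕ) : ℤ) : ℤ) : O) = ((((p ^ n : ℕ) : ℤ) * c : ℤ) : O) := by
      rw [hc]
    push_cast at this
    exact this
  have h3 : ca11_epsFun p hp0 hp g - (a : O) =
      (ca11_epsFun p hp0 hp g - (ca11_exp p g n : O)) + ((ca11_exp p g n : O) - (a : O)) := by
    ring
  rw [h3]
  exact add_mem h1 h2

theorem ca11_epsFun_one : ca11_epsFun p hp0 hp (1 : GQ) = 1 := by
  refine ca11_lim_unique hp _ _ fun n => ?_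
  simpa using ca11_epsFun_spec p hp0 hp 1 n 1 (ca11_isExp_one p n)

theorem ca11_epsFun_mul (g h : GQ) :
    ca11_epsFun p hp0 hp (g * h) = ca11_epsFun p hp0 hp g * ca11_epsFun p hp0 hp h := by
  refine ca11_lim_unique hp _ _ fun n => ?_
  have h1 := ca11_epsFun_spec p hp0 hp (g * h) n _
    (ca11_isExp_mul p (ca11_exp_spec p g n) (ca11_exp_spec p h n))
  have h2 := ca11_epsFun_exp p hp0 hp g n
  have h3 := ca11_epsFun_exp p hp0 hp h n
  have h4 : ca11_epsFun p hp0 hp (g * h) - ca11_epsFun p hp0 hp g * ca11_epsFun p hp0 hp h =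
      (ca11_epsFun p hp0 hp (g * h) - ((ca11_exp p g n * ca11_exp p h n : ℕ) : O))
      - (ca11_epsFun p hp0 hp g - (ca11_exp p g n : O)) * ca11_epsFun p hp0 hp h
      - (ca11_exp p g n : O) * (ca11_epsFun p hp0 hp h - (ca11_exp p h n : O)) := by
    push_cast
    ring
  rw [h4]
  exact sub_mem (sub_mem h1 (Ideal.mul_mem_right _ _ h2)) (Ideal.mul_mem_left _ _ h3)

/-- **The `p`-adic cyclotomic character** with values in `O`. -/
noncomputable def ca11_eps : GQ →* Oˣ :=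
  MonoidHom.toHomUnits
    { toFun := ca11_epsFun p hp0 hp
      map_one' := ca11_epsFun_one p hp0 hp
      map_mul' := ca11_epsFun_mul p hp0 hp }

theorem ca11_eps_coe (g : GQ) : ((ca11_eps p hp0 hp g : Oˣ) : O) = ca11_epsFun p hp0 hp g := rfl

/-- **Characterisation**: if `g z = z ^ a` on the `p ^ n`-th roots of unity then
`ε g - a ∈ (p ^ n)`. -/
theorem ca11_eps_spec (g : GQ) (n : ℕ) (a : ℕ) (ha : ∀ z : Qb, z ^ p ^ n = 1 → g z = z ^ a) :
    ((ca11_eps p hp0 hp g : Oˣ) : O) - (a : O) ∈ Ideal.span {(p : O) ^ n} :=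
  ca11_epsFun_spec p hp0 hp g n a ha

theorem ca11_eps_exists (g : GQ) (n : ℕ) :
    ∃ a : ℕ, (∀ z : Qb, z ^ p ^ n = 1 → g z = z ^ a) ∧
      ((ca11_eps p hp0 hp g : Oˣ) : O) - (a : O) ∈ Ideal.span {(p : O) ^ n} :=
  ⟨ca11_exp p g n, ca11_exp_spec p g n, ca11_epsFun_exp p hp0 hp g n⟩

/-- If `ε g - a ∈ (p ^ n)` for all `n` then `ε g = a`. -/
theorem ca11_eps_eq_of_forall (g : GQ) (x : O)
    (h : ∀ n : ℕ, ((ca11_eps p hp0 hp g : Oˣ) : O) - x ∈ Ideal.span {(p : O) ^ n}) :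
    ((ca11_eps p hp0 hp g : Oˣ) : O) = x :=
  ca11_lim_unique hp _ _ h

/-- **Frobenius**: `ε τ = ℓ` for a Frobenius element at `ℓ` prime to `p`. -/
theorem ca11_eps_frob (A : ValuationSubring Qb) {ℓ : ℕ} (hA : A.LiesOverPrime ℓ)
    (hcop : Nat.Coprime ℓ p) (τ : GQ) (hτ : A.IsFrobeniusAt τ ℓ) :
    ((ca11_eps p hp0 hp τ : Oˣ) : O) = (ℓ : O) := by
  refine ca11_eps_eq_of_forall p hp0 hp τ _ fun n => ?_
  refine ca11_eps_spec p hp0 hp τ n ℓ fun z hz => ?_
  exact ru58_frob A hA τ hτ (ca11_pow_pos p n) (Nat.Coprime.pow_right n hcop) z hz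

/-- **Inertia**: `ε σ = 1` on an inertia group at `q` prime to `p`. -/
theorem ca11_eps_inertia (P : ValuationSubring Qb) {q : ℕ} (hP : P.LiesOverPrime q)
    (hcop : Nat.Coprime q p) (σ : GQ) (hσ : σ ∈ P.inertiaSubgroupIn ℚ) :
    ca11_eps p hp0 hp σ = 1 := by
  apply Units.ext
  rw [Units.val_one]
  refine ca11_eps_eq_of_forall p hp0 hp σ _ fun n => ?_
  have h := ca11_eps_spec p hp0 hp σ n 1 fun z hz => by
    rw [pow_one]
    exact ru58_inertia P hP σ hσ (ca11_pow_pos p n) (Nat.Coprime.pow_right n hcop) z hz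
  simpa using h

/-- **Finite level**: `ε ≡ 1 mod p ^ n` on the elements fixing a suitable finite extension. -/
theorem ca11_eps_level (n : ℕ) :
    ∃ L : IntermediateField ℚ Qb, FiniteDimensional ℚ L ∧
      ∀ σ : GQ, (∀ x ∈ L, σ x = x) →
        ((ca11_eps p hp0 hp σ : Oˣ) : O) - 1 ∈ Ideal.span {(p : O) ^ n} := by
  obtain ⟨L, hL, hz⟩ := ru58_exists_level (p ^ n) (ca11_pow_pos p n)
  refine ⟨L, hL, fun σ hσ => ?_⟩
  have h := ca11_eps_spec p hp0 hp σ n 1 fun z hz' => by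
    rw [pow_one]
    exact hσ z (hz z hz')
  simpa using h

/-- **Powers**: if `g = τ ^ j` on the `p ^ n`-th roots of unity then `ε g ≡ (ε τ) ^ j mod p ^ n`. -/
theorem ca11_eps_of_pow (g τ : GQ) (j n : ℕ) (h : ∀ z : Qb, z ^ p ^ n = 1 → g z = (τ ^ j) z) :
    ((ca11_eps p hp0 hp g : Oˣ) : O) - ((ca11_eps p hp0 hp τ : Oˣ) : O) ^ j ∈
      Ideal.span {(p : O) ^ n} := by
  have hτj : ca11_IsExp p g n (ca11_exp p τ n ^ j) := fun z hz => by
    rw [h z hz]
    exact ca11_isExp_pow p (ca11_exp_spec p τ n) j z hz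
  have h1 := ca11_eps_spec p hp0 hp g n _ hτj
  have h2 : ((ca11_eps p hp0 hp τ : Oˣ) : O) ^ j - ((ca11_exp p τ n ^ j : ℕ) : O) ∈
      Ideal.span {(p : O) ^ n} := by
    have h3 := ca11_epsFun_exp p hp0 hp τ n
    rw [← ca11_eps_coe] at h3
    have h4 := (Ideal.Quotient.eq (I := Ideal.span {(p : O) ^ n})).2 h3
    rw [← Ideal.Quotient.eq]
    push_cast
    rw [map_pow, map_pow, h4]
  have h5 : ((ca11_eps p hp0 hp g : Oˣ) : O) - ((ca11_eps p hp0 hp τ : Oˣ) : O) ^ j =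
      (((ca11_eps p hp0 hp g : Oˣ) : O) - ((ca11_exp p τ n ^ j : ℕ) : O))
      - (((ca11_eps p hp0 hp τ : Oˣ) : O) ^ j - ((ca11_exp p τ n ^ j : ℕ) : O)) := by ring
  rw [h5]
  exact sub_mem h1 h2

/-- Complex conjugation inverts roots of unity. -/
theorem ca11_conj_root (z : Qb) {m : ℕ} (hm : 0 < m) (hz : z ^ m = 1) :
    complexConjugation z = z⁻¹ := by
  have hinj : Function.Injective (complexEmbedding : Qb → ℂ) :=
    complexEmbedding.toRingHom.injective
  apply hinj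
  rw [complexEmbedding_complexConjugation, map_inv₀]
  have hw : (complexEmbedding z) ^ m = 1 := by rw [← map_pow, hz, map_one]
  have hnorm : ‖complexEmbedding z‖ = 1 := Complex.norm_eq_one_of_pow_eq_one hw hm.ne'
  rw [Complex.inv_def, Complex.normSq_eq_norm_sq, hnorm]
  simp

/-- **Oddness**: `ε c = -1` for the complex conjugation `c` of the Prelude. -/
theorem ca11_eps_conj : ca11_eps p hp0 hp complexConjugation = -1 := by
  apply Units.ext
  rw [Units.val_neg, Units.val_one]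
  refine ca11_eps_eq_of_forall p hp0 hp complexConjugation _ fun n => ?_
  have hpos := ca11_pow_pos p n
  have h := ca11_eps_spec p hp0 hp complexConjugation n (p ^ n - 1) fun z hz => by
    rw [ca11_conj_root z hpos hz]
    apply inv_eq_of_mul_eq_one_right
    rw [← pow_succ', Nat.sub_add_cancel hpos, hz]
  have h2 : ((p ^ n - 1 : ℕ) : O) = (p : O) ^ n - 1 := by
    rw [Nat.cast_sub hpos]
    push_cast
    ring
  rw [h2] at h
  have h3 : ((ca11_eps p hp0 hp complexConjugation : Oˣ) : O) - -1 =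
      (((ca11_eps p hp0 hp complexConjugation : Oˣ) : O) - ((p : O) ^ n - 1)) + (p : O) ^ n := by
    ring
  rw [h3]
  exact add_mem h (Ideal.subset_span (Set.mem_singleton _))

end Character

end Fermat.Agent.S30
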