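/-
S30 rider (helper38): the canonical ring homomorphism `ℤ_[p] →+* R` into a ring that is
adically complete for an ideal `I` containing `p`.

* `ca38_padicHom I p hp : ℤ_[p] →+* R`
* `ca38_padicHom_spec` : `ca38_padicHom I p hp x - (x.appr n : R) ∈ I ^ n`
* `ca38_padicHom_sub_mem` : congruence mod `p ^ n` in `ℤ_[p]` gives congruence mod `I ^ n`
-/
import Mathlib

set_option autoImplicit false

namespace Fermat.Agent.S30

section Lift

variable {R : Type*} [CommRing R] (I : Ideal R)

theorem ca38_mem_smul_top_iff (n : ℕ) (x : R) :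
    x ∈ (I ^ n • ⊤ : Submodule R R) ↔ x ∈ I ^ n := by
  rw [smul_eq_mul, Ideal.mul_top]

/-- Hausdorff: two elements congruent modulo every power of `I` are equal. -/
theorem ca38_eq_of_forall_sub_mem [IsHausdorff I R] {a b : R} (h : ∀ n, a - b ∈ I ^ n) :
    a = b := by
  have h0 : a - b = 0 := by
    apply IsHausdorff.haus (I := I) ‹_›
    intro n
    rw [SModEq.sub_mem, sub_zero, ca38_mem_smul_top_iff]
    exact h n
  exact sub_eq_zero.mp h0

variable (p : ℕ) [Fact p.Prime]

omit [Fact p.Prime] in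
/-- naturals congruent mod `p ^ n` have casts congruent mod `I ^ n` when `p ∈ I` -/
theorem ca38_natCast_sub_mem (hp : (p : R) ∈ I) {n a b : ℕ}
    (h : (a : ZMod (p ^ n)) = (b : ZMod (p ^ n))) : (a : R) - (b : R) ∈ I ^ n := by
  have h1 : ((a : ℤ) : ZMod (p ^ n)) = ((b : ℤ) : ZMod (p ^ n)) := by
    simpa using h
  rw [ZMod.intCast_eq_intCast_iff_dvd_sub] at h1
  obtain ⟨c, hc⟩ := h1
  have h2 : (a : R) - (b : R) = -(((p : R) ^ n) * (c : R)) := by
    have h3 : ((b : ℤ) : R) - ((a : ℤ) : R) = (((p : ℤ) ^ n * c : ℤ) : R) := by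
      rw [← Int.cast_sub]
      exact congrArg _ (by rw [hc]; push_cast; ring)
    push_cast at h3
    linear_combination -h3
  rw [h2]
  exact (I ^ n).neg_mem (Ideal.mul_mem_right _ _ (Ideal.pow_mem_pow hp n))

theorem ca38_appr_sub_mem (hp : (p : R) ∈ I) (x : ℤ_[p]) {m n : ℕ} (h : m ≤ n) :
    ((x.appr m : ℕ) : R) - ((x.appr n : ℕ) : R) ∈ I ^ m := by
  apply ca38_natCast_sub_mem I p hp
  have h1 := PadicInt.cast_toZModPow m n h x
  have h2 : PadicInt.toZModPow n x = ((x.appr n : ℕ) : ZMod (p ^ n)) := rfl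
  have h3 : PadicInt.toZModPow m x = ((x.appr m : ℕ) : ZMod (p ^ m)) := rfl
  rw [h3, h2] at h1
  rw [← h1]
  have hdvd : p ^ m ∣ p ^ n := pow_dvd_pow p h
  exact ZMod.cast_natCast (R := ZMod (p ^ m)) hdvd _

variable [IsAdicComplete I R]

theorem ca38_exists_lim (hp : (p : R) ∈ I) (x : ℤ_[p]) :
    ∃ L : R, ∀ n : ℕ, L - ((x.appr n : ℕ) : R) ∈ I ^ n := by
  obtain ⟨L, hL⟩ := IsPrecomplete.prec (I := I) inferInstance
    (f := fun n => ((x.appr n : ℕ) : R)) (by
      intro m n hmn
      rw [SModEq.sub_mem, ca38_mem_smul_top_iff]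
      exact ca38_appr_sub_mem I p hp x hmn)
  refine ⟨L, fun n => ?_⟩
  have h := hL n
  rw [SModEq.sub_mem, ca38_mem_smul_top_iff] at h
  have h' := (I ^ n).neg_mem h
  rwa [neg_sub] at h'

/-- the underlying function of `ca38_padicHom` -/
noncomputable def ca38_padicFun (hp : (p : R) ∈ I) (x : ℤ_[p]) : R :=
  (ca38_exists_lim I p hp x).choose

theorem ca38_padicFun_spec (hp : (p : R) ∈ I) (x : ℤ_[p]) (n : ℕ) :
    ca38_padicFun I p hp x - ((x.appr n : ℕ) : R) ∈ I ^ n :=
  (ca38_exists_lim I p hp x).choose_spec n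

/-- characterisation of the value by natural-number approximations -/
theorem ca38_padicFun_eq (hp : (p : R) ∈ I) (x : ℤ_[p]) (y : R) (a : ℕ → ℕ)
    (ha : ∀ n, PadicInt.toZModPow n x = ((a n : ℕ) : ZMod (p ^ n)))
    (hy : ∀ n, y - ((a n : ℕ) : R) ∈ I ^ n) : ca38_padicFun I p hp x = y := by
  apply ca38_eq_of_forall_sub_mem I
  intro n
  have h1 := ca38_padicFun_spec I p hp x n
  have h2 : ((x.appr n : ℕ) : R) - ((a n : ℕ) : R) ∈ I ^ n :=
    ca38_natCast_sub_mem I p hp (ha n)
  have h3 := hy n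
  have : ca38_padicFun I p hp x - y =
      (ca38_padicFun I p hp x - ((x.appr n : ℕ) : R)) + (((x.appr n : ℕ) : R) - ((a n : ℕ) : R))
        - (y - ((a n : ℕ) : R)) := by ring
  rw [this]
  exact (I ^ n).sub_mem ((I ^ n).add_mem h1 h2) h3

/-- **The canonical ring homomorphism `ℤ_[p] →+* R`** for `R` complete with respect to an ideal
containing `p`. -/
noncomputable def ca38_padicHom (hp : (p : R) ∈ I) : ℤ_[p] →+* R where
  toFun := ca38_padicFun I p hp
  map_one' := by
    refine ca38_padicFun_eq I p hp 1 1 (fun _ => 1) (fun n => ?_) (fun n => ?_)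
    · simp
    · simp
  map_zero' := by
    refine ca38_padicFun_eq I p hp 0 0 (fun _ => 0) (fun n => ?_) (fun n => ?_)
    · simp
    · simp
  map_add' x y := by
    refine ca38_padicFun_eq I p hp (x + y) _ (fun n => x.appr n + y.appr n) (fun n => ?_)
      (fun n => ?_)
    · rw [map_add]
      push_cast
      rfl
    · have h1 := ca38_padicFun_spec I p hp x n
      have h2 := ca38_padicFun_spec I p hp y n
      have : ca38_padicFun I p hp x + ca38_padicFun I p hp y
            - ((x.appr n + y.appr n : ℕ) : R) =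
          (ca38_padicFun I p hp x - ((x.appr n : ℕ) : R))
            + (ca38_padicFun I p hp y - ((y.appr n : ℕ) : R)) := by
        push_cast; ring
      rw [this]
      exact (I ^ n).add_mem h1 h2
  map_mul' x y := by
    refine ca38_padicFun_eq I p hp (x * y) _ (fun n => x.appr n * y.appr n) (fun n => ?_)
      (fun n => ?_)
    · rw [map_mul]
      push_cast
      rfl
    · have h1 := ca38_padicFun_spec I p hp x n
      have h2 := ca38_padicFun_spec I p hp y n
      have : ca38_padicFun I p hp x * ca38_padicFun I p hp y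
            - ((x.appr n * y.appr n : ℕ) : R) =
          (ca38_padicFun I p hp x - ((x.appr n : ℕ) : R)) * ca38_padicFun I p hp y
            + ((x.appr n : ℕ) : R) * (ca38_padicFun I p hp y - ((y.appr n : ℕ) : R)) := by
        push_cast; ring
      rw [this]
      exact (I ^ n).add_mem (Ideal.mul_mem_right _ _ h1) (Ideal.mul_mem_left _ _ h2)

theorem ca38_padicHom_spec (hp : (p : R) ∈ I) (x : ℤ_[p]) (n : ℕ) :
    ca38_padicHom I p hp x - ((x.appr n : ℕ) : R) ∈ I ^ n :=
  ca38_padicFun_spec I p hp x n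

/-- congruence mod `p ^ n` in `ℤ_[p]` gives congruence mod `I ^ n` -/
theorem ca38_padicHom_sub_mem (hp : (p : R) ∈ I) {x y : ℤ_[p]} {n : ℕ}
    (h : PadicInt.toZModPow n x = PadicInt.toZModPow n y) :
    ca38_padicHom I p hp x - ca38_padicHom I p hp y ∈ I ^ n := by
  have hker : x - y ∈ RingHom.ker (PadicInt.toZModPow n : ℤ_[p] →+* ZMod (p ^ n)) := by
    rw [RingHom.mem_ker, map_sub, h, sub_self]
  rw [PadicInt.ker_toZModPow, Ideal.mem_span_singleton] at hker
  obtain ⟨z, hz⟩ := hker
  rw [← map_sub, hz, map_mul, map_pow, map_natCast]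
  exact Ideal.mul_mem_right _ _ (Ideal.pow_mem_pow hp n)

/-- value on an element congruent to a natural number mod `p ^ n` -/
theorem ca38_padicHom_sub_natCast_mem (hp : (p : R) ∈ I) {x : ℤ_[p]} {n a : ℕ}
    (h : PadicInt.toZModPow n x = (a : ZMod (p ^ n))) :
    ca38_padicHom I p hp x - (a : R) ∈ I ^ n := by
  have h1 : PadicInt.toZModPow n x = PadicInt.toZModPow n (a : ℤ_[p]) := by
    rw [h, map_natCast]
  have h2 := ca38_padicHom_sub_mem I p hp h1
  rwa [map_natCast] at h2

end Lift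

end Fermat.Agent.S30
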