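/-
S30 rider (helper38): the `p`-adic cyclotomic character of `Gal(ℚ̄/ℚ)` with values in a ring `R`
that is adically complete for an ideal `I` containing `p` (e.g. a complete discrete valuation
ring with residue characteristic `p`, `I` its maximal ideal).

* `ca38_chi p : GQ →* ℤ_[p]ˣ`     (Mathlib's `cyclotomicCharacter` on `ℚ̄`)
* `ca38_eps I p hp : GQ →* Rˣ`    (pushed along `ca38_padicHom`)
* values: at Frobenius elements (`= ℓ`), on inertia (`= 1`), at complex conjugation (`= -1`),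
  congruences from the action on `p ^ n`-th roots of unity, finite level modulo `I ^ n`.
-/
import Mathlib
import Fermat.Prelude.Def_GaloisRep_ComplexConjugation
import Fermat.Agent.S42.CycloRoots92
import Fermat.Agent.S30.PadicLift38

set_option autoImplicit false

namespace Fermat.Agent.S30

local notation "Qb" => AlgebraicClosure ℚ
local notation "GQ" => (AlgebraicClosure ℚ ≃ₐ[ℚ] AlgebraicClosure ℚ)

section Chi

variable (p : ℕ) [Fact p.Prime]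

theorem ca38_neZero (i : ℕ) : NeZero ((p ^ i : ℕ) : Qb) :=
  ⟨Nat.cast_ne_zero.mpr (pow_ne_zero i (Fact.out : p.Prime).ne_zero)⟩

theorem ca38_enough (i : ℕ) : HasEnoughRootsOfUnity Qb (p ^ i) :=
  have := ca38_neZero p i
  inferInstance

theorem ca38_exists_primitiveRoot (n : ℕ) : ∃ ζ : Qb, IsPrimitiveRoot ζ (p ^ n) :=
  have := ca38_enough p n
  HasEnoughRootsOfUnity.exists_primitiveRoot Qb (p ^ n)

/-- the `p`-adic cyclotomic character of `Gal(ℚ̄/ℚ)` -/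
noncomputable def ca38_chi : GQ →* ℤ_[p]ˣ :=
  (cyclotomicCharacter Qb p).comp (MulSemiringAction.toRingAut GQ Qb)

theorem ca38_chi_spec (σ : GQ) (n : ℕ) (ζ : Qb) (hζ : ζ ^ p ^ n = 1) :
    σ ζ = ζ ^ (PadicInt.toZModPow n ((ca38_chi p σ : ℤ_[p]ˣ) : ℤ_[p])).val := by
  have : ∀ i, HasEnoughRootsOfUnity Qb (p ^ i) := ca38_enough p
  exact cyclotomicCharacter.spec p (MulSemiringAction.toRingAut GQ Qb σ) ζ hζ

/-- the character modulo `p ^ n` is determined by the action on `p ^ n`-th roots of unity -/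
theorem ca38_chi_toZModPow_eq (σ : GQ) (n a : ℕ)
    (h : ∀ ζ : Qb, ζ ^ p ^ n = 1 → σ ζ = ζ ^ a) :
    PadicInt.toZModPow n ((ca38_chi p σ : ℤ_[p]ˣ) : ℤ_[p]) = (a : ZMod (p ^ n)) := by
  obtain ⟨ζ, hζ⟩ := ca38_exists_primitiveRoot p n
  have h1 := ca38_chi_spec p σ n ζ hζ.pow_eq_one
  rw [h ζ hζ.pow_eq_one] at h1
  have hpn : 0 < p ^ n := pow_pos (Fact.out : p.Prime).pos n
  have : NeZero (p ^ n) := ⟨hpn.ne'⟩
  have h2 : a % p ^ n = (PadicInt.toZModPow n ((ca38_chi p σ : ℤ_[p]ˣ) : ℤ_[p])).val := by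
    apply hζ.pow_inj (Nat.mod_lt _ hpn) (ZMod.val_lt _)
    rw [← h1]
    conv_lhs => rw [hζ.eq_orderOf]
    exact pow_mod_orderOf ζ a
  rw [← ZMod.natCast_zmod_val (PadicInt.toZModPow n ((ca38_chi p σ : ℤ_[p]ˣ) : ℤ_[p])), ← h2,
    ZMod.natCast_mod]

theorem ca38_chi_eq_natCast (σ : GQ) (a : ℕ)
    (h : ∀ n : ℕ, ∀ ζ : Qb, ζ ^ p ^ n = 1 → σ ζ = ζ ^ a) :
    ((ca38_chi p σ : ℤ_[p]ˣ) : ℤ_[p]) = (a : ℤ_[p]) := by
  apply PadicInt.ext_of_toZModPow.mp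
  intro n
  rw [ca38_chi_toZModPow_eq p σ n a (h n), map_natCast]

/-- **Frobenius elements**: `χ(τ) = ℓ` for a Frobenius element `τ` at `ℓ ≠ p`. -/
theorem ca38_chi_frob {ℓ : ℕ} (hℓ : ℓ.Prime) (hℓp : ℓ ≠ p) (A : ValuationSubring Qb)
    (hA : A.LiesOverPrime ℓ) (τ : GQ) (hτ : A.IsFrobeniusAt τ ℓ) :
    ((ca38_chi p τ : ℤ_[p]ˣ) : ℤ_[p]) = (ℓ : ℤ_[p]) := by
  have hp : p.Prime := Fact.out
  refine ca38_chi_eq_natCast p τ ℓ fun n ζ hζ => ?_
  refine Fermat.Agent.S42.cy92_frob_root A hℓ hA hτ (p ^ n) (fun hd => ?_) ζ hζ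
  exact hℓp ((Nat.prime_dvd_prime_iff_eq hℓ hp).mp (hℓ.dvd_of_dvd_pow hd))

/-- **Inertia**: `χ` is trivial on the inertia groups at primes `q ≠ p`. -/
theorem ca38_chi_inertia {q : ℕ} (hq : q.Prime) (hqp : q ≠ p) (A : ValuationSubring Qb)
    (hA : A.LiesOverPrime q) (σ : GQ) (hσ : σ ∈ A.inertiaSubgroupIn ℚ) :
    ca38_chi p σ = 1 := by
  have hp : p.Prime := Fact.out
  apply Units.ext
  rw [Units.val_one]
  have h := ca38_chi_eq_natCast p σ 1 fun n ζ hζ => by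
    rw [pow_one]
    refine Fermat.Agent.S42.cy92_inertia_root A hq hA hσ (p ^ n) (fun hd => ?_) ζ hζ
    exact hqp ((Nat.prime_dvd_prime_iff_eq hq hp).mp (hq.dvd_of_dvd_pow hd))
  rw [h, Nat.cast_one]

/-- complex conjugation inverts roots of unity -/
theorem ca38_conj_root (n : ℕ) (hn : n ≠ 0) (ζ : Qb) (hζ : ζ ^ n = 1) :
    complexConjugation ζ = ζ⁻¹ := by
  apply complexEmbedding.toRingHom.injective
  show complexEmbedding (complexConjugation ζ) = complexEmbedding ζ⁻¹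
  rw [complexEmbedding_complexConjugation, map_inv₀]
  have h1 : (complexEmbedding ζ) ^ n = 1 := by rw [← map_pow, hζ, map_one]
  have h2 : ‖complexEmbedding ζ‖ = 1 := Complex.norm_eq_one_of_pow_eq_one h1 hn
  exact (Complex.inv_eq_conj h2).symm

/-- **Complex conjugation**: `χ(c) = -1`. -/
theorem ca38_chi_conj : ((ca38_chi p complexConjugation : ℤ_[p]ˣ) : ℤ_[p]) = -1 := by
  have hp : p.Prime := Fact.out
  apply PadicInt.ext_of_toZModPow.mp
  intro n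
  have hpn : 0 < p ^ n := pow_pos hp.pos n
  rw [ca38_chi_toZModPow_eq p complexConjugation n (p ^ n - 1) (fun ζ hζ => ?_)]
  · rw [map_neg, map_one, Nat.cast_sub hpn, Nat.cast_one, ZMod.natCast_self, zero_sub]
  · rw [ca38_conj_root (p ^ n) hpn.ne' ζ hζ]
    apply inv_eq_of_mul_eq_one_right
    rw [← pow_succ', Nat.sub_add_cancel hpn, hζ]

/-- an automorphism fixing the `p ^ n`-th roots of unity has `χ ≡ 1` modulo `p ^ n` -/
theorem ca38_chi_toZModPow_of_fix (σ : GQ) (n : ℕ) (h : ∀ ζ : Qb, ζ ^ p ^ n = 1 → σ ζ = ζ) :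
    PadicInt.toZModPow n ((ca38_chi p σ : ℤ_[p]ˣ) : ℤ_[p]) = 1 := by
  rw [ca38_chi_toZModPow_eq p σ n 1 (fun ζ hζ => by rw [pow_one]; exact h ζ hζ), Nat.cast_one]

/-- if `g` agrees with `τ ^ j` on the `p ^ n`-th roots of unity then `χ(g) ≡ χ(τ) ^ j` -/
theorem ca38_chi_toZModPow_pow (g τ : GQ) (j n : ℕ)
    (h : ∀ ζ : Qb, ζ ^ p ^ n = 1 → g ζ = (τ ^ j) ζ) :
    PadicInt.toZModPow n ((ca38_chi p g : ℤ_[p]ˣ) : ℤ_[p]) =
      PadicInt.toZModPow n ((ca38_chi p τ : ℤ_[p]ˣ) : ℤ_[p]) ^ j := by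
  rw [ca38_chi_toZModPow_eq p g n
    (PadicInt.toZModPow n ((ca38_chi p (τ ^ j) : ℤ_[p]ˣ) : ℤ_[p])).val
    (fun ζ hζ => by rw [h ζ hζ]; exact ca38_chi_spec p (τ ^ j) n ζ hζ)]
  have : NeZero (p ^ n) := ⟨pow_ne_zero n (Fact.out : p.Prime).ne_zero⟩
  rw [ZMod.natCast_zmod_val, map_pow, Units.val_pow_eq_pow_val, map_pow]

/-- finite level modulo `p ^ n` -/
theorem ca38_chi_cont (n : ℕ) :
    ∃ L : IntermediateField ℚ Qb, FiniteDimensional ℚ L ∧
      ∀ σ : GQ, (∀ x ∈ L, σ x = x) →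
        PadicInt.toZModPow n ((ca38_chi p σ : ℤ_[p]ˣ) : ℤ_[p]) = 1 := by
  have hp : p.Prime := Fact.out
  obtain ⟨ζ, hζ⟩ := ca38_exists_primitiveRoot p n
  have hpn : 0 < p ^ n := pow_pos hp.pos n
  have : NeZero (p ^ n) := ⟨hpn.ne'⟩
  have hint : IsIntegral ℚ ζ :=
    (hζ.isIntegral hpn).tower_top
  refine ⟨IntermediateField.adjoin ℚ {ζ},
    IntermediateField.adjoin.finiteDimensional hint, fun σ hσ => ?_⟩
  apply ca38_chi_toZModPow_of_fix
  intro t ht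
  obtain ⟨i, -, rfl⟩ := hζ.eq_pow_of_pow_eq_one ht
  exact hσ _ (pow_mem (IntermediateField.mem_adjoin_simple_self ℚ ζ) i)

end Chi

section Eps

variable {R : Type*} [CommRing R] (I : Ideal R) [IsAdicComplete I R]
variable (p : ℕ) [Fact p.Prime] (hp : (p : R) ∈ I)

/-- **The `p`-adic cyclotomic character with values in `R`.** -/
noncomputable def ca38_eps : GQ →* Rˣ :=
  (Units.map (ca38_padicHom I p hp : ℤ_[p] →* R)).comp (ca38_chi p)

theorem ca38_eps_coe (σ : GQ) :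
    ((ca38_eps I p hp σ : Rˣ) : R) = ca38_padicHom I p hp ((ca38_chi p σ : ℤ_[p]ˣ) : ℤ_[p]) :=
  rfl

/-- congruence from the action on `p ^ n`-th roots of unity -/
theorem ca38_eps_spec (σ : GQ) (n a : ℕ) (h : ∀ ζ : Qb, ζ ^ p ^ n = 1 → σ ζ = ζ ^ a) :
    ((ca38_eps I p hp σ : Rˣ) : R) - (a : R) ∈ I ^ n := by
  rw [ca38_eps_coe]
  exact ca38_padicHom_sub_natCast_mem I p hp (ca38_chi_toZModPow_eq p σ n a h)

/-- **Frobenius elements**: `ε(τ) = ℓ`. -/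
theorem ca38_eps_frob {ℓ : ℕ} (hℓ : ℓ.Prime) (hℓp : ℓ ≠ p) (A : ValuationSubring Qb)
    (hA : A.LiesOverPrime ℓ) (τ : GQ) (hτ : A.IsFrobeniusAt τ ℓ) :
    ((ca38_eps I p hp τ : Rˣ) : R) = (ℓ : R) := by
  rw [ca38_eps_coe, ca38_chi_frob p hℓ hℓp A hA τ hτ, map_natCast]

/-- **Inertia**: `ε` is trivial on inertia at `q ≠ p`. -/
theorem ca38_eps_inertia {q : ℕ} (hq : q.Prime) (hqp : q ≠ p) (A : ValuationSubring Qb)
    (hA : A.LiesOverPrime q) (σ : GQ) (hσ : σ ∈ A.inertiaSubgroupIn ℚ) :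
    ca38_eps I p hp σ = 1 := by
  rw [ca38_eps, MonoidHom.comp_apply, ca38_chi_inertia p hq hqp A hA σ hσ, map_one]

/-- **Complex conjugation**: `ε(c) = -1`. -/
theorem ca38_eps_conj : ((ca38_eps I p hp complexConjugation : Rˣ) : R) = -1 := by
  rw [ca38_eps_coe, ca38_chi_conj, map_neg, map_one]

/-- an element of order two on which `ε` takes the value `-1` -/
theorem ca38_eps_exists_conj :
    ∃ c : GQ, c * c = 1 ∧ ((ca38_eps I p hp c : Rˣ) : R) = -1 :=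
  ⟨complexConjugation, complexConjugation_mul_self, ca38_eps_conj I p hp⟩

/-- **Adic continuity**: modulo `I ^ n` the character factors through a finite level. -/
theorem ca38_eps_cont (n : ℕ) :
    ∃ L : IntermediateField ℚ Qb, FiniteDimensional ℚ L ∧
      ∀ σ : GQ, (∀ x ∈ L, σ x = x) → ((ca38_eps I p hp σ : Rˣ) : R) - 1 ∈ I ^ n := by
  obtain ⟨L, hL, h⟩ := ca38_chi_cont p n
  refine ⟨L, hL, fun σ hσ => ?_⟩
  have h1 : PadicInt.toZModPow n ((ca38_chi p σ : ℤ_[p]ˣ) : ℤ_[p]) =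
      PadicInt.toZModPow n (1 : ℤ_[p]) := by rw [h σ hσ, map_one]
  have h2 := ca38_padicHom_sub_mem I p hp h1
  rwa [map_one] at h2

/-- if `g` agrees with `τ ^ j` on the `p ^ n`-th roots of unity then `ε(g) ≡ ε(τ) ^ j` modulo
`I ^ n` -/
theorem ca38_eps_pow_congr (g τ : GQ) (j n : ℕ)
    (h : ∀ ζ : Qb, ζ ^ p ^ n = 1 → g ζ = (τ ^ j) ζ) :
    ((ca38_eps I p hp g : Rˣ) : R) - ((ca38_eps I p hp τ : Rˣ) : R) ^ j ∈ I ^ n := by
  have h1 : PadicInt.toZModPow n ((ca38_chi p g : ℤ_[p]ˣ) : ℤ_[p]) =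
      PadicInt.toZModPow n (((ca38_chi p τ : ℤ_[p]ˣ) : ℤ_[p]) ^ j) := by
    rw [ca38_chi_toZModPow_pow p g τ j n h, map_pow]
  have h2 := ca38_padicHom_sub_mem I p hp h1
  rwa [map_pow] at h2

end Eps

end Fermat.Agent.S30
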