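import Mathlib
import Fermat.Agent.S30.TateLattice35

/-!
# S30, row L-EigenTate (helper62): the eigen-submodule of a Tate module with group action

Abstract layer on top of `TateLattice35` (helper35).  `A` an abelian group with an action of a
group `G`, `W n = A[p ^ n]`, `T = tl35_Tate O p W hW` the `O`-Tate module, `Th i` a family of
endomorphisms of `A` commuting with `G`, `c i : O` scalars.

* `et62_M`   : the submodule `{x ∈ T | ∀ i, Th i x = c i • x}`;
* `et62_rho` : the action `G →* End_O M`;
* `et62_M_sat`, `et62_M_smul_eq_zero`, `et62_M_sep` : `M` is saturated in `T`, torsion-free,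
  separated;
* `et62_M_ne_zero` : a compatible family `θ n : L → A[p ^ n]` and an eigenvector in `O ⊗ L`
  give a non-zero element of `M`;
* `et62_support` : congruences modulo `p ^ n` only depend on a finite subset of `A[p ^ n]`;
* `et62_cont_abs`, `et62_inertia_abs`, `et62_frob_abs`, `et62_quad_abs` : continuity, trivial
  action, the quadratic relation and the level-`n` quadratic relation for every `g`.
-/

set_option autoImplicit false

open scoped TensorProduct

namespace Fermat.Agent.S30

/-! ### Lucas sequences -/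

/-- The Lucas sequence `V_j(c, l)`: `V_0 = 2`, `V_1 = c`, `V_{j+2} = c V_{j+1} - l V_j`. -/
def et62_V {K : Type*} [CommRing K] (c l : K) : ℕ → K
  | 0 => 2
  | 1 => c
  | (j + 2) => c * et62_V c l (j + 1) - l * et62_V c l j

theorem et62_V_zero {K : Type*} [CommRing K] (c l : K) : et62_V c l 0 = 2 := rfl

theorem et62_V_one {K : Type*} [CommRing K] (c l : K) : et62_V c l 1 = c := rfl

theorem et62_V_succ_succ {K : Type*} [CommRing K] (c l : K) (j : ℕ) :
    et62_V c l (j + 2) = c * et62_V c l (j + 1) - l * et62_V c l j := rfl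

/-- Powers of an invertible root `u` of `X² - c X + l`: `u^j + l^j u^{-j} = V_j(c, l)`. -/
theorem et62_lucas {O M : Type*} [CommRing O] [AddCommGroup M] [Module O M]
    (u ui : Module.End O M) (hu : u * ui = 1) (hu' : ui * u = 1) (c l : O)
    (hq : u * u - c • u + l • (1 : Module.End O M) = 0) :
    ∀ j : ℕ, u ^ j + l ^ j • ui ^ j = et62_V c l j • (1 : Module.End O M) := by
  have hE : u + l • ui = c • (1 : Module.End O M) := by
    have h1 : (u * u - c • u + l • (1 : Module.End O M)) * ui = 0 := by rw [hq, zero_mul]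
    rw [add_mul, sub_mul, mul_assoc, hu, mul_one, smul_mul_assoc, hu, smul_mul_assoc, one_mul]
      at h1
    have h2 : u + l • ui = c • (1 : Module.End O M) + (u - c • (1 : Module.End O M) + l • ui) := by
      abel
    rw [h2, h1, add_zero]
  have key : ∀ j : ℕ, u ^ j + l ^ j • ui ^ j = et62_V c l j • (1 : Module.End O M) ∧
      u ^ (j + 1) + l ^ (j + 1) • ui ^ (j + 1) = et62_V c l (j + 1) • (1 : Module.End O M) := by
    intro j
    induction j with
    | zero =>
      refine ⟨?_, ?_⟩
      · rw [pow_zero, pow_zero, pow_zero, one_smul, et62_V_zero, two_smul]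
      · rw [zero_add, pow_one, pow_one, pow_one, et62_V_one, hE]
    | succ j ih =>
      refine ⟨ih.2, ?_⟩
      have h1 : u * ui ^ (j + 1) = ui ^ j := by
        rw [pow_succ', ← mul_assoc, hu, one_mul]
      have h2 : ui * u ^ (j + 1) = u ^ j := by
        rw [pow_succ', ← mul_assoc, hu', one_mul]
      have h3 : (u + l • ui) * (u ^ (j + 1) + l ^ (j + 1) • ui ^ (j + 1))
          = (u ^ (j + 2) + l ^ (j + 2) • ui ^ (j + 2)) + l • (u ^ j + l ^ j • ui ^ j) := by
        rw [add_mul, mul_add, mul_add, mul_smul_comm, h1, smul_mul_assoc, h2, smul_mul_assoc,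
          mul_smul_comm, smul_smul, ← pow_succ' u (j + 1), ← pow_succ' ui (j + 1),
          ← pow_succ' l (j + 1), smul_add, smul_smul, ← pow_succ' l j]
        abel
      rw [hE, ih.2, ih.1, smul_mul_assoc, one_mul, smul_smul, smul_smul] at h3
      rw [et62_V_succ_succ, sub_smul]
      rw [eq_sub_iff_add_eq]
      exact h3.symm
  exact fun j => (key j).1

/-! ### Finite supports in a tensor product -/

/-- An element of `O ⊗[ℤ] B` only sees finitely many elements of `B`. -/
theorem et62_support_aux (O : Type*) [CommRing O] {B : Type*} [AddCommGroup B] (b : O ⊗[ℤ] B) :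
    ∃ t : Finset B, ∀ f g : B →ₗ[ℤ] B, (∀ z ∈ t, f z = g z) →
      f.baseChange O b = g.baseChange O b := by
  classical
  induction b using TensorProduct.induction_on with
  | zero => exact ⟨∅, fun f g _ => by rw [map_zero, map_zero]⟩
  | tmul r z =>
    exact ⟨{z}, fun f g h => by
      rw [LinearMap.baseChange_tmul, LinearMap.baseChange_tmul, h z (Finset.mem_singleton_self z)]⟩
  | add x y hx hy =>
    obtain ⟨t1, h1⟩ := hx
    obtain ⟨t2, h2⟩ := hy
    exact ⟨t1 ∪ t2, fun f g h => by
      rw [map_add, map_add, h1 f g fun z hz => h z (Finset.mem_union_left _ hz),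
        h2 f g fun z hz => h z (Finset.mem_union_right _ hz)]⟩

section et62

variable (O : Type*) [CommRing O] {A : Type*} [AddCommGroup A] (p : ℕ)
variable (W : ℕ → AddSubgroup A) (hW : ∀ n x, x ∈ W n ↔ ((p ^ n : ℕ) : ℤ) • x = 0)

/-- Shortcut instance (the canonical one; instance search is slow on these nested types). -/
noncomputable instance et62_T_addCommGroup : AddCommGroup ↥(tl35_Tate O p W hW) :=
  Submodule.addCommGroup _

/-- Shortcut instance (the canonical one). -/
noncomputable instance et62_T_module : Module O ↥(tl35_Tate O p W hW) :=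
  Submodule.module _

/-- Shortcut instance (the canonical one). -/
noncomputable instance et62_T_endRing : Ring (Module.End O ↥(tl35_Tate O p W hW)) :=
  Module.End.instRing

/-- Congruences modulo `p ^ n` in the Tate module only depend on a finite subset of `A[p ^ n]`. -/
theorem et62_support [Module.Flat ℤ O] (x : tl35_Tate O p W hW) (n : ℕ) :
    ∃ t : Finset A, (∀ z ∈ t, z ∈ W n) ∧ ∀ φ ψ : AddMonoid.End A, (∀ z ∈ t, φ z = ψ z) →
      ∃ y : tl35_Tate O p W hW,
        (p : O) ^ n • y = tl35_endHom O p W hW φ x - tl35_endHom O p W hW ψ x := by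
  classical
  obtain ⟨t0, ht0⟩ := et62_support_aux O ((x : ∀ n, tl35_V O W n) n)
  refine ⟨t0.image (fun z : W n => (z : A)), ?_, fun φ ψ h => ?_⟩
  · intro z hz
    obtain ⟨z0, -, rfl⟩ := Finset.mem_image.mp hz
    exact z0.2
  · apply (tl35_tate_apply_eq_zero_iff O p W hW n _).mp
    rw [Submodule.coe_sub, Pi.sub_apply, tl35_endHom_apply, tl35_endHom_apply, sub_eq_zero]
    refine ht0 _ _ fun z hz => Subtype.ext ?_
    rw [tl35_restr_coe, tl35_restr_coe]
    exact h _ (Finset.mem_image_of_mem _ hz)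

/-- The Tate module has no `p`-power torsion. -/
theorem et62_T_pow_smul_eq_zero [Module.Flat ℤ O] (x : tl35_Tate O p W hW) (m : ℕ)
    (h : (p : O) ^ m • x = 0) : x = 0 :=
  Subtype.ext (tl35_pow_smul_eq_zero (tl35_tate_isTower O p W hW) x.2 m
    (congrArg Subtype.val h))

variable {G : Type*} [Group G] [DistribMulAction G A]

/-- The action of `G` on the Tate module. -/
noncomputable def et62_rhoT : G →* Module.End O (tl35_Tate O p W hW) :=
  (tl35_endHom O p W hW).toMonoidHom.comp (DistribMulAction.toAddMonoidEnd G A)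

theorem et62_rhoT_apply (g : G) :
    et62_rhoT O p W hW g = tl35_endHom O p W hW (DistribMulAction.toAddMonoidEnd G A g) := rfl

variable {ι : Type*} (Th : ι → AddMonoid.End A) (c : ι → O)

/-- The eigen-submodule `{x ∈ T | ∀ i, Th i x = c i • x}`. -/
def et62_M : Submodule O (tl35_Tate O p W hW) where
  carrier := {x | ∀ i, tl35_endHom O p W hW (Th i) x = c i • x}
  zero_mem' := fun i => by rw [map_zero, smul_zero]
  add_mem' := fun {a b} ha hb i => by rw [map_add, ha i, hb i, smul_add]
  smul_mem' := fun r a ha i => by rw [map_smul, ha i, smul_comm]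

theorem et62_mem_M (x : tl35_Tate O p W hW) :
    x ∈ et62_M O p W hW Th c ↔ ∀ i, tl35_endHom O p W hW (Th i) x = c i • x := Iff.rfl

/-- Shortcut instance (the canonical one). -/
noncomputable instance et62_M_addCommGroup : AddCommGroup ↥(et62_M O p W hW Th c) :=
  Submodule.addCommGroup _

/-- Shortcut instance (the canonical one). -/
noncomputable instance et62_M_module : Module O ↥(et62_M O p W hW Th c) :=
  Submodule.module _

/-- Shortcut instance (the canonical one). -/
noncomputable instance et62_M_endRing : Ring (Module.End O ↥(et62_M O p W hW Th c)) :=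
  Module.End.instRing

/-- `M` is saturated in `T`. -/
theorem et62_M_sat [Module.Flat ℤ O] (y : tl35_Tate O p W hW) (n : ℕ)
    (h : (p : O) ^ n • y ∈ et62_M O p W hW Th c) : y ∈ et62_M O p W hW Th c := by
  intro i
  have h1 := h i
  rw [map_smul] at h1
  have h2 : (p : O) ^ n • (tl35_endHom O p W hW (Th i) y - c i • y) = 0 := by
    have e := smul_sub ((p : O) ^ n) (tl35_endHom O p W hW (Th i) y) (c i • y)
    rw [e, h1, smul_comm, sub_self]
  exact sub_eq_zero.mp (et62_T_pow_smul_eq_zero O p W hW _ n h2)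

/-- Division by `p ^ n` inside `M`. -/
theorem et62_M_div [Module.Flat ℤ O] (w : et62_M O p W hW Th c) (n : ℕ)
    (y : tl35_Tate O p W hW) (h : (p : O) ^ n • y = (w : tl35_Tate O p W hW)) :
    ∃ y' : et62_M O p W hW Th c, (p : O) ^ n • y' = w :=
  ⟨⟨y, et62_M_sat O p W hW Th c y n (h ▸ w.2)⟩, Subtype.ext h⟩

/-- `M` is separated for the `p`-adic topology. -/
theorem et62_M_sep [Module.Flat ℤ O] (w : et62_M O p W hW Th c)
    (h : ∀ n : ℕ, ∃ y : et62_M O p W hW Th c, (p : O) ^ n • y = w) : w = 0 := by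
  apply Subtype.ext
  apply Subtype.ext
  apply tl35_eq_zero_of_forall_pow (tl35_tate_isTower O p W hW) (w : tl35_Tate O p W hW).2
  intro m
  obtain ⟨y, hy⟩ := h m
  exact ⟨((y : tl35_Tate O p W hW) : ∀ n, tl35_V O W n), (y : tl35_Tate O p W hW).2,
    by rw [← hy]; rfl⟩

/-- `M` is torsion-free over a discrete valuation ring with `p` in the maximal ideal. -/
theorem et62_M_smul_eq_zero [IsDomain O] [IsDiscreteValuationRing O] [Module.Flat ℤ O]
    (hp : (p : O) ∈ IsLocalRing.maximalIdeal O) (w : et62_M O p W hW Th c) (r : O) (hr : r ≠ 0)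
    (h : r • w = 0) : w = 0 := by
  apply Subtype.ext
  apply Subtype.ext
  refine tl35_eq_zero_of_smul (tl35_tate_isTower O p W hW) (tl35_dvd_pow_of_dvr hp)
    (w : tl35_Tate O p W hW).2 hr ?_
  have := congrArg (fun z : et62_M O p W hW Th c => ((z : tl35_Tate O p W hW) : ∀ n, tl35_V O W n)) h
  exact this

/-- A compatible family `θ n : L → A[p ^ n]`, equivariant for `t i` / `Th i`, with
`ker (θ 1) = p L`, and an eigenvector `v ∉ p (O ⊗ L)` give a non-zero element of `M`. -/
theorem et62_M_ne_zero [Module.Flat ℤ O] {L : Type*} [AddCommGroup L] (θ : ℕ → L →+ A)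
    (hθ : ∀ n x, θ n x ∈ W n) (hθc : ∀ n x, (p : ℤ) • θ (n + 1) x = θ n x)
    (hker : ∀ x, θ 1 x = 0 → ∃ y : L, x = (p : ℤ) • y)
    (t : ι → L →+ L) (hθT : ∀ i n x, Th i (θ n x) = θ n (t i x))
    (v : O ⊗[ℤ] L) (hv : ¬ ∃ w : O ⊗[ℤ] L, v = (p : O) • w)
    (hveig : ∀ i, (t i).toIntLinearMap.baseChange O v = c i • v) :
    ∃ w : et62_M O p W hW Th c, w ≠ 0 := by
  refine ⟨⟨tl35_theta O p W hW θ hθ hθc v, fun i => ?_⟩, fun h => ?_⟩
  · rw [tl35_theta_equivariant O p W hW θ hθ hθc (Th i) (t i) (hθT i) v, hveig i, map_smul]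
  · exact tl35_theta_ne_zero O p W hW θ hθ hθc hker v hv (congrArg Subtype.val h)

variable (hcomm : ∀ (i : ι) (g : G) (x : A), g • Th i x = Th i (g • x))

include hcomm in
/-- The operators `Th i` commute with `G` on the Tate module. -/
theorem et62_comm (i : ι) (g : G) (x : tl35_Tate O p W hW) :
    tl35_endHom O p W hW (Th i) (et62_rhoT O p W hW g x)
      = et62_rhoT O p W hW g (tl35_endHom O p W hW (Th i) x) := by
  have h : Th i * DistribMulAction.toAddMonoidEnd G A g
      = DistribMulAction.toAddMonoidEnd G A g * Th i :=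
    AddMonoidHom.ext fun a => (hcomm i g a).symm
  rw [et62_rhoT_apply, ← Module.End.mul_apply, ← map_mul, h, map_mul, Module.End.mul_apply]

/-- The action of `G` on the eigen-submodule. -/
noncomputable def et62_rho : G →* Module.End O (et62_M O p W hW Th c) where
  toFun g := (et62_rhoT O p W hW g).restrict (fun x hx i => by
    rw [et62_comm O p W hW Th hcomm i g x, (et62_mem_M O p W hW Th c x).mp hx i, map_smul])
  map_one' := LinearMap.ext fun x => Subtype.ext (by
    show et62_rhoT O p W hW 1 (x : tl35_Tate O p W hW) = x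
    rw [map_one]; rfl)
  map_mul' g h := LinearMap.ext fun x => Subtype.ext (by
    show et62_rhoT O p W hW (g * h) (x : tl35_Tate O p W hW)
      = et62_rhoT O p W hW g (et62_rhoT O p W hW h (x : tl35_Tate O p W hW))
    rw [map_mul]; rfl)

theorem et62_rho_coe (g : G) (w : et62_M O p W hW Th c) :
    ((et62_rho O p W hW Th c hcomm g w : et62_M O p W hW Th c) : tl35_Tate O p W hW)
      = et62_rhoT O p W hW g (w : tl35_Tate O p W hW) := rfl

/-- An element of `G` acting trivially on all the `A[p ^ n]` acts trivially on `M`. -/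
theorem et62_inertia_abs (g : G) (h : ∀ n, ∀ x ∈ W n, g • x = x) :
    et62_rho O p W hW Th c hcomm g = 1 := by
  refine LinearMap.ext fun w => Subtype.ext ?_
  rw [et62_rho_coe, et62_rhoT_apply,
    tl35_endHom_eq_of_eqOn O p W hW _ 1 (fun n x hx => h n x hx), map_one]
  rfl

/-- **Continuity**: modulo `p ^ n`, the action on `w` only depends on the action on a finite
subset of `A[p ^ n]`. -/
theorem et62_cont_abs [Module.Flat ℤ O] (w : et62_M O p W hW Th c) (n : ℕ) :
    ∃ t : Finset A, (∀ z ∈ t, z ∈ W n) ∧ ∀ g : G, (∀ z ∈ t, g • z = z) →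
      ∃ y : et62_M O p W hW Th c, (p : O) ^ n • y = et62_rho O p W hW Th c hcomm g w - w := by
  obtain ⟨t, ht, h⟩ := et62_support O p W hW (w : tl35_Tate O p W hW) n
  refine ⟨t, ht, fun g hg => ?_⟩
  obtain ⟨y, hy⟩ := h (DistribMulAction.toAddMonoidEnd G A g) 1 (fun z hz => hg z hz)
  refine et62_M_div O p W hW Th c (et62_rho O p W hW Th c hcomm g w - w) n y ?_
  rw [hy, map_one]
  rfl

/-- **The quadratic relation**: if `τ² - Th i τ + l = 0` on all the `A[p ^ n]`, then
`ρ(τ)² - c i ρ(τ) + l = 0` on `M`. -/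
theorem et62_frob_abs (τ : G) (i : ι) (l : ℕ)
    (h : ∀ n, ∀ x ∈ W n, τ • τ • x - Th i (τ • x) + l • x = 0) (w : et62_M O p W hW Th c) :
    et62_rho O p W hW Th c hcomm τ (et62_rho O p W hW Th c hcomm τ w)
      - c i • et62_rho O p W hW Th c hcomm τ w + (l : O) • w = 0 := by
  have h0 : tl35_endHom O p W hW (DistribMulAction.toAddMonoidEnd G A τ
      * DistribMulAction.toAddMonoidEnd G A τ - Th i * DistribMulAction.toAddMonoidEnd G A τ
      + (l : AddMonoid.End A)) = 0 := by
    refine tl35_endHom_eq_zero O p W hW _ fun n x hx => ?_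
    have := h n x hx
    exact this
  rw [map_add, map_sub, map_mul, map_mul, map_natCast] at h0
  have h1 := LinearMap.congr_fun h0 (w : tl35_Tate O p W hW)
  have h2 := (et62_rho O p W hW Th c hcomm τ w).2 i
  rw [et62_rho_coe, et62_rhoT_apply] at h2
  apply Subtype.ext
  rw [LinearMap.add_apply, LinearMap.sub_apply, Module.End.mul_apply, Module.End.mul_apply, h2,
    LinearMap.zero_apply, Module.End.natCast_apply, ← Nat.cast_smul_eq_nsmul O] at h1
  exact h1

/-- **The level-`n` quadratic relation for every `g`** (`eg` plays the role of `ε(g)`): if `g`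
agrees with `τ ^ j` (and `g⁻¹` with `τ ^ (-j)`) on a suitable finite subset of `A[p ^ n]`, `τ`
satisfies `τ² - Th i τ + l = 0` on torsion and `eg ≡ l ^ j` modulo `p ^ n`, then
`ρ(g) w + eg ρ(g⁻¹) w ≡ V_j(c i, l) w` modulo `p ^ n M`. -/
theorem et62_quad_abs [Module.Flat ℤ O] (g : G) (w : et62_M O p W hW Th c) (n : ℕ) (eg : O) :
    ∃ t : Finset A, (∀ z ∈ t, z ∈ W n) ∧ ∀ (τ : G) (j : ℕ) (i : ι) (l : ℕ) (e : O),
      (∀ z ∈ t, g • z = τ ^ j • z) → (∀ z ∈ t, g⁻¹ • z = (τ ^ j)⁻¹ • z) →
      (∀ m, ∀ x ∈ W m, τ • τ • x - Th i (τ • x) + l • x = 0) →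
      eg - (l : O) ^ j = (p : O) ^ n * e →
      ∃ y : et62_M O p W hW Th c, (p : O) ^ n • y
        = et62_rho O p W hW Th c hcomm g w + eg • et62_rho O p W hW Th c hcomm g⁻¹ w
          - et62_V (c i) (l : O) j • w := by
  obtain ⟨t, ht, hsupp⟩ := et62_support O p W hW (w : tl35_Tate O p W hW) n
  refine ⟨t, ht, fun τ j i l e h1 h2 hq he => ?_⟩
  obtain ⟨y1, hy1⟩ := hsupp (DistribMulAction.toAddMonoidEnd G A g)
    (DistribMulAction.toAddMonoidEnd G A (τ ^ j)) h1
  obtain ⟨y2, hy2⟩ := hsupp (DistribMulAction.toAddMonoidEnd G A g⁻¹)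
    (DistribMulAction.toAddMonoidEnd G A (τ ^ j)⁻¹) h2
  -- the Lucas relation on `M`
  set u := et62_rho O p W hW Th c hcomm τ with hu_def
  set ui := et62_rho O p W hW Th c hcomm τ⁻¹ with hui_def
  have hu : u * ui = 1 := by rw [hu_def, hui_def, ← map_mul, mul_inv_cancel, map_one]
  have hu' : ui * u = 1 := by rw [hu_def, hui_def, ← map_mul, inv_mul_cancel, map_one]
  have hq' : u * u - c i • u + (l : O) • (1 : Module.End O (et62_M O p W hW Th c)) = 0 :=
    LinearMap.ext fun x => et62_frob_abs O p W hW Th c hcomm τ i l hq x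
  have hL := et62_lucas u ui hu hu' (c i) (l : O) hq' j
  have hL1 := LinearMap.congr_fun hL w
  rw [LinearMap.add_apply, LinearMap.smul_apply, LinearMap.smul_apply, Module.End.one_apply,
    hu_def, hui_def, ← map_pow, ← map_pow, inv_pow] at hL1
  have hL2 := congrArg (fun z : et62_M O p W hW Th c => (z : tl35_Tate O p W hW)) hL1
  simp only [Submodule.coe_add, Submodule.coe_smul, et62_rho_coe] at hL2
  refine et62_M_div O p W hW Th c _ n
    (y1 + eg • y2 + e • et62_rhoT O p W hW (τ ^ j)⁻¹ (w : tl35_Tate O p W hW)) ?_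
  simp only [Submodule.coe_add, Submodule.coe_sub, Submodule.coe_smul, et62_rho_coe]
  rw [← hL2]
  have e1 := smul_add ((p : O) ^ n) (y1 + eg • y2)
    (e • et62_rhoT O p W hW (τ ^ j)⁻¹ (w : tl35_Tate O p W hW))
  have e2 := smul_add ((p : O) ^ n) y1 (eg • y2)
  rw [e1, e2, smul_comm ((p : O) ^ n) eg y2, hy1, hy2, smul_smul, ← he]
  simp only [et62_rhoT_apply]
  module

end et62

end Fermat.Agent.S30
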