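import Mathlib
import Fermat.Agent.S30.EigenTate62
import Fermat.Agent.S30.CycloAdic15
import Fermat.Agent.S42.FrobInertia69
import Fermat.Agent.S42.HeckeGalois25
import Fermat.Agent.S42.OpenStab25
import Fermat.Agent.S42.FrobPow37

/-!
# S30, row L-EigenTate (helper62): the eigen-Tate module of `J₀(N)` over `O`

Concrete instance of `EigenTate62` for `A = JZero N`, `G = Gal(ℚ̄/ℚ)`, the Hecke operators
`heckeOperatorBar N ℓ` (`ℓ ∉ S`) and scalars `c ℓ : O`: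

* `et62_MJ N p O S c` : the `O`-module `{x ∈ T_p(J₀(N)) ⊗ O | ∀ ℓ ∉ S, T_ℓ x = c ℓ • x}`
  (an honest submodule of helper35's `tl35_Tate`), `et62_rhoJ N p O S c : G_ℚ →* End_O`;
* (M1) `et62_MJ_smul_eq_zero` torsion-free, (M2) `et62_MJ_sep` separated,
  (M3) `et62_MJ_ne_zero` non-zero (from a compatible family `θ` and an eigenvector);
* (M4) `et62_MJ_quad` / `et62_MJ_quad_eps` : for EVERY `g`, every `w` and every `n` there is
  `a : O` with `ρ(g) w + ε(g) ρ(g⁻¹) w - a • w ∈ pⁿ M`;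
* (M5) `et62_MJ_inertia` : inertia at `q ∤ N p` acts trivially;
* (M6) `et62_MJ_cont` : `ρ(σ) w - w ∈ pⁿ M` for `σ` fixing a number field (depending on `w, n`);
* (M7) `et62_MJ_frob` : `ρ(τ)² - c ℓ ρ(τ) + ℓ = 0` for every Frobenius element `τ` at `ℓ ∉ S`.
-/

set_option autoImplicit false

open ModularCurve AlgebraicCurve
open scoped TensorProduct

namespace Fermat.Agent.S30

open Fermat.Agent.S42

local notation "Qb" => AlgebraicClosure ℚ
local notation "GQ" => AlgebraicClosure ℚ ≃ₐ[ℚ] AlgebraicClosure ℚ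

section et62i

variable (N : ℕ) [NeZero N] (p : ℕ)

/-- `J₀(N)(ℚ̄)[p ^ n]`. -/
noncomputable def et62_W (n : ℕ) : AddSubgroup (JZero N) :=
  (zsmulAddGroupHom ((p ^ n : ℕ) : ℤ) : JZero N →+ JZero N).ker

theorem et62_hW (n : ℕ) (x : JZero N) :
    x ∈ et62_W N p n ↔ ((p ^ n : ℕ) : ℤ) • x = 0 := Iff.rfl

theorem et62_mem_W_iff (n : ℕ) (x : JZero N) : x ∈ et62_W N p n ↔ p ^ n • x = 0 := by
  rw [et62_hW, natCast_zsmul]

variable (O : Type*) [CommRing O] (S : Finset ℕ) (c : Nat.Primes → O)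

/-- The Hecke operators at the primes outside `S`. -/
noncomputable def et62_Th : {ℓ : Nat.Primes // (ℓ : ℕ) ∉ S} → AddMonoid.End (JZero N) :=
  fun i => (heckeOperatorBar N i.1).toAddMonoidHom

theorem et62_Th_apply (i : {ℓ : Nat.Primes // (ℓ : ℕ) ∉ S}) (x : JZero N) :
    et62_Th N S i x = heckeOperatorBar N i.1 x := rfl

theorem et62_hcomm (i : {ℓ : Nat.Primes // (ℓ : ℕ) ∉ S}) (g : GQ) (x : JZero N) :
    g • et62_Th N S i x = et62_Th N S i (g • x) :=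
  hg25_hecke_galois N i.1 g x

/-- **The eigen-Tate module** `{x ∈ T_p(J₀(N)) ⊗ O | ∀ ℓ ∉ S, T_ℓ x = c ℓ • x}`. -/
noncomputable abbrev et62_MJ : Submodule O (tl35_Tate O p (et62_W N p) (et62_hW N p)) :=
  et62_M O p (et62_W N p) (et62_hW N p) (et62_Th N S) (fun i => c i.1)

/-- **The Galois action** on the eigen-Tate module. -/
noncomputable abbrev et62_rhoJ : GQ →* Module.End O (et62_MJ N p O S c) :=
  et62_rho O p (et62_W N p) (et62_hW N p) (et62_Th N S) (fun i => c i.1) (et62_hcomm N S)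

/-- (M1) The eigen-Tate module is torsion-free. -/
theorem et62_MJ_smul_eq_zero [IsDomain O] [IsDiscreteValuationRing O] [Module.Flat ℤ O]
    (hp : (p : O) ∈ IsLocalRing.maximalIdeal O) (w : et62_MJ N p O S c) (r : O) (hr : r ≠ 0)
    (h : r • w = 0) : w = 0 :=
  et62_M_smul_eq_zero O p (et62_W N p) (et62_hW N p) (et62_Th N S) (fun i => c i.1) hp w r hr h

/-- (M2) The eigen-Tate module is `p`-adically separated. -/
theorem et62_MJ_sep [Module.Flat ℤ O] (w : et62_MJ N p O S c)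
    (h : ∀ n : ℕ, ∃ y : et62_MJ N p O S c, (p : O) ^ n • y = w) : w = 0 :=
  et62_M_sep O p (et62_W N p) (et62_hW N p) (et62_Th N S) (fun i => c i.1) w h

/-- (M3) The eigen-Tate module is non-zero as soon as there are a compatible Hecke-equivariant
family `θ n : L → J₀(N)[p ^ n]` with `ker (θ 1) = p L` and an eigenvector `v ∉ p (O ⊗ L)`. -/
theorem et62_MJ_ne_zero [Module.Flat ℤ O] {L : Type*} [AddCommGroup L] (θ : ℕ → L →+ JZero N)
    (hθ : ∀ n x, p ^ n • θ n x = 0) (hθc : ∀ n x, p • θ (n + 1) x = θ n x)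
    (hker : ∀ x, θ 1 x = 0 → ∃ y : L, x = p • y)
    (t : Nat.Primes → L →+ L)
    (hθT : ∀ ℓ : Nat.Primes, (ℓ : ℕ) ∉ S → ∀ n x, heckeOperatorBar N ℓ (θ n x) = θ n (t ℓ x))
    (v : O ⊗[ℤ] L) (hv : ¬ ∃ w : O ⊗[ℤ] L, v = (p : O) • w)
    (hveig : ∀ ℓ : Nat.Primes, (ℓ : ℕ) ∉ S →
      (t ℓ).toIntLinearMap.baseChange O v = c ℓ • v) :
    ∃ w : et62_MJ N p O S c, w ≠ 0 := by
  refine et62_M_ne_zero O p (et62_W N p) (et62_hW N p) (et62_Th N S) (fun i => c i.1) θ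
    (fun n x => (et62_mem_W_iff N p n _).mpr (hθ n x))
    (fun n x => by rw [natCast_zsmul]; exact hθc n x)
    (fun x hx => by
      obtain ⟨y, hy⟩ := hker x hx
      exact ⟨y, by rw [natCast_zsmul]; exact hy⟩)
    (fun i => t i.1) (fun i n x => hθT i.1 i.2 n x) v hv (fun i => hveig i.1 i.2)

/-- (M5) Inertia at a prime `q ∤ N p` acts trivially on the eigen-Tate module. -/
theorem et62_MJ_inertia (hp : p.Prime) (q : ℕ) (hq : q.Prime) (hqN : ¬ q ∣ N) (hqp : q ≠ p)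
    (P : ValuationSubring Qb) (hP : P.LiesOverPrime q) (σ : GQ)
    (hσ : σ ∈ P.inertiaSubgroupIn ℚ) : et62_rhoJ N p O S c σ = 1 := by
  have hqp' : ¬ q ∣ p := fun h => hqp ((Nat.prime_dvd_prime_iff_eq hq hp).mp h)
  have h : ∀ n, ∀ x ∈ et62_W N p n, σ • x = x := fun n x hx =>
    fi69_inertia N p q hq hqN hqp' P hP σ hσ x n ((et62_mem_W_iff N p n x).mp hx)
  exact et62_inertia_abs O p (et62_W N p) (et62_hW N p) (et62_Th N S) (fun i => c i.1)
    (et62_hcomm N S) σ h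

/-- (M6) Continuity: for every `w` and `n`, the elements of `G_ℚ` fixing a suitable number
field move `w` by an element of `pⁿ M`. -/
theorem et62_MJ_cont [Module.Flat ℤ O] (w : et62_MJ N p O S c) (n : ℕ) :
    ∃ L : IntermediateField ℚ Qb, FiniteDimensional ℚ L ∧ ∀ σ : GQ, (∀ x ∈ L, σ x = x) →
      ∃ y : et62_MJ N p O S c, (p : O) ^ n • y = et62_rhoJ N p O S c σ w - w := by
  -- (`have` + `obtain` on local hypotheses only: this avoids re-checking the goal)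
  have key := et62_cont_abs (G := GQ) O p (et62_W N p) (et62_hW N p) (et62_Th N S)
    (fun i => c i.1) (et62_hcomm N S) w n
  obtain ⟨t, -, h⟩ := key
  have key2 := os25_open_stab_finset N t
  obtain ⟨F, hF, hFix⟩ := key2
  exact ⟨F, hF, fun σ hσ => h σ (hFix σ hσ)⟩

/-- (M7) The Eichler-Shimura relation on the eigen-Tate module: `ρ(τ)² - c ℓ ρ(τ) + ℓ = 0`
for every Frobenius element `τ` at a prime `ℓ ∉ S`. -/
theorem et62_MJ_frob (hp : p.Prime) (hpS : p ∈ S) (hNS : ∀ q : ℕ, q.Prime → q ∣ N → q ∈ S)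
    (ℓ : ℕ) (hℓ : ℓ.Prime) (hℓS : ℓ ∉ S) (A : ValuationSubring Qb) (hA : A.LiesOverPrime ℓ)
    (τ : GQ) (hτ : A.IsFrobeniusAt τ ℓ) (w : et62_MJ N p O S c) :
    et62_rhoJ N p O S c τ (et62_rhoJ N p O S c τ w) - c ⟨ℓ, hℓ⟩ • et62_rhoJ N p O S c τ w
      + (ℓ : O) • w = 0 := by
  have hℓN : ¬ ℓ ∣ N := fun h => hℓS (hNS ℓ hℓ h)
  have hℓp : ¬ ℓ ∣ p := fun h => hℓS (((Nat.prime_dvd_prime_iff_eq hℓ hp).mp h) ▸ hpS)
  have h : ∀ n, ∀ x ∈ et62_W N p n,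
      τ • τ • x - et62_Th N S ⟨⟨ℓ, hℓ⟩, hℓS⟩ (τ • x) + ℓ • x = 0 := fun n x hx => by
    rw [et62_Th_apply]
    exact fi69_frob N p ℓ hℓ hℓN hℓp A hA τ hτ x n ((et62_mem_W_iff N p n x).mp hx)
  exact et62_frob_abs O p (et62_W N p) (et62_hW N p) (et62_Th N S) (fun i => c i.1)
    (et62_hcomm N S) τ ⟨⟨ℓ, hℓ⟩, hℓS⟩ ℓ h w

/-- Chebotarev data: every `g` agrees on a given finite set of points of `J₀(N)` and on
`μ_{pⁿ}` with a power `τ ^ j` of a Frobenius element at a prime `ℓ ∉ S` (and `g⁻¹` with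
`(τ ^ j)⁻¹` on the same points). -/
theorem et62_cheb_data (hp : p.Prime) (t : Finset (JZero N)) (g : GQ) (n : ℕ) :
    ∃ (ℓ : ℕ) (A : ValuationSubring Qb) (τ : GQ) (j : ℕ), ℓ.Prime ∧ ℓ ∉ S ∧
      A.LiesOverPrime ℓ ∧ A.IsFrobeniusAt τ ℓ ∧ (∀ z ∈ t, g • z = τ ^ j • z) ∧
      (∀ z ∈ t, g⁻¹ • z = (τ ^ j)⁻¹ • z) ∧ (∀ z : Qb, z ^ p ^ n = 1 → g z = (τ ^ j) z) := by
  classical
  -- a number field containing the fields of definition of the relevant points and `μ_{pⁿ}`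
  obtain ⟨s1, hs1⟩ := os25_open_stab_finset_set N (t ∪ t.image (fun z => g⁻¹ • z))
  set s2 : Finset Qb := Polynomial.nthRootsFinset (p ^ n) (1 : Qb) with hs2
  have halg : Algebra.IsAlgebraic ℚ Qb := AlgebraicClosure.isAlgebraic ℚ
  set F : IntermediateField ℚ Qb := IntermediateField.adjoin ℚ ((s1 ∪ s2 : Finset Qb) : Set Qb)
    with hF
  have : FiniteDimensional ℚ F :=
    IntermediateField.finiteDimensional_adjoin fun x _ => (halg.isAlgebraic x).isIntegral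
  obtain ⟨ℓ, A, τ, j, hℓ, hℓS, hA, hτ, hg⟩ := fp37_frob_pow_field F g S
  -- `g⁻¹ τ^j` fixes `F` pointwise
  have hσ0 : ∀ a ∈ F, (g⁻¹ * τ ^ j) a = a := fun a ha => by
    rw [AlgEquiv.mul_apply, ← hg a ha]
    exact g.symm_apply_apply a
  have hfix : ∀ x ∈ t ∪ t.image (fun z => g⁻¹ • z), (g⁻¹ * τ ^ j) • x = x :=
    hs1 _ fun a ha => hσ0 a (IntermediateField.subset_adjoin ℚ _
      (Finset.mem_coe.mpr (Finset.mem_union_left _ ha)))
  refine ⟨ℓ, A, τ, j, hℓ, hℓS, hA, hτ, fun z hz => ?_, fun z hz => ?_, fun z hz => ?_⟩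
  · have h0 := hfix z (Finset.mem_union_left _ hz)
    rw [mul_smul] at h0
    exact (inv_smul_eq_iff.mp h0).symm
  · have h0 := hfix (g⁻¹ • z) (Finset.mem_union_right _ (Finset.mem_image_of_mem _ hz))
    rw [mul_smul] at h0
    have h3 : τ ^ j • g⁻¹ • z = z := smul_left_cancel g⁻¹ h0
    exact eq_inv_smul_iff.mpr h3
  · exact hg z (IntermediateField.subset_adjoin ℚ _ (Finset.mem_coe.mpr (Finset.mem_union_right _
      ((Polynomial.mem_nthRootsFinset (pow_pos hp.pos n) 1).mpr hz))))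

/-- (M4) **The level-`n` quadratic relation for every `g`**: for a character `eps` which is
congruent to `ℓ ^ j` modulo `pⁿ` whenever `g = τ ^ j` on `μ_{pⁿ}` for a Frobenius element `τ` at
`ℓ`, there is `a : O` with `ρ(g) w + eps(g) ρ(g⁻¹) w - a • w ∈ pⁿ M`. -/
theorem et62_MJ_quad [Module.Flat ℤ O] (hp : p.Prime) (hpS : p ∈ S)
    (hNS : ∀ q : ℕ, q.Prime → q ∣ N → q ∈ S) (eps : GQ →* Oˣ)
    (heps_pow : ∀ (g τ : GQ) (j n : ℕ), (∀ z : Qb, z ^ p ^ n = 1 → g z = (τ ^ j) z) →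
      ((eps g : Oˣ) : O) - ((eps τ : Oˣ) : O) ^ j ∈ Ideal.span {(p : O) ^ n})
    (heps_frob : ∀ ℓ : ℕ, ℓ.Prime → ℓ ≠ p → ∀ A : ValuationSubring Qb, A.LiesOverPrime ℓ →
      ∀ τ : GQ, A.IsFrobeniusAt τ ℓ → ((eps τ : Oˣ) : O) = (ℓ : O))
    (g : GQ) (w : et62_MJ N p O S c) (n : ℕ) :
    ∃ (a : O) (y : et62_MJ N p O S c), (p : O) ^ n • y
      = et62_rhoJ N p O S c g w + ((eps g : Oˣ) : O) • et62_rhoJ N p O S c g⁻¹ w - a • w := by
  -- (`have` + `obtain` on local hypotheses only: this avoids re-checking the goal)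
  have key := et62_quad_abs (G := GQ) O p (et62_W N p) (et62_hW N p) (et62_Th N S)
    (fun i => c i.1) (et62_hcomm N S) g w n ((eps g : Oˣ) : O)
  obtain ⟨t, -, h⟩ := key
  have key2 := et62_cheb_data N p S hp t g n
  obtain ⟨ℓ, A, τ, j, hℓ, hℓS, hA, hτ, h1, h2, hroot⟩ := key2
  have hℓN : ¬ ℓ ∣ N := fun h => hℓS (hNS ℓ hℓ h)
  have hℓp : ℓ ≠ p := fun h => hℓS (h ▸ hpS)
  have hℓp' : ¬ ℓ ∣ p := fun h => hℓp ((Nat.prime_dvd_prime_iff_eq hℓ hp).mp h)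
  have he0 := heps_pow g τ j n hroot
  rw [heps_frob ℓ hℓ hℓp A hA τ hτ] at he0
  have he1 := Ideal.mem_span_singleton.mp he0
  obtain ⟨e, he⟩ := he1
  have hfr : ∀ m, ∀ x ∈ et62_W N p m,
      τ • τ • x - et62_Th N S ⟨⟨ℓ, hℓ⟩, hℓS⟩ (τ • x) + ℓ • x = 0 := fun m x hx => by
    rw [et62_Th_apply]
    exact fi69_frob N p ℓ hℓ hℓN hℓp' A hA τ hτ x m ((et62_mem_W_iff N p m x).mp hx)
  exact ⟨et62_V (c ⟨ℓ, hℓ⟩) (ℓ : O) j, h τ j ⟨⟨ℓ, hℓ⟩, hℓS⟩ ℓ e h1 h2 hfr he⟩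

/-- (M4) with `eps = ca15_eps`, the `O`-valued `p`-adic cyclotomic character (helper15). -/
theorem et62_MJ_quad_eps [Fact p.Prime] [Module.Flat ℤ O] (I : Ideal O) [IsAdicComplete I O]
    (hpI : (p : O) ∈ I) (hpS : p ∈ S) (hNS : ∀ q : ℕ, q.Prime → q ∣ N → q ∈ S)
    (g : GQ) (w : et62_MJ N p O S c) (n : ℕ) :
    ∃ (a : O) (y : et62_MJ N p O S c), (p : O) ^ n • y
      = et62_rhoJ N p O S c g w + ((ca15_eps p I hpI g : Oˣ) : O) • et62_rhoJ N p O S c g⁻¹ w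
        - a • w :=
  et62_MJ_quad N p O S c (Fact.out : p.Prime) hpS hNS (ca15_eps p I hpI)
    (fun g τ j n h => ca15_eps_pow p I hpI g τ j n h)
    (fun _ hℓ hℓp A hA τ hτ => ca15_eps_frob p I hpI hℓ hℓp A hA τ hτ) g w n

end et62i

end Fermat.Agent.S30
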