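import Mathlib
import Fermat.Agent.S30.EigenTateInst62
import Fermat.Agent.S30.Iface37

/-!
# S30, row (ET) (helper62): the eigen-Tate module in the registrar's literal shape

`et62_ETClaim : s30i37_ETClaim p N S O hp` (`Iface37`, helper37): the module is
`M = et62_MJ N p O S (fun ℓ => a ℓ)`, the eigen-submodule of helper35's Tate module of `JZero N`
over `O`, with the Galois action `et62_rhoJ`.
-/

set_option autoImplicit false

open CongruenceSubgroup ModularCurve ModularCurve.Period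
open scoped TensorProduct

namespace Fermat.Agent.S30

open Fermat.Agent.S16

local notation "Qb" => AlgebraicClosure ℚ
local notation "GQ" => AlgebraicClosure ℚ ≃ₐ[ℚ] AlgebraicClosure ℚ

section et62a

variable {O : Type*} [CommRing O] [IsLocalRing O] {M : Type*} [AddCommGroup M] [Module O M]
  {p : ℕ}

/-- `p ^ n • y` lies in `𝔪 ^ n • ⊤`. -/
theorem et62_pow_smul_mem (hp : (p : O) ∈ IsLocalRing.maximalIdeal O) (n : ℕ) (y : M) :
    (p : O) ^ n • y ∈ (IsLocalRing.maximalIdeal O ^ n) • (⊤ : Submodule O M) :=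
  Submodule.smul_mem_smul (Ideal.pow_mem_pow hp n) Submodule.mem_top

/-- An element of the form `p ^ n • y` lies in `𝔪 ^ n • ⊤`. -/
theorem et62_mem_of_eq (hp : (p : O) ∈ IsLocalRing.maximalIdeal O) (n : ℕ) (y z : M)
    (h : (p : O) ^ n • y = z) : z ∈ (IsLocalRing.maximalIdeal O ^ n) • (⊤ : Submodule O M) :=
  h ▸ et62_pow_smul_mem hp n y

/-- Existential form of `et62_mem_of_eq`. -/
theorem et62_mem_of_exists (hp : (p : O) ∈ IsLocalRing.maximalIdeal O) (n : ℕ) (z : M)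
    (h : ∃ y : M, (p : O) ^ n • y = z) :
    z ∈ (IsLocalRing.maximalIdeal O ^ n) • (⊤ : Submodule O M) := by
  obtain ⟨y, hy⟩ := h
  exact et62_mem_of_eq hp n y z hy

/-- If `𝔪 ^ e ⊆ (p)`, an element of all the `𝔪 ^ n • ⊤` is divisible by every power of `p`. -/
theorem et62_exists_of_mem_pow {e : ℕ}
    (he : IsLocalRing.maximalIdeal O ^ e ≤ Ideal.span {(p : O)}) (w : M)
    (h : ∀ n : ℕ, w ∈ (IsLocalRing.maximalIdeal O ^ n) • (⊤ : Submodule O M)) (n : ℕ) :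
    ∃ y : M, (p : O) ^ n • y = w := by
  have h1 := h (e * n)
  have h2 : IsLocalRing.maximalIdeal O ^ (e * n) ≤ Ideal.span {(p : O) ^ n} := by
    calc IsLocalRing.maximalIdeal O ^ (e * n)
        = (IsLocalRing.maximalIdeal O ^ e) ^ n := pow_mul _ _ _
      _ ≤ Ideal.span {(p : O)} ^ n := Ideal.pow_right_mono he n
      _ = Ideal.span {(p : O) ^ n} := Ideal.span_singleton_pow (p : O) n
  have h3 : w ∈ (Ideal.span {(p : O) ^ n} • ⊤ : Submodule O M) :=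
    Submodule.smul_mono_left h2 h1
  rw [Submodule.ideal_span_singleton_smul] at h3
  obtain ⟨y, -, hy⟩ := (Submodule.mem_smul_pointwise_iff_exists _ _ _).mp h3
  exact ⟨y, hy⟩

/-- Existential transport along `et62_mem_of_exists` (two binders). -/
theorem et62_mem_of_exists₂ (hp : (p : O) ∈ IsLocalRing.maximalIdeal O) (n : ℕ) (z : O → M)
    (h : ∃ (b : O) (y : M), (p : O) ^ n • y = z b) :
    ∃ b : O, z b ∈ (IsLocalRing.maximalIdeal O ^ n) • (⊤ : Submodule O M) := by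
  obtain ⟨b, y, hy⟩ := h
  exact ⟨b, et62_mem_of_eq hp n y (z b) hy⟩

end et62a

/-- The (M3) input: hypotheses of `et62_MJ_ne_zero` from the THETA-Z family. -/
theorem et62_ET_ne_zero (p : ℕ) [Fact p.Prime] (N : ℕ) [NeZero N] (S : Finset ℕ)
    (O : Type) [CommRing O] [IsDomain O] [IsDiscreteValuationRing O] [CharZero O]
    (hp : (p : O) ∈ IsLocalRing.maximalIdeal O) (hpS : p ∈ S)
    (hNS : ∀ q : ℕ, q.Prime → q ∣ N → q ∈ S)
    (a : ℕ → O) (TL : ℕ → Module.End ℤ ↥(parabolicHoms ℤ (Gamma0 N) ℤ))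
    (x0 : O ⊗[ℤ] ↥(parabolicHoms ℤ (Gamma0 N) ℤ))
    (Θ : ℕ → (↥(parabolicHoms ℤ (Gamma0 N) ℤ) →+ JZero N))
    (hTL : ∀ ℓ : ℕ, ℓ.Prime → ℓ ∉ S → ∀ x : ↥(parabolicHoms ℤ (Gamma0 N) ℤ),
      ((TL ℓ x : ↥(parabolicHoms ℤ (Gamma0 N) ℤ)) : Additive ↥(Gamma0 N) →+ ℤ) =
        heckeHom N ℓ ℤ (x : Additive ↥(Gamma0 N) →+ ℤ))
    (hx0 : x0 ∉ IsLocalRing.maximalIdeal O •
      (⊤ : Submodule O (O ⊗[ℤ] ↥(parabolicHoms ℤ (Gamma0 N) ℤ))))
    (heig : ∀ ℓ : ℕ, ℓ.Prime → ℓ ∉ S → (TL ℓ).baseChange O x0 = a ℓ • x0)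
    (hΘ : s30i37_ThetaFamily N p Θ) :
    ∃ w : et62_MJ N p O S (fun ℓ => a ℓ), w ≠ 0 := by
  obtain ⟨hΘ1, hΘ2, hΘ3, hΘ4⟩ := hΘ
  have hpp : p.Prime := Fact.out
  have : Module.Flat ℤ O := inferInstance
  refine et62_MJ_ne_zero N p O S (fun ℓ => a ℓ) Θ
    (fun n x => by rw [← natCast_zsmul]; exact hΘ1 n x)
    (fun n x => by rw [← natCast_zsmul]; exact hΘ4 n x)
    (fun x hx => by
      obtain ⟨y, hy⟩ := hΘ2 1 x hx
      exact ⟨y, by rw [hy, pow_one]⟩)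
    (fun ℓ => (TL ℓ).toAddMonoidHom) ?_ x0 ?_ ?_
  · intro ℓ hℓS n x
    have hdvd : ¬ (ℓ : ℕ) ∣ N * p ^ n := by
      intro h
      rcases (Nat.Prime.dvd_mul ℓ.2).mp h with h1 | h1
      · exact hℓS (hNS ℓ ℓ.2 h1)
      · exact hℓS (((Nat.prime_dvd_prime_iff_eq ℓ.2 hpp).mp (ℓ.2.dvd_of_dvd_pow h1)) ▸ hpS)
    obtain ⟨hχ, h1⟩ := hΘ3 n ℓ hdvd x
    rw [h1]
    congr 1
    exact Subtype.ext (hTL ℓ ℓ.2 hℓS x).symm
  · rintro ⟨w, hw⟩
    exact hx0 (hw ▸ Submodule.smul_mem_smul hp Submodule.mem_top)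
  · intro ℓ hℓS
    exact heig ℓ ℓ.2 hℓS

/-- **Row (ET) of the S30 registry.** -/
theorem et62_ETClaim (p : ℕ) [Fact p.Prime] (N : ℕ) [NeZero N] (S : Finset ℕ)
    (O : Type) [CommRing O] [IsDomain O] [IsDiscreteValuationRing O]
    [IsAdicComplete (IsLocalRing.maximalIdeal O) O] [CharZero O]
    (hp : (p : O) ∈ IsLocalRing.maximalIdeal O) : s30i37_ETClaim p N S O hp := by
  intro hpS hNS a TL x0 Θ hTL hx0 heig hΘ
  have hpp : p.Prime := Fact.out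
  have : Module.Flat ℤ O := inferInstance
  have hp0 : (p : O) ≠ 0 := Nat.cast_ne_zero.mpr hpp.ne_zero
  have hspan := tl35_exists_pow_le_span (R := O) hp0
  obtain ⟨e, he⟩ := hspan
  have hne := et62_ET_ne_zero p N S O hp hpS hNS a TL x0 Θ hTL hx0 heig hΘ
  exact ⟨↥(et62_MJ N p O S (fun ℓ => a ℓ)), inferInstance, inferInstance,
    et62_rhoJ N p O S (fun ℓ => a ℓ),
    -- (M1)
    fun b w h => or_iff_not_imp_left.mpr fun hb =>
      et62_MJ_smul_eq_zero N p O S (fun ℓ => a ℓ) hp w b hb h,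
    -- (M2)
    fun w h => et62_MJ_sep N p O S (fun ℓ => a ℓ) w (et62_exists_of_mem_pow he w h),
    -- (M3)
    hne,
    -- (M4)
    fun g w n => et62_mem_of_exists₂ hp n _
      (et62_MJ_quad_eps N p O S (fun ℓ => a ℓ) (IsLocalRing.maximalIdeal O) hp hpS hNS g w n),
    -- (M5)
    fun q hq hqN hqp P hP σ hσ =>
      et62_MJ_inertia N p O S (fun ℓ => a ℓ) hpp q hq hqN hqp P hP σ hσ,
    -- (M6)
    fun w n => (et62_MJ_cont N p O S (fun ℓ => a ℓ) w n).imp fun E hE =>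
      ⟨hE.1, fun σ hσ => et62_mem_of_exists hp n _ (hE.2 σ hσ)⟩,
    -- (M7)
    fun ℓ hℓ _ hℓS A hA τ hτ w =>
      et62_MJ_frob N p O S (fun ℓ => a ℓ) hpp hpS hNS ℓ hℓ hℓS A hA τ hτ w⟩

end Fermat.Agent.S30
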