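/-
S30 rider, row B1-alg (helper28): THE EIGENVECTOR IN CHARACTERISTIC 0.  Pure algebra, Mathlib only.

`T` a commutative ring acting FAITHFULLY on a finitely generated free abelian group `L`
(`ρ : T →+* Module.End ℤ L` injective; in the application `T` = the Hecke algebra,
`L` = the integral parabolic homomorphisms), `χ : T →+* O` a ring homomorphism to a domain of
characteristic 0.  Then `O ⊗[ℤ] L` contains a nonzero `χ`-eigenvector, and a PRIMITIVE one
(not in `𝔪 • (O ⊗ L)`) when `O` is a discrete valuation ring.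

* `ec0_28_left`   : common LEFT eigenvector over a field `K` of characteristic 0, matrix form;
* `ec0_28_field`  : common (right) eigenvector over `K`;
* `ec0_28_matrix` : the same over a domain `O` of characteristic 0 (clear denominators);
* `ec0_28_matrix_primitive` : `O` a DVR: some coordinate is a unit;
* `ec0_28_coords`, `ec0_28_coords_primitive` : the eigenvector as `∑ vᵢ ⊗ bᵢ` in the chosen
  `ℤ`-basis of `L`;
* `ec0_28_tensor`, `ec0_28_tensor_primitive` : the eigenvector in `O ⊗[ℤ] L`.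

Proof of `ec0_28_left`.  `K` is flat over `ℤ`, so `K ⊗ T → Mat_n(K)`, `c ⊗ t ↦ c • B t`, is
injective (`matrixEquivTensor`): `K ⊗ T` acts faithfully on `K^n`.  Let `I` be the kernel of
`χ_K : K ⊗ T → K`.  If `I · K^n = K^n`, Nakayama gives `r ∈ 1 + I` killing `K^n`, so `r = 0`
and `1 ∈ I`: absurd.  A nonzero `K`-linear functional on `K^n` vanishing on `I · K^n` is a left
eigenvector.  The right eigenvector is the left eigenvector of the transposed representation.
-/
import Mathlib

set_option autoImplicit false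

open scoped TensorProduct

namespace Fermat.Agent.S30

section Core

variable {T : Type*} [CommRing T] {ι : Type*} [Fintype ι] [DecidableEq ι]

/-- the comparison map `K ⊗[ℤ] T → Mat_n(K)`, `c ⊗ t ↦ c • B t`, as a ring homomorphism. -/
noncomputable def ec0_28_E (B : T →+* Matrix ι ι ℤ) (K : Type*) [Field K] :
    K ⊗[ℤ] T →+* Matrix ι ι K :=
  ((matrixEquivTensor ι ℤ K).symm : K ⊗[ℤ] Matrix ι ι ℤ →+* Matrix ι ι K).comp
    ((Algebra.TensorProduct.map (AlgHom.id ℤ K) B.toIntAlgHom :
      K ⊗[ℤ] T →ₐ[ℤ] K ⊗[ℤ] Matrix ι ι ℤ) : K ⊗[ℤ] T →+* K ⊗[ℤ] Matrix ι ι ℤ)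

theorem ec0_28_E_tmul (B : T →+* Matrix ι ι ℤ) (K : Type*) [Field K] (c : K) (t : T) :
    ec0_28_E B K (c ⊗ₜ[ℤ] t) = c • (B t).map (Int.cast : ℤ → K) := by
  show (matrixEquivTensor ι ℤ K).symm
    (Algebra.TensorProduct.map (AlgHom.id ℤ K) B.toIntAlgHom (c ⊗ₜ[ℤ] t)) = _
  rw [Algebra.TensorProduct.map_tmul, matrixEquivTensor_apply_symm]
  rfl

theorem ec0_28_E_smul (B : T →+* Matrix ι ι ℤ) (K : Type*) [Field K] (c : K) (a : K ⊗[ℤ] T) :
    ec0_28_E B K (c • a) = c • ec0_28_E B K a := by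
  induction a using TensorProduct.induction_on with
  | zero => simp
  | tmul d t => rw [TensorProduct.smul_tmul', ec0_28_E_tmul, ec0_28_E_tmul, smul_eq_mul, mul_smul]
  | add a b ha hb => rw [smul_add, map_add, ha, hb, map_add, smul_add]

theorem ec0_28_E_injective (B : T →+* Matrix ι ι ℤ) (hB : Function.Injective B)
    (K : Type*) [Field K] [CharZero K] : Function.Injective (ec0_28_E B K) := by
  have h1 : Function.Injective (LinearMap.lTensor K B.toIntAlgHom.toLinearMap) :=
    Module.Flat.lTensor_preserves_injective_linearMap _ hB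
  have h2 : ∀ a : K ⊗[ℤ] T, ec0_28_E B K a
      = (matrixEquivTensor ι ℤ K).symm (LinearMap.lTensor K B.toIntAlgHom.toLinearMap a) := by
    intro a
    induction a using TensorProduct.induction_on with
    | zero => simp
    | tmul d t => rfl
    | add a b ha hb => rw [map_add, ha, hb, map_add, map_add]
  intro a b hab
  rw [h2, h2] at hab
  exact h1 ((matrixEquivTensor ι ℤ K).symm.injective hab)

/-- **Left eigenvector over a field of characteristic 0.**  `B : T → Mat_n(ℤ)` an injective ring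
homomorphism from a commutative ring, `χ : T → K` a ring homomorphism: there is `w ≠ 0` in `K^n`
with `w · B t = χ t • w` for all `t`. -/
theorem ec0_28_left (B : T →+* Matrix ι ι ℤ) (hB : Function.Injective B)
    {K : Type*} [Field K] [CharZero K] (χ : T →+* K) :
    ∃ w : ι → K, w ≠ 0 ∧ ∀ t, Matrix.vecMul w ((B t).map (Int.cast : ℤ → K)) = χ t • w := by
  classical
  -- the character of `K ⊗ T`
  let χK : K ⊗[ℤ] T →ₐ[K] K :=
    Algebra.TensorProduct.lift (AlgHom.id K K) χ.toIntAlgHom (fun _ _ => Commute.all _ _)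
  have hχK : ∀ (c : K) (t : T), χK (c ⊗ₜ[ℤ] t) = c * χ t := fun c t => by
    show Algebra.TensorProduct.lift (AlgHom.id K K) χ.toIntAlgHom _ (c ⊗ₜ[ℤ] t) = _
    rw [Algebra.TensorProduct.lift_tmul]
    rfl
  -- the module structure on `V = K^n`
  let E : K ⊗[ℤ] T →+* Module.End K (ι → K) :=
    ((Matrix.toLinAlgEquiv' : Matrix ι ι K ≃ₐ[K] Module.End K (ι → K)) :
      Matrix ι ι K →+* Module.End K (ι → K)).comp (ec0_28_E B K)
  have hE : ∀ (a : K ⊗[ℤ] T) (u : ι → K), E a u = (ec0_28_E B K a).mulVec u := fun a u => rfl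
  have hEinj : Function.Injective E :=
    (Matrix.toLinAlgEquiv' : Matrix ι ι K ≃ₐ[K] Module.End K (ι → K)).injective.comp
      (ec0_28_E_injective B hB K)
  let _ : Module (K ⊗[ℤ] T) (ι → K) := Module.compHom (ι → K) E
  have hsmul : ∀ (a : K ⊗[ℤ] T) (u : ι → K), a • u = (ec0_28_E B K a).mulVec u := fun a u => rfl
  have _ : IsScalarTower K (K ⊗[ℤ] T) (ι → K) := ⟨fun c a u => by
    rw [hsmul, hsmul, ec0_28_E_smul, Matrix.smul_mulVec]⟩
  have _ : Module.Finite (K ⊗[ℤ] T) (ι → K) := Module.Finite.of_restrictScalars_finite K _ _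
  -- Nakayama
  set I : Ideal (K ⊗[ℤ] T) := RingHom.ker (χK : K ⊗[ℤ] T →+* K) with hI
  have hnak : ¬ (⊤ : Submodule (K ⊗[ℤ] T) (ι → K)) ≤ I • ⊤ := by
    intro hle
    obtain ⟨r, hr, hkill⟩ := Submodule.exists_sub_one_mem_and_smul_eq_zero_of_fg_of_le_smul I
      (⊤ : Submodule (K ⊗[ℤ] T) (ι → K)) Module.Finite.fg_top hle
    have hEr : E r = 0 := LinearMap.ext fun u => hkill u Submodule.mem_top
    have hr0 : r = 0 := hEinj (by rw [hEr, map_zero])
    rw [hr0, zero_sub] at hr
    have h1 : χK (-1) = 0 := hr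
    rw [map_neg, map_one, neg_eq_zero] at h1
    exact one_ne_zero h1
  -- a functional vanishing on `I • ⊤`
  have hlt : ((I • ⊤ : Submodule (K ⊗[ℤ] T) (ι → K)).restrictScalars K) < ⊤ := by
    rw [lt_top_iff_ne_top]
    intro htop
    apply hnak
    intro u _
    have : u ∈ ((I • ⊤ : Submodule (K ⊗[ℤ] T) (ι → K)).restrictScalars K) := by
      rw [htop]; trivial
    exact this
  obtain ⟨ψ, hψ0, hψ⟩ := Submodule.exists_le_ker_of_lt_top _ hlt
  have hψt : ∀ (t : T) (u : ι → K),
      ψ (((B t).map (Int.cast : ℤ → K)).mulVec u) = χ t * ψ u := by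
    intro t u
    have hmem : ((1 : K) ⊗ₜ[ℤ] t - (χ t) ⊗ₜ[ℤ] (1 : T)) ∈ I := by
      show χK _ = 0
      rw [map_sub, hχK, hχK, map_one, one_mul, mul_one, sub_self]
    have h1 : ((1 : K) ⊗ₜ[ℤ] t - (χ t) ⊗ₜ[ℤ] (1 : T)) • u
        ∈ (I • ⊤ : Submodule (K ⊗[ℤ] T) (ι → K)) :=
      Submodule.smul_mem_smul hmem Submodule.mem_top
    have h2 : ψ (((1 : K) ⊗ₜ[ℤ] t - (χ t) ⊗ₜ[ℤ] (1 : T)) • u) = 0 := hψ h1
    rw [hsmul, map_sub, ec0_28_E_tmul, ec0_28_E_tmul, one_smul, map_one] at h2
    have h3 : ((1 : Matrix ι ι ℤ).map (Int.cast : ℤ → K)) = 1 := by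
      ext i j
      simp [Matrix.one_apply]
    rw [h3, Matrix.sub_mulVec, Matrix.smul_mulVec, Matrix.one_mulVec, map_sub, map_smul,
      sub_eq_zero, smul_eq_mul] at h2
    exact h2
  refine ⟨fun i => ψ (Pi.single i 1), ?_, fun t => ?_⟩
  · intro h0
    apply hψ0
    refine LinearMap.ext fun u => ?_
    rw [LinearMap.pi_apply_eq_sum_univ ψ u]
    refine Finset.sum_eq_zero fun i _ => ?_
    have h1 := congrFun h0 i
    simp only [Pi.zero_apply] at h1
    have h2 : (fun j => if i = j then (1 : K) else 0) = Pi.single i 1 := by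
      ext j; simp [Pi.single_apply, eq_comm]
    rw [h2, h1, smul_zero]
  · funext j
    have h1 := hψt t (Pi.single j 1)
    rw [LinearMap.pi_apply_eq_sum_univ ψ] at h1
    show ∑ i, ψ (Pi.single i 1) * ((B t).map (Int.cast : ℤ → K)) i j = χ t * ψ (Pi.single j 1)
    rw [← h1]
    refine Finset.sum_congr rfl fun i _ => ?_
    have h2 : (fun k => if i = k then (1 : K) else 0) = Pi.single i 1 := by
      ext k; simp [Pi.single_apply, eq_comm]
    rw [h2, Matrix.mulVec_single_one, smul_eq_mul, mul_comm]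
    rfl


/-- the transposed representation (a ring homomorphism because `T` is commutative). -/
def ec0_28_tr (A : T →+* Matrix ι ι ℤ) : T →+* Matrix ι ι ℤ where
  toFun t := (A t).transpose
  map_one' := by rw [map_one, Matrix.transpose_one]
  map_mul' s t := by rw [mul_comm s t, map_mul, Matrix.transpose_mul]
  map_zero' := by rw [map_zero, Matrix.transpose_zero]
  map_add' s t := by rw [map_add, Matrix.transpose_add]

/-- **Eigenvector over a field of characteristic 0.** -/
theorem ec0_28_field (A : T →+* Matrix ι ι ℤ) (hA : Function.Injective A)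
    {K : Type*} [Field K] [CharZero K] (χ : T →+* K) :
    ∃ v : ι → K, v ≠ 0 ∧ ∀ t, ((A t).map (Int.cast : ℤ → K)).mulVec v = χ t • v := by
  obtain ⟨w, hw0, hw⟩ := ec0_28_left (ec0_28_tr A)
    (fun s t h => hA (Matrix.transpose_injective h)) χ
  refine ⟨w, hw0, fun t => ?_⟩
  have h1 := hw t
  have h2 : ((ec0_28_tr A t).map (Int.cast : ℤ → K))
      = ((A t).map (Int.cast : ℤ → K)).transpose := rfl
  rw [h2, Matrix.vecMul_transpose] at h1
  exact h1

/-- **(1) Eigenvector over a domain of characteristic 0** (matrix form).  `A : T → Mat_n(ℤ)` an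
injective ring homomorphism from a commutative ring, `χ : T → O` a ring homomorphism: there is
`v ≠ 0` in `O^n` with `A t · v = χ t • v` for all `t`. -/
theorem ec0_28_matrix (A : T →+* Matrix ι ι ℤ) (hA : Function.Injective A)
    {O : Type*} [CommRing O] [IsDomain O] [CharZero O] (χ : T →+* O) :
    ∃ v : ι → O, v ≠ 0 ∧ ∀ t, ((A t).map (Int.cast : ℤ → O)).mulVec v = χ t • v := by
  classical
  have hinj : Function.Injective (algebraMap O (FractionRing O)) :=
    IsFractionRing.injective O (FractionRing O)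
  have : CharZero (FractionRing O) := charZero_of_injective_algebraMap hinj
  obtain ⟨w, hw0, hw⟩ := ec0_28_field A hA ((algebraMap O (FractionRing O)).comp χ)
  obtain ⟨d, hd⟩ := IsLocalization.exist_integer_multiples (nonZeroDivisors O) Finset.univ w
  choose v hv using fun i => hd i (Finset.mem_univ i)
  have hd0 : algebraMap O (FractionRing O) (d : O) ≠ 0 := by
    intro h0
    exact nonZeroDivisors.coe_ne_zero d (hinj (by rw [h0, map_zero]))
  have hv' : ∀ i, algebraMap O (FractionRing O) (v i)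
      = algebraMap O (FractionRing O) (d : O) * w i := fun i => by
    rw [hv i, Algebra.smul_def]
  refine ⟨v, ?_, fun t => ?_⟩
  · intro h0
    apply hw0
    funext i
    have h1 := hv' i
    rw [h0, Pi.zero_apply, map_zero] at h1
    exact (mul_eq_zero.mp h1.symm).resolve_left hd0
  · funext j
    apply hinj
    have h1 := congrFun (hw t) j
    simp only [Matrix.mulVec, dotProduct, Matrix.map_apply, Pi.smul_apply, smul_eq_mul,
      RingHom.comp_apply] at h1 ⊢
    rw [map_sum, map_mul, hv' j, ← mul_assoc, mul_comm (algebraMap O (FractionRing O) (χ t)),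
      mul_assoc, ← h1, Finset.mul_sum]
    refine Finset.sum_congr rfl fun i _ => ?_
    rw [map_mul, hv' i, map_intCast]
    ring

omit [DecidableEq ι] in
/-- descent by the uniformizer: a property of vectors which passes from `ϖ • v` to `v` and holds
for a nonzero vector holds for a vector with a unit coordinate. -/
theorem ec0_28_primitive_aux {O : Type*} [CommRing O] [IsDomain O] [IsDiscreteValuationRing O]
    {ϖ : O} (hϖ : Irreducible ϖ) (P : (ι → O) → Prop) (hP : ∀ v : ι → O, P (ϖ • v) → P v) :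
    ∀ (k : ℕ) (v : ι → O) (i₀ : ι) (u : Oˣ), v i₀ = u * ϖ ^ k → P v →
      ∃ v' : ι → O, (∃ i, IsUnit (v' i)) ∧ P v' := by
  intro k
  induction k with
  | zero =>
    intro v i₀ u hu hv
    exact ⟨v, ⟨i₀, by rw [hu, pow_zero, mul_one]; exact u.isUnit⟩, hv⟩
  | succ k ih =>
    intro v i₀ u hu hv
    by_cases hunit : ∃ i, IsUnit (v i)
    · exact ⟨v, hunit, hv⟩
    · push Not at hunit
      have hdvd : ∀ i, ϖ ∣ v i := by
        intro i
        have h1 : v i ∈ IsLocalRing.maximalIdeal O := (IsLocalRing.mem_maximalIdeal _).mpr (hunit i)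
        rw [(IsDiscreteValuationRing.irreducible_iff_uniformizer ϖ).mp hϖ] at h1
        exact Ideal.mem_span_singleton.mp h1
      choose v' hv' using hdvd
      have hvv' : v = ϖ • v' := funext fun i => by rw [hv' i]; rfl
      have hi₀ : v' i₀ = u * ϖ ^ k := by
        have h1 : ϖ * v' i₀ = ϖ * (u * ϖ ^ k) := by
          rw [← hv' i₀, hu, pow_succ]; ring
        exact mul_left_cancel₀ hϖ.ne_zero h1
      exact ih v' i₀ u hi₀ (hP v' (hvv' ▸ hv))

/-- **(1') Primitive eigenvector over a discrete valuation ring of characteristic 0** (matrix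
form): some coordinate of `v` is a unit. -/
theorem ec0_28_matrix_primitive (A : T →+* Matrix ι ι ℤ) (hA : Function.Injective A)
    {O : Type*} [CommRing O] [IsDomain O] [IsDiscreteValuationRing O] [CharZero O]
    (χ : T →+* O) :
    ∃ v : ι → O, (∃ i, IsUnit (v i)) ∧
      ∀ t, ((A t).map (Int.cast : ℤ → O)).mulVec v = χ t • v := by
  obtain ⟨v, hv0, hv⟩ := ec0_28_matrix A hA χ
  obtain ⟨ϖ, hϖ⟩ := IsDiscreteValuationRing.exists_irreducible O
  obtain ⟨i₀, hi₀⟩ : ∃ i₀, v i₀ ≠ 0 := by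
    by_contra h
    push Not at h
    exact hv0 (funext h)
  obtain ⟨k, u, hu⟩ := IsDiscreteValuationRing.eq_unit_mul_pow_irreducible hi₀ hϖ
  refine ec0_28_primitive_aux hϖ
    (fun v => ∀ t, ((A t).map (Int.cast : ℤ → O)).mulVec v = χ t • v) (fun v' h t => ?_)
    k v i₀ u hu hv
  have h1 := h t
  rw [Matrix.mulVec_smul, smul_comm] at h1
  funext j
  have h2 := congrFun h1 j
  simp only [Pi.smul_apply, smul_eq_mul] at h2 ⊢
  exact mul_left_cancel₀ hϖ.ne_zero h2

end Core

/-! ### Tensor forms -/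

section Tensor

variable {T : Type*} [CommRing T] {L : Type*} [AddCommGroup L]

/-- `1 ⊗ f` on `∑ vᵢ ⊗ bᵢ` is given by the matrix of `f`. -/
theorem ec0_28_baseChange_sum {κ : Type*} [Fintype κ] [DecidableEq κ] (b : Module.Basis κ ℤ L)
    (f : Module.End ℤ L) {O : Type*} [CommRing O] (v : κ → O) :
    f.baseChange O (∑ i, v i ⊗ₜ[ℤ] b i)
      = ∑ j, (((LinearMap.toMatrix b b f).map (Int.cast : ℤ → O)).mulVec v) j ⊗ₜ[ℤ] b j := by
  have h1 : ∀ i, f.baseChange O (v i ⊗ₜ[ℤ] b i)
      = ∑ j, ((LinearMap.toMatrix b b f j i : ℤ) * v i) ⊗ₜ[ℤ] b j := by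
    intro i
    rw [LinearMap.baseChange_tmul]
    conv_lhs => rw [← b.sum_repr (f (b i))]
    rw [TensorProduct.tmul_sum]
    refine Finset.sum_congr rfl fun j _ => ?_
    rw [TensorProduct.tmul_smul, TensorProduct.smul_tmul', zsmul_eq_mul, LinearMap.toMatrix_apply]
  rw [map_sum, Finset.sum_congr rfl (fun i _ => h1 i), Finset.sum_comm]
  refine Finset.sum_congr rfl fun j _ => ?_
  rw [← TensorProduct.sum_tmul]
  rfl

/-- the coordinates of `∑ vᵢ ⊗ bᵢ` in the `O`-basis `1 ⊗ bᵢ`. -/
theorem ec0_28_coord {κ : Type*} [Fintype κ] [DecidableEq κ] (b : Module.Basis κ ℤ L)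
    {O : Type*} [CommRing O] (v : κ → O) (i : κ) :
    (Algebra.TensorProduct.basis O b).coord i (∑ j, v j ⊗ₜ[ℤ] b j) = v i := by
  have h1 : ∀ j, v j ⊗ₜ[ℤ] b j = v j • (Algebra.TensorProduct.basis O b) j := fun j => by
    rw [Algebra.TensorProduct.basis_apply, TensorProduct.smul_tmul', smul_eq_mul, mul_one]
  rw [Finset.sum_congr rfl (fun j _ => h1 j), map_sum]
  simp only [map_smul, Module.Basis.coord_apply, Module.Basis.repr_self, smul_eq_mul]
  rw [Finset.sum_eq_single i]
  · simp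
  · intro j _ hji
    simp [hji]
  · intro h; exact absurd (Finset.mem_univ i) h

/-- an element of `𝔪 • (O ⊗ L)` has all coordinates in `𝔪`. -/
theorem ec0_28_coord_mem {κ : Type*} [Fintype κ] [DecidableEq κ] (b : Module.Basis κ ℤ L)
    {O : Type*} [CommRing O] (I : Ideal O) {x : O ⊗[ℤ] L}
    (hx : x ∈ I • (⊤ : Submodule O (O ⊗[ℤ] L))) (i : κ) :
    (Algebra.TensorProduct.basis O b).coord i x ∈ I := by
  refine Submodule.smul_induction_on
    (p := fun x => (Algebra.TensorProduct.basis O b).coord i x ∈ I) hx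
    (fun r hr y _ => ?_) (fun y z hy hz => ?_)
  · show (Algebra.TensorProduct.basis O b).coord i (r • y) ∈ I
    rw [map_smul, smul_eq_mul]
    exact I.mul_mem_right _ hr
  · show (Algebra.TensorProduct.basis O b).coord i (y + z) ∈ I
    rw [map_add]
    exact I.add_mem hy hz

variable [Module.Free ℤ L] [Module.Finite ℤ L]

/-- **Coordinate form.**  `ρ : T → End_ℤ(L)` an injective ring homomorphism (`T` commutative, `L`
a finitely generated free abelian group), `χ : T → O` a ring homomorphism to a domain of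
characteristic 0: a `ℤ`-basis `b` of `L` and a nonzero `v` with `∑ vᵢ ⊗ bᵢ` a `χ`-eigenvector. -/
theorem ec0_28_coords (ρ : T →+* Module.End ℤ L) (hρ : Function.Injective ρ)
    {O : Type*} [CommRing O] [IsDomain O] [CharZero O] (χ : T →+* O) :
    ∃ v : Module.Free.ChooseBasisIndex ℤ L → O, v ≠ 0 ∧
      ∀ t, (ρ t).baseChange O (∑ i, v i ⊗ₜ[ℤ] Module.Free.chooseBasis ℤ L i)
        = χ t • ∑ i, v i ⊗ₜ[ℤ] Module.Free.chooseBasis ℤ L i := by
  classical
  set b := Module.Free.chooseBasis ℤ L with hb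
  let A : T →+* Matrix (Module.Free.ChooseBasisIndex ℤ L) (Module.Free.ChooseBasisIndex ℤ L) ℤ :=
    ((LinearMap.toMatrixAlgEquiv b : Module.End ℤ L ≃ₐ[ℤ] _) : Module.End ℤ L →+* _).comp ρ
  have hA : Function.Injective A := (LinearMap.toMatrixAlgEquiv b).injective.comp hρ
  have hAt : ∀ t, A t = LinearMap.toMatrix b b (ρ t) := fun t => rfl
  obtain ⟨v, hv0, hv⟩ := ec0_28_matrix A hA χ
  refine ⟨v, hv0, fun t => ?_⟩
  rw [ec0_28_baseChange_sum b (ρ t) v, ← hAt, hv t, Finset.smul_sum]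
  refine Finset.sum_congr rfl fun j _ => ?_
  rw [TensorProduct.smul_tmul']
  rfl

/-- **(2) Eigenvector in `O ⊗ L`.** -/
theorem ec0_28_tensor (ρ : T →+* Module.End ℤ L) (hρ : Function.Injective ρ)
    {O : Type*} [CommRing O] [IsDomain O] [CharZero O] (χ : T →+* O) :
    ∃ x : O ⊗[ℤ] L, x ≠ 0 ∧ ∀ t, (ρ t).baseChange O x = χ t • x := by
  classical
  obtain ⟨v, hv0, hv⟩ := ec0_28_coords ρ hρ χ
  refine ⟨_, fun h0 => hv0 (funext fun i => ?_), hv⟩
  have h1 := ec0_28_coord (Module.Free.chooseBasis ℤ L) v i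
  rw [h0, map_zero] at h1
  exact h1.symm

/-- **Coordinate form, primitive** (`O` a discrete valuation ring): some `vᵢ` is a unit. -/
theorem ec0_28_coords_primitive (ρ : T →+* Module.End ℤ L) (hρ : Function.Injective ρ)
    {O : Type*} [CommRing O] [IsDomain O] [IsDiscreteValuationRing O] [CharZero O]
    (χ : T →+* O) :
    ∃ v : Module.Free.ChooseBasisIndex ℤ L → O, (∃ i, IsUnit (v i)) ∧
      ∀ t, (ρ t).baseChange O (∑ i, v i ⊗ₜ[ℤ] Module.Free.chooseBasis ℤ L i)
        = χ t • ∑ i, v i ⊗ₜ[ℤ] Module.Free.chooseBasis ℤ L i := by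
  classical
  set b := Module.Free.chooseBasis ℤ L with hb
  let A : T →+* Matrix (Module.Free.ChooseBasisIndex ℤ L) (Module.Free.ChooseBasisIndex ℤ L) ℤ :=
    ((LinearMap.toMatrixAlgEquiv b : Module.End ℤ L ≃ₐ[ℤ] _) : Module.End ℤ L →+* _).comp ρ
  have hA : Function.Injective A := (LinearMap.toMatrixAlgEquiv b).injective.comp hρ
  have hAt : ∀ t, A t = LinearMap.toMatrix b b (ρ t) := fun t => rfl
  obtain ⟨v, hv0, hv⟩ := ec0_28_matrix_primitive A hA χ
  refine ⟨v, hv0, fun t => ?_⟩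
  rw [ec0_28_baseChange_sum b (ρ t) v, ← hAt, hv t, Finset.smul_sum]
  refine Finset.sum_congr rfl fun j _ => ?_
  rw [TensorProduct.smul_tmul']
  rfl

/-- **(2') Primitive eigenvector in `O ⊗ L`** (`O` a discrete valuation ring of characteristic 0):
`x ∉ 𝔪 • (O ⊗ L)`. -/
theorem ec0_28_tensor_primitive (ρ : T →+* Module.End ℤ L) (hρ : Function.Injective ρ)
    {O : Type*} [CommRing O] [IsDomain O] [IsDiscreteValuationRing O] [CharZero O]
    (χ : T →+* O) :
    ∃ x : O ⊗[ℤ] L, x ∉ IsLocalRing.maximalIdeal O • (⊤ : Submodule O (O ⊗[ℤ] L)) ∧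
      ∀ t, (ρ t).baseChange O x = χ t • x := by
  classical
  obtain ⟨v, ⟨i, hi⟩, hv⟩ := ec0_28_coords_primitive ρ hρ χ
  refine ⟨_, fun hmem => ?_, hv⟩
  have h1 := ec0_28_coord_mem (Module.Free.chooseBasis ℤ L) (IsLocalRing.maximalIdeal O) hmem i
  rw [ec0_28_coord] at h1
  exact (IsLocalRing.mem_maximalIdeal _).mp h1 hi

end Tensor

end Fermat.Agent.S30
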