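import Mathlib

/-!
# S30, row B1 (helper13): eigenvectors for characters of a commutative ring of integer matrices

Pure algebra (Mathlib only).

* `ev13_exists_eigen_of_faithful`: a finite-dimensional commutative `K`-algebra `A` acting
  faithfully on a finite-dimensional `K`-vector space `M` has, for every `K`-algebra character
  `φ : A →ₐ[K] K`, a nonzero `m : M` with `a • m = φ a • m` for all `a`
  (`ker φ` is a minimal prime of the Artinian ring `A`, hence an associated prime of `M`).
* `ev13_exists_eigen_matrix`: a commutative ring `T` acting faithfully by integer matrices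
  (`act : T →+* Matrix (Fin r) (Fin r) ℤ` injective) and a ring hom `χ : T →+* K` to a field of
  characteristic zero: there is a nonzero `v : Fin r → K` with
  `(act t).map (↑) *ᵥ v = χ t • v` for all `t`.
* `ev13_exists_eigen_primitive`: the same over a discrete valuation ring `𝒪` of characteristic
  zero, with `v : Fin r → 𝒪` PRIMITIVE (some coordinate is a unit).

All names are prefixed `ev13_`.
-/

set_option autoImplicit false

open scoped TensorProduct

namespace Fermat.Agent.S30

section ev13_core

variable {K A M : Type*} [Field K] [CommRing A] [Algebra K A] [AddCommGroup M] [Module K M]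
  [Module A M] [IsScalarTower K A M] [FiniteDimensional K M] [FiniteDimensional K A]

/-- A character of a finite-dimensional commutative algebra acting faithfully on a
finite-dimensional vector space has an eigenvector. -/
theorem ev13_exists_eigen_of_faithful (hfaith : ∀ a : A, (∀ m : M, a • m = 0) → a = 0)
    (φ : A →ₐ[K] K) : ∃ m : M, m ≠ 0 ∧ ∀ a : A, a • m = φ a • m := by
  haveI : IsNoetherianRing A := IsNoetherianRing.of_finite K A
  haveI : IsArtinianRing A := IsArtinianRing.of_finite K A
  haveI : Module.Finite A M := Module.Finite.of_restrictScalars_finite K A M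
  have hprime : (RingHom.ker (φ : A →+* K)).IsPrime := RingHom.ker_isPrime _
  have hann : Module.annihilator A M = ⊥ := by
    rw [eq_bot_iff]
    intro a ha
    rw [Module.mem_annihilator] at ha
    rw [Submodule.mem_bot]
    exact hfaith a ha
  have hmin : RingHom.ker (φ : A →+* K) ∈ (Module.annihilator A M).minimalPrimes := by
    rw [hann]
    refine ⟨⟨hprime, bot_le⟩, fun q hq hqp => ?_⟩
    haveI := hq.1
    have hqmax : q.IsMaximal := IsArtinianRing.isMaximal_of_isPrime q
    exact (hqmax.eq_of_le hprime.ne_top hqp).ge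
  have hass := Module.associatedPrimes.minimalPrimes_annihilator_subset_associatedPrimes A M hmin
  obtain ⟨-, x, hx⟩ := (isAssociatedPrime_iff (M := M)).mp hass
  refine ⟨x, ?_, fun a => ?_⟩
  · rintro rfl
    apply hprime.ne_top
    rw [hx, eq_top_iff]
    intro a _
    rw [Submodule.mem_colon_singleton, smul_zero]
    exact Submodule.zero_mem _
  · have hmem : a - algebraMap K A (φ a) ∈ RingHom.ker (φ : A →+* K) := by
      rw [RingHom.mem_ker]
      simp
    rw [hx, Submodule.mem_colon_singleton, Submodule.mem_bot, sub_smul, sub_eq_zero,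
      algebraMap_smul] at hmem
    exact hmem

end ev13_core

section ev13_matrix

variable {r : ℕ} {T : Type*} [CommRing T] {K : Type*} [Field K]

/-- The `K`-algebra hom `K ⊗[ℤ] T → M_r(K)` attached to an action by integer matrices. -/
noncomputable def ev13_psi (act : T →+* Matrix (Fin r) (Fin r) ℤ) :
    K ⊗[ℤ] T →ₐ[K] Matrix (Fin r) (Fin r) K :=
  Algebra.TensorProduct.lift (Algebra.ofId K (Matrix (Fin r) (Fin r) K))
    (((Int.castRingHom K).mapMatrix.comp act).toIntAlgHom)
    (fun x _ => Algebra.commutes' x _)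

theorem ev13_psi_tmul (act : T →+* Matrix (Fin r) (Fin r) ℤ) (k : K) (t : T) :
    ev13_psi (K := K) act (k ⊗ₜ[ℤ] t) = k • (act t).map (Int.cast : ℤ → K) := by
  unfold ev13_psi
  rw [Algebra.TensorProduct.lift_tmul, Algebra.ofId_apply, ← Algebra.smul_def]
  rfl

theorem ev13_psi_injective [CharZero K] (act : T →+* Matrix (Fin r) (Fin r) ℤ)
    (hact : Function.Injective act) : Function.Injective (ev13_psi (K := K) act) := by
  have h1 : Function.Injective (LinearMap.lTensor K (act.toIntAlgHom.toLinearMap)) :=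
    Module.Flat.lTensor_preserves_injective_linearMap _ hact
  have h2 : ∀ a : K ⊗[ℤ] T, ev13_psi (K := K) act a
      = (matrixEquivTensor (Fin r) ℤ K).symm
          (LinearMap.lTensor K (act.toIntAlgHom.toLinearMap) a) := by
    intro a
    induction a using TensorProduct.induction_on with
    | zero => simp
    | tmul k t =>
      rw [ev13_psi_tmul, LinearMap.lTensor_tmul, matrixEquivTensor_apply_symm]
      rfl
    | add x y hx hy => rw [map_add, map_add, map_add, hx, hy]
  intro a b hab
  rw [h2, h2] at hab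
  exact h1 ((matrixEquivTensor (Fin r) ℤ K).symm.injective hab)

/-- The `K`-algebra character `K ⊗[ℤ] T → K` attached to `χ : T →+* K`. -/
noncomputable def ev13_phi (χ : T →+* K) : K ⊗[ℤ] T →ₐ[K] K :=
  Algebra.TensorProduct.lift (AlgHom.id K K) χ.toIntAlgHom (fun _ _ => Commute.all _ _)

theorem ev13_phi_tmul (χ : T →+* K) (k : K) (t : T) :
    ev13_phi χ (k ⊗ₜ[ℤ] t) = k * χ t := by
  unfold ev13_phi
  rw [Algebra.TensorProduct.lift_tmul]
  rfl

/-- **Eigenvector for a character, matrix form.**  `T` acts faithfully by integer matrices and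
`χ : T →+* K` is a ring hom to a field of characteristic zero: there is a nonzero `v` with
`(act t) v = χ t • v` for all `t`. -/
theorem ev13_exists_eigen_matrix [CharZero K] (act : T →+* Matrix (Fin r) (Fin r) ℤ)
    (hact : Function.Injective act) (χ : T →+* K) :
    ∃ v : Fin r → K, v ≠ 0 ∧ ∀ t : T, ((act t).map (Int.cast : ℤ → K)).mulVec v = χ t • v := by
  classical
  let ψE : K ⊗[ℤ] T →ₐ[K] Module.End K (Fin r → K) :=
    (Matrix.toLinAlgEquiv' : Matrix (Fin r) (Fin r) K ≃ₐ[K]
      Module.End K (Fin r → K)).toAlgHom.comp (ev13_psi act)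
  have hψE : Function.Injective ψE :=
    (Matrix.toLinAlgEquiv' : Matrix (Fin r) (Fin r) K ≃ₐ[K]
      Module.End K (Fin r → K)).injective.comp (ev13_psi_injective act hact)
  letI : Module (K ⊗[ℤ] T) (Fin r → K) := Module.compHom (Fin r → K) ψE.toRingHom
  have hsmul : ∀ (a : K ⊗[ℤ] T) (v : Fin r → K), a • v = ψE a v := fun _ _ => rfl
  haveI : IsScalarTower K (K ⊗[ℤ] T) (Fin r → K) :=
    ⟨fun k a v => by rw [hsmul, hsmul, map_smul]; rfl⟩
  haveI : FiniteDimensional K (K ⊗[ℤ] T) :=
    FiniteDimensional.of_injective ψE.toLinearMap hψE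
  have hfaith : ∀ a : K ⊗[ℤ] T, (∀ m : Fin r → K, a • m = 0) → a = 0 := by
    intro a ha
    apply hψE
    rw [map_zero]
    exact LinearMap.ext fun m => by rw [← hsmul, ha]; rfl
  obtain ⟨v, hv0, hv⟩ := ev13_exists_eigen_of_faithful hfaith (ev13_phi χ)
  refine ⟨v, hv0, fun t => ?_⟩
  have h := hv ((1 : K) ⊗ₜ[ℤ] t)
  rw [hsmul, ev13_phi_tmul, one_mul] at h
  rw [← h]
  show _ = Matrix.toLin' (ev13_psi act ((1 : K) ⊗ₜ[ℤ] t)) v
  rw [ev13_psi_tmul, one_smul, Matrix.toLin'_apply]

end ev13_matrix

section ev13_dvr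

variable {r : ℕ} {T : Type*} [CommRing T]

/-- Entrywise form of `ev13_exists_eigen_matrix`. -/
theorem ev13_exists_eigen_matrix' {K : Type*} [Field K] [CharZero K]
    (act : T →+* Matrix (Fin r) (Fin r) ℤ) (hact : Function.Injective act) (χ : T →+* K) :
    ∃ v : Fin r → K, v ≠ 0 ∧ ∀ (t : T) (i : Fin r),
      ∑ j, ((act t i j : ℤ) : K) * v j = χ t * v i := by
  obtain ⟨v, hv0, hv⟩ := ev13_exists_eigen_matrix act hact χ
  exact ⟨v, hv0, fun t i => congrFun (hv t) i⟩

/-- **Primitive eigenvector over a principal ideal local domain of characteristic zero**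
(e.g. a discrete valuation ring): `T` acts faithfully by integer matrices, `χ : T →+* 𝒪`;
then there is `v : Fin r → 𝒪` with a unit coordinate and `(act t) v = χ t • v` for all `t`. -/
theorem ev13_exists_eigen_primitive {𝒪 : Type*} [CommRing 𝒪] [IsDomain 𝒪]
    [IsPrincipalIdealRing 𝒪] [IsLocalRing 𝒪] [CharZero 𝒪]
    (act : T →+* Matrix (Fin r) (Fin r) ℤ) (hact : Function.Injective act) (χ : T →+* 𝒪) :
    ∃ v : Fin r → 𝒪, (∃ i, IsUnit (v i)) ∧ ∀ (t : T) (i : Fin r),
      ∑ j, ((act t i j : ℤ) : 𝒪) * v j = χ t * v i := by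
  classical
  let K := FractionRing 𝒪
  have hinj : Function.Injective (algebraMap 𝒪 K) := IsFractionRing.injective 𝒪 K
  haveI : CharZero K := charZero_of_injective_algebraMap hinj
  obtain ⟨v, hv0, hv⟩ := ev13_exists_eigen_matrix' act hact ((algebraMap 𝒪 K).comp χ)
  -- clear denominators
  obtain ⟨b, hb⟩ := IsLocalization.exist_integer_multiples_of_finite (nonZeroDivisors 𝒪) v
  choose w hw using hb
  have hb0 : algebraMap 𝒪 K (b : 𝒪) ≠ 0 := by
    rw [Ne, map_eq_zero_iff _ hinj]
    exact nonZeroDivisors.coe_ne_zero b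
  have hw' : ∀ i, algebraMap 𝒪 K (w i) = algebraMap 𝒪 K (b : 𝒪) * v i := by
    intro i
    rw [hw i, Algebra.smul_def]
  have hw0 : ∃ i, w i ≠ 0 := by
    by_contra hcon
    push Not at hcon
    apply hv0
    funext i
    have h := hw' i
    rw [hcon i, map_zero] at h
    exact (mul_eq_zero.mp h.symm).resolve_left hb0
  have hweig : ∀ (t : T) (i : Fin r), ∑ j, ((act t i j : ℤ) : 𝒪) * w j = χ t * w i := by
    intro t i
    apply hinj
    rw [map_sum, map_mul, hw' i]
    have h1 : ∀ j, algebraMap 𝒪 K (((act t i j : ℤ) : 𝒪) * w j)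
        = algebraMap 𝒪 K (b : 𝒪) * (((act t i j : ℤ) : K) * v j) := by
      intro j
      rw [map_mul, hw' j, map_intCast]
      ring
    simp_rw [h1]
    rw [← Finset.mul_sum, hv t i, RingHom.comp_apply]
    ring
  -- divide by a generator of the ideal of the coordinates
  obtain ⟨g, hg⟩ := (IsPrincipalIdealRing.principal (Ideal.span (Set.range w))).principal
  have hgmem : ∀ i, w i ∈ Ideal.span ({g} : Set 𝒪) := by
    intro i
    have : w i ∈ Ideal.span (Set.range w) := Ideal.subset_span ⟨i, rfl⟩
    rw [hg] at this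
    exact this
  have hdiv : ∀ i, ∃ c, w i = g * c := by
    intro i
    obtain ⟨c, hc⟩ := Ideal.mem_span_singleton'.mp (hgmem i)
    exact ⟨c, by rw [← hc, mul_comm]⟩
  choose w' hw'' using hdiv
  have hg0 : g ≠ 0 := by
    rintro rfl
    obtain ⟨i, hi⟩ := hw0
    apply hi
    rw [hw'' i, zero_mul]
  have hgspan : g ∈ Ideal.span (Set.range w) := by
    rw [hg]
    exact Ideal.subset_span rfl
  obtain ⟨c, hc⟩ := (Submodule.mem_span_range_iff_exists_fun 𝒪).mp hgspan
  have hone : ∑ i, c i * w' i = 1 := by
    have h1 : g * ∑ i, c i * w' i = g * 1 := by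
      rw [mul_one, Finset.mul_sum]
      conv_rhs => rw [← hc]
      refine Finset.sum_congr rfl fun i _ => ?_
      rw [smul_eq_mul, hw'' i]
      ring
    exact mul_left_cancel₀ hg0 h1
  refine ⟨w', ?_, fun t i => ?_⟩
  · by_contra hcon
    push Not at hcon
    have hmem : (∑ i, c i * w' i) ∈ IsLocalRing.maximalIdeal 𝒪 :=
      Ideal.sum_mem _ fun i _ => Ideal.mul_mem_left _ _ ((IsLocalRing.mem_maximalIdeal _).mpr (hcon i))
    rw [hone] at hmem
    exact (IsLocalRing.mem_maximalIdeal _).mp hmem isUnit_one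
  · have h := hweig t i
    apply mul_left_cancel₀ hg0
    rw [Finset.mul_sum]
    rw [hw'' i] at h
    rw [← mul_assoc, mul_comm g (χ t), mul_assoc, ← h]
    refine Finset.sum_congr rfl fun j _ => ?_
    rw [hw'' j]
    ring

end ev13_dvr

end Fermat.Agent.S30
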