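import Mathlib

set_option autoImplicit false
set_option linter.unusedSectionVars false

namespace Fermat.Agent.S30

open IsLocalRing

section basics

variable {R : Type*} [CommRing R] [IsDomain R] [IsDiscreteValuationRing R]
variable {M : Type*} [AddCommGroup M] [Module R M]

/-- membership in `𝔪ⁿ • ⊤` in terms of a uniformizer -/
theorem ex73_mem_iff {ϖ : R} (hϖ : Irreducible ϖ) (n : ℕ) (x : M) :
    x ∈ (maximalIdeal R ^ n) • (⊤ : Submodule R M) ↔ ∃ y : M, x = ϖ ^ n • y := by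
  rw [hϖ.maximalIdeal_eq, Ideal.span_singleton_pow, Submodule.ideal_span_singleton_smul]
  constructor
  · intro h
    obtain ⟨y, -, rfl⟩ := (Submodule.mem_smul_pointwise_iff_exists _ _ _).mp h
    exact ⟨y, rfl⟩
  · rintro ⟨y, rfl⟩
    exact (Submodule.mem_smul_pointwise_iff_exists _ _ _).mpr ⟨y, Submodule.mem_top, rfl⟩

theorem ex73_mem_ideal_iff {ϖ : R} (hϖ : Irreducible ϖ) (n : ℕ) (a : R) :
    a ∈ maximalIdeal R ^ n ↔ ϖ ^ n ∣ a := by
  rw [hϖ.maximalIdeal_eq, Ideal.span_singleton_pow, Ideal.mem_span_singleton]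

/-- a vector not divisible by the uniformizer -/
def ex73_Prim (ϖ : R) (x : M) : Prop := ∀ y : M, x ≠ ϖ • y

theorem ex73_cancel (htf : ∀ (a : R) (m : M), a • m = 0 → a = 0 ∨ m = 0) {a : R} (ha : a ≠ 0)
    {x y : M} (h : a • x = a • y) : x = y := by
  have h0 : a • (x - y) = 0 := by rw [smul_sub, h, sub_self]
  rcases htf a (x - y) h0 with h1 | h1
  · exact absurd h1 ha
  · exact sub_eq_zero.mp h1

theorem ex73_cancel_right (htf : ∀ (a : R) (m : M), a • m = 0 → a = 0 ∨ m = 0) {a b : R}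
    {x : M} (hx : x ≠ 0) (h : a • x = b • x) : a = b := by
  have h0 : (a - b) • x = 0 := by rw [sub_smul, h, sub_self]
  rcases htf (a - b) x h0 with h1 | h1
  · exact sub_eq_zero.mp h1
  · exact absurd h1 hx

theorem ex73_prim_ne_zero {ϖ : R} {x : M} (hx : ex73_Prim ϖ x) : x ≠ 0 := by
  intro h
  exact hx 0 (by rw [h, smul_zero])

/-- every nonzero vector of a separated module is a power of the uniformizer times a primitive
vector -/
theorem ex73_exists_prim {ϖ : R}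
    (hsep : ∀ m : M, (∀ n : ℕ, ∃ y : M, m = ϖ ^ n • y) → m = 0) {m : M} (hm : m ≠ 0) :
    ∃ (k : ℕ) (y : M), m = ϖ ^ k • y ∧ ex73_Prim ϖ y := by
  classical
  have hex : ∃ n : ℕ, ¬ ∃ y : M, m = ϖ ^ n • y := by
    by_contra hcon
    push Not at hcon
    exact hm (hsep m hcon)
  have h0 : Nat.find hex ≠ 0 := by
    intro h0
    have := Nat.find_spec hex
    rw [h0] at this
    exact this ⟨m, by rw [pow_zero, one_smul]⟩
  obtain ⟨k, hk⟩ := Nat.exists_eq_succ_of_ne_zero h0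
  have hlt : k < Nat.find hex := by omega
  have hk' := Nat.find_min hex hlt
  push Not at hk'
  obtain ⟨y, hy⟩ := hk'
  refine ⟨k, y, hy, ?_⟩
  intro z hz
  apply Nat.find_spec hex
  refine ⟨z, ?_⟩
  rw [hk, Nat.succ_eq_add_one, pow_succ, mul_smul, ← hz]
  exact hy

/-- a primitive vector spans a saturated line -/
theorem ex73_line (htf : ∀ (a : R) (m : M), a • m = 0 → a = 0 ∨ m = 0) {ϖ : R}
    (hϖ : Irreducible ϖ) {l : M} (hl : ex73_Prim ϖ l) {r b : R} (hr : r ≠ 0) {m : M}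
    (h : r • m = b • l) : ∃ a : R, m = a • l := by
  rcases ValuationRing.dvd_total r b with ⟨a, rfl⟩ | ⟨a, rfl⟩
  · refine ⟨a, ex73_cancel htf hr ?_⟩
    rw [h, mul_smul]
  · have hb : b ≠ 0 := left_ne_zero_of_mul hr
    have h1 : a • m = l := by
      apply ex73_cancel htf hb
      rw [← mul_smul]
      exact h
    by_cases hu : IsUnit a
    · obtain ⟨u, rfl⟩ := hu
      refine ⟨((u⁻¹ : Rˣ) : R), ?_⟩
      rw [← h1, ← mul_smul, Units.inv_mul, one_smul]
    · exfalso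
      have hmem : a ∈ maximalIdeal R := (IsLocalRing.mem_maximalIdeal a).mpr hu
      rw [hϖ.maximalIdeal_eq, Ideal.mem_span_singleton] at hmem
      obtain ⟨a', rfl⟩ := hmem
      exact hl (a' • m) (by rw [← mul_smul]; exact h1.symm)

/-- divisibility of the coefficient of a primitive vector -/
theorem ex73_prim_dvd (htf : ∀ (a : R) (m : M), a • m = 0 → a = 0 ∨ m = 0) {ϖ : R}
    (hϖ : Irreducible ϖ) {l : M} (hl : ex73_Prim ϖ l) {a : R} {n : ℕ} {y : M}
    (h : a • l = ϖ ^ n • y) : ϖ ^ n ∣ a := by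
  rcases ValuationRing.dvd_total (ϖ ^ n) a with h1 | ⟨d, hd⟩
  · exact h1
  · have ha : a ≠ 0 := by
      intro ha
      rw [ha, zero_mul] at hd
      exact pow_ne_zero n hϖ.ne_zero hd
    have h1 : l = d • y := by
      apply ex73_cancel htf ha
      rw [h, hd, mul_smul]
    by_cases hu : IsUnit d
    · obtain ⟨u, rfl⟩ := hu
      refine ⟨((u⁻¹ : Rˣ) : R), ?_⟩
      rw [hd, mul_assoc, Units.mul_inv, mul_one]
    · exfalso
      have hmem : d ∈ maximalIdeal R := (IsLocalRing.mem_maximalIdeal d).mpr hu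
      rw [hϖ.maximalIdeal_eq, Ideal.mem_span_singleton] at hmem
      obtain ⟨d', rfl⟩ := hmem
      exact hl (d' • y) (by rw [← mul_smul]; exact h1)

end basics

section core

variable {R : Type*} [CommRing R] [IsDomain R]
variable {G : Type*} [Group G]
variable {M : Type*} [AddCommGroup M] [Module R M]
variable (ρ : G →* Module.End R M) (ε : G →* Rˣ) (t : G → R) (c : G)

/-- the operator `1 + s • ρ(c)` -/
def ex73_E (s : R) : Module.End R M := 1 + s • ρ c

theorem ex73_E_apply (s : R) (m : M) : ex73_E ρ c s m = m + s • ρ c m := rfl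

/-- the scalar `t(x) + s t(c x)` -/
def ex73_al (s : R) (x : G) : R := t x + s * t (c * x)

variable (hu : ∀ (g : G) (m : M), ρ g m + (ε g : R) • ρ g⁻¹ m = t g • m) (hc : c * c = 1)
  (hεc : ε c = -1)

include hc in
theorem ex73_cc (m : M) : ρ c (ρ c m) = m := by
  rw [← Module.End.mul_apply, ← map_mul, hc, map_one, Module.End.one_apply]

include hu hc hεc in
/-- the polarised relation `c x + x c = t(cx) + t(x) c` -/
theorem ex73_star (x : G) (m : M) :
    ρ c (ρ x m) + ρ x (ρ c m) = t (c * x) • m + t x • ρ c m := by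
  have h1 := hu (c * x) m
  have h2 := hu x (ρ c m)
  have hcinv : c⁻¹ = c := inv_eq_of_mul_eq_one_right hc
  rw [mul_inv_rev, hcinv, map_mul, map_mul, map_mul, hεc] at h1
  simp only [Module.End.mul_apply, Units.val_neg, neg_mul, one_mul, neg_smul] at h1
  rw [← h2, ← h1]
  abel

include hc in
theorem ex73_E_eigen (s : R) (hs : s * s = 1) (m : M) :
    ρ c (ex73_E ρ c s m) = s • ex73_E ρ c s m := by
  rw [ex73_E_apply, map_add, map_smul, ex73_cc ρ c hc, smul_add, smul_smul, hs, one_smul]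
  abel

include hu hc hεc in
theorem ex73_E_rho (s : R) (hs : s * s = 1) (x : G) {m : M} (hm : ρ c m = s • m) :
    ex73_E ρ c s (ρ x m) = ex73_al t c s x • m := by
  have h := ex73_star ρ ε t c hu hc hεc x m
  rw [hm, map_smul] at h
  have h1 : (s * s) • ρ x m = ρ x m := by rw [hs, one_smul]
  have h2 : (s * s) • (t x • m) = t x • m := by rw [hs, one_smul]
  rw [ex73_E_apply, ex73_al]
  linear_combination (norm := module) s • h - h1 + h2

theorem ex73_E_add (s : R) (m : M) : ex73_E ρ c s m + ex73_E ρ c (-s) m = (2 : R) • m := by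
  rw [ex73_E_apply, ex73_E_apply]
  module

theorem ex73_E_self (s : R) (hs : s * s = 1) {m : M} (hm : ρ c m = s • m) :
    ex73_E ρ c s m = (2 : R) • m := by
  have h1 : (s * s) • m = m := by rw [hs, one_smul]
  rw [ex73_E_apply, hm]
  linear_combination (norm := module) h1

theorem ex73_E_neg (s : R) (hs : s * s = 1) {m : M} (hm : ρ c m = s • m) :
    ex73_E ρ c (-s) m = 0 := by
  have h1 : (s * s) • m = m := by rw [hs, one_smul]
  rw [ex73_E_apply, hm]
  linear_combination (norm := module) - h1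

include hu hc hεc in
theorem ex73_E_rho_E (s : R) (hs : s * s = 1) (x y : G) {u : M} (hm : ρ c u = s • u) :
    ex73_E ρ c s (ρ x (ex73_E ρ c (-s) (ρ y u))) =
      (ex73_al t c s (x * y) - s * ex73_al t c s (x * c * y)) • u := by
  have h1 := ex73_E_rho ρ ε t c hu hc hεc s hs (x * y) hm
  have h2 := ex73_E_rho ρ ε t c hu hc hεc s hs (x * c * y) hm
  have e1 : ρ x (ex73_E ρ c (-s) (ρ y u)) = ρ (x * y) u - s • ρ (x * c * y) u := by
    rw [ex73_E_apply, map_add, map_smul, map_mul, map_mul, map_mul]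
    simp only [Module.End.mul_apply, neg_smul]
    abel
  rw [e1, map_sub, map_smul, h1, h2, sub_smul, mul_smul]

end core

section dich

variable {R : Type*} [CommRing R] [IsDomain R]
variable {G : Type*} [Group G]
variable {M : Type*} [AddCommGroup M] [Module R M]
variable (ρ : G →* Module.End R M) (ε : G →* Rˣ) (t : G → R) (c : G)

/-- a rationally `G`-stable line -/
def ex73_Line : Prop :=
  ∃ l : M, l ≠ 0 ∧ ∀ g : G, ∃ r : R, r ≠ 0 ∧ ∃ a : R, r • ρ g l = a • l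

/-- a rationally `G`-stable plane spanned by an eigenvector of `c` for `s` and one for `-s` -/
def ex73_Plane : Prop :=
  ∃ (s : R) (v w : M), s * s = 1 ∧ v ≠ 0 ∧ w ≠ 0 ∧ ρ c v = s • v ∧ ρ c w = (-s) • w ∧
    (∀ g : G, ∃ r : R, r ≠ 0 ∧ ∃ a b : R, r • ρ g v = a • v + b • w) ∧
    (∀ g : G, ∃ r : R, r ≠ 0 ∧ ∃ a b : R, r • ρ g w = a • v + b • w)

variable (hu : ∀ (g : G) (m : M), ρ g m + (ε g : R) • ρ g⁻¹ m = t g • m) (hc : c * c = 1)
  (hεc : ε c = -1)

include hu hc hεc in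
theorem ex73_dich_eigen (h2 : (2 : R) ≠ 0) (s : R) (hs : s * s = 1) {v : M} (hv : v ≠ 0)
    (hcv : ρ c v = s • v) : ex73_Line ρ ∨ ex73_Plane ρ c := by
  have hs' : (-s) * (-s) = 1 := by rw [neg_mul_neg, hs]
  by_cases h1 : ∀ g : G, ex73_E ρ c (-s) (ρ g v) = 0
  · left
    refine ⟨v, hv, fun g => ⟨2, h2, ex73_al t c s g, ?_⟩⟩
    rw [← ex73_E_add ρ c s (ρ g v), h1 g, add_zero, ex73_E_rho ρ ε t c hu hc hεc s hs g hcv]
  · rw [not_forall] at h1
    obtain ⟨g₀, hg₀⟩ := h1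
    obtain ⟨w, hwdef⟩ : ∃ w : M, w = ex73_E ρ c (-s) (ρ g₀ v) := ⟨_, rfl⟩
    have hw : w ≠ 0 := by rw [hwdef]; exact hg₀
    have hcw : ρ c w = (-s) • w := by
      rw [hwdef]
      exact ex73_E_eigen ρ c hc (-s) hs' _
    by_cases h3 : ∀ h : G, ex73_E ρ c s (ρ h w) = 0
    · left
      refine ⟨w, hw, fun h => ⟨2, h2, ex73_al t c (-s) h, ?_⟩⟩
      rw [← ex73_E_add ρ c s (ρ h w), h3 h, zero_add,
        ex73_E_rho ρ ε t c hu hc hεc (-s) hs' h hcw]
    · rw [not_forall] at h3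
      obtain ⟨h₀, hh₀⟩ := h3
      right
      have hκ : ex73_E ρ c s (ρ h₀ w) =
          (ex73_al t c s (h₀ * g₀) - s * ex73_al t c s (h₀ * c * g₀)) • v := by
        rw [hwdef]
        exact ex73_E_rho_E ρ ε t c hu hc hεc s hs h₀ g₀ hcv
      obtain ⟨κ, hκdef⟩ : ∃ κ : R,
          κ = ex73_al t c s (h₀ * g₀) - s * ex73_al t c s (h₀ * c * g₀) := ⟨_, rfl⟩
      rw [← hκdef] at hκ
      have hκ0 : κ ≠ 0 := by
        intro h0
        apply hh₀
        rw [hκ, h0, zero_smul]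
      refine ⟨s, v, w, hs, hv, hw, hcv, hcw, fun g => ?_, fun g => ?_⟩
      · have e1 := ex73_E_add ρ c s (ρ g v)
        have e2 := ex73_E_rho ρ ε t c hu hc hεc s hs g hcv
        have e3 : κ • ex73_E ρ c (-s) (ρ g v) =
            (ex73_al t c (-s) (g * h₀) - (-s) * ex73_al t c (-s) (g * c * h₀)) • w := by
          have e4 := ex73_E_rho_E ρ ε t c hu hc hεc (-s) hs' g h₀ hcw
          rw [neg_neg, hκ] at e4
          rw [← e4, map_smul, map_smul]
        refine ⟨2 * κ, mul_ne_zero h2 hκ0, κ * ex73_al t c s g,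
          ex73_al t c (-s) (g * h₀) - (-s) * ex73_al t c (-s) (g * c * h₀), ?_⟩
        linear_combination (norm := module) (-κ) • e1 + κ • e2 + e3
      · have e1 := ex73_E_add ρ c s (ρ g w)
        have e2 := ex73_E_rho ρ ε t c hu hc hεc (-s) hs' g hcw
        have e3 := ex73_E_rho_E ρ ε t c hu hc hεc s hs g g₀ hcv
        rw [← hwdef] at e3
        refine ⟨2, h2, ex73_al t c s (g * g₀) - s * ex73_al t c s (g * c * g₀),
          ex73_al t c (-s) g, ?_⟩
        linear_combination (norm := module) (-1 : R) • e1 + e3 + e2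

include hu hc hεc in
theorem ex73_dich (htf : ∀ (a : R) (m : M), a • m = 0 → a = 0 ∨ m = 0) (h2 : (2 : R) ≠ 0)
    (hM : ∃ m : M, m ≠ 0) : ex73_Line ρ ∨ ex73_Plane ρ c := by
  obtain ⟨m, hm⟩ := hM
  have e := ex73_E_add ρ c 1 m
  by_cases h1 : ex73_E ρ c 1 m = 0
  · have h3 : ex73_E ρ c (-1) m ≠ 0 := by
      intro h3
      rw [h1, h3, add_zero] at e
      rcases htf 2 m e.symm with h | h
      · exact h2 h
      · exact hm h
    exact ex73_dich_eigen ρ ε t c hu hc hεc h2 (-1) (by ring) h3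
      (ex73_E_eigen ρ c hc (-1) (by ring) m)
  · exact ex73_dich_eigen ρ ε t c hu hc hεc h2 1 (by ring) h1
      (ex73_E_eigen ρ c hc 1 (by ring) m)

end dich

section out

variable {R : Type*} [CommRing R] [IsDomain R] [IsDiscreteValuationRing R]
variable {G : Type*} [Group G]
variable {M : Type*} [AddCommGroup M] [Module R M]
variable (ρ : G →* Module.End R M) (ε : G →* Rˣ) (t : G → R) (c : G)

/-- the output of the extraction: a two-dimensional matrix representation with prescribed trace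
and determinant, controlled by two vectors of `M` -/
def ex73_Out (ϖ : R) : Prop :=
  ∃ (ρ' : G →* Matrix (Fin 2) (Fin 2) R) (w₁ w₂ : M),
    (∀ g : G, (ρ' g).trace = t g) ∧ (∀ g : G, (ρ' g).det = (ε g : R)) ∧
    (∀ (g : G) (n : ℕ), (∃ y : M, ρ g w₁ - w₁ = ϖ ^ n • y) →
      (∃ y : M, ρ g w₂ - w₂ = ϖ ^ n • y) → ϖ ^ n ∣ (ε g : R) - 1 →
        ∀ i j : Fin 2, ϖ ^ n ∣ (ρ' g - 1) i j) ∧
    (∀ g : G, ρ g w₁ = w₁ → ρ g w₂ = w₂ → ε g = 1 → ρ' g = 1)

variable (hu : ∀ (g : G) (m : M), ρ g m + (ε g : R) • ρ g⁻¹ m = t g • m)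

include hu in
theorem ex73_out_of_line (htf : ∀ (a : R) (m : M), a • m = 0 → a = 0 ∨ m = 0) {ϖ : R}
    (hϖ : Irreducible ϖ) (hsep : ∀ m : M, (∀ n : ℕ, ∃ y : M, m = ϖ ^ n • y) → m = 0)
    (h : ex73_Line ρ) : ex73_Out ρ ε t ϖ := by
  obtain ⟨l₀, hl₀, hst⟩ := h
  obtain ⟨k, l, hkl, hprim⟩ := ex73_exists_prim hsep hl₀
  have hl : l ≠ 0 := ex73_prim_ne_zero hprim
  have hϖk : ϖ ^ k ≠ 0 := pow_ne_zero k hϖ.ne_zero
  have hex : ∀ g : G, ∃ a : R, ρ g l = a • l := by
    intro g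
    obtain ⟨r, hr, a, h⟩ := hst g
    refine ex73_line htf hϖ hprim hr (b := a) ?_
    apply ex73_cancel htf hϖk
    rw [smul_comm, ← map_smul, ← hkl, h, hkl, smul_comm]
  choose ψ hψ using hex
  have hψ1 : ψ 1 = 1 :=
    ex73_cancel_right htf hl (by rw [← hψ, map_one, Module.End.one_apply, one_smul])
  have hψmul : ∀ g h : G, ψ (g * h) = ψ g * ψ h := fun g h =>
    ex73_cancel_right htf hl (by
      rw [← hψ, map_mul, Module.End.mul_apply, hψ h, map_smul, hψ g, smul_smul, mul_comm])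
  have hψinv : ∀ g : G, ψ g * ψ g⁻¹ = 1 := fun g => by rw [← hψmul, mul_inv_cancel, hψ1]
  have htr : ∀ g : G, ψ g + (ε g : R) * ψ g⁻¹ = t g := fun g =>
    ex73_cancel_right htf hl (by rw [← hu g l, hψ g, hψ g⁻¹, add_smul, mul_smul])
  let ρ' : G →* Matrix (Fin 2) (Fin 2) R :=
    { toFun := fun g => !![ψ g, 0; 0, (ε g : R) * ψ g⁻¹]
      map_one' := by
        rw [Matrix.one_fin_two]
        simp [hψ1]
      map_mul' := fun g h => by
        rw [Matrix.mul_fin_two]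
        simp only [hψmul, mul_inv_rev, map_mul, Units.val_mul, mul_zero, add_zero, zero_mul,
          zero_add]
        congr 3
        ring_nf }
  have hρ' : ∀ g : G, ρ' g = !![ψ g, 0; 0, (ε g : R) * ψ g⁻¹] := fun g => rfl
  refine ⟨ρ', l, l, fun g => ?_, fun g => ?_, fun g n hy _ hεn => ?_, fun g hg _ hεg => ?_⟩
  · rw [hρ', Matrix.trace_fin_two_of, htr]
  · rw [hρ', Matrix.det_fin_two_of, mul_left_comm, hψinv, mul_one, mul_zero, sub_zero]
  · obtain ⟨y, hy⟩ := hy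
    have hd : ϖ ^ n ∣ ψ g - 1 :=
      ex73_prim_dvd htf hϖ hprim (a := ψ g - 1) (y := y)
        (by rw [sub_smul, one_smul, ← hψ g, hy])
    have hd' : ϖ ^ n ∣ ψ g⁻¹ - 1 := by
      have e : ψ g⁻¹ - 1 = -ψ g⁻¹ * (ψ g - 1) := by
        have := hψinv g
        linear_combination this
      rw [e]
      exact Dvd.dvd.mul_left hd _
    have hd'' : ϖ ^ n ∣ (ε g : R) * ψ g⁻¹ - 1 := by
      have e : (ε g : R) * ψ g⁻¹ - 1 = ((ε g : R) - 1) * ψ g⁻¹ + (ψ g⁻¹ - 1) := by ring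
      rw [e]
      exact dvd_add (Dvd.dvd.mul_right hεn _) hd'
    intro i j
    rw [hρ', Matrix.one_fin_two]
    fin_cases i <;> fin_cases j <;> simp <;> assumption
  · have h1 : ψ g = 1 := ex73_cancel_right htf hl (by rw [← hψ, hg, one_smul])
    have h2 : ψ g⁻¹ = 1 := by
      have := hψinv g
      rw [h1, one_mul] at this
      exact this
    rw [hρ', h1, h2, hεg, Matrix.one_fin_two]
    simp

end out

section mat

variable {R : Type*} [CommRing R] [IsDomain R]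
variable {G : Type*} [Group G]

theorem ex73_cayley (X : Matrix (Fin 2) (Fin 2) R) :
    X * X = X.trace • X - X.det • (1 : Matrix (Fin 2) (Fin 2) R) := by
  ext i j
  fin_cases i <;> fin_cases j <;>
    simp [Matrix.mul_apply, Fin.sum_univ_two, Matrix.trace_fin_two, Matrix.det_fin_two] <;> ring

theorem ex73_vec_cancel {a b : R} {x : Fin 2 → R} (hx : x ≠ 0) (h : a • x = b • x) : a = b := by
  obtain ⟨i, hi⟩ := Function.ne_iff.mp hx
  have := congrFun h i
  simp only [Pi.smul_apply, smul_eq_mul] at this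
  exact mul_right_cancel₀ hi this

theorem ex73_mat (h2 : (2 : R) ≠ 0) (A : G →* Matrix (Fin 2) (Fin 2) R) (ε : G →* Rˣ)
    (t : G → R) (c : G) (hc : c * c = 1) (hεc : ε c = -1)
    (hA : ∀ g : G, A g + (ε g : R) • A g⁻¹ = t g • (1 : Matrix (Fin 2) (Fin 2) R))
    (s : R) (hs : s * s = 1) (x y : Fin 2 → R) (hx : x ≠ 0) (hy : y ≠ 0)
    (hcx : (A c).mulVec x = s • x) (hcy : (A c).mulVec y = (-s) • y) (g : G) :
    (A g).trace = t g ∧ (A g).det = (ε g : R) := by
  have hCC : A c * A c = 1 := by rw [← map_mul, hc, map_one]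
  have hch := ex73_cayley (A c)
  rw [hCC] at hch
  have hx1 : (1 + (A c).det) • x = ((A c).trace * s) • x := by
    have := congrArg (fun X => Matrix.mulVec X x) hch
    simp only [Matrix.one_mulVec, Matrix.sub_mulVec, Matrix.smul_mulVec, hcx] at this
    rw [add_smul, one_smul, mul_smul]
    linear_combination (norm := module) this
  have hy1 : (1 + (A c).det) • y = ((A c).trace * (-s)) • y := by
    have := congrArg (fun X => Matrix.mulVec X y) hch
    simp only [Matrix.one_mulVec, Matrix.sub_mulVec, Matrix.smul_mulVec, hcy] at this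
    rw [add_smul, one_smul, mul_smul]
    linear_combination (norm := module) this
  have e1 := ex73_vec_cancel hx hx1
  have e2 := ex73_vec_cancel hy hy1
  have htrC : (A c).trace = 0 := by
    have h3 : (2 : R) * ((A c).trace * s) = 0 := by linear_combination e2 - e1
    have h4 : (A c).trace * s = 0 := (mul_eq_zero.mp h3).resolve_left h2
    have h5 : (A c).trace = (A c).trace * s * s := by rw [mul_assoc, hs, mul_one]
    rw [h5, h4, zero_mul]
  have hstar : ∀ g : G, A c * A g + A g * A c =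
      t (c * g) • (1 : Matrix (Fin 2) (Fin 2) R) + t g • A c := by
    intro g
    have h1 := hA (c * g)
    have h2' := hA g
    have hcinv : c⁻¹ = c := inv_eq_of_mul_eq_one_right hc
    rw [mul_inv_rev, hcinv, map_mul, map_mul, map_mul, hεc] at h1
    have h3 : A g * A c + (ε g : R) • (A g⁻¹ * A c) = t g • A c := by
      have := congrArg (fun X => X * A c) h2'
      simpa [add_mul, smul_mul_assoc] using this
    simp only [Units.val_neg, neg_mul, one_mul, neg_smul] at h1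
    rw [← h3, ← h1]
    abel
  have htr : ∀ g : G, (A (c * g)).trace = t (c * g) := by
    intro g
    have := congrArg Matrix.trace (hstar g)
    rw [Matrix.trace_add, Matrix.trace_add, Matrix.trace_smul, Matrix.trace_smul, htrC,
      Matrix.trace_mul_comm (A g) (A c), Matrix.trace_one] at this
    simp only [Fintype.card_fin, smul_eq_mul, mul_zero, add_zero, Nat.cast_ofNat] at this
    rw [map_mul]
    apply mul_left_cancel₀ h2
    linear_combination this
  have htrg : (A g).trace = t g := by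
    have := htr (c * g)
    rwa [← mul_assoc, hc, one_mul] at this
  refine ⟨htrg, ?_⟩
  have hgg : A g * A g = t g • A g - (ε g : R) • (1 : Matrix (Fin 2) (Fin 2) R) := by
    have := congrArg (fun X => A g * X) (hA g)
    simp only [mul_add, Matrix.mul_smul, Matrix.mul_one] at this
    rw [← map_mul A g g⁻¹, mul_inv_cancel, map_one] at this
    rw [eq_sub_iff_add_eq]
    exact this
  have hch' := ex73_cayley (A g)
  rw [hgg, htrg] at hch'
  have := congrFun (congrFun hch' 0) 0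
  simp only [Matrix.sub_apply, Matrix.smul_apply, Matrix.one_apply_eq, smul_eq_mul, mul_one]
    at this
  linear_combination this

end mat

section plane

variable {R : Type*} [CommRing R] [IsDomain R] [IsDiscreteValuationRing R]
variable {G : Type*} [Group G]
variable {M : Type*} [AddCommGroup M] [Module R M]
variable (ρ : G →* Module.End R M) (ε : G →* Rˣ) (t : G → R) (c : G)
variable (hu : ∀ (g : G) (m : M), ρ g m + (ε g : R) • ρ g⁻¹ m = t g • m) (hc : c * c = 1)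
  (hεc : ε c = -1)

include hu hc hεc in
theorem ex73_out_of_plane (htf : ∀ (a : R) (m : M), a • m = 0 → a = 0 ∨ m = 0)
    (h2 : (2 : R) ≠ 0) {ϖ : R} (hϖ : Irreducible ϖ)
    (hsep : ∀ m : M, (∀ n : ℕ, ∃ y : M, m = ϖ ^ n • y) → m = 0)
    (h : ex73_Plane ρ c) : ex73_Out ρ ε t ϖ := by
  classical
  obtain ⟨s, v, w, hs, hv, hw, hcv, hcw, hstv, hstw⟩ := h
  have hs' : (-s) * (-s) = 1 := by rw [neg_mul_neg, hs]
  have hs0 : s ≠ 0 := by
    rintro rfl
    rw [zero_mul] at hs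
    exact zero_ne_one hs
  obtain ⟨k₁, l₁, hkl₁, hp₁⟩ := ex73_exists_prim hsep hv
  obtain ⟨k₂, l₂, hkl₂, hp₂⟩ := ex73_exists_prim hsep hw
  have hl₁ : l₁ ≠ 0 := ex73_prim_ne_zero hp₁
  have hl₂ : l₂ ≠ 0 := ex73_prim_ne_zero hp₂
  have hϖ₁ : ϖ ^ k₁ ≠ 0 := pow_ne_zero _ hϖ.ne_zero
  have hϖ₂ : ϖ ^ k₂ ≠ 0 := pow_ne_zero _ hϖ.ne_zero
  have hcl₁ : ρ c l₁ = s • l₁ := by
    apply ex73_cancel htf hϖ₁
    rw [← map_smul, ← hkl₁, hcv, hkl₁, smul_comm]
  have hcl₂ : ρ c l₂ = (-s) • l₂ := by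
    apply ex73_cancel htf hϖ₂
    rw [← map_smul, ← hkl₂, hcw, hkl₂, smul_comm]
  -- the lattice
  let Λ : Submodule R M :=
    { carrier := {m | ∃ r : R, r ≠ 0 ∧ ∃ a b : R, r • m = a • v + b • w}
      zero_mem' := ⟨1, one_ne_zero, 0, 0, by simp⟩
      add_mem' := by
        rintro x y ⟨r, hr, a, b, h⟩ ⟨r', hr', a', b', h'⟩
        refine ⟨r * r', mul_ne_zero hr hr', r' * a + r * a', r' * b + r * b', ?_⟩
        linear_combination (norm := module) r' • h + r • h'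
      smul_mem' := by
        rintro d x ⟨r, hr, a, b, h⟩
        exact ⟨r, hr, d * a, d * b, by linear_combination (norm := module) d • h⟩ }
  have hvΛ : v ∈ Λ := ⟨1, one_ne_zero, 1, 0, by simp⟩
  have hwΛ : w ∈ Λ := ⟨1, one_ne_zero, 0, 1, by simp⟩
  have hsat : ∀ (a : R) (m : M), a ≠ 0 → a • m ∈ Λ → m ∈ Λ := by
    rintro a m ha ⟨r, hr, x, y, h⟩
    exact ⟨r * a, mul_ne_zero hr ha, x, y, by rw [mul_smul]; exact h⟩
  have hl₁Λ : l₁ ∈ Λ := hsat (ϖ ^ k₁) l₁ hϖ₁ (by rw [← hkl₁]; exact hvΛ)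
  have hl₂Λ : l₂ ∈ Λ := hsat (ϖ ^ k₂) l₂ hϖ₂ (by rw [← hkl₂]; exact hwΛ)
  have hstab : ∀ (g : G), ∀ m ∈ Λ, ρ g m ∈ Λ := by
    rintro g m ⟨r, hr, a, b, h⟩
    obtain ⟨r₁, hr₁, a₁, b₁, h₁⟩ := hstv g
    obtain ⟨r₂, hr₂, a₂, b₂, h₂⟩ := hstw g
    have h' : r • ρ g m = a • ρ g v + b • ρ g w := by
      rw [← map_smul, h, map_add, map_smul, map_smul]
    refine ⟨r * r₁ * r₂, mul_ne_zero (mul_ne_zero hr hr₁) hr₂, a * r₂ * a₁ + b * r₁ * a₂,
      a * r₂ * b₁ + b * r₁ * b₂, ?_⟩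
    linear_combination (norm := module) (r₁ * r₂) • h' + (a * r₂) • h₁ + (b * r₁) • h₂
  have hE₁ : ∀ m ∈ Λ, ∃ a : R, ex73_E ρ c s m = a • l₁ := by
    rintro m ⟨r, hr, a, b, h⟩
    have e1 : ex73_E ρ c s v = (2 : R) • v := ex73_E_self ρ c s hs hcv
    have e2 : ex73_E ρ c s w = 0 := by
      have := ex73_E_neg ρ c (-s) hs' hcw
      rwa [neg_neg] at this
    refine ex73_line htf hϖ hp₁ hr (b := a * 2 * ϖ ^ k₁) ?_
    rw [← map_smul, h, map_add, map_smul, map_smul, e1, e2, smul_zero, add_zero, hkl₁,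
      smul_smul, smul_smul]
  have hE₂ : ∀ m ∈ Λ, ∃ b : R, ex73_E ρ c (-s) m = b • l₂ := by
    rintro m ⟨r, hr, a, b, h⟩
    have e1 : ex73_E ρ c (-s) w = (2 : R) • w := ex73_E_self ρ c (-s) hs' hcw
    have e2 : ex73_E ρ c (-s) v = 0 := ex73_E_neg ρ c s hs hcv
    refine ex73_line htf hϖ hp₂ hr (b := b * 2 * ϖ ^ k₂) ?_
    rw [← map_smul, h, map_add, map_smul, map_smul, e1, e2, smul_zero, zero_add, hkl₂,
      smul_smul, smul_smul]
  have h2m : ∀ m ∈ Λ, ∃ a b : R, (2 : R) • m = a • l₁ + b • l₂ := by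
    intro m hm
    obtain ⟨a, ha⟩ := hE₁ m hm
    obtain ⟨b, hb⟩ := hE₂ m hm
    exact ⟨a, b, by rw [← ex73_E_add ρ c s m, ha, hb]⟩
  have hind : ∀ x y : R, x • l₁ + y • l₂ = 0 → x = 0 ∧ y = 0 := by
    intro x y h
    have h' := congrArg (ρ c) h
    rw [map_add, map_smul, map_smul, hcl₁, hcl₂, map_zero] at h'
    have h3 : ((2 : R) * s * x) • l₁ = 0 := by
      linear_combination (norm := module) s • h + h'
    have hx0 : x = 0 := by
      rcases htf _ _ h3 with h4 | h4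
      · rcases mul_eq_zero.mp h4 with h5 | h5
        · rcases mul_eq_zero.mp h5 with h6 | h6
          · exact absurd h6 h2
          · exact absurd h6 hs0
        · exact h5
      · exact absurd h4 hl₁
    refine ⟨hx0, ?_⟩
    rw [hx0, zero_smul, zero_add] at h
    exact (htf _ _ h).resolve_right hl₂
  -- the ideal of second coordinates
  let I : Ideal R :=
    { carrier := {b | ∃ m ∈ Λ, ∃ a : R, (2 : R) • m = a • l₁ + b • l₂}
      zero_mem' := ⟨0, Λ.zero_mem, 0, by simp⟩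
      add_mem' := by
        rintro b b' ⟨m, hm, a, h⟩ ⟨m', hm', a', h'⟩
        refine ⟨m + m', Λ.add_mem hm hm', a + a', ?_⟩
        linear_combination (norm := module) h + h'
      smul_mem' := by
        rintro d b ⟨m, hm, a, h⟩
        refine ⟨d • m, Λ.smul_mem d hm, d * a, ?_⟩
        rw [smul_eq_mul]
        linear_combination (norm := module) d • h }
  obtain ⟨b₀, hb₀⟩ : ∃ b₀ : R, I = Ideal.span {b₀} :=
    (IsPrincipalIdealRing.principal I).principal
  have hb₀I : b₀ ∈ I := by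
    rw [hb₀]
    exact Ideal.mem_span_singleton_self b₀
  obtain ⟨m₀, hm₀Λ, a₀, hm₀⟩ := hb₀I
  have h2I : (2 : R) ∈ I := ⟨l₂, hl₂Λ, 0, by simp⟩
  have hb₀0 : b₀ ≠ 0 := by
    rintro rfl
    rw [hb₀, Ideal.mem_span_singleton, zero_dvd_iff] at h2I
    exact h2 h2I
  -- the basis
  have hli : LinearIndependent R ![(⟨l₁, hl₁Λ⟩ : Λ), ⟨m₀, hm₀Λ⟩] := by
    rw [LinearIndependent.pair_iff]
    intro x y h
    have h' : x • l₁ + y • m₀ = 0 := by simpa using congrArg Subtype.val h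
    have h3 : ((2 : R) * x + y * a₀) • l₁ + (y * b₀) • l₂ = 0 := by
      linear_combination (norm := module) (2 : R) • h' - y • hm₀
    obtain ⟨h4, h5⟩ := hind _ _ h3
    have hy0 : y = 0 := (mul_eq_zero.mp h5).resolve_right hb₀0
    rw [hy0, zero_mul, add_zero] at h4
    exact ⟨(mul_eq_zero.mp h4).resolve_left h2, hy0⟩
  have hsp : ⊤ ≤ Submodule.span R (Set.range ![(⟨l₁, hl₁Λ⟩ : Λ), ⟨m₀, hm₀Λ⟩]) := by
    rintro ⟨m, hm⟩ -
    obtain ⟨a, b, hab⟩ := h2m m hm
    have hbI : b ∈ I := ⟨m, hm, a, hab⟩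
    rw [hb₀, Ideal.mem_span_singleton'] at hbI
    obtain ⟨b', rfl⟩ := hbI
    have h3 : (2 : R) • (m - b' • m₀) = (a - b' * a₀) • l₁ := by
      linear_combination (norm := module) hab - b' • hm₀
    obtain ⟨a'', ha''⟩ := ex73_line htf hϖ hp₁ h2 h3
    rw [Matrix.range_cons_cons_empty, Submodule.mem_span_pair]
    refine ⟨a'', b', Subtype.ext ?_⟩
    simp only [Submodule.coe_add, Submodule.coe_smul]
    rw [← ha'']
    abel
  let bΛ : Module.Basis (Fin 2) R Λ := Module.Basis.mk hli hsp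
  have hbΛ0 : ((bΛ 0 : Λ) : M) = l₁ := by simp [bΛ]
  have hbΛ1 : ((bΛ 1 : Λ) : M) = m₀ := by simp [bΛ]
  let ρΛ : G → Module.End R Λ := fun g => (ρ g).restrict (hstab g)
  have hρΛ : ∀ (g : G) (m : Λ), ((ρΛ g m : Λ) : M) = ρ g m := fun g m => rfl
  let ρ' : G →* Matrix (Fin 2) (Fin 2) R :=
    { toFun := fun g => LinearMap.toMatrix bΛ bΛ (ρΛ g)
      map_one' := by
        have : ρΛ 1 = 1 := LinearMap.ext fun m => Subtype.ext (by
          rw [hρΛ, map_one]; rfl)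
        rw [this, LinearMap.toMatrix_one]
      map_mul' := fun g h => by
        have : ρΛ (g * h) = ρΛ g * ρΛ h := LinearMap.ext fun m => Subtype.ext (by
          rw [hρΛ, map_mul]; rfl)
        rw [this, LinearMap.toMatrix_mul] }
  have hρ' : ∀ g : G, ρ' g = LinearMap.toMatrix bΛ bΛ (ρΛ g) := fun g => rfl
  have hA : ∀ g : G, ρ' g + (ε g : R) • ρ' g⁻¹ = t g • (1 : Matrix (Fin 2) (Fin 2) R) := by
    intro g
    have : ρΛ g + (ε g : R) • ρΛ g⁻¹ = t g • (1 : Module.End R Λ) :=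
      LinearMap.ext fun m => Subtype.ext (by
        show ρ g m + (ε g : R) • ρ g⁻¹ m = t g • (m : M)
        exact hu g m)
    rw [hρ', hρ', ← map_smul, ← map_add, this, map_smul, LinearMap.toMatrix_one]
  have hx : (ρ' c).mulVec (bΛ.repr ⟨l₁, hl₁Λ⟩) = s • ⇑(bΛ.repr ⟨l₁, hl₁Λ⟩) := by
    rw [hρ', LinearMap.toMatrix_mulVec_repr]
    have : ρΛ c ⟨l₁, hl₁Λ⟩ = s • (⟨l₁, hl₁Λ⟩ : Λ) := Subtype.ext hcl₁
    rw [this, map_smul]
    rfl
  have hy : (ρ' c).mulVec (bΛ.repr ⟨l₂, hl₂Λ⟩) = (-s) • ⇑(bΛ.repr ⟨l₂, hl₂Λ⟩) := by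
    rw [hρ', LinearMap.toMatrix_mulVec_repr]
    have : ρΛ c ⟨l₂, hl₂Λ⟩ = (-s) • (⟨l₂, hl₂Λ⟩ : Λ) := Subtype.ext hcl₂
    rw [this, map_smul]
    rfl
  have hx0 : (⇑(bΛ.repr ⟨l₁, hl₁Λ⟩) : Fin 2 → R) ≠ 0 := by
    intro h0
    have h1 : bΛ.repr ⟨l₁, hl₁Λ⟩ = 0 := DFunLike.coe_injective h0
    have h3 : (⟨l₁, hl₁Λ⟩ : Λ) = 0 := by simpa using h1
    exact hl₁ (congrArg Subtype.val h3)
  have hy0 : (⇑(bΛ.repr ⟨l₂, hl₂Λ⟩) : Fin 2 → R) ≠ 0 := by
    intro h0
    have h1 : bΛ.repr ⟨l₂, hl₂Λ⟩ = 0 := DFunLike.coe_injective h0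
    have h3 : (⟨l₂, hl₂Λ⟩ : Λ) = 0 := by simpa using h1
    exact hl₂ (congrArg Subtype.val h3)
  have mat := ex73_mat h2 ρ' ε t c hc hεc hA s hs _ _ hx0 hy0 hx hy
  refine ⟨ρ', l₁, m₀, fun g => (mat g).1, fun g => (mat g).2, ?_, ?_⟩
  · intro g n hy₁ hy₂ _ i j
    have key : ∃ z : Λ, ρΛ g (bΛ j) - bΛ j = ϖ ^ n • z := by
      have hyj : ∃ y : M, ρ g (bΛ j : M) - (bΛ j : M) = ϖ ^ n • y := by
        fin_cases j
        · simpa [hbΛ0] using hy₁
        · simpa [hbΛ1] using hy₂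
      obtain ⟨y, hy⟩ := hyj
      have hyΛ : y ∈ Λ := hsat (ϖ ^ n) y (pow_ne_zero n hϖ.ne_zero) (by
        rw [← hy]
        exact Λ.sub_mem (hstab g _ (bΛ j).2) (bΛ j).2)
      exact ⟨⟨y, hyΛ⟩, Subtype.ext hy⟩
    obtain ⟨z, hz⟩ := key
    have e : (ρ' g - 1) i j = ϖ ^ n * bΛ.repr z i := by
      have h1 : ((1 : Matrix (Fin 2) (Fin 2) R) i j) = bΛ.repr (bΛ j) i := by
        rw [Module.Basis.repr_self, Finsupp.single_apply, Matrix.one_apply]
        simp [eq_comm]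
      rw [Matrix.sub_apply, hρ', LinearMap.toMatrix_apply, h1, ← Finsupp.sub_apply, ← map_sub,
        hz, map_smul, Finsupp.smul_apply, smul_eq_mul]
    rw [e]
    exact Dvd.intro _ rfl
  · intro g h₁ h₂ _
    have : ρΛ g = 1 := bΛ.ext (fun j => by
      fin_cases j
      · exact Subtype.ext (by
          rw [hρΛ]
          show ρ g ((bΛ 0 : Λ) : M) = ((bΛ 0 : Λ) : M)
          rw [hbΛ0, h₁])
      · exact Subtype.ext (by
          rw [hρΛ]
          show ρ g ((bΛ 1 : Λ) : M) = ((bΛ 1 : Λ) : M)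
          rw [hbΛ1, h₂]))
    rw [hρ', this, LinearMap.toMatrix_one]

end plane

section main

open Polynomial

variable {R : Type*} [CommRing R] [IsDomain R] [IsDiscreteValuationRing R]
variable {G : Type*} [Group G]
variable {M : Type*} [AddCommGroup M] [Module R M]

/-- **Extraction of a two-dimensional representation (matrix form).**
`R` a discrete valuation ring with `2 ≠ 0`, `M` a nonzero torsion-free separated `R`-module (no
finiteness), `ρ : G → End_R M`, `ε : G → Rˣ`, `t : G → R` with `ρ g + ε g • ρ g⁻¹ = t g` on `M`,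
and `c ∈ G` with `c * c = 1`, `ε c = -1`.  Then there is a representation by `2 × 2` matrices with
trace `t` and determinant `ε`, which is congruent to `1` modulo `𝔪ⁿ` (resp. equal to `1`) as soon
as `ρ g` is so on two fixed vectors `w₁ w₂` of `M` and `ε g` is so. -/
theorem ex73_main (ρ : G →* Module.End R M) (ε : G →* Rˣ) (t : G → R) (c : G)
    (hu : ∀ (g : G) (m : M), ρ g m + (ε g : R) • ρ g⁻¹ m = t g • m)
    (hc : c * c = 1) (hεc : ε c = -1)
    (htf : ∀ (a : R) (m : M), a • m = 0 → a = 0 ∨ m = 0)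
    (hsep : ∀ m : M, (∀ n : ℕ, m ∈ (maximalIdeal R ^ n) • (⊤ : Submodule R M)) → m = 0)
    (h2 : (2 : R) ≠ 0) (hM : ∃ m : M, m ≠ 0) :
    ∃ (ρ' : G →* Matrix (Fin 2) (Fin 2) R) (w₁ w₂ : M),
      (∀ g : G, (ρ' g).trace = t g) ∧ (∀ g : G, (ρ' g).det = (ε g : R)) ∧
      (∀ (g : G) (n : ℕ), ρ g w₁ - w₁ ∈ (maximalIdeal R ^ n) • (⊤ : Submodule R M) →
        ρ g w₂ - w₂ ∈ (maximalIdeal R ^ n) • (⊤ : Submodule R M) →
        (ε g : R) - 1 ∈ maximalIdeal R ^ n →
        ∀ i j : Fin 2, (ρ' g - 1) i j ∈ maximalIdeal R ^ n) ∧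
      (∀ g : G, ρ g w₁ = w₁ → ρ g w₂ = w₂ → ε g = 1 → ρ' g = 1) := by
  obtain ⟨ϖ, hϖ⟩ := IsDiscreteValuationRing.exists_irreducible R
  have hsep' : ∀ m : M, (∀ n : ℕ, ∃ y : M, m = ϖ ^ n • y) → m = 0 := fun m h =>
    hsep m (fun n => (ex73_mem_iff hϖ n m).mpr (h n))
  have hout : ex73_Out ρ ε t ϖ := by
    rcases ex73_dich ρ ε t c hu hc hεc htf h2 hM with h | h
    · exact ex73_out_of_line ρ ε t hu htf hϖ hsep' h
    · exact ex73_out_of_plane ρ ε t c hu hc hεc htf h2 hϖ hsep' h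
  obtain ⟨ρ', w₁, w₂, h1, h2', h3, h4⟩ := hout
  refine ⟨ρ', w₁, w₂, h1, h2', fun g n hw₁ hw₂ hε i j => ?_, h4⟩
  rw [ex73_mem_ideal_iff hϖ]
  exact h3 g n ((ex73_mem_iff hϖ n _).mp hw₁) ((ex73_mem_iff hϖ n _).mp hw₂)
    ((ex73_mem_ideal_iff hϖ n _).mp hε) i j

/-- a vector all of whose coordinates lie in an ideal lies in `I • ⊤` -/
theorem ex73_pi_mem {S : Type*} [CommRing S] (I : Ideal S) (u : Fin 2 → S) (h : ∀ i, u i ∈ I) :
    u ∈ I • (⊤ : Submodule S (Fin 2 → S)) := by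
  have e : u = u 0 • (fun j : Fin 2 => if (0 : Fin 2) = j then (1 : S) else 0) +
      u 1 • (fun j : Fin 2 => if (1 : Fin 2) = j then (1 : S) else 0) := by
    funext j
    fin_cases j <;> simp
  rw [e]
  exact Submodule.add_mem _ (Submodule.smul_mem_smul (h 0) Submodule.mem_top)
    (Submodule.smul_mem_smul (h 1) Submodule.mem_top)

/-- **Extraction, endomorphism form**: the output of `ex73_main` as a representation on the free
module `Fin 2 → R`, with its characteristic polynomial; this is the shape of `GaloisRepAdic`. -/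
theorem ex73_main_end (ρ : G →* Module.End R M) (ε : G →* Rˣ) (t : G → R) (c : G)
    (hu : ∀ (g : G) (m : M), ρ g m + (ε g : R) • ρ g⁻¹ m = t g • m)
    (hc : c * c = 1) (hεc : ε c = -1)
    (htf : ∀ (a : R) (m : M), a • m = 0 → a = 0 ∨ m = 0)
    (hsep : ∀ m : M, (∀ n : ℕ, m ∈ (maximalIdeal R ^ n) • (⊤ : Submodule R M)) → m = 0)
    (h2 : (2 : R) ≠ 0) (hM : ∃ m : M, m ≠ 0) :
    ∃ (ρ'' : G →* Module.End R (Fin 2 → R)) (w₁ w₂ : M),
      (∀ g : G, LinearMap.charpoly (ρ'' g) = X ^ 2 - C (t g) * X + C (ε g : R)) ∧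
      (∀ (g : G) (n : ℕ), ρ g w₁ - w₁ ∈ (maximalIdeal R ^ n) • (⊤ : Submodule R M) →
        ρ g w₂ - w₂ ∈ (maximalIdeal R ^ n) • (⊤ : Submodule R M) →
        (ε g : R) - 1 ∈ maximalIdeal R ^ n →
        ∀ v : Fin 2 → R, ρ'' g v - v ∈ (maximalIdeal R ^ n) • (⊤ : Submodule R (Fin 2 → R))) ∧
      (∀ g : G, ρ g w₁ = w₁ → ρ g w₂ = w₂ → ε g = 1 → ρ'' g = 1) := by
  obtain ⟨ρ', w₁, w₂, h1, h2', h3, h4⟩ := ex73_main ρ ε t c hu hc hεc htf hsep h2 hM
  let ρ'' : G →* Module.End R (Fin 2 → R) :=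
    { toFun := fun g => Matrix.toLin' (ρ' g)
      map_one' := by rw [map_one, Matrix.toLin'_one]; rfl
      map_mul' := fun g h => by rw [map_mul, Matrix.toLin'_mul]; rfl }
  have hρ'' : ∀ g : G, ρ'' g = Matrix.toLin' (ρ' g) := fun g => rfl
  refine ⟨ρ'', w₁, w₂, fun g => ?_, fun g n hw₁ hw₂ hε v => ?_, fun g hw₁ hw₂ hε => ?_⟩
  · rw [hρ'', Matrix.charpoly_toLin', Matrix.charpoly_fin_two, h1, h2']
  · have h5 := h3 g n hw₁ hw₂ hε
    apply ex73_pi_mem
    intro i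
    have e : (ρ'' g v - v) i = ∑ j, (ρ' g - 1) i j * v j := by
      rw [hρ'', Pi.sub_apply, Matrix.toLin'_apply, Matrix.mulVec, dotProduct]
      simp only [Matrix.sub_apply, sub_mul, Finset.sum_sub_distrib, Matrix.one_apply, ite_mul,
        one_mul, zero_mul, Finset.sum_ite_eq, Finset.mem_univ, if_true]
    rw [e]
    exact Ideal.sum_mem _ (fun j _ => Ideal.mul_mem_right _ _ (h5 i j))
  · rw [hρ'', h4 g hw₁ hw₂ hε, Matrix.toLin'_one]
    rfl

end main

end Fermat.Agent.S30
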