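import Fermat.Agent.S30.Extract73

/-!
# S30, row CORE (helper73): the scalar step and the binding CORE statement

* `ex73_scalar`: over a complete discrete valuation ring, an endomorphism `f` of a torsion-free
  separated module such that every vector is an approximate eigenvector at every level
  (`f w - a • w ∈ 𝔪ⁿ • ⊤` for some `a` depending on `w` and `n`) is a scalar.  No finiteness.
* `ex73_core`: the statement (CORE) of the S30 registry: from (M1)-(M4) and an odd involution, a
  function `t`, and a representation by `2 × 2` matrices with trace `t` and determinant `ε`,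
  trivial where the action and `ε` are trivial, and adically controlled by two vectors.
-/

set_option autoImplicit false
set_option linter.unusedSectionVars false

namespace Fermat.Agent.S30

open IsLocalRing

section scalar

variable {R : Type*} [CommRing R] [IsDomain R] [IsDiscreteValuationRing R]
variable {M : Type*} [AddCommGroup M] [Module R M]

/-- the approximate eigenvalues of a primitive vector converge -/
theorem ex73_scalar_prim [IsAdicComplete (maximalIdeal R) R]
    (htf : ∀ (a : R) (m : M), a • m = 0 → a = 0 ∨ m = 0) {ϖ : R} (hϖ : Irreducible ϖ)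
    (hsep : ∀ m : M, (∀ n : ℕ, ∃ y : M, m = ϖ ^ n • y) → m = 0)
    (f : Module.End R M) {w : M} (hw : ex73_Prim ϖ w)
    (h : ∀ n : ℕ, ∃ (a : R) (y : M), f w - a • w = ϖ ^ n • y) :
    ∃ a : R, f w = a • w := by
  choose a y hay using h
  have hcauchy : ∀ {m n : ℕ}, m ≤ n → a m ≡ a n [SMOD (maximalIdeal R ^ m • ⊤ : Submodule R R)] := by
    intro m n hmn
    rw [SModEq.sub_mem, ex73_mem_iff hϖ]
    have hd : ϖ ^ m ∣ a n - a m := by
      refine ex73_prim_dvd htf hϖ hw (y := y m - ϖ ^ (n - m) • y n) ?_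
      have e : ϖ ^ n = ϖ ^ m * ϖ ^ (n - m) := by rw [← pow_add, Nat.add_sub_cancel' hmn]
      rw [smul_sub, ← mul_smul, ← e, ← hay m, ← hay n]
      module
    obtain ⟨d, hd⟩ := hd
    exact ⟨-d, by rw [smul_eq_mul]; linear_combination -hd⟩
  obtain ⟨L, hL⟩ := IsPrecomplete.prec' (I := maximalIdeal R) a hcauchy
  refine ⟨L, ?_⟩
  rw [← sub_eq_zero]
  apply hsep
  intro n
  have hLn := hL n
  rw [SModEq.sub_mem, ex73_mem_iff hϖ] at hLn
  obtain ⟨z, hz⟩ := hLn
  refine ⟨y n + z • w, ?_⟩
  rw [smul_eq_mul] at hz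
  have e : (a n - L) • w = (ϖ ^ n * z) • w := by rw [hz]
  rw [smul_add, ← hay n, smul_smul, ← e]
  module

/-- **Scalar step.**  Over a complete discrete valuation ring, an endomorphism of a torsion-free
separated module all of whose vectors are approximate eigenvectors at every level is a scalar. -/
theorem ex73_scalar [IsAdicComplete (maximalIdeal R) R]
    (htf : ∀ (a : R) (m : M), a • m = 0 → a = 0 ∨ m = 0)
    (hsep : ∀ m : M, (∀ n : ℕ, m ∈ (maximalIdeal R ^ n) • (⊤ : Submodule R M)) → m = 0)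
    (f : Module.End R M)
    (h : ∀ (w : M) (n : ℕ), ∃ a : R, f w - a • w ∈ (maximalIdeal R ^ n) • (⊤ : Submodule R M)) :
    ∃ t : R, ∀ w : M, f w = t • w := by
  classical
  obtain ⟨ϖ, hϖ⟩ := IsDiscreteValuationRing.exists_irreducible R
  have hsep' : ∀ m : M, (∀ n : ℕ, ∃ y : M, m = ϖ ^ n • y) → m = 0 := fun m hm =>
    hsep m (fun n => (ex73_mem_iff hϖ n m).mpr (hm n))
  -- every vector is an eigenvector
  have hB : ∀ w : M, ∃ a : R, f w = a • w := by
    intro w
    by_cases hw : w = 0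
    · exact ⟨0, by rw [hw, map_zero, smul_zero]⟩
    · obtain ⟨k, w', hkw, hprim⟩ := ex73_exists_prim hsep' hw
      have hϖk : ϖ ^ k ≠ 0 := pow_ne_zero k hϖ.ne_zero
      have h' : ∀ n : ℕ, ∃ (a : R) (y : M), f w' - a • w' = ϖ ^ n • y := by
        intro n
        obtain ⟨a, ha⟩ := h w (n + k)
        rw [ex73_mem_iff hϖ] at ha
        obtain ⟨y, hy⟩ := ha
        refine ⟨a, y, ex73_cancel htf hϖk ?_⟩
        rw [smul_sub, ← map_smul, smul_comm, ← hkw, hy, pow_add, mul_smul, smul_comm]
      obtain ⟨a, ha⟩ := ex73_scalar_prim htf hϖ hsep' f hprim h'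
      exact ⟨a, by rw [hkw, map_smul, ha, smul_comm]⟩
  by_cases hM : ∃ w₀ : M, w₀ ≠ 0
  · obtain ⟨w₀, hw₀⟩ := hM
    choose a ha using hB
    refine ⟨a w₀, fun w => ?_⟩
    by_cases hw : w = 0
    · rw [hw, map_zero, smul_zero]
    · have h1 : a (w + w₀) • (w + w₀) = a w • w + a w₀ • w₀ := by
        rw [← ha, map_add, ha w, ha w₀]
      have h2 : (a (w + w₀) - a w) • w = (a w₀ - a (w + w₀)) • w₀ := by
        linear_combination (norm := module) h1
      have h3 : (a (w + w₀) - a w) • f w = (a w₀ - a (w + w₀)) • f w₀ := by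
        rw [← map_smul, h2, map_smul]
      rw [ha w, ha w₀] at h3
      have h4 : ((a w₀ - a (w + w₀)) * (a w₀ - a w)) • w₀ = 0 := by
        linear_combination (norm := module) a w • h2 - h3
      rcases htf _ _ h4 with h5 | h5
      · rcases mul_eq_zero.mp h5 with h6 | h6
        · rw [h6, zero_smul] at h2
          rcases htf _ _ h2 with h7 | h7
          · have e : a w = a w₀ := by linear_combination -h6 - h7
            rw [ha w, e]
          · exact absurd h7 hw
        · rw [ha w, sub_eq_zero.mp h6]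
      · exact absurd h5 hw₀
  · refine ⟨0, fun w => ?_⟩
    have hw : w = 0 := by
      by_contra hw
      exact hM ⟨w, hw⟩
    rw [hw, map_zero, smul_zero]

end scalar

section core

variable {R : Type*} [CommRing R] [IsDomain R] [IsDiscreteValuationRing R]
variable {G : Type*} [Group G]
variable {M : Type*} [AddCommGroup M] [Module R M]

/-- **S30, row CORE.**  `R` a complete discrete valuation ring with `2 ≠ 0`; `M` an `R`-module
which is torsion-free (M1), separated (M2) and nonzero (M3), with an `R`-linear action `ρ` of a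
group `G`; `ε : G → Rˣ` a character; (M4): every vector is, at every level, an approximate
eigenvector of `ρ g + ε g • ρ g⁻¹`; `c` an odd involution.  Then there are `t : G → R` and a
representation `ρ'` by `2 × 2` matrices over `R` with (C1) `ρ g + ε g • ρ g⁻¹ = t g`, (C2) trace
`t` and determinant `ε`, (C3) `ρ' g = 1` when `ρ g = 1` and `ε g = 1`, and (C4) adic control. -/
theorem ex73_core [IsAdicComplete (maximalIdeal R) R] (h2 : (2 : R) ≠ 0)
    (hM1 : ∀ (a : R) (w : M), a • w = 0 → a = 0 ∨ w = 0)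
    (hM2 : ∀ w : M, (∀ n : ℕ, w ∈ (maximalIdeal R ^ n) • (⊤ : Submodule R M)) → w = 0)
    (hM3 : ∃ w : M, w ≠ 0)
    (ρ : G →* Module.End R M) (ε : G →* Rˣ)
    (hM4 : ∀ (g : G) (w : M) (n : ℕ), ∃ a : R,
      ρ g w + (ε g : R) • ρ g⁻¹ w - a • w ∈ (maximalIdeal R ^ n) • (⊤ : Submodule R M))
    (c : G) (hc : c * c = 1) (hεc : ε c = -1) :
    ∃ (t : G → R) (ρ' : G →* Matrix (Fin 2) (Fin 2) R),
      (∀ g : G, ρ g + (ε g : R) • ρ g⁻¹ = t g • (1 : Module.End R M)) ∧
      (∀ g : G, (ρ' g).trace = t g ∧ (ρ' g).det = (ε g : R)) ∧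
      (∀ g : G, ρ g = 1 → ε g = 1 → ρ' g = 1) ∧
      (∀ n : ℕ, ∃ (s : Finset M) (k : ℕ), ∀ g : G,
        (∀ h : G, ∀ w ∈ s,
          ρ (h * g * h⁻¹) w - w ∈ (maximalIdeal R ^ k) • (⊤ : Submodule R M)) →
        (ε g : R) - 1 ∈ maximalIdeal R ^ k →
        ∀ i j : Fin 2, ρ' g i j - (1 : Matrix (Fin 2) (Fin 2) R) i j ∈ maximalIdeal R ^ n) := by
  classical
  have hsc : ∀ g : G, ∃ t : R, ∀ w : M, (ρ g + (ε g : R) • ρ g⁻¹) w = t • w := fun g =>
    ex73_scalar hM1 hM2 (ρ g + (ε g : R) • ρ g⁻¹) (fun w n => hM4 g w n)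
  choose t ht using hsc
  have hu : ∀ (g : G) (m : M), ρ g m + (ε g : R) • ρ g⁻¹ m = t g • m := fun g m => ht g m
  obtain ⟨ρ', w₁, w₂, h1, h2', h3, h4⟩ := ex73_main ρ ε t c hu hc hεc hM1 hM2 h2 hM3
  refine ⟨t, ρ', fun g => LinearMap.ext fun m => ?_, fun g => ⟨h1 g, h2' g⟩,
    fun g hg hε => ?_, fun n => ⟨{w₁, w₂}, n, fun g hg hε i j => ?_⟩⟩
  · exact hu g m
  · exact h4 g (by rw [hg]; rfl) (by rw [hg]; rfl) hε
  · have e : ρ (1 * g * 1⁻¹) = ρ g := by rw [one_mul, inv_one, mul_one]
    have hw₁ := hg 1 w₁ (by simp)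
    have hw₂ := hg 1 w₂ (by simp)
    rw [e] at hw₁ hw₂
    have := h3 g n hw₁ hw₂ hε i j
    rwa [Matrix.sub_apply] at this

end core

end Fermat.Agent.S30
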