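import Mathlib

/-!
# S30 (Project 5), package P5-B (helper19): odd pseudo-representations

`K` a field with `2 ≠ 0`, `ρ : G →* End_K(V)`, `V ≠ 0`, `ε : G →* Kˣ`, and for every `g` a scalar
`t g` with `ρ g + ε g • ρ g⁻¹ = t g • 1` (equivalently `ρ g ^ 2 - t g • ρ g + ε g = 0`).  If there is
an "odd" element `c` (`c * c = 1`, `ε c = -1`), then there is a genuine homomorphism
`M : G →* M₂(K)` with `trace (M g) = t g` and `det (M g) = ε g` for all `g`, given by the explicit
formulas

`a g = (t g + t (c g)) / 2`, `d g = (t g - t (c g)) / 2`, `x g h = a (g h) - a g * a h`,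
`M g = !![a g, x g h₀ / x g₀ h₀; x g₀ g, d g]`.

No algebraic closedness and no extension of scalars is needed.
-/

set_option autoImplicit false

namespace Fermat.Agent.S30

section Alg

variable {K : Type*} [Field K] {A : Type*} [Ring A] [Algebra K A]

/-- Compression by `1 + C`. -/
theorem or19_compress_plus {P Q C : A} {s t t' : K} (hCC : C * C = 1)
    (h1 : P + s • Q = t • (1 : A)) (h2 : C * P - s • (Q * C) = t' • (1 : A)) :
    (1 + C) * P * (1 + C) = (t + t') • (1 + C) := by
  have hQ : Q * C * C = Q := by rw [mul_assoc, hCC, mul_one]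
  calc (1 + C) * P * (1 + C) = (P + s • Q + (C * P - s • (Q * C))) * (1 + C) := by
        simp only [mul_add, add_mul, sub_mul, mul_one, one_mul, smul_mul_assoc, hQ]
        abel
    _ = (t + t') • (1 + C) := by
        rw [h1, h2, ← add_smul, smul_mul_assoc, one_mul]

/-- Compression by `1 - C`. -/
theorem or19_compress_minus {P Q C : A} {s t t' : K} (hCC : C * C = 1)
    (h1 : P + s • Q = t • (1 : A)) (h2 : C * P - s • (Q * C) = t' • (1 : A)) :
    (1 - C) * P * (1 - C) = (t - t') • (1 - C) := by
  have hQ : Q * C * C = Q := by rw [mul_assoc, hCC, mul_one]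
  calc (1 - C) * P * (1 - C) = (P + s • Q - (C * P - s • (Q * C))) * (1 - C) := by
        simp only [mul_sub, sub_mul, add_mul, mul_one, one_mul, smul_mul_assoc, hQ]
        abel
    _ = (t - t') • (1 - C) := by
        rw [h1, h2, ← sub_smul, smul_mul_assoc, one_mul]

end Alg


section Idem

variable {K : Type*} [Field K] {A : Type*} [Ring A] [Algebra K A] {G : Type*} [Group G]

/-- **Generalised matrix algebra identities.**  Two complementary nonzero idempotents `e`, `f`
whose corners are scalar (`e R(g) e = a g • e`, `f R(g) f = d g • f`) force the identities of a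
`2 × 2` matrix algebra on the functions `a`, `d`, `x g h = a (g h) - a g * a h`. -/
theorem or19_ids_of_idem (e f : A) (hef : e + f = 1) (hee : e * e = e) (hff : f * f = f)
    (hef0 : e * f = 0) (hfe0 : f * e = 0) (he : e ≠ 0) (hf : f ≠ 0)
    (R : G → A) (hR : ∀ g h, R (g * h) = R g * R h)
    (a d t ε : G → K) (hE : ∀ g, e * R g * e = a g • e) (hF : ∀ g, f * R g * f = d g • f)
    (hquad : ∀ g, R g * R g = t g • R g - ε g • (1 : A)) (had : ∀ g, a g + d g = t g) :
    (∀ g h k, a (g * h * k) - a (g * h) * a k =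
      a g * (a (h * k) - a h * a k) + (a (g * k) - a g * a k) * d h) ∧
    (∀ g h k, a (k * (g * h)) - a k * a (g * h) =
      (a (k * g) - a k * a g) * a h + d g * (a (k * h) - a k * a h)) ∧
    (∀ g h, d (g * h) = d g * d h + (a (h * g) - a h * a g)) ∧
    (∀ g h g₀ h₀, (a (g * h) - a g * a h) * (a (g₀ * h₀) - a g₀ * a h₀) =
      (a (g * h₀) - a g * a h₀) * (a (g₀ * h) - a g₀ * a h)) ∧
    (∀ g, a g * d g - (a (g * g) - a g * a g) = ε g) := by
  have hee' : ∀ X : A, e * (e * X) = e * X := fun X => by rw [← mul_assoc, hee]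
  have hff' : ∀ X : A, f * (f * X) = f * X := fun X => by rw [← mul_assoc, hff]
  have hef' : ∀ X : A, e * (f * X) = 0 := fun X => by rw [← mul_assoc, hef0, zero_mul]
  have hfe' : ∀ X : A, f * (e * X) = 0 := fun X => by rw [← mul_assoc, hfe0, zero_mul]
  have split : ∀ X Y : A, X * Y = X * e * Y + X * f * Y := fun X Y => by
    rw [← add_mul, ← mul_add, hef, mul_one]
  have inje : Function.Injective fun s : K => s • e := smul_left_injective K he
  have injf : Function.Injective fun s : K => s • f := smul_left_injective K hf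
  -- the four block identities
  have E1 : ∀ g h, e * R (g * h) * e = (e * R g * e) * (e * R h * e) + (e * R g * f) * (f * R h * e) := by
    intro g h
    rw [hR, mul_assoc e, split (R g) (R h)]
    simp only [mul_add, add_mul, mul_assoc, hee', hff']
  have E2 : ∀ g h, e * R (g * h) * f = (e * R g * e) * (e * R h * f) + (e * R g * f) * (f * R h * f) := by
    intro g h
    rw [hR, mul_assoc e, split (R g) (R h)]
    simp only [mul_add, add_mul, mul_assoc, hee', hff']
  have E3 : ∀ g h, f * R (g * h) * e = (f * R g * e) * (e * R h * e) + (f * R g * f) * (f * R h * e) := by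
    intro g h
    rw [hR, mul_assoc f, split (R g) (R h)]
    simp only [mul_add, add_mul, mul_assoc, hee', hff']
  have E4 : ∀ g h, f * R (g * h) * f = (f * R g * e) * (e * R h * f) + (f * R g * f) * (f * R h * f) := by
    intro g h
    rw [hR, mul_assoc f, split (R g) (R h)]
    simp only [mul_add, add_mul, mul_assoc, hee', hff']
  -- products of off-diagonal blocks
  have hBC : ∀ g h, (e * R g * f) * (f * R h * e) = (a (g * h) - a g * a h) • e := by
    intro g h
    have h1 := E1 g h
    rw [hE, hE, hE, smul_mul_smul_comm, hee] at h1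
    rw [sub_smul, h1, add_sub_cancel_left]
  have hCB : ∀ g h, (f * R g * e) * (e * R h * f) = (d (g * h) - d g * d h) • f := by
    intro g h
    have h1 := E4 g h
    rw [hF, hF, hF, smul_mul_smul_comm, hff] at h1
    rw [sub_smul, h1, add_comm, add_sub_cancel_left]
  -- B (g h) and C (g h)
  have hB : ∀ g h, e * R (g * h) * f = a g • (e * R h * f) + d h • (e * R g * f) := by
    intro g h
    rw [E2, hE, hF, smul_mul_assoc, mul_smul_comm]
    congr 2
    · simp only [mul_assoc, hee']
    · simp only [mul_assoc, hff]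
  have hC : ∀ g h, f * R (g * h) * e = a h • (f * R g * e) + d g • (f * R h * e) := by
    intro g h
    rw [E3, hE, hF, smul_mul_assoc, mul_smul_comm]
    congr 2
    · simp only [mul_assoc, hee]
    · simp only [mul_assoc, hff']
  -- symmetry
  have hsym : ∀ g h, d (h * g) - d h * d g = a (g * h) - a g * a h := by
    intro g h
    set β := a (g * h) - a g * a h with hβ
    set β' := d (h * g) - d h * d g with hβ'
    have hBf : e * R g * f * f = e * R g * f := by rw [mul_assoc, hff]
    have hCe : f * R h * e * e = f * R h * e := by rw [mul_assoc, hee]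
    have h1 : (β * β) • e = (β' * β) • e := by
      calc (β * β) • e = (β • e) * (β • e) := by rw [smul_mul_smul_comm, hee]
        _ = (e * R g * f) * (f * R h * e) * ((e * R g * f) * (f * R h * e)) := by rw [hBC]
        _ = (e * R g * f) * ((f * R h * e) * (e * R g * f)) * (f * R h * e) := by
            simp only [mul_assoc]
        _ = (e * R g * f) * (β' • f) * (f * R h * e) := by rw [hCB]
        _ = β' • ((e * R g * f * f) * (f * R h * e)) := by
            rw [mul_smul_comm, smul_mul_assoc]
        _ = (β' * β) • e := by rw [hBf, hBC, smul_smul]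
    have h2 : (β' * β') • f = (β * β') • f := by
      calc (β' * β') • f = (β' • f) * (β' • f) := by rw [smul_mul_smul_comm, hff]
        _ = (f * R h * e) * (e * R g * f) * ((f * R h * e) * (e * R g * f)) := by rw [hCB]
        _ = (f * R h * e) * ((e * R g * f) * (f * R h * e)) * (e * R g * f) := by
            simp only [mul_assoc]
        _ = (f * R h * e) * (β • e) * (e * R g * f) := by rw [hBC]
        _ = β • ((f * R h * e * e) * (e * R g * f)) := by
            rw [mul_smul_comm, smul_mul_assoc]
        _ = (β * β') • f := by rw [hCe, hCB, smul_smul]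
    have h1' : β * β = β' * β := inje h1
    have h2' : β' * β' = β * β' := injf h2
    have h3 : (β' - β) * (β' - β) = 0 := by
      have : (β' - β) * (β' - β) = β' * β' - β * β' - (β' * β - β * β) := by ring
      rw [this, h2', h1']
      ring
    have h4 : β' - β = 0 := by
      rcases mul_eq_zero.mp h3 with h | h <;> exact h
    exact sub_eq_zero.mp h4
  refine ⟨?_, ?_, ?_, ?_, ?_⟩
  · -- x (g h) k
    intro g h k
    apply inje
    show (a (g * h * k) - a (g * h) * a k) • e =
      (a g * (a (h * k) - a h * a k) + (a (g * k) - a g * a k) * d h) • e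
    rw [← hBC (g * h) k, hB, add_mul, smul_mul_assoc, smul_mul_assoc, hBC, hBC, smul_smul,
      smul_smul, ← add_smul, mul_comm (d h)]
  · -- x k (g h)
    intro g h k
    apply inje
    show (a (k * (g * h)) - a k * a (g * h)) • e =
      ((a (k * g) - a k * a g) * a h + d g * (a (k * h) - a k * a h)) • e
    rw [← hBC k (g * h), hC, mul_add, mul_smul_comm, mul_smul_comm, hBC, hBC, smul_smul,
      smul_smul, ← add_smul, mul_comm (a h)]
  · intro g h
    have := hsym h g
    rw [← this]
    ring
  · -- rank one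
    intro g h g₀ h₀
    apply inje
    show ((a (g * h) - a g * a h) * (a (g₀ * h₀) - a g₀ * a h₀)) • e =
      ((a (g * h₀) - a g * a h₀) * (a (g₀ * h) - a g₀ * a h)) • e
    have hBf : e * R g * f * f = e * R g * f := by rw [mul_assoc, hff]
    calc ((a (g * h) - a g * a h) * (a (g₀ * h₀) - a g₀ * a h₀)) • e
        = ((a (g * h) - a g * a h) • e) * ((a (g₀ * h₀) - a g₀ * a h₀) • e) := by
          rw [smul_mul_smul_comm, hee]
      _ = (e * R g * f) * (f * R h * e) * ((e * R g₀ * f) * (f * R h₀ * e)) := by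
          rw [hBC, hBC]
      _ = (e * R g * f) * ((f * R h * e) * (e * R g₀ * f)) * (f * R h₀ * e) := by
          simp only [mul_assoc]
      _ = (e * R g * f) * ((d (h * g₀) - d h * d g₀) • f) * (f * R h₀ * e) := by rw [hCB]
      _ = (d (h * g₀) - d h * d g₀) • ((e * R g * f * f) * (f * R h₀ * e)) := by
          rw [mul_smul_comm, smul_mul_assoc]
      _ = ((a (g * h₀) - a g * a h₀) * (a (g₀ * h) - a g₀ * a h)) • e := by
          rw [hBf, hBC, smul_smul, hsym g₀ h, mul_comm]
  · -- determinant
    intro g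
    have h1 : e * R (g * g) * e = (t g * a g - ε g) • e := by
      rw [hR, hquad, mul_sub, sub_mul, mul_smul_comm, smul_mul_assoc, mul_smul_comm,
        smul_mul_assoc, mul_one, hee, hE, smul_smul, ← sub_smul]
    rw [hE] at h1
    have h2 : a (g * g) = t g * a g - ε g := inje h1
    rw [h2, ← had g]
    ring

/-- The same identities when `a` and `d` are multiplicative with `a * d = ε` (split case). -/
theorem or19_ids_of_mul (a d ε : G → K) (ha : ∀ g h, a (g * h) = a g * a h)
    (hd : ∀ g h, d (g * h) = d g * d h) (hdet : ∀ g, a g * d g = ε g) :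
    (∀ g h k, a (g * h * k) - a (g * h) * a k =
      a g * (a (h * k) - a h * a k) + (a (g * k) - a g * a k) * d h) ∧
    (∀ g h k, a (k * (g * h)) - a k * a (g * h) =
      (a (k * g) - a k * a g) * a h + d g * (a (k * h) - a k * a h)) ∧
    (∀ g h, d (g * h) = d g * d h + (a (h * g) - a h * a g)) ∧
    (∀ g h g₀ h₀, (a (g * h) - a g * a h) * (a (g₀ * h₀) - a g₀ * a h₀) =
      (a (g * h₀) - a g * a h₀) * (a (g₀ * h) - a g₀ * a h)) ∧
    (∀ g, a g * d g - (a (g * g) - a g * a g) = ε g) := by
  refine ⟨fun g h k => ?_, fun g h k => ?_, fun g h => ?_, fun g h g₀ h₀ => ?_, fun g => ?_⟩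
  · simp only [ha]; ring
  · simp only [ha]; ring
  · rw [hd, ha]; ring
  · simp only [ha]; ring
  · rw [ha, hdet]; ring

/-- Scalar case: if `R g = ψ g • 1` then `ψ` and `φ = t - ψ` are multiplicative, `ψ φ = ε`. -/
theorem or19_scalar_case [Nontrivial A] (R : G → A) (hR : ∀ g h, R (g * h) = R g * R h)
    (ψ φ t : G → K) (ε : G →* Kˣ) (hψ : ∀ g, R g = ψ g • (1 : A))
    (hquad : ∀ g, R g * R g = t g • R g - (ε g : K) • (1 : A)) (hsum : ∀ g, ψ g + φ g = t g) :
    (∀ g h, ψ (g * h) = ψ g * ψ h) ∧ (∀ g h, φ (g * h) = φ g * φ h) ∧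
      (∀ g, ψ g * φ g = (ε g : K)) := by
  have inj1 : Function.Injective fun s : K => s • (1 : A) := smul_left_injective K one_ne_zero
  have hmul : ∀ g h, ψ (g * h) = ψ g * ψ h := by
    intro g h
    apply inj1
    show ψ (g * h) • (1 : A) = (ψ g * ψ h) • (1 : A)
    rw [← hψ, hR, hψ g, hψ h, smul_mul_smul_comm, mul_one]
  have hdet : ∀ g, ψ g * φ g = (ε g : K) := by
    intro g
    have h1 : (ψ g * ψ g) • (1 : A) = (t g * ψ g - (ε g : K)) • (1 : A) := by
      have := hquad g
      rw [hψ g, smul_mul_smul_comm, mul_one, smul_smul, ← sub_smul] at this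
      exact this
    have h2 : ψ g * ψ g = t g * ψ g - (ε g : K) := inj1 h1
    rw [← hsum g] at h2
    linear_combination -h2
  refine ⟨hmul, ?_, hdet⟩
  intro g h
  have hne : ∀ g, ψ g ≠ 0 := by
    intro g hg
    have := hdet g
    rw [hg, zero_mul] at this
    exact (ε g).ne_zero this.symm
  have h1 : ψ (g * h) * φ (g * h) = ψ (g * h) * (φ g * φ h) := by
    rw [hdet, map_mul, Units.val_mul, ← hdet g, ← hdet h, hmul]
    ring
  exact mul_left_cancel₀ (hne (g * h)) h1

end Idem

theorem or19_mat_eq {α : Type*} {A B C D A' B' C' D' : α} (h1 : A = A') (h2 : B = B')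
    (h3 : C = C') (h4 : D = D') : !![A, B; C, D] = !![A', B'; C', D'] := by
  subst h1 h2 h3 h4
  rfl

section Formal

variable {K : Type*} [Field K] {G : Type*} [Group G]

/-- The matrix attached to `(a, d)` and a base point `(g₀, h₀)`. -/
noncomputable def or19_Mat (a d : G → K) (g₀ h₀ g : G) : Matrix (Fin 2) (Fin 2) K :=
  !![a g, (a (g * h₀) - a g * a h₀) / (a (g₀ * h₀) - a g₀ * a h₀);
     a (g₀ * g) - a g₀ * a g, d g]

/-- From the identities to a homomorphism into `M₂(K)` with determinant `ε`. -/
theorem or19_mat_hom (a d ε : G → K) (ha1 : a 1 = 1) (hd1 : d 1 = 1)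
    (I1 : ∀ g h k, a (g * h * k) - a (g * h) * a k =
      a g * (a (h * k) - a h * a k) + (a (g * k) - a g * a k) * d h)
    (I2 : ∀ g h k, a (k * (g * h)) - a k * a (g * h) =
      (a (k * g) - a k * a g) * a h + d g * (a (k * h) - a k * a h))
    (I3 : ∀ g h, d (g * h) = d g * d h + (a (h * g) - a h * a g))
    (I4 : ∀ g h g₀ h₀, (a (g * h) - a g * a h) * (a (g₀ * h₀) - a g₀ * a h₀) =
      (a (g * h₀) - a g * a h₀) * (a (g₀ * h) - a g₀ * a h))
    (I5 : ∀ g, a g * d g - (a (g * g) - a g * a g) = ε g)
    (g₀ h₀ : G)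
    (hgh : a (g₀ * h₀) - a g₀ * a h₀ ≠ 0 ∨ ∀ g h, a (g * h) - a g * a h = 0) :
    or19_Mat a d g₀ h₀ 1 = 1 ∧
    (∀ g h, or19_Mat a d g₀ h₀ (g * h) = or19_Mat a d g₀ h₀ g * or19_Mat a d g₀ h₀ h) ∧
    (∀ g, (or19_Mat a d g₀ h₀ g).det = ε g) := by
  refine ⟨?_, ?_, ?_⟩
  · unfold or19_Mat
    rw [Matrix.one_fin_two]
    refine or19_mat_eq ha1 ?_ ?_ hd1
    · rw [one_mul, ha1, one_mul, sub_self, zero_div]
    · rw [mul_one, ha1, mul_one, sub_self]
  · intro g h
    unfold or19_Mat
    rw [Matrix.mul_fin_two]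
    rcases hgh with hδ | hzero
    · refine or19_mat_eq ?_ ?_ ?_ ?_
      · have hr := I4 g h g₀ h₀
        rw [div_mul_eq_mul_div, ← hr, mul_div_assoc, div_self hδ, mul_one]
        ring
      · rw [I1 g h h₀]
        ring
      · exact I2 g h g₀
      · have hr := I4 h g g₀ h₀
        rw [I3 g h]
        have : (a (g₀ * g) - a g₀ * a g) * ((a (h * h₀) - a h * a h₀) / (a (g₀ * h₀) - a g₀ * a h₀))
            = a (h * g) - a h * a g := by
          rw [mul_div_assoc', mul_comm, ← hr, mul_div_assoc, div_self hδ, mul_one]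
        rw [this]
        ring
    · refine or19_mat_eq ?_ ?_ ?_ ?_
      · rw [hzero g h₀, hzero g₀ h, zero_div, zero_mul, add_zero]
        exact sub_eq_zero.mp (hzero g h)
      · rw [hzero (g * h) h₀, hzero h h₀, hzero g h₀]
        simp
      · rw [hzero g₀ (g * h), hzero g₀ g, hzero g₀ h]
        simp
      · rw [I3 g h, hzero h g, hzero g₀ g, hzero h h₀]
        simp
  · intro g
    unfold or19_Mat
    rw [Matrix.det_fin_two_of, ← I5 g]
    rcases hgh with hδ | hzero
    · have hr := I4 g g g₀ h₀
      have : (a (g * h₀) - a g * a h₀) / (a (g₀ * h₀) - a g₀ * a h₀) * (a (g₀ * g) - a g₀ * a g)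
          = a (g * g) - a g * a g := by
        rw [div_mul_eq_mul_div, ← hr, mul_div_assoc, div_self hδ, mul_one]
      rw [this]
    · rw [hzero g h₀, hzero g₀ g, hzero g g]
      simp

end Formal

section Main

variable {K : Type*} [Field K] {G : Type*} [Group G]

/-- `a g = (t g + t (c g)) / 2`. -/
noncomputable def or19_a (t : G → K) (c g : G) : K := (t g + t (c * g)) / 2

/-- `d g = (t g - t (c g)) / 2`. -/
noncomputable def or19_d (t : G → K) (c g : G) : K := (t g - t (c * g)) / 2

theorem or19_a_add_d (h2 : (2 : K) ≠ 0) (t : G → K) (c g : G) :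
    or19_a t c g + or19_d t c g = t g := by
  unfold or19_a or19_d
  field_simp
  ring

variable {V : Type*} [AddCommGroup V] [Module K V]

/-- **Odd pseudo-representations are representations (field level).** -/
theorem or19_exists_hom [Nontrivial V] (h2 : (2 : K) ≠ 0) (ρ : G →* Module.End K V)
    (ε : G →* Kˣ) (t : G → K)
    (hq : ∀ g, ρ g + (ε g : K) • ρ g⁻¹ = t g • (1 : Module.End K V))
    (c : G) (hc : c * c = 1) (hεc : ε c = -1) :
    ∃ g₀ h₀ : G,
      or19_Mat (or19_a t c) (or19_d t c) g₀ h₀ 1 = 1 ∧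
      (∀ g h, or19_Mat (or19_a t c) (or19_d t c) g₀ h₀ (g * h) =
        or19_Mat (or19_a t c) (or19_d t c) g₀ h₀ g * or19_Mat (or19_a t c) (or19_d t c) g₀ h₀ h) ∧
      (∀ g, (or19_Mat (or19_a t c) (or19_d t c) g₀ h₀ g).trace = t g) ∧
      (∀ g, (or19_Mat (or19_a t c) (or19_d t c) g₀ h₀ g).det = (ε g : K)) := by
  classical
  set a := or19_a t c with ha
  set d := or19_d t c with hd
  have inj1 : Function.Injective fun s : K => s • (1 : Module.End K V) :=
    smul_left_injective K one_ne_zero
  have hcinv : c⁻¹ = c := inv_eq_of_mul_eq_one_left hc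
  have hCC : ρ c * ρ c = 1 := by rw [← map_mul, hc, map_one]
  have had : ∀ g, a g + d g = t g := fun g => or19_a_add_d h2 t c g
  -- the quadratic relation
  have hquad : ∀ g, ρ g * ρ g = t g • ρ g - (ε g : K) • (1 : Module.End K V) := by
    intro g
    have h := congrArg (fun X => X * ρ g) (hq g)
    simp only [add_mul, smul_mul_assoc, one_mul] at h
    rw [← map_mul ρ g⁻¹ g, inv_mul_cancel, map_one] at h
    rw [← h, add_sub_cancel_right]
  -- the relation for `c * g`
  have hq' : ∀ g, ρ c * ρ g - (ε g : K) • (ρ g⁻¹ * ρ c) = t (c * g) • (1 : Module.End K V) := by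
    intro g
    have h := hq (c * g)
    rw [map_mul, mul_inv_rev, hcinv, map_mul, map_mul, hεc] at h
    rw [← h]
    simp [sub_eq_add_neg]
  -- values of `t`
  have ht1 : t 1 = 2 := by
    apply inj1
    show t 1 • (1 : Module.End K V) = (2 : K) • (1 : Module.End K V)
    rw [← hq 1]
    simp [two_smul]
  have htc : t c = 0 := by
    apply inj1
    show t c • (1 : Module.End K V) = (0 : K) • (1 : Module.End K V)
    rw [← hq c, hcinv, hεc]
    simp
  have ha1 : a 1 = 1 := by
    rw [ha]
    unfold or19_a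
    rw [mul_one, ht1, htc, add_zero, div_self h2]
  have hd1 : d 1 = 1 := by
    rw [hd]
    unfold or19_d
    rw [mul_one, ht1, htc, sub_zero, div_self h2]
  -- idempotents
  set e : Module.End K V := (2⁻¹ : K) • (1 + ρ c) with he_def
  set f : Module.End K V := (2⁻¹ : K) • (1 - ρ c) with hf_def
  have hef : e + f = 1 := by
    rw [he_def, hf_def, ← smul_add]
    have : (1 + ρ c) + (1 - ρ c) = (2 : K) • (1 : Module.End K V) := by
      rw [two_smul]; abel
    rw [this, smul_smul, inv_mul_cancel₀ h2, one_smul]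
  have h4 : (2⁻¹ : K) * 2⁻¹ * 2 = 2⁻¹ := by field_simp
  have hee : e * e = e := by
    rw [he_def, smul_mul_smul_comm]
    have : (1 + ρ c) * (1 + ρ c) = (2 : K) • (1 + ρ c) := by
      rw [two_smul, mul_add, add_mul, add_mul, hCC]
      simp only [mul_one, one_mul]
      abel
    rw [this, smul_smul, h4]
  have hff : f * f = f := by
    rw [hf_def, smul_mul_smul_comm]
    have : (1 - ρ c) * (1 - ρ c) = (2 : K) • (1 - ρ c) := by
      rw [two_smul, mul_sub, sub_mul, sub_mul, hCC]
      simp only [mul_one, one_mul]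
      abel
    rw [this, smul_smul, h4]
  have hef0 : e * f = 0 := by
    rw [he_def, hf_def, smul_mul_smul_comm]
    have : (1 + ρ c) * (1 - ρ c) = 0 := by
      rw [mul_sub, add_mul, add_mul, hCC]
      simp only [mul_one, one_mul]
      abel
    rw [this, smul_zero]
  have hfe0 : f * e = 0 := by
    rw [he_def, hf_def, smul_mul_smul_comm]
    have : (1 - ρ c) * (1 + ρ c) = 0 := by
      rw [mul_add, sub_mul, sub_mul, hCC]
      simp only [mul_one, one_mul]
      abel
    rw [this, smul_zero]
  have hE : ∀ g, e * ρ g * e = a g • e := by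
    intro g
    have h := or19_compress_plus hCC (hq g) (hq' g)
    rw [he_def, smul_mul_assoc, smul_mul_assoc, mul_smul_comm, h, smul_smul, smul_smul, smul_smul,
      ha]
    unfold or19_a
    congr 1
    field_simp
  have hF : ∀ g, f * ρ g * f = d g • f := by
    intro g
    have h := or19_compress_minus hCC (hq g) (hq' g)
    rw [hf_def, smul_mul_assoc, smul_mul_assoc, mul_smul_comm, h, smul_smul, smul_smul, smul_smul,
      hd]
    unfold or19_d
    congr 1
    field_simp
  -- the identities, in all cases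
  have hids : (∀ g h k, a (g * h * k) - a (g * h) * a k =
      a g * (a (h * k) - a h * a k) + (a (g * k) - a g * a k) * d h) ∧
    (∀ g h k, a (k * (g * h)) - a k * a (g * h) =
      (a (k * g) - a k * a g) * a h + d g * (a (k * h) - a k * a h)) ∧
    (∀ g h, d (g * h) = d g * d h + (a (h * g) - a h * a g)) ∧
    (∀ g h g₀ h₀, (a (g * h) - a g * a h) * (a (g₀ * h₀) - a g₀ * a h₀) =
      (a (g * h₀) - a g * a h₀) * (a (g₀ * h) - a g₀ * a h)) ∧
    (∀ g, a g * d g - (a (g * g) - a g * a g) = (ε g : K)) := by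
    by_cases he : e = 0
    · -- `ρ g = d g • 1`
      have hf1 : f = 1 := by rw [← hef, he, zero_add]
      have hψ : ∀ g, ρ g = d g • (1 : Module.End K V) := by
        intro g
        have := hF g
        rwa [hf1, one_mul, mul_one] at this
      obtain ⟨hdm, ham, hdet⟩ := or19_scalar_case (fun g => ρ g) (fun g h => map_mul ρ g h)
        d a t ε hψ hquad (fun g => by rw [add_comm]; exact had g)
      exact or19_ids_of_mul a d (fun g => (ε g : K)) ham hdm
        (fun g => by rw [mul_comm]; exact hdet g)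
    · by_cases hf : f = 0
      · have he1 : e = 1 := by rw [← hef, hf, add_zero]
        have hψ : ∀ g, ρ g = a g • (1 : Module.End K V) := by
          intro g
          have := hE g
          rwa [he1, one_mul, mul_one] at this
        obtain ⟨ham, hdm, hdet⟩ := or19_scalar_case (fun g => ρ g) (fun g h => map_mul ρ g h)
          a d t ε hψ hquad had
        exact or19_ids_of_mul a d (fun g => (ε g : K)) ham hdm hdet
      · exact or19_ids_of_idem e f hef hee hff hef0 hfe0 he hf (fun g => ρ g)
          (fun g h => map_mul ρ g h) a d t (fun g => (ε g : K)) hE hF hquad had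
  obtain ⟨I1, I2, I3, I4, I5⟩ := hids
  -- choice of the base point
  obtain ⟨g₀, h₀, hgh⟩ : ∃ g₀ h₀ : G, a (g₀ * h₀) - a g₀ * a h₀ ≠ 0 ∨
      ∀ g h, a (g * h) - a g * a h = 0 := by
    by_cases hx : ∃ g₀ h₀ : G, a (g₀ * h₀) - a g₀ * a h₀ ≠ 0
    · obtain ⟨g₀, h₀, h⟩ := hx
      exact ⟨g₀, h₀, Or.inl h⟩
    · exact ⟨1, 1, Or.inr fun g h => by_contra fun hne => hx ⟨g, h, hne⟩⟩
  obtain ⟨M1, M2, M3⟩ := or19_mat_hom a d (fun g => (ε g : K)) ha1 hd1 I1 I2 I3 I4 I5 g₀ h₀ hgh
  refine ⟨g₀, h₀, M1, M2, fun g => ?_, M3⟩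
  unfold or19_Mat
  rw [Matrix.trace_fin_two_of]
  exact had g

end Main

end Fermat.Agent.S30
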