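import Fermat.Agent.S42.FrobInertia69
import Fermat.Agent.S42.HeckeGalois25
import Fermat.Agent.S42.OpenStabTors69

/-!
# S30 (rider on Project 4), row B2c (helper21): the coefficient module `O ⊗[ℤ] J₀(N)`

For a domain `O` of characteristic `0` (flat over `ℤ`) put `B := O ⊗[ℤ] JZero N`.

* `tt21_gal O N : GQ →* Module.End O B`, `tt21_hecke O N ℓ : Module.End O B` : the Galois action
  and the Hecke operators, extended `O`-linearly; they commute (`tt21_gal_hecke_comm`).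
* `tt21_tors_decomp` : the flatness fact `(O ⊗ J)[m] = O ⊗ J[m]`: an element of `B` killed by `m`
  is an `O`-linear combination of pure tensors `1 ⊗ x` with `m • x = 0`.
* `tt21_frob`, `tt21_inertia`, `tt21_open` : the M10 package (Eichler–Shimura relation for
  Frobenius elements, trivial inertia, open stabilisers) on the `p`-power torsion of `B`.
* `tt21_theta_inj` : an injective additive map `θ : L → JZero N` stays injective after `O ⊗ -`.
* `tt21_seq_*` : the same statements for the components of a `p`-compatible sequence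
  (`x 0 = 0`, `p • x (n+1) = x n`), i.e. for the elements of the Tate module of `B`.

All names are prefixed `tt21_`.
-/

set_option autoImplicit false
set_option linter.style.haveILetI false
set_option linter.unusedSectionVars false

open ModularCurve AlgebraicCurve TensorProduct

namespace Fermat.Agent.S30

open Fermat.Agent.S42

local notation "Qb" => AlgebraicClosure ℚ
local notation "GQ" => AlgebraicClosure ℚ ≃ₐ[ℚ] AlgebraicClosure ℚ

section tt21_defs

variable (O : Type) [CommRing O] (N : ℕ)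

/-- The coefficient module `O ⊗[ℤ] J₀(N)(ℚ̄)`. -/
abbrev tt21_B : Type := O ⊗[ℤ] JZero N

/-- The Galois action on `JZero N` as a monoid hom into `ℤ`-linear endomorphisms. -/
noncomputable def tt21_galZ : GQ →* Module.End ℤ (JZero N) :=
  (addMonoidEndRingEquivInt (JZero N)).toRingHom.toMonoidHom.comp
    (DistribMulAction.toAddMonoidEnd GQ (JZero N))

@[simp]
theorem tt21_galZ_apply (σ : GQ) (x : JZero N) : tt21_galZ N σ x = σ • x := rfl

/-- The Galois action on `O ⊗[ℤ] JZero N`, `O`-linearly. -/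
noncomputable def tt21_gal : GQ →* Module.End O (tt21_B O N) where
  toFun σ := (tt21_galZ N σ).baseChange O
  map_one' := by rw [map_one, LinearMap.baseChange_one]
  map_mul' σ τ := by rw [map_mul, LinearMap.baseChange_mul]

@[simp]
theorem tt21_gal_tmul (σ : GQ) (a : O) (x : JZero N) :
    tt21_gal O N σ (a ⊗ₜ[ℤ] x) = a ⊗ₜ[ℤ] (σ • x) := rfl

/-- The Hecke operator `T_ℓ` on `O ⊗[ℤ] JZero N`, `O`-linearly. -/
noncomputable def tt21_hecke [NeZero N] (ℓ : Nat.Primes) : Module.End O (tt21_B O N) :=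
  (heckeOperatorBar N ℓ).baseChange O

@[simp]
theorem tt21_hecke_tmul [NeZero N] (ℓ : Nat.Primes) (a : O) (x : JZero N) :
    tt21_hecke O N ℓ (a ⊗ₜ[ℤ] x) = a ⊗ₜ[ℤ] (heckeOperatorBar N ℓ x) := rfl

/-- Galois commutes with the Hecke operators on `O ⊗[ℤ] JZero N`. -/
theorem tt21_gal_hecke_comm [NeZero N] (σ : GQ) (ℓ : Nat.Primes) :
    tt21_gal O N σ * tt21_hecke O N ℓ = tt21_hecke O N ℓ * tt21_gal O N σ := by
  have h : tt21_galZ N σ * (heckeOperatorBar N ℓ : Module.End ℤ (JZero N)) =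
      (heckeOperatorBar N ℓ : Module.End ℤ (JZero N)) * tt21_galZ N σ := by
    refine LinearMap.ext fun x => ?_
    show σ • heckeOperatorBar N ℓ x = heckeOperatorBar N ℓ (σ • x)
    exact hg25_hecke_galois N ℓ σ x
  show (tt21_galZ N σ).baseChange O * (heckeOperatorBar N ℓ : Module.End ℤ (JZero N)).baseChange O =
    (heckeOperatorBar N ℓ : Module.End ℤ (JZero N)).baseChange O * (tt21_galZ N σ).baseChange O
  rw [← LinearMap.baseChange_mul, ← LinearMap.baseChange_mul, h]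

theorem tt21_gal_hecke_comm_apply [NeZero N] (σ : GQ) (ℓ : Nat.Primes) (b : tt21_B O N) :
    tt21_gal O N σ (tt21_hecke O N ℓ b) = tt21_hecke O N ℓ (tt21_gal O N σ b) :=
  LinearMap.congr_fun (tt21_gal_hecke_comm O N σ ℓ) b

/-- `(n : O) • (1 ⊗ x) = 1 ⊗ (n • x)`. -/
theorem tt21_natCast_smul_tmul (n : ℕ) (x : JZero N) :
    (n : O) • ((1 : O) ⊗ₜ[ℤ] x) = (1 : O) ⊗ₜ[ℤ] (n • x) := by
  have h1 : (n : O) • ((1 : O) ⊗ₜ[ℤ] x) = ((n : ℤ) • (1 : O)) ⊗ₜ[ℤ] x := by
    rw [TensorProduct.smul_tmul', smul_eq_mul, mul_one, zsmul_eq_mul, mul_one, Int.cast_natCast]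
  rw [h1, TensorProduct.smul_tmul, natCast_zsmul]

end tt21_defs

section tt21_flat

variable (O : Type) [CommRing O] [IsDomain O] [CharZero O] (N : ℕ)

/-- **Flatness**: an element of `O ⊗[ℤ] JZero N` killed by `m` is an `O`-linear combination of
pure tensors `1 ⊗ x` with `m • x = 0`. -/
theorem tt21_tors_decomp (m : ℕ) (b : tt21_B O N) (hb : (m : O) • b = 0) :
    b ∈ Submodule.span O {y : tt21_B O N | ∃ x : JZero N, m • x = 0 ∧ y = (1 : O) ⊗ₜ[ℤ] x} := by
  classical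
  -- multiplication by `m` on `JZero N`
  let f : JZero N →ₗ[ℤ] JZero N := (m : ℤ) • LinearMap.id
  have hex : Function.Exact (LinearMap.lTensor O f.ker.subtype) (LinearMap.lTensor O f) :=
    Module.Flat.lTensor_exact O (LinearMap.exact_subtype_ker_map f)
  have hfb : LinearMap.lTensor O f b = 0 := by
    have h1 : LinearMap.lTensor O f = (m : ℤ) • LinearMap.id := by
      rw [LinearMap.lTensor_smul, LinearMap.lTensor_id]
    rw [h1, LinearMap.smul_apply, LinearMap.id_apply, natCast_zsmul,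
      ← Nat.cast_smul_eq_nsmul O m b]
    exact hb
  obtain ⟨c, rfl⟩ := (hex b).mp hfb
  clear hb hfb
  induction c using TensorProduct.induction_on with
  | zero => rw [map_zero]; exact Submodule.zero_mem _
  | tmul a k =>
    rw [LinearMap.lTensor_tmul]
    have hk : m • (k : JZero N) = 0 := by
      have h2 : f (k : JZero N) = 0 := k.2
      have h3 : f (k : JZero N) = (m : ℤ) • (k : JZero N) := rfl
      rw [h3, natCast_zsmul] at h2
      exact h2
    have h4 : a ⊗ₜ[ℤ] (f.ker.subtype k) = a • ((1 : O) ⊗ₜ[ℤ] (k : JZero N)) := by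
      rw [TensorProduct.smul_tmul', smul_eq_mul, mul_one]
      rfl
    rw [h4]
    exact Submodule.smul_mem _ a (Submodule.subset_span ⟨(k : JZero N), hk, rfl⟩)
  | add c₁ c₂ h₁ h₂ =>
    rw [map_add]
    exact Submodule.add_mem _ h₁ h₂

/-- An injective additive map into `JZero N` stays injective after `O ⊗[ℤ] -`. -/
theorem tt21_theta_inj {L : Type*} [AddCommGroup L] (θ : L →+ JZero N)
    (hθ : Function.Injective θ) : Function.Injective (LinearMap.lTensor O θ.toIntLinearMap) :=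
  Module.Flat.lTensor_preserves_injective_linearMap θ.toIntLinearMap hθ

end tt21_flat

section tt21_M10

variable (O : Type) [CommRing O] [IsDomain O] [CharZero O] (N : ℕ) [NeZero N]

/-- **Eichler–Shimura on the `p`-power torsion of `O ⊗ J₀(N)`**: for a Frobenius element `σ` at
`ℓ ∤ N p`, `σ² b - T_ℓ (σ b) + ℓ b = 0`. -/
theorem tt21_frob (p ℓ : ℕ) (hℓ : ℓ.Prime) (hN : ¬ ℓ ∣ N) (hp : ¬ ℓ ∣ p)
    (A : ValuationSubring Qb) (hA : A.LiesOverPrime ℓ) (σ : GQ) (hσ : A.IsFrobeniusAt σ ℓ)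
    (n : ℕ) (b : tt21_B O N) (hb : ((p ^ n : ℕ) : O) • b = 0) :
    tt21_gal O N σ (tt21_gal O N σ b) - tt21_hecke O N ⟨ℓ, hℓ⟩ (tt21_gal O N σ b)
      + (ℓ : O) • b = 0 := by
  let Φ : Module.End O (tt21_B O N) :=
    tt21_gal O N σ * tt21_gal O N σ - tt21_hecke O N ⟨ℓ, hℓ⟩ * tt21_gal O N σ + (ℓ : O) • 1
  have hle : Submodule.span O {y : tt21_B O N | ∃ x : JZero N, p ^ n • x = 0 ∧
      y = (1 : O) ⊗ₜ[ℤ] x} ≤ LinearMap.ker Φ := by
    refine Submodule.span_le.mpr ?_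
    rintro y ⟨x, hx, rfl⟩
    have key : (1 : O) ⊗ₜ[ℤ] (σ • σ • x - heckeOperatorBar N ⟨ℓ, hℓ⟩ (σ • x) + ℓ • x) = 0 := by
      rw [fi69_frob N p ℓ hℓ hN hp A hA σ hσ x n hx, TensorProduct.tmul_zero]
    rw [TensorProduct.tmul_add, TensorProduct.tmul_sub, ← tt21_natCast_smul_tmul] at key
    exact key
  exact hle (tt21_tors_decomp O N (p ^ n) b hb)

/-- **Inertia at `ℓ ∤ N p` acts trivially on the `p`-power torsion of `O ⊗ J₀(N)`.** -/
theorem tt21_inertia (p ℓ : ℕ) (hℓ : ℓ.Prime) (hN : ¬ ℓ ∣ N) (hp : ¬ ℓ ∣ p)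
    (A : ValuationSubring Qb) (hA : A.LiesOverPrime ℓ) (τ : GQ)
    (hτ : τ ∈ A.inertiaSubgroupIn ℚ)
    (n : ℕ) (b : tt21_B O N) (hb : ((p ^ n : ℕ) : O) • b = 0) :
    tt21_gal O N τ b = b := by
  have hle : Submodule.span O {y : tt21_B O N | ∃ x : JZero N, p ^ n • x = 0 ∧
      y = (1 : O) ⊗ₜ[ℤ] x} ≤ LinearMap.ker (tt21_gal O N τ - 1) := by
    refine Submodule.span_le.mpr ?_
    rintro y ⟨x, hx, rfl⟩
    show tt21_gal O N τ ((1 : O) ⊗ₜ[ℤ] x) - (1 : O) ⊗ₜ[ℤ] x = 0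
    rw [tt21_gal_tmul, fi69_inertia N p ℓ hℓ hN hp A hA τ hτ x n hx, sub_self]
  have h := hle (tt21_tors_decomp O N (p ^ n) b hb)
  exact sub_eq_zero.mp h

omit [NeZero N] in
/-- Open stabilisers on the span of the torsion pure tensors. -/
theorem tt21_open_aux (m : ℕ) (hm : m ≠ 0) (b : tt21_B O N)
    (hb : b ∈ Submodule.span O {y : tt21_B O N | ∃ x : JZero N, m • x = 0 ∧
      y = (1 : O) ⊗ₜ[ℤ] x}) :
    ∃ E : IntermediateField ℚ Qb, FiniteDimensional ℚ E ∧
      ∀ σ : GQ, (∀ a ∈ E, σ a = a) → tt21_gal O N σ b = b := by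
  induction hb using Submodule.span_induction with
  | mem y hy =>
    obtain ⟨x, hx, rfl⟩ := hy
    obtain ⟨E, hE, hfix⟩ := fi69_open_stab_tors N x m hm hx
    exact ⟨E, hE, fun σ hσ => by rw [tt21_gal_tmul, hfix σ hσ]⟩
  | zero => exact ⟨⊥, inferInstance, fun σ _ => by simp⟩
  | add y z _ _ hy hz =>
    obtain ⟨E₁, hE₁, h₁⟩ := hy
    obtain ⟨E₂, hE₂, h₂⟩ := hz
    haveI := hE₁
    haveI := hE₂
    refine ⟨E₁ ⊔ E₂, inferInstance, fun σ hσ => ?_⟩
    rw [map_add, h₁ σ (fun a ha => hσ a ((le_sup_left : E₁ ≤ E₁ ⊔ E₂) ha)),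
      h₂ σ (fun a ha => hσ a ((le_sup_right : E₂ ≤ E₁ ⊔ E₂) ha))]
  | smul a y _ hy =>
    obtain ⟨E, hE, h⟩ := hy
    exact ⟨E, hE, fun σ hσ => by rw [map_smul, h σ hσ]⟩

omit [NeZero N] in
/-- **Open stabilisers**: an element of `O ⊗ J₀(N)` killed by `m ≠ 0` is fixed by the fixing
group of a number field. -/
theorem tt21_open (m : ℕ) (hm : m ≠ 0) (b : tt21_B O N) (hb : (m : O) • b = 0) :
    ∃ E : IntermediateField ℚ Qb, FiniteDimensional ℚ E ∧
      ∀ σ : GQ, (∀ a ∈ E, σ a = a) → tt21_gal O N σ b = b :=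
  tt21_open_aux O N m hm b (tt21_tors_decomp O N m b hb)

end tt21_M10

section tt21_seq

variable (O : Type) [CommRing O] [IsDomain O] [CharZero O] (N : ℕ) [NeZero N]

omit [IsDomain O] [CharZero O] [NeZero N] in
/-- The components of a `p`-compatible sequence are killed by the powers of `p`. -/
theorem tt21_seq_tors (p : ℕ) (x : ℕ → tt21_B O N) (h0 : x 0 = 0)
    (hx : ∀ n, (p : O) • x (n + 1) = x n) (n : ℕ) : ((p ^ n : ℕ) : O) • x n = 0 := by
  induction n with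
  | zero => rw [h0, smul_zero]
  | succ k ih =>
    rw [pow_succ, Nat.cast_mul, mul_smul, hx k]
    exact ih

/-- Eichler–Shimura on the components of a `p`-compatible sequence. -/
theorem tt21_seq_frob (p ℓ : ℕ) (hℓ : ℓ.Prime) (hN : ¬ ℓ ∣ N) (hp : ¬ ℓ ∣ p)
    (A : ValuationSubring Qb) (hA : A.LiesOverPrime ℓ) (σ : GQ) (hσ : A.IsFrobeniusAt σ ℓ)
    (x : ℕ → tt21_B O N) (h0 : x 0 = 0) (hx : ∀ n, (p : O) • x (n + 1) = x n) (n : ℕ) :
    tt21_gal O N σ (tt21_gal O N σ (x n)) - tt21_hecke O N ⟨ℓ, hℓ⟩ (tt21_gal O N σ (x n))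
      + (ℓ : O) • x n = 0 :=
  tt21_frob O N p ℓ hℓ hN hp A hA σ hσ n (x n) (tt21_seq_tors O N p x h0 hx n)

/-- Trivial inertia on the components of a `p`-compatible sequence. -/
theorem tt21_seq_inertia (p ℓ : ℕ) (hℓ : ℓ.Prime) (hN : ¬ ℓ ∣ N) (hp : ¬ ℓ ∣ p)
    (A : ValuationSubring Qb) (hA : A.LiesOverPrime ℓ) (τ : GQ)
    (hτ : τ ∈ A.inertiaSubgroupIn ℚ)
    (x : ℕ → tt21_B O N) (h0 : x 0 = 0) (hx : ∀ n, (p : O) • x (n + 1) = x n) (n : ℕ) :
    tt21_gal O N τ (x n) = x n :=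
  tt21_inertia O N p ℓ hℓ hN hp A hA τ hτ n (x n) (tt21_seq_tors O N p x h0 hx n)

omit [NeZero N] in
/-- Open stabilisers of the components of a `p`-compatible sequence (`p ≠ 0`). -/
theorem tt21_seq_open (p : ℕ) (hp : p ≠ 0)
    (x : ℕ → tt21_B O N) (h0 : x 0 = 0) (hx : ∀ n, (p : O) • x (n + 1) = x n) (n : ℕ) :
    ∃ E : IntermediateField ℚ Qb, FiniteDimensional ℚ E ∧
      ∀ σ : GQ, (∀ a ∈ E, σ a = a) → tt21_gal O N σ (x n) = x n :=
  tt21_open O N (p ^ n) (pow_ne_zero n hp) (x n) (tt21_seq_tors O N p x h0 hx n)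

end tt21_seq

end Fermat.Agent.S30
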