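/-
S30 rider, row (ET) TWIN (helper35): the concrete eigen-Tate module on the tower form.

`T := tl35_Tate O p W` is the limit of the tower `O ⊗[ℤ] J₀(N)(ℚ̄)[pⁿ]` (TateLattice35), with the
ring homomorphism `tl35_endHom : End J → End_O T`.  For a system of eigenvalues `a` of the Hecke
operators `T_ℓ` (`ℓ ∉ S`) the eigen-submodule

  `M := {x ∈ T | ∀ ℓ ∉ S, T_ℓ x = a ℓ • x}`

carries the Galois representation `ρ : G_ℚ →* End_O M`.  No finiteness of `J[p]` is used.

* abstract part (`tg35_M`, `tg35_rho`, `tg35_lev`, ...): any abelian group `A` with its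
  `pⁿ`-torsion subgroups `W n`, any family `Hk` of endomorphisms, any group `G` acting through
  endomorphisms commuting with the `Hk`;
* `tg35_lucas` : the Lucas sequence `V_j(a, l)`; `tg35_lucas_spec` : `X^j + Y^j = V_j(X+Y, XY)`;
* `tg35_M1 … tg35_M7_abs` : torsion-freeness, separatedness, the trace congruence, continuity
  and the Frobenius relation on `M` from pointwise data on `A`;
* `tg35_package` : all of it as one statement with the module existentially hidden;
* the concrete part is in `TateGalInst35` : `A = JZero N`, `G = Gal(ℚ̄/ℚ)`,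
  `Hk = heckeOperatorBar N ℓ`, with the inputs `fi69_inertia`, `fi69_frob`, `hg25_hecke_galois`,
  `os25_open_stab_finset_set`, `fp37_frob_pow_field` and `ca15_eps_pow`/`ca15_eps_frob`.
-/
import Mathlib
import Fermat.Agent.S30.TateLattice35

set_option autoImplicit false
set_option linter.style.haveILetI false
set_option linter.unusedSectionVars false
set_option maxSynthPendingDepth 3

namespace Fermat.Agent.S30

/-! ### The Lucas sequence -/

section lucas

/-- The Lucas sequence `V_j(a, l)`: `V_0 = 2`, `V_1 = a`, `V_{j+2} = a V_{j+1} - l V_j`. -/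
def tg35_lucas {R : Type*} [CommRing R] (a l : R) : ℕ → R
  | 0 => 2
  | 1 => a
  | (j + 2) => a * tg35_lucas a l (j + 1) - l * tg35_lucas a l j

theorem tg35_lucas_zero {R : Type*} [CommRing R] (a l : R) : tg35_lucas a l 0 = 2 := by
  rw [tg35_lucas]

theorem tg35_lucas_one {R : Type*} [CommRing R] (a l : R) : tg35_lucas a l 1 = a := by
  rw [tg35_lucas]

theorem tg35_lucas_succ_succ {R : Type*} [CommRing R] (a l : R) (j : ℕ) :
    tg35_lucas a l (j + 2) = a * tg35_lucas a l (j + 1) - l * tg35_lucas a l j := by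
  rw [tg35_lucas]

/-- `X ^ j + Y ^ j = V_j(X + Y, X Y)` for two elements `X`, `Y` of an algebra whose sum and
products are scalars. -/
theorem tg35_lucas_spec {R : Type*} [CommRing R] {E : Type*} [Ring E] [Algebra R E]
    (X Y : E) (a l : R) (hXY : X * Y = algebraMap R E l) (hYX : Y * X = algebraMap R E l)
    (hsum : X + Y = algebraMap R E a) (j : ℕ) :
    X ^ j + Y ^ j = algebraMap R E (tg35_lucas a l j) := by
  have key : ∀ j : ℕ, X ^ j + Y ^ j = algebraMap R E (tg35_lucas a l j) ∧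
      X ^ (j + 1) + Y ^ (j + 1) = algebraMap R E (tg35_lucas a l (j + 1)) := by
    intro j
    induction j with
    | zero =>
      refine ⟨?_, ?_⟩
      · rw [pow_zero, pow_zero, tg35_lucas_zero, map_ofNat, one_add_one_eq_two]
      · rw [zero_add, pow_one, pow_one, tg35_lucas_one, hsum]
    | succ j ih =>
      refine ⟨ih.2, ?_⟩
      have h1 : X ^ (j + 1 + 1) + Y ^ (j + 1 + 1) =
          (X + Y) * (X ^ (j + 1) + Y ^ (j + 1)) - (X * Y) * Y ^ j - (Y * X) * X ^ j := by
        rw [pow_succ' X (j + 1), pow_succ' Y (j + 1), pow_succ' X j, pow_succ' Y j]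
        noncomm_ring
      rw [h1, hsum, hXY, hYX, ih.2, sub_sub, ← mul_add, add_comm (Y ^ j), ih.1,
        tg35_lucas_succ_succ, map_sub, map_mul, map_mul]
  exact (key j).1

end lucas

/-! ### The eigen-submodule of the tower limit -/

section eigen

open TensorProduct

variable (R : Type*) [CommRing R] {A : Type*} [AddCommGroup A] (p : ℕ)
variable (W : ℕ → AddSubgroup A) (hW : ∀ n x, x ∈ W n ↔ ((p ^ n : ℕ) : ℤ) • x = 0)
variable {ι : Type*} (Hk : ι → AddMonoid.End A) (a : ι → R)

/-- The eigen-submodule `{x ∈ T | ∀ i, Hk i x = a i • x}` of the tower limit. -/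
def tg35_M : Submodule R (tl35_Tate R p W hW) :=
  ⨅ i, LinearMap.ker (tl35_endHom R p W hW (Hk i) -
    a i • (1 : Module.End R (tl35_Tate R p W hW)))

theorem tg35_mem_M {x : tl35_Tate R p W hW} :
    x ∈ tg35_M R p W hW Hk a ↔ ∀ i, tl35_endHom R p W hW (Hk i) x = a i • x := by
  simp only [tg35_M, Submodule.mem_iInf, LinearMap.mem_ker, LinearMap.sub_apply,
    LinearMap.smul_apply, Module.End.one_apply, sub_eq_zero]

/-- Endomorphisms of `A` commuting with the `Hk i` preserve the eigen-submodule. -/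
theorem tg35_endHom_mem (φ : AddMonoid.End A) (hφ : ∀ i, φ * Hk i = Hk i * φ)
    {x : tl35_Tate R p W hW} (hx : x ∈ tg35_M R p W hW Hk a) :
    tl35_endHom R p W hW φ x ∈ tg35_M R p W hW Hk a := by
  rw [tg35_mem_M] at hx ⊢
  intro i
  have h1 : tl35_endHom R p W hW (Hk i) (tl35_endHom R p W hW φ x) =
      tl35_endHom R p W hW φ (tl35_endHom R p W hW (Hk i) x) := by
    rw [← Module.End.mul_apply, ← Module.End.mul_apply, ← map_mul, ← map_mul, hφ i]
  rw [h1, hx i, map_smul]

variable {G : Type*} [Group G] (act : G →* AddMonoid.End A)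
  (hact : ∀ g i, act g * Hk i = Hk i * act g)

/-- **The representation on the eigen-submodule.** -/
def tg35_rho : G →* Module.End R (tg35_M R p W hW Hk a) where
  toFun g := (tl35_endHom R p W hW (act g)).restrict
    (fun _ hx => tg35_endHom_mem R p W hW Hk a (act g) (hact g) hx)
  map_one' := by
    apply LinearMap.ext
    intro x
    apply Subtype.ext
    rw [LinearMap.coe_restrict_apply, map_one, map_one]
    rfl
  map_mul' g h := by
    apply LinearMap.ext
    intro x
    apply Subtype.ext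
    rw [Module.End.mul_apply, LinearMap.coe_restrict_apply, LinearMap.coe_restrict_apply,
      LinearMap.coe_restrict_apply, map_mul, map_mul]
    rfl

theorem tg35_rho_coe (g : G) (w : tg35_M R p W hW Hk a) :
    ((tg35_rho R p W hW Hk a act hact g w : tg35_M R p W hW Hk a) : tl35_Tate R p W hW) =
      tl35_endHom R p W hW (act g) (w : tl35_Tate R p W hW) := rfl

/-- The `n`-th component of an element of the eigen-submodule. -/
def tg35_lev (n : ℕ) : tg35_M R p W hW Hk a →ₗ[R] tl35_V R W n :=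
  (tl35_ev (tl35_π R p W hW) n).comp (tg35_M R p W hW Hk a).subtype

theorem tg35_lev_apply (n : ℕ) (w : tg35_M R p W hW Hk a) :
    tg35_lev R p W hW Hk a n w =
      ((w : tl35_Tate R p W hW) : ∀ n, tl35_V R W n) n := rfl

theorem tg35_lev_rho (g : G) (w : tg35_M R p W hW Hk a) (n : ℕ) :
    tg35_lev R p W hW Hk a n (tg35_rho R p W hW Hk a act hact g w) =
      (tl35_restr p W hW (act g) n).baseChange R (tg35_lev R p W hW Hk a n w) := rfl

/-- Every element of `R ⊗ A[pⁿ]` has a finite support: two endomorphisms of `A` agreeing on it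
act in the same way on the element. -/
theorem tg35_exists_support (n : ℕ) (z : tl35_V R W n) :
    ∃ t : Finset A, (∀ x ∈ t, x ∈ W n) ∧ ∀ φ ψ : AddMonoid.End A, (∀ x ∈ t, φ x = ψ x) →
      (tl35_restr p W hW φ n).baseChange R z = (tl35_restr p W hW ψ n).baseChange R z := by
  classical
  induction z using TensorProduct.induction_on with
  | zero => exact ⟨∅, by simp, fun φ ψ _ => by rw [map_zero, map_zero]⟩
  | tmul r x =>
    refine ⟨{(x : A)}, fun y hy => by rw [Finset.mem_singleton.mp hy]; exact x.2,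
      fun φ ψ h => ?_⟩
    rw [LinearMap.baseChange_tmul, LinearMap.baseChange_tmul]
    congr 1
    exact Subtype.ext (h x (Finset.mem_singleton_self _))
  | add z₁ z₂ h₁ h₂ =>
    obtain ⟨t₁, ht₁, h₁⟩ := h₁
    obtain ⟨t₂, ht₂, h₂⟩ := h₂
    refine ⟨t₁ ∪ t₂, fun y hy => ?_, fun φ ψ h => ?_⟩
    · rcases Finset.mem_union.mp hy with hy | hy
      exacts [ht₁ y hy, ht₂ y hy]
    · rw [map_add, map_add, h₁ φ ψ fun x hx => h x (Finset.mem_union_left _ hx),
        h₂ φ ψ fun x hx => h x (Finset.mem_union_right _ hx)]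

include hW in
/-- Every component is killed by the corresponding power of `p`. -/
theorem tg35_pow_smul_lev [Module.Flat ℤ R] (n : ℕ) (z : tl35_V R W n) :
    (p : R) ^ n • z = 0 :=
  (tl35_tate_isTower R p W hW).pow_smul n z

section dvr

variable [IsDomain R] [IsDiscreteValuationRing R] [Module.Flat ℤ R]

/-- **(M1)** The eigen-submodule is torsion-free. -/
theorem tg35_M1 (hp : (p : R) ∈ IsLocalRing.maximalIdeal R) (c : R)
    (w : tg35_M R p W hW Hk a) (h : c • w = 0) : c = 0 ∨ w = 0 := by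
  by_cases hc : c = 0
  · exact Or.inl hc
  · refine Or.inr (Subtype.ext (Subtype.ext ?_))
    refine tl35_eq_zero_of_smul (tl35_tate_isTower R p W hW) (tl35_dvd_pow_of_dvr hp)
      (w : tl35_Tate R p W hW).2 hc ?_
    have h1 := congrArg (fun v : tg35_M R p W hW Hk a =>
      ((v : tl35_Tate R p W hW) : ∀ n, tl35_V R W n)) h
    exact h1

/-- An element of the eigen-submodule whose `n`-th component vanishes lies in `𝔪ⁿ M`
(indeed in `pⁿ M`). -/
theorem tg35_mem_pow_of_lev_eq_zero (hp : (p : R) ∈ IsLocalRing.maximalIdeal R)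
    (hp0 : (p : R) ≠ 0) (n : ℕ) (w : tg35_M R p W hW Hk a)
    (h0 : tg35_lev R p W hW Hk a n w = 0) :
    w ∈ (IsLocalRing.maximalIdeal R ^ n) • (⊤ : Submodule R (tg35_M R p W hW Hk a)) := by
  obtain ⟨y, hy⟩ := (tl35_tate_apply_eq_zero_iff R p W hW n (w : tl35_Tate R p W hW)).mp h0
  have hyM : y ∈ tg35_M R p W hW Hk a := by
    rw [tg35_mem_M]
    intro i
    have hw := (tg35_mem_M R p W hW Hk a).mp w.2 i
    have h1 : (p : R) ^ n • (tl35_endHom R p W hW (Hk i) y - a i • y) = 0 := by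
      rw [smul_sub, ← map_smul, smul_comm, hy, hw, sub_self]
    have h2 : ((tl35_endHom R p W hW (Hk i) y - a i • y : tl35_Tate R p W hW) :
        ∀ n, tl35_V R W n) = 0 :=
      tl35_eq_zero_of_smul (tl35_tate_isTower R p W hW) (tl35_dvd_pow_of_dvr hp)
        (tl35_endHom R p W hW (Hk i) y - a i • y).2 (pow_ne_zero n hp0)
        (congrArg Subtype.val h1)
    exact sub_eq_zero.mp (Subtype.ext h2)
  have hw : w = (p : R) ^ n • (⟨y, hyM⟩ : tg35_M R p W hW Hk a) := Subtype.ext hy.symm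
  rw [hw]
  exact Submodule.smul_mem_smul (Ideal.pow_mem_pow hp n) Submodule.mem_top

/-- **(M2)** The eigen-submodule is separated for the `𝔪`-adic topology. -/
theorem tg35_M2 (hp0 : (p : R) ≠ 0) (w : tg35_M R p W hW Hk a)
    (h : ∀ n : ℕ, w ∈ (IsLocalRing.maximalIdeal R ^ n) •
      (⊤ : Submodule R (tg35_M R p W hW Hk a))) : w = 0 := by
  have hH := tl35_tate_isHausdorff R p W hW hp0
  apply Subtype.ext
  apply hH.haus' (w : tl35_Tate R p W hW)
  intro n
  rw [SModEq.zero]
  refine Submodule.smul_induction_on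
    (p := fun v : tg35_M R p W hW Hk a => (v : tl35_Tate R p W hW) ∈
      (IsLocalRing.maximalIdeal R ^ n • ⊤ : Submodule R (tl35_Tate R p W hW))) (h n)
    (fun r hr m _ => Submodule.smul_mem_smul hr Submodule.mem_top)
    (fun x y hx hy => Submodule.add_mem _ hx hy)

/-- **(M6), abstract form**: if `act g` fixes the support of the `n`-th component of `w`, then
`ρ g w - w ∈ 𝔪ⁿ M`. -/
theorem tg35_M6_abs (hp : (p : R) ∈ IsLocalRing.maximalIdeal R) (hp0 : (p : R) ≠ 0)
    (g : G) (n : ℕ) (w : tg35_M R p W hW Hk a)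
    (hg : (tl35_restr p W hW (act g) n).baseChange R (tg35_lev R p W hW Hk a n w) =
      (tl35_restr p W hW 1 n).baseChange R (tg35_lev R p W hW Hk a n w)) :
    tg35_rho R p W hW Hk a act hact g w - w ∈
      (IsLocalRing.maximalIdeal R ^ n) • (⊤ : Submodule R (tg35_M R p W hW Hk a)) := by
  apply tg35_mem_pow_of_lev_eq_zero R p W hW Hk a hp hp0
  have h1 := (tg35_lev R p W hW Hk a n).map_sub (tg35_rho R p W hW Hk a act hact g w) w
  rw [h1, tg35_lev_rho, hg, tl35_restr_one, LinearMap.baseChange_id,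
    LinearMap.id_apply, sub_self]

end dvr

/-- **(M7), abstract form**: the Frobenius relation on the eigen-submodule from the pointwise
relation on the torsion of `A`. -/
theorem tg35_M7_abs (τ : G) (i : ι) (l : ℕ)
    (hfrob : ∀ n, ∀ x ∈ W n, act τ (act τ x) - Hk i (act τ x) + l • x = 0)
    (w : tg35_M R p W hW Hk a) :
    tg35_rho R p W hW Hk a act hact τ (tg35_rho R p W hW Hk a act hact τ w) -
      a i • tg35_rho R p W hW Hk a act hact τ w + (l : R) • w = 0 := by
  have h0 : tl35_endHom R p W hW (act τ * act τ - Hk i * act τ + (l : AddMonoid.End A)) = 0 :=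
    tl35_endHom_eq_zero R p W hW _ (fun n x hx => hfrob n x hx)
  rw [map_add, map_sub, map_mul, map_mul, map_natCast] at h0
  have h1 := congrArg (fun F : Module.End R (tl35_Tate R p W hW) =>
    F (w : tl35_Tate R p W hW)) h0
  simp only [LinearMap.add_apply, LinearMap.sub_apply, Module.End.mul_apply,
    Module.End.natCast_apply, LinearMap.zero_apply] at h1
  have h2 := (tg35_mem_M R p W hW Hk a).mp
    (tg35_rho R p W hW Hk a act hact τ w).2 i
  rw [tg35_rho_coe] at h2
  rw [h2] at h1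
  apply Subtype.ext
  rw [Submodule.coe_add, Submodule.coe_sub, Submodule.coe_smul, Submodule.coe_smul,
    tg35_rho_coe, tg35_rho_coe, Submodule.coe_zero, Nat.cast_smul_eq_nsmul]
  exact h1

section dvr

variable [IsDomain R] [IsDiscreteValuationRing R] [Module.Flat ℤ R]

/-- **(M4), abstract form**: if `g = τ ^ j` and `g⁻¹ = τ ^ (-j)` on the support of the `n`-th
component of `w`, `τ` satisfies the Frobenius relation `τ² - Hk i τ + l = 0` on the torsion of
`A`, and `e ≡ l ^ j mod pⁿ`, then `ρ g w + e • ρ g⁻¹ w ≡ V_j(a i, l) • w mod 𝔪ⁿ M`. -/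
theorem tg35_M4_abs (hp : (p : R) ∈ IsLocalRing.maximalIdeal R) (hp0 : (p : R) ≠ 0)
    (g τ : G) (i : ι) (l j n : ℕ) (e : R)
    (hfrob : ∀ n, ∀ x ∈ W n, act τ (act τ x) - Hk i (act τ x) + l • x = 0)
    (w : tg35_M R p W hW Hk a)
    (hg : (tl35_restr p W hW (act g) n).baseChange R (tg35_lev R p W hW Hk a n w) =
      (tl35_restr p W hW (act (τ ^ j)) n).baseChange R (tg35_lev R p W hW Hk a n w))
    (hg' : (tl35_restr p W hW (act g⁻¹) n).baseChange R (tg35_lev R p W hW Hk a n w) =
      (tl35_restr p W hW (act (τ ^ j)⁻¹) n).baseChange R (tg35_lev R p W hW Hk a n w))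
    (he : e - (l : R) ^ j ∈ Ideal.span {(p : R) ^ n}) :
    tg35_rho R p W hW Hk a act hact g w + e • tg35_rho R p W hW Hk a act hact g⁻¹ w -
      tg35_lucas (a i) (l : R) j • w ∈
      (IsLocalRing.maximalIdeal R ^ n) • (⊤ : Submodule R (tg35_M R p W hW Hk a)) := by
  set ρ := tg35_rho R p W hW Hk a act hact with hρ
  set lev := tg35_lev R p W hW Hk a n with hlev
  -- the Lucas identity for `X = ρ τ`, `Y = l • ρ τ⁻¹`
  have hXXi : ρ τ * ρ τ⁻¹ = 1 := by rw [← map_mul, mul_inv_cancel, map_one]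
  have hXiX : ρ τ⁻¹ * ρ τ = 1 := by rw [← map_mul, inv_mul_cancel, map_one]
  have hsum : ρ τ + (l : R) • ρ τ⁻¹ = a i • (1 : Module.End R (tg35_M R p W hW Hk a)) := by
    apply LinearMap.ext
    intro v
    have h1 := tg35_M7_abs R p W hW Hk a act hact τ i l hfrob (ρ τ⁻¹ v)
    have h2 : ρ τ (ρ τ⁻¹ v) = v := by
      rw [← Module.End.mul_apply, hXXi, Module.End.one_apply]
    rw [← hρ, h2] at h1
    rw [LinearMap.add_apply, LinearMap.smul_apply, LinearMap.smul_apply, Module.End.one_apply]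
    rw [← sub_eq_zero, ← h1]
    abel
  have hL := tg35_lucas_spec (R := R) (ρ τ) ((l : R) • ρ τ⁻¹) (a i) (l : R)
    (by rw [mul_smul_comm, hXXi, Algebra.algebraMap_eq_smul_one])
    (by rw [smul_mul_assoc, hXiX, Algebra.algebraMap_eq_smul_one])
    (by rw [hsum, Algebra.algebraMap_eq_smul_one]) j
  rw [smul_pow, ← map_pow, ← map_pow, inv_pow, Algebra.algebraMap_eq_smul_one] at hL
  have hLw : ρ (τ ^ j) w + (l : R) ^ j • ρ (τ ^ j)⁻¹ w = tg35_lucas (a i) (l : R) j • w := by
    have h1 := congrArg (fun F : Module.End R (tg35_M R p W hW Hk a) => F w) hL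
    simpa only [LinearMap.add_apply, LinearMap.smul_apply, Module.End.one_apply] using h1
  apply tg35_mem_pow_of_lev_eq_zero R p W hW Hk a hp hp0
  have e1 : lev (ρ g w) = lev (ρ (τ ^ j) w) := by
    rw [hlev, hρ, tg35_lev_rho, tg35_lev_rho, hg]
  have e2 : lev (ρ g⁻¹ w) = lev (ρ (τ ^ j)⁻¹ w) := by
    rw [hlev, hρ, tg35_lev_rho, tg35_lev_rho, hg']
  have e3 : lev (tg35_lucas (a i) (l : R) j • w) =
      lev (ρ (τ ^ j) w) + (l : R) ^ j • lev (ρ (τ ^ j)⁻¹ w) := by
    rw [← hLw, lev.map_add, lev.map_smul]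
  obtain ⟨r, hr⟩ := Ideal.mem_span_singleton'.mp he
  have e4 : (e - (l : R) ^ j) • lev (ρ (τ ^ j)⁻¹ w) = 0 := by
    rw [← hr, mul_smul, tg35_pow_smul_lev R p W hW, smul_zero]
  rw [← hlev, lev.map_sub, lev.map_add, lev.map_smul, e1, e2, e3]
  rw [sub_smul] at e4
  rw [← e4]
  abel

end dvr

/-- **(M5), abstract form**: a group element acting trivially on the torsion of `A` acts
trivially on the eigen-submodule. -/
theorem tg35_M5_abs (σ : G) (hσ : ∀ n, ∀ x ∈ W n, act σ x = x) :
    tg35_rho R p W hW Hk a act hact σ = 1 := by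
  apply LinearMap.ext
  intro w
  apply Subtype.ext
  have h1 : tl35_endHom R p W hW (act σ) = tl35_endHom R p W hW 1 :=
    tl35_endHom_eq_of_eqOn R p W hW _ _ (fun n x hx => hσ n x hx)
  rw [tg35_rho_coe, h1, map_one]
  rfl

section theta

variable {L : Type*} [AddCommGroup L] (θ : ℕ → L →+ A) (hθ : ∀ n x, θ n x ∈ W n)
  (hθc : ∀ n x, (p : ℤ) • θ (n + 1) x = θ n x)

include hθ hθc in
/-- **(M3), abstract form**: the image of a primitive eigenvector under the limit of a
compatible family `θ n : L → A[pⁿ]` with `ker (θ 1) = p L` is a nonzero element of the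
eigen-submodule. -/
theorem tg35_M3_abs [Module.Flat ℤ R] (hker : ∀ x, θ 1 x = 0 → ∃ y : L, x = (p : ℤ) • y)
    (TL : ι → L →+ L) (hTL : ∀ i n x, Hk i (θ n x) = θ n (TL i x))
    (x0 : R ⊗[ℤ] L) (hx0 : ¬ ∃ v : R ⊗[ℤ] L, x0 = (p : R) • v)
    (hx0e : ∀ i, (TL i).toIntLinearMap.baseChange R x0 = a i • x0) :
    ∃ w : tg35_M R p W hW Hk a, w ≠ 0 := by
  have hyM : tl35_theta R p W hW θ hθ hθc x0 ∈ tg35_M R p W hW Hk a := by
    rw [tg35_mem_M]
    intro i
    rw [tl35_theta_equivariant R p W hW θ hθ hθc (Hk i) (TL i) (hTL i) x0, hx0e i, map_smul]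
  have hy0 : tl35_theta R p W hW θ hθ hθc x0 ≠ 0 :=
    tl35_theta_ne_zero R p W hW θ hθ hθc hker x0 hx0
  exact ⟨⟨_, hyM⟩, fun h => hy0 (congrArg Subtype.val h)⟩

end theta

end eigen

/-! ### The package -/

section package

open TensorProduct

variable (R : Type) [CommRing R] [IsDomain R] [IsDiscreteValuationRing R] [Module.Flat ℤ R]
  {A : Type} [AddCommGroup A] (p : ℕ)
  (W : ℕ → AddSubgroup A) (hW : ∀ n x, x ∈ W n ↔ ((p ^ n : ℕ) : ℤ) • x = 0)
  {ι : Type*} (Hk : ι → AddMonoid.End A) (a : ι → R)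
  {G : Type*} [Group G] (act : G →* AddMonoid.End A)
  (hact : ∀ g i, act g * Hk i = Hk i * act g)

include hW hact in
/-- **The eigen-Tate package.**  `A` an abelian group with `pⁿ`-torsion subgroups `W n`, `Hk i`
endomorphisms of `A`, `G` a group acting on `A` through endomorphisms commuting with the `Hk i`,
`R` a discrete valuation ring flat over `ℤ` with `0 ≠ p ∈ 𝔪`, `a i ∈ R` a system of eigenvalues
occurring in `R ⊗ L` for a lattice `L` with a compatible family `θ n : L → A[pⁿ]`,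
`ker (θ 1) = p L`.  Then there is an `R`-module `M` with a representation `ρ` of `G` which is
torsion-free, separated, nonzero, and on which all the pointwise information on the torsion of
`A` (trivial action, Frobenius relations, agreement with powers of a Frobenius) is inherited in
the `𝔪`-adic Cauchy sense. -/
theorem tg35_package (hp : (p : R) ∈ IsLocalRing.maximalIdeal R) (hp0 : (p : R) ≠ 0)
    {L : Type*} [AddCommGroup L] (θ : ℕ → L →+ A) (hθ : ∀ n x, θ n x ∈ W n)
    (hθc : ∀ n x, (p : ℤ) • θ (n + 1) x = θ n x)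
    (hker : ∀ x, θ 1 x = 0 → ∃ y : L, x = (p : ℤ) • y)
    (TL : ι → L →+ L) (hTL : ∀ i n x, Hk i (θ n x) = θ n (TL i x))
    (x0 : R ⊗[ℤ] L) (hx0 : ¬ ∃ v : R ⊗[ℤ] L, x0 = (p : R) • v)
    (hx0e : ∀ i, (TL i).toIntLinearMap.baseChange R x0 = a i • x0) :
    ∃ (M : Type) (_ : AddCommGroup M) (_ : Module R M) (ρ : G →* Module.End R M),
      (∀ (b : R) (w : M), b • w = 0 → b = 0 ∨ w = 0) ∧
      (∀ w : M, (∀ n : ℕ, w ∈ (IsLocalRing.maximalIdeal R ^ n) • (⊤ : Submodule R M)) →
        w = 0) ∧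
      (∃ w : M, w ≠ 0) ∧
      (∀ (g : G) (w : M) (n : ℕ), ∃ t : Finset A, (∀ x ∈ t, x ∈ W n) ∧
        ∀ (τ : G) (i : ι) (l j : ℕ) (e : R),
          (∀ m, ∀ x ∈ W m, act τ (act τ x) - Hk i (act τ x) + l • x = 0) →
          (∀ x ∈ t, act g x = act (τ ^ j) x) → (∀ x ∈ t, act g⁻¹ x = act (τ ^ j)⁻¹ x) →
          e - (l : R) ^ j ∈ Ideal.span {(p : R) ^ n} →
          ρ g w + e • ρ g⁻¹ w - tg35_lucas (a i) (l : R) j • w ∈
            (IsLocalRing.maximalIdeal R ^ n) • (⊤ : Submodule R M)) ∧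
      (∀ σ : G, (∀ n, ∀ x ∈ W n, act σ x = x) → ρ σ = 1) ∧
      (∀ (w : M) (n : ℕ), ∃ t : Finset A, (∀ x ∈ t, x ∈ W n) ∧
        ∀ σ : G, (∀ x ∈ t, act σ x = x) →
          ρ σ w - w ∈ (IsLocalRing.maximalIdeal R ^ n) • (⊤ : Submodule R M)) ∧
      (∀ (τ : G) (i : ι) (l : ℕ),
        (∀ m, ∀ x ∈ W m, act τ (act τ x) - Hk i (act τ x) + l • x = 0) →
        ∀ w : M, ρ τ (ρ τ w) - a i • ρ τ w + (l : R) • w = 0) := by
  refine ⟨↥(tg35_M R p W hW Hk a), inferInstance, inferInstance,
    tg35_rho R p W hW Hk a act hact, ?_, ?_, ?_, ?_, ?_, ?_, ?_⟩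
  · exact fun b w h => tg35_M1 R p W hW Hk a hp b w h
  · exact fun w h => tg35_M2 R p W hW Hk a hp0 w h
  · exact tg35_M3_abs R p W hW Hk a θ hθ hθc hker TL hTL x0 hx0 hx0e
  · intro g w n
    obtain ⟨t, ht, hsupp⟩ := tg35_exists_support R p W hW n (tg35_lev R p W hW Hk a n w)
    refine ⟨t, ht, fun τ i l j e hfrob h1 h2 he => ?_⟩
    exact tg35_M4_abs R p W hW Hk a act hact hp hp0 g τ i l j n e hfrob w
      (hsupp _ _ h1) (hsupp _ _ h2) he
  · exact fun σ hσ => tg35_M5_abs R p W hW Hk a act hact σ hσ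
  · intro w n
    obtain ⟨t, ht, hsupp⟩ := tg35_exists_support R p W hW n (tg35_lev R p W hW Hk a n w)
    refine ⟨t, ht, fun σ hσ => ?_⟩
    exact tg35_M6_abs R p W hW Hk a act hact hp hp0 σ n w (hsupp _ _ (fun x hx => hσ x hx))
  · exact fun τ i l hfrob w => tg35_M7_abs R p W hW Hk a act hact τ i l hfrob w

end package

end Fermat.Agent.S30
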