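/-
S30 rider, row (ET) TWIN (helper35), concrete part: the eigen-Tate module of `J₀(N)(ℚ̄)` on the
tower form (`TateGal35`), and row (ET) in the binding form `s30i37_ETClaim` of the interface file
`Iface37` (helper37).

The abstract package `tg35_package` is applied to `A = JZero N`, `G = Gal(ℚ̄/ℚ)`,
`Hk = heckeOperatorBar N ℓ` (`ℓ ∉ S`), with the inputs

* `hg25_hecke_galois` (HeckeGalois25): Galois commutes with the Hecke operators;
* `fi69_inertia`, `fi69_frob` (FrobInertia69): inertia and the Eichler-Shimura relation on the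
  `p`-power torsion;
* `os25_open_stab_finset_set` (OpenStab25): open stabilisers;
* `fp37_frob_pow_field` (FrobPow37): every element of `G_ℚ` is a power of a Frobenius element on
  a number field;
* `ca15_eps_pow`, `ca15_eps_frob` (CycloAdic15): the cyclotomic character.

No finiteness of `J[p]` is used.
-/
import Mathlib
import Fermat.Agent.S30.TateGal35
import Fermat.Agent.S30.CycloAdic15
import Fermat.Agent.S42.FrobInertia69
import Fermat.Agent.S42.HeckeGalois25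
import Fermat.Agent.S42.OpenStab25
import Fermat.Agent.S42.FrobPow37
import Fermat.Agent.S30.Iface37

set_option autoImplicit false
set_option linter.style.haveILetI false
set_option linter.unusedSectionVars false

namespace Fermat.Agent.S30

open TensorProduct Fermat.Agent.S42 ModularCurve AlgebraicCurve

local notation "Qb" => AlgebraicClosure ℚ
local notation "GQ" => AlgebraicClosure ℚ ≃ₐ[ℚ] AlgebraicClosure ℚ

section concrete

variable (p : ℕ) (N : ℕ) [NeZero N]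

/-- The `pⁿ`-torsion subgroups of `J₀(N)(ℚ̄)`. -/
noncomputable def tg35_W (n : ℕ) : AddSubgroup (JZero N) :=
  Pic0.torsion Qb (modularFunctionFieldBar N) (p ^ n)

theorem tg35_hW (n : ℕ) (x : JZero N) : x ∈ tg35_W p N n ↔ ((p ^ n : ℕ) : ℤ) • x = 0 :=
  Pic0.mem_torsion

theorem tg35_nsmul_of_mem {n : ℕ} {x : JZero N} (hx : x ∈ tg35_W p N n) : p ^ n • x = 0 := by
  have h := (tg35_hW p N n x).mp hx
  rwa [natCast_zsmul] at h

/-- The Galois action on `J₀(N)(ℚ̄)` as a monoid homomorphism into the additive endomorphisms. -/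
noncomputable def tg35_act : GQ →* AddMonoid.End (JZero N) :=
  DistribMulAction.toAddMonoidEnd GQ (JZero N)

theorem tg35_act_apply (g : GQ) (x : JZero N) : tg35_act N g x = g • x := rfl

/-- The Hecke operators at the primes outside `S`. -/
noncomputable def tg35_Hk (S : Finset ℕ) (i : {ℓ : Nat.Primes // (ℓ : ℕ) ∉ S}) :
    AddMonoid.End (JZero N) :=
  (heckeOperatorBar N i.1).toAddMonoidHom

theorem tg35_Hk_apply (S : Finset ℕ) (i : {ℓ : Nat.Primes // (ℓ : ℕ) ∉ S}) (x : JZero N) :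
    tg35_Hk N S i x = heckeOperatorBar N i.1 x := rfl

theorem tg35_comm (S : Finset ℕ) (g : GQ) (i : {ℓ : Nat.Primes // (ℓ : ℕ) ∉ S}) :
    tg35_act N g * tg35_Hk N S i = tg35_Hk N S i * tg35_act N g :=
  AddMonoidHom.ext fun x => hg25_hecke_galois N i.1 g x

/-- Inertia at `q ∤ N p` acts trivially on the `p`-power torsion. -/
theorem tg35_inertiaJ [Fact p.Prime] (q : ℕ) (hq : q.Prime) (hqN : ¬ q ∣ N) (hqp : q ≠ p)
    (P : ValuationSubring Qb) (hP : P.LiesOverPrime q) (σ : GQ)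
    (hσ : σ ∈ P.inertiaSubgroupIn ℚ) :
    ∀ n, ∀ x ∈ tg35_W p N n, tg35_act N σ x = x := by
  intro n x hx
  exact fi69_inertia N p q hq hqN
    (fun h => hqp ((Nat.prime_dvd_prime_iff_eq hq Fact.out).mp h)) P hP σ hσ x n
    (tg35_nsmul_of_mem p N hx)

/-- The Eichler-Shimura relation on the `p`-power torsion of `J₀(N)` in the form used by the
abstract package. -/
theorem tg35_frobJ [Fact p.Prime] (S : Finset ℕ) (hpS : p ∈ S) (ℓ : ℕ) (hℓ : ℓ.Prime)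
    (hℓN : ¬ ℓ ∣ N) (hℓS : ℓ ∉ S)
    (A : ValuationSubring Qb) (hA : A.LiesOverPrime ℓ) (τ : GQ) (hτ : A.IsFrobeniusAt τ ℓ) :
    ∀ n, ∀ x ∈ tg35_W p N n, tg35_act N τ (tg35_act N τ x) -
      tg35_Hk N S ⟨⟨ℓ, hℓ⟩, hℓS⟩ (tg35_act N τ x) + ℓ • x = 0 := by
  intro n x hx
  have hℓp : ¬ ℓ ∣ p := fun h =>
    hℓS (by rw [(Nat.prime_dvd_prime_iff_eq hℓ Fact.out).mp h]; exact hpS)
  exact fi69_frob N p ℓ hℓ hℓN hℓp A hA τ hτ x n (tg35_nsmul_of_mem p N hx)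

/-- **Density of Frobenius powers on finitely many classes.**  For `g ∈ G_ℚ`, a finite set `t`
of classes of `J₀(N)(ℚ̄)` and `n`: there are a prime `ℓ ∉ S`, a Frobenius element `τ` at `ℓ` and
`j` with `g = τ ^ j`, `g⁻¹ = (τ ^ j)⁻¹` on `t` and `g = τ ^ j` on `μ_{pⁿ}`. -/
theorem tg35_frob_dense [Fact p.Prime] (S : Finset ℕ) (g : GQ) (t : Finset (JZero N)) (n : ℕ) :
    ∃ (ℓ : ℕ) (A : ValuationSubring Qb) (τ : GQ) (j : ℕ),
      ℓ.Prime ∧ ℓ ∉ S ∧ A.LiesOverPrime ℓ ∧ A.IsFrobeniusAt τ ℓ ∧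
      (∀ x ∈ t, tg35_act N g x = tg35_act N (τ ^ j) x) ∧
      (∀ x ∈ t, tg35_act N g⁻¹ x = tg35_act N (τ ^ j)⁻¹ x) ∧
      ∀ z : Qb, z ^ p ^ n = 1 → g z = (τ ^ j) z := by
  classical
  -- a finite Galois extension trivialising `t` and the `pⁿ`-th roots of unity
  have hO1 : os25_Open (fun σ : GQ => ∀ x ∈ t, σ • x = x) := os25_open_stab_finset_set N t
  have hO2 : os25_Open (fun σ : GQ => ∀ z : Qb, z ^ p ^ n = 1 → σ z = z) :=
    ⟨Polynomial.nthRootsFinset (p ^ n) (1 : Qb), fun σ hσ z hz => hσ z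
      ((Polynomial.mem_nthRootsFinset (pow_pos (Fact.out : p.Prime).pos n) 1).mpr hz)⟩
  obtain ⟨E, hfd, hgal, hE⟩ := (hO1.and hO2).exists_galois
  haveI := hfd
  obtain ⟨ℓ, A, τ, j, hℓ, hℓS, hA, hτ, hgτ⟩ := fp37_frob_pow_field E g S
  -- `(τ ^ j)⁻¹ * g` and `τ ^ j * g⁻¹` fix `E` pointwise
  have h1 : ∀ x ∈ E, ((τ ^ j)⁻¹ * g) x = x := by
    intro x hx
    rw [AlgEquiv.mul_apply, hgτ x hx, AlgEquiv.aut_inv, AlgEquiv.symm_apply_apply]
  have hnormal : Normal ℚ E := hgal.to_normal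
  have halg : Algebra.IsAlgebraic ℚ Qb := AlgebraicClosure.isAlgebraic ℚ
  haveI : IsAlgClosure ℚ Qb := ⟨inferInstance, halg⟩
  haveI : Normal ℚ Qb := IsAlgClosure.normal ℚ Qb
  have hnorm : ∀ x ∈ E, g⁻¹ x ∈ E := by
    intro x hx
    have hmap := IntermediateField.normal_iff_forall_map_le'.mp hnormal g⁻¹
    exact hmap ⟨x, hx, rfl⟩
  have h2 : ∀ x ∈ E, (τ ^ j * g⁻¹) x = x := by
    intro x hx
    rw [AlgEquiv.mul_apply, ← hgτ _ (hnorm x hx)]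
    show (g * g⁻¹) x = x
    rw [mul_inv_cancel]
    rfl
  obtain ⟨hs1, hr1⟩ := hE _ h1
  obtain ⟨hs2, -⟩ := hE _ h2
  refine ⟨ℓ, A, τ, j, hℓ, hℓS, hA, hτ, fun x hx => ?_, fun x hx => ?_, fun z hz => ?_⟩
  · have h := hs1 x hx
    rw [mul_smul, inv_smul_eq_iff] at h
    exact h
  · have h := hs2 x hx
    rw [mul_smul] at h
    exact eq_inv_smul_iff.mpr h
  · have h := hr1 z hz
    rw [AlgEquiv.mul_apply, AlgEquiv.aut_inv] at h
    exact (AlgEquiv.symm_apply_eq _).mp h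

end concrete

/-! ### Row (ET) -/

section ET

variable (p : ℕ) [Fact p.Prime] (N : ℕ) [NeZero N] (S : Finset ℕ)
  (O : Type) [CommRing O] [IsDomain O] [IsDiscreteValuationRing O]
  [IsAdicComplete (IsLocalRing.maximalIdeal O) O] [CharZero O]

/-- **Row (ET), general lattice.**  For any abelian group `L` with endomorphisms `TL ℓ`, a
primitive eigenvector `x0 ∈ O ⊗ L` with eigenvalues `a ℓ` (`ℓ ∉ S`) and a compatible family
`Θ n : L → J₀(N)[pⁿ]` intertwining `TL ℓ` with the Hecke operators, with `ker (Θ 1) = p L`: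
the eigen-Tate module `s30i37_ET`. -/
theorem tg35_ET_general (hpS : p ∈ S) (hNS : ∀ q : ℕ, q.Prime → q ∣ N → q ∈ S)
    (hp : (p : O) ∈ IsLocalRing.maximalIdeal O) (a : ℕ → O)
    {L : Type*} [AddCommGroup L] (TL : ℕ → L →+ L) (x0 : O ⊗[ℤ] L)
    (hx0 : x0 ∉ IsLocalRing.maximalIdeal O • (⊤ : Submodule O (O ⊗[ℤ] L)))
    (hx0e : ∀ ℓ : ℕ, ℓ.Prime → ℓ ∉ S → (TL ℓ).toIntLinearMap.baseChange O x0 = a ℓ • x0)
    (Θ : ℕ → (L →+ JZero N))
    (h1 : ∀ n x, ((p ^ n : ℕ) : ℤ) • Θ n x = 0)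
    (h2 : ∀ x, Θ 1 x = 0 → ∃ y : L, x = (p : ℤ) • y)
    (h3 : ∀ (n : ℕ) (ℓ : Nat.Primes), (ℓ : ℕ) ∉ S → ∀ x : L,
      heckeOperatorBar N ℓ (Θ n x) = Θ n (TL ℓ x))
    (h4 : ∀ n x, (p : ℤ) • Θ (n + 1) x = Θ n x) :
    s30i37_ET p N S O hp a := by
  have hp0 : (p : O) ≠ 0 := Nat.cast_ne_zero.mpr (Fact.out : p.Prime).ne_zero
  obtain ⟨M, instM1, instM2, ρ, hM1, hM2, hM3, hM4, hM5, hM6, hM7⟩ :=
    tg35_package O p (tg35_W p N) (tg35_hW p N) (tg35_Hk N S)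
      (fun i : {ℓ : Nat.Primes // (ℓ : ℕ) ∉ S} => a (i.1 : ℕ)) (tg35_act N) (tg35_comm N S)
      hp hp0 Θ (fun n x => (tg35_hW p N n _).mpr (h1 n x)) h4 h2
      (fun i : {ℓ : Nat.Primes // (ℓ : ℕ) ∉ S} => TL (i.1 : ℕ))
      (fun i n x => h3 n i.1 i.2 x) x0
      (fun ⟨v, hv⟩ => hx0 (by rw [hv]; exact Submodule.smul_mem_smul hp Submodule.mem_top))
      (fun i => hx0e (i.1 : ℕ) i.1.2 i.2)
  refine ⟨M, instM1, instM2, ρ, hM1, hM2, hM3, ?_, ?_, ?_, ?_⟩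
  · -- (M4)
    intro g w n
    obtain ⟨t, -, ht⟩ := hM4 g w n
    obtain ⟨ℓ, A, τ, j, hℓ, hℓS, hA, hτ, ha1, ha2, hroots⟩ := tg35_frob_dense p N S g t n
    have hℓN : ¬ ℓ ∣ N := fun h => hℓS (hNS ℓ hℓ h)
    have hℓp : ℓ ≠ p := fun h => hℓS (h ▸ hpS)
    have heps := ca15_eps_pow p (IsLocalRing.maximalIdeal O) hp g τ j n hroots
    rw [ca15_eps_frob p (IsLocalRing.maximalIdeal O) hp hℓ hℓp A hA τ hτ] at heps
    exact ⟨tg35_lucas (a ℓ) (ℓ : O) j,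
      ht τ ⟨⟨ℓ, hℓ⟩, hℓS⟩ ℓ j _ (tg35_frobJ p N S hpS ℓ hℓ hℓN hℓS A hA τ hτ) ha1 ha2 heps⟩
  · -- (M5)
    intro q hq hqN hqp P hP σ hσ
    exact hM5 σ (tg35_inertiaJ p N q hq hqN hqp P hP σ hσ)
  · -- (M6)
    intro w n
    obtain ⟨t, -, ht⟩ := hM6 w n
    obtain ⟨E, hE, h⟩ := os25_open_stab_finset N t
    exact ⟨E, hE, fun σ hσ => ht σ (fun x hx => h σ hσ x hx)⟩
  · -- (M7)
    intro ℓ hℓ hℓN hℓS A hA τ hτ w
    exact hM7 τ ⟨⟨ℓ, hℓ⟩, hℓS⟩ ℓ (tg35_frobJ p N S hpS ℓ hℓ hℓN hℓS A hA τ hτ) w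

/-- **Row (ET)** in the binding form of the S30 interface file (`s30i37_ETClaim`, helper37),
for every complete discrete valuation ring `O` of characteristic zero with `p ∈ 𝔪`. -/
theorem tg35_ETClaim (hp : (p : O) ∈ IsLocalRing.maximalIdeal O) :
    s30i37_ETClaim p N S O hp := by
  intro hpS hNS a TL x0 Θ hTL hx0 hx0e hΘ
  obtain ⟨h1, h2, h3, h4⟩ := hΘ
  refine tg35_ET_general p N S O hpS hNS hp a (fun ℓ => (TL ℓ).toAddMonoidHom) x0 hx0
    (fun ℓ hℓ hℓS => ?_) Θ h1 (fun x hx => ?_) (fun n ℓ hℓS x => ?_) h4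
  · have e : ((TL ℓ).toAddMonoidHom).toIntLinearMap = TL ℓ := LinearMap.ext fun _ => rfl
    rw [e]
    exact hx0e ℓ hℓ hℓS
  · obtain ⟨y, hy⟩ := h2 1 x hx
    exact ⟨y, by rw [hy, pow_one, natCast_zsmul]⟩
  · have hdvd : ¬ (ℓ : ℕ) ∣ N * p ^ n := by
      intro h
      rcases (Nat.Prime.dvd_mul ℓ.2).mp h with h | h
      · exact hℓS (hNS ℓ ℓ.2 h)
      · have h' := Nat.Prime.dvd_of_dvd_pow ℓ.2 h
        exact hℓS (by rw [(Nat.prime_dvd_prime_iff_eq ℓ.2 Fact.out).mp h']; exact hpS)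
    obtain ⟨hχ, e⟩ := h3 n ℓ hdvd x
    rw [e]
    congr 1
    exact Subtype.ext (hTL ℓ ℓ.2 hℓS x).symm

end ET

end Fermat.Agent.S30
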