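import Fermat.Agent.S30.TateConc21
import Fermat.Agent.S30.CycloAdic15
import Fermat.Agent.S42.FrobPow37

/-!
# S30 (rider on Project 4), row (ET), levelwise (M4) (helper21)

On `B := O ⊗[ℤ] JZero N` (`tt21_B`), for an element `b` killed by `p ^ n` which is an
eigenvector of the Hecke operators `T_ℓ` (`ℓ ∉ S`), and every `g : G_ℚ`:

  `g b + ε(g) • g⁻¹ b = c • b`   for some scalar `c : O`           (`tt21_quad`),

where `ε = ca15_eps` is the `O`-valued `p`-adic cyclotomic character.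

* `tt21_lucV a l` : the Lucas sequence `V 0 = 2`, `V 1 = a`, `V (j+2) = a V (j+1) - l V j`;
* `tt21_lucas` : if `X Y = l = Y X` and `(X + Y) e = a e` then `(X ^ j + Y ^ j) e = V_j(a, l) e`;
* `tt21_frobPow` : every `g` agrees, on `b`, on `g⁻¹`-side of `b` and on the `pⁿ`-th roots of
  unity, with a power `τ ^ j` of a Frobenius element at a prime `ℓ ∉ S` (Chebotarev, `fp37`);
* `tt21_quad` : the levelwise quadratic relation; `tt21_quad_seq` : the same for the components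
  of a `p`-compatible sequence.

All names are prefixed `tt21_`.
-/

set_option autoImplicit false
set_option linter.unusedSectionVars false
set_option linter.unusedVariables false
set_option linter.style.longLine false
set_option linter.style.haveILetI false

open ModularCurve AlgebraicCurve TensorProduct

namespace Fermat.Agent.S30

open Fermat.Agent.S42

local notation "Qb" => AlgebraicClosure ℚ
local notation "GQ" => AlgebraicClosure ℚ ≃ₐ[ℚ] AlgebraicClosure ℚ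

section tt21_lucas_sec

variable {R : Type*} [CommRing R]

/-- The Lucas sequence `V_j(a, l)`: `V 0 = 2`, `V 1 = a`, `V (j+2) = a V (j+1) - l V j`. -/
def tt21_lucV (a l : R) : ℕ → R
  | 0 => 2
  | 1 => a
  | (j + 2) => a * tt21_lucV a l (j + 1) - l * tt21_lucV a l j

theorem tt21_lucV_zero (a l : R) : tt21_lucV a l 0 = 2 := rfl

theorem tt21_lucV_one (a l : R) : tt21_lucV a l 1 = a := rfl

theorem tt21_lucV_add_two (a l : R) (j : ℕ) :
    tt21_lucV a l (j + 2) = a * tt21_lucV a l (j + 1) - l * tt21_lucV a l j := rfl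

theorem tt21_lucas_pair {B : Type*} [AddCommGroup B] [Module R B] (X Y : Module.End R B)
    (a l : R) (hXY : X * Y = l • (1 : Module.End R B)) (hYX : Y * X = l • (1 : Module.End R B))
    (e : B) (he : X e + Y e = a • e) (j : ℕ) :
    (X ^ j) e + (Y ^ j) e = tt21_lucV a l j • e ∧
      (X ^ (j + 1)) e + (Y ^ (j + 1)) e = tt21_lucV a l (j + 1) • e := by
  induction j with
  | zero =>
    refine ⟨?_, ?_⟩
    · show e + e = (2 : R) • e
      rw [two_smul]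
    · show (X ^ 1) e + (Y ^ 1) e = a • e
      rw [pow_one, pow_one]
      exact he
  | succ k ih =>
    refine ⟨ih.2, ?_⟩
    have h1 : X ^ (k + 1 + 1) + Y ^ (k + 1 + 1) =
        (X ^ (k + 1) + Y ^ (k + 1)) * (X + Y) - l • (X ^ k + Y ^ k) := by
      have e1 : X ^ (k + 1) * Y = l • X ^ k := by
        rw [pow_succ, mul_assoc, hXY, mul_smul_comm, mul_one]
      have e2 : Y ^ (k + 1) * X = l • Y ^ k := by
        rw [pow_succ, mul_assoc, hYX, mul_smul_comm, mul_one]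
      rw [add_mul, mul_add, mul_add, e1, e2, ← pow_succ, ← pow_succ, smul_add]
      abel
    have h2 : (X ^ (k + 1 + 1)) e + (Y ^ (k + 1 + 1)) e =
        (X ^ (k + 1)) (X e + Y e) + (Y ^ (k + 1)) (X e + Y e) - l • ((X ^ k) e + (Y ^ k) e) := by
      have h3 := LinearMap.congr_fun h1 e
      simpa only [LinearMap.add_apply, LinearMap.sub_apply, Module.End.mul_apply,
        LinearMap.smul_apply] using h3
    rw [h2, he, map_smul, map_smul, ← smul_add, ih.2, ih.1, tt21_lucV_add_two, sub_smul,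
      mul_smul, mul_smul]

/-- **Lucas**: if `X Y = l = Y X` and `(X + Y) e = a e` then `(X ^ j + Y ^ j) e = V_j(a, l) e`. -/
theorem tt21_lucas {B : Type*} [AddCommGroup B] [Module R B] (X Y : Module.End R B)
    (a l : R) (hXY : X * Y = l • (1 : Module.End R B)) (hYX : Y * X = l • (1 : Module.End R B))
    (e : B) (he : X e + Y e = a • e) (j : ℕ) :
    (X ^ j) e + (Y ^ j) e = tt21_lucV a l j • e :=
  (tt21_lucas_pair X Y a l hXY hYX e he j).1

end tt21_lucas_sec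

section tt21_quad_sec

variable (O : Type) [CommRing O] [IsDomain O] [CharZero O] (N : ℕ) [NeZero N]

/-- **Chebotarev, levelwise**: every `g` agrees with a power `τ ^ j` of a Frobenius element at a
prime `ℓ ∉ S` on the `pⁿ`-th roots of unity, on `b` and (for the inverses) on `b`. -/
theorem tt21_frobPow (p : ℕ) [Fact p.Prime] (S : Finset ℕ) (n : ℕ)
    (b : tt21_B O N) (hb : ((p ^ n : ℕ) : O) • b = 0) (g : GQ) :
    ∃ (ℓ : ℕ) (A : ValuationSubring Qb) (τ : GQ) (j : ℕ),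
      ℓ.Prime ∧ ℓ ∉ S ∧ A.LiesOverPrime ℓ ∧ A.IsFrobeniusAt τ ℓ ∧
      (∀ z : Qb, z ^ p ^ n = 1 → g z = (τ ^ j) z) ∧
      tt21_gal O N g b = tt21_gal O N (τ ^ j) b ∧
      tt21_gal O N g⁻¹ b = tt21_gal O N (τ ^ j)⁻¹ b := by
  have hp : p.Prime := Fact.out
  have hpn : p ^ n ≠ 0 := pow_ne_zero n hp.ne_zero
  obtain ⟨E1, hE1, h1⟩ := tt21_open O N (p ^ n) hpn b hb
  have hb' : ((p ^ n : ℕ) : O) • tt21_gal O N g⁻¹ b = 0 := by
    rw [← map_smul, hb, map_zero]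
  obtain ⟨E2, hE2, h2⟩ := tt21_open O N (p ^ n) hpn (tt21_gal O N g⁻¹ b) hb'
  obtain ⟨ζ, hζ⟩ := ca15_exists_primitive p n
  haveI : Algebra.IsAlgebraic ℚ Qb := AlgebraicClosure.isAlgebraic ℚ
  haveI hE3 : FiniteDimensional ℚ (IntermediateField.adjoin ℚ ({ζ} : Set Qb)) :=
    IntermediateField.finiteDimensional_adjoin (fun x _ => Algebra.IsIntegral.isIntegral x)
  haveI := hE1
  haveI := hE2
  haveI h12 : FiniteDimensional ℚ ↥(E1 ⊔ E2) := IntermediateField.finiteDimensional_sup E1 E2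
  haveI hF : FiniteDimensional ℚ ↥(E1 ⊔ E2 ⊔ IntermediateField.adjoin ℚ ({ζ} : Set Qb)) :=
    IntermediateField.finiteDimensional_sup _ _
  obtain ⟨ℓ, A, τ, j, hℓ, hℓS, hA, hτ, hg⟩ :=
    fp37_frob_pow_field (E1 ⊔ E2 ⊔ IntermediateField.adjoin ℚ ({ζ} : Set Qb)) g S
  have hσ : ∀ x ∈ E1 ⊔ E2 ⊔ IntermediateField.adjoin ℚ ({ζ} : Set Qb),
      ((τ ^ j)⁻¹ * g) x = x := by
    intro x hx
    rw [AlgEquiv.mul_apply, hg x hx]
    exact (τ ^ j).symm_apply_apply x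
  have hσ1 : tt21_gal O N ((τ ^ j)⁻¹ * g) b = b :=
    h1 _ fun x hx => hσ x ((le_sup_left : E1 ≤ E1 ⊔ E2).trans le_sup_left hx)
  have hσ2 : tt21_gal O N ((τ ^ j)⁻¹ * g) (tt21_gal O N g⁻¹ b) = tt21_gal O N g⁻¹ b :=
    h2 _ fun x hx => hσ x ((le_sup_right : E2 ≤ E1 ⊔ E2).trans le_sup_left hx)
  refine ⟨ℓ, A, τ, j, hℓ, hℓS, hA, hτ, ?_, ?_, ?_⟩
  · intro z hz
    obtain ⟨i, -, rfl⟩ := hζ.eq_pow_of_pow_eq_one hz
    have hζF : ζ ∈ E1 ⊔ E2 ⊔ IntermediateField.adjoin ℚ ({ζ} : Set Qb) :=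
      (le_sup_right : IntermediateField.adjoin ℚ ({ζ} : Set Qb) ≤ _)
        (IntermediateField.subset_adjoin ℚ _ (Set.mem_singleton ζ))
    rw [map_pow, map_pow, hg ζ hζF]
  · have h3 : tt21_gal O N (τ ^ j) (tt21_gal O N ((τ ^ j)⁻¹ * g) b) = tt21_gal O N g b := by
      rw [← Module.End.mul_apply, ← map_mul, mul_inv_cancel_left]
    rw [← h3, hσ1]
  · have h3 : tt21_gal O N ((τ ^ j)⁻¹ * g) (tt21_gal O N g⁻¹ b) = tt21_gal O N (τ ^ j)⁻¹ b := by
      rw [← Module.End.mul_apply, ← map_mul, mul_assoc, mul_inv_cancel, mul_one]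
    rw [← hσ2, h3]

/-- **Levelwise (M4)**: for `b` killed by `pⁿ` and an eigenvector of the `T_ℓ`, `ℓ ∉ S`, with
eigenvalues `a ℓ`, every `g` satisfies `g b + ε(g) • g⁻¹ b = c • b` for some scalar `c`. -/
theorem tt21_quad (I : Ideal O) [IsAdicComplete I O] (p : ℕ) [Fact p.Prime] (hpO : (p : O) ∈ I)
    (S : Finset ℕ) (hpS : p ∈ S) (hNS : ∀ q : ℕ, q.Prime → q ∣ N → q ∈ S) (a : ℕ → O)
    (n : ℕ) (b : tt21_B O N) (hb : ((p ^ n : ℕ) : O) • b = 0)
    (heig : ∀ (ℓ : ℕ) (hℓ : ℓ.Prime), ℓ ∉ S → tt21_hecke O N ⟨ℓ, hℓ⟩ b = a ℓ • b) (g : GQ) :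
    ∃ c : O, tt21_gal O N g b + ((ca15_eps p I hpO g : Oˣ) : O) • tt21_gal O N g⁻¹ b = c • b := by
  have hp : p.Prime := Fact.out
  obtain ⟨ℓ, A, τ, j, hℓ, hℓS, hA, hτ, hroots, hg1, hg2⟩ := tt21_frobPow O N p S n b hb g
  have hℓN : ¬ ℓ ∣ N := fun h => hℓS (hNS ℓ hℓ h)
  have hℓp : ℓ ≠ p := fun h => hℓS (h ▸ hpS)
  have hℓp' : ¬ ℓ ∣ p := fun h => hℓp ((Nat.prime_dvd_prime_iff_eq hℓ hp).mp h)
  -- the two commuting operators
  have hXY : tt21_gal O N τ * ((ℓ : O) • tt21_gal O N τ⁻¹) = (ℓ : O) • (1 : Module.End O _) := by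
    rw [mul_smul_comm, ← map_mul, mul_inv_cancel, map_one]
  have hYX : ((ℓ : O) • tt21_gal O N τ⁻¹) * tt21_gal O N τ = (ℓ : O) • (1 : Module.End O _) := by
    rw [smul_mul_assoc, ← map_mul, inv_mul_cancel, map_one]
  -- Eichler-Shimura at `τ⁻¹ b`
  have hb'' : ((p ^ n : ℕ) : O) • tt21_gal O N τ⁻¹ b = 0 := by
    rw [← map_smul, hb, map_zero]
  have hfr := tt21_frob O N p ℓ hℓ hℓN hℓp' A hA τ hτ n (tt21_gal O N τ⁻¹ b) hb''
  have hτb : tt21_gal O N τ (tt21_gal O N τ⁻¹ b) = b := by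
    rw [← Module.End.mul_apply, ← map_mul, mul_inv_cancel, map_one]
    rfl
  rw [hτb, heig ℓ hℓ hℓS] at hfr
  have he : tt21_gal O N τ b + ((ℓ : O) • tt21_gal O N τ⁻¹) b = a ℓ • b := by
    rw [LinearMap.smul_apply]
    have h4 : tt21_gal O N τ b + (ℓ : O) • tt21_gal O N τ⁻¹ b =
        (tt21_gal O N τ b - a ℓ • b + (ℓ : O) • tt21_gal O N τ⁻¹ b) + a ℓ • b := by abel
    rw [h4, hfr, zero_add]
  have hluc := tt21_lucas (tt21_gal O N τ) ((ℓ : O) • tt21_gal O N τ⁻¹) (a ℓ) (ℓ : O) hXY hYX b he j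
  -- the cyclotomic character
  have heps := ca15_eps_pow p I hpO g τ j n hroots
  rw [ca15_eps_frob p I hpO hℓ hℓp A hA τ hτ] at heps
  obtain ⟨d, hd⟩ := Ideal.mem_span_singleton'.mp heps
  have hginv : ((p ^ n : ℕ) : O) • tt21_gal O N g⁻¹ b = 0 := by
    rw [← map_smul, hb, map_zero]
  have h5 : ((ca15_eps p I hpO g : Oˣ) : O) • tt21_gal O N g⁻¹ b =
      ((ℓ : O) ^ j) • tt21_gal O N g⁻¹ b := by
    have h6 : ((ca15_eps p I hpO g : Oˣ) : O) = (ℓ : O) ^ j + d * (p : O) ^ n := by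
      rw [hd]; ring
    rw [h6, add_smul, mul_smul]
    have h7 : ((p : O) ^ n) • tt21_gal O N g⁻¹ b = 0 := by
      rw [← Nat.cast_pow]; exact hginv
    rw [h7, smul_zero, add_zero]
  have hXj : (tt21_gal O N τ) ^ j = tt21_gal O N (τ ^ j) := (map_pow _ _ _).symm
  have hYj : ((ℓ : O) • tt21_gal O N τ⁻¹) ^ j = (ℓ : O) ^ j • tt21_gal O N (τ ^ j)⁻¹ := by
    rw [smul_pow, ← map_pow, inv_pow]
  rw [hXj, hYj, LinearMap.smul_apply] at hluc
  refine ⟨tt21_lucV (a ℓ) (ℓ : O) j, ?_⟩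
  rw [h5, hg1, hg2, hluc]

/-- The levelwise quadratic relation on the components of a `p`-compatible sequence. -/
theorem tt21_quad_seq (I : Ideal O) [IsAdicComplete I O] (p : ℕ) [Fact p.Prime]
    (hpO : (p : O) ∈ I)
    (S : Finset ℕ) (hpS : p ∈ S) (hNS : ∀ q : ℕ, q.Prime → q ∣ N → q ∈ S) (a : ℕ → O)
    (x : ℕ → tt21_B O N) (h0 : x 0 = 0) (hx : ∀ n, (p : O) • x (n + 1) = x n)
    (heig : ∀ (ℓ : ℕ) (hℓ : ℓ.Prime), ℓ ∉ S → ∀ n, tt21_hecke O N ⟨ℓ, hℓ⟩ (x n) = a ℓ • x n)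
    (g : GQ) (n : ℕ) :
    ∃ c : O, tt21_gal O N g (x n) + ((ca15_eps p I hpO g : Oˣ) : O) • tt21_gal O N g⁻¹ (x n) =
      c • x n :=
  tt21_quad O N I p hpO S hpS hNS a n (x n) (tt21_seq_tors O N p x h0 hx n)
    (fun ℓ hℓ hℓS => heig ℓ hℓ hℓS n) g

end tt21_quad_sec

end Fermat.Agent.S30
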